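import Mathlib

set_option autoImplicit false

/-!
# The ring of periodic holomorphic functions bounded at `i∞`, and extension of integral quotients
-/

open UpperHalfPlane hiding I
open ModularForm SlashInvariantForm SlashInvariantFormClass ModularFormClass
  CuspFormClass MatrixGroups OnePoint Filter EisensteinSeries
open scoped Topology Manifold MatrixGroups ModularForm

noncomputable section

namespace Fermat.Agent.ES

/-- the algebra of `1`-periodic holomorphic functions bounded at `i∞` -/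
def BRing : Subalgebra ℂ (ℍ → ℂ) where
  carrier := {F | Function.Periodic (F ∘ ofComplex) ((1 : ℝ) : ℂ) ∧ MDiff F ∧ IsBoundedAtImInfty F}
  mul_mem' := by
    rintro a b ⟨h1, h2, h3⟩ ⟨h4, h5, h6⟩
    exact ⟨h1.mul h4, h2.mul h5, h3.mul h6⟩
  add_mem' := by
    rintro a b ⟨h1, h2, h3⟩ ⟨h4, h5, h6⟩
    exact ⟨h1.add h4, h2.add h5, h3.add h6⟩
  algebraMap_mem' := by
    intro r
    refine ⟨fun z => rfl, mdifferentiable_const, Filter.const_boundedAtFilter atImInfty r⟩

theorem bring_analyticAt (F : BRing) : AnalyticAt ℂ (cuspFunction 1 (F : ℍ → ℂ)) 0 :=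
  analyticAt_cuspFunction_zero one_pos F.2.1 F.2.2.1 F.2.2.2

/-- `q`-expansion as a ring homomorphism -/
def qhom : BRing →+* PowerSeries ℂ where
  toFun F := qExpansion 1 (F : ℍ → ℂ)
  map_one' := qExpansion_one 1
  map_mul' F G := UpperHalfPlane.qExpansion_mul (bring_analyticAt F) (bring_analyticAt G)
  map_zero' := qExpansion_zero 1
  map_add' F G := UpperHalfPlane.qExpansion_add (bring_analyticAt F) (bring_analyticAt G)

theorem qhom_apply (F : BRing) : qhom F = qExpansion 1 (F : ℍ → ℂ) := rfl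

theorem qhom_injective : Function.Injective qhom := by
  rw [injective_iff_map_eq_zero]
  intro F hF
  apply Subtype.ext
  exact (UpperHalfPlane.qExpansion_eq_zero_iff one_pos F.2.1 F.2.2.1 F.2.2.2).mp hF

theorem mem_BRing {Γ : Subgroup (GL (Fin 2) ℝ)} {k : ℤ} (h1 : (1 : ℝ) ∈ Γ.strictPeriods)
    (f : ModularForm Γ k) : (⇑f : ℍ → ℂ) ∈ BRing := by
  have : Fact (IsCusp OnePoint.infty Γ) := ⟨Γ.isCusp_of_mem_strictPeriods one_pos h1⟩
  exact ⟨periodic_comp_ofComplex f h1, ModularFormClass.holo f, ModularFormClass.bdd_at_infty f⟩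

/-- bound for the roots of a monic polynomial -/
theorem root_bound (n : ℕ) (c : ℕ → ℂ) (hc0 : c 0 = 1) {y : ℂ}
    (hy : ∑ m ∈ Finset.range (n + 1), c m * y ^ (n - m) = 0) :
    ‖y‖ ≤ max 1 (∑ m ∈ Finset.Icc 1 n, ‖c m‖) := by
  by_contra hlt
  rw [not_le, max_lt_iff] at hlt
  obtain ⟨h1, h2⟩ := hlt
  have hn : n ≠ 0 := by
    rintro rfl
    simp [hc0] at hy
  have hy1 : y ^ n = -∑ m ∈ Finset.Icc 1 n, c m * y ^ (n - m) := by
    rw [Finset.range_eq_Ico, Finset.sum_eq_sum_Ico_succ_bot (by omega)] at hy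
    rw [hc0, one_mul, Nat.sub_zero] at hy
    rw [eq_neg_iff_add_eq_zero, ← hy]
    congr 1
  have h3 : ‖y‖ ^ n ≤ (∑ m ∈ Finset.Icc 1 n, ‖c m‖) * ‖y‖ ^ (n - 1) := by
    rw [← norm_pow, hy1, norm_neg, Finset.sum_mul]
    refine (norm_sum_le _ _).trans (Finset.sum_le_sum fun m hm => ?_)
    rw [norm_mul, norm_pow]
    refine mul_le_mul_of_nonneg_left ?_ (norm_nonneg _)
    refine pow_le_pow_right₀ h1.le ?_
    have := (Finset.mem_Icc.mp hm).1
    omega
  have h4 : ‖y‖ ^ n = ‖y‖ * ‖y‖ ^ (n - 1) := by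
    rw [← pow_succ', Nat.sub_add_cancel (Nat.one_le_iff_ne_zero.mpr hn)]
  rw [h4] at h3
  have h5 : 0 < ‖y‖ ^ (n - 1) := pow_pos (by linarith) _
  have := le_of_mul_le_mul_right h3 h5
  linarith

/-- if all the coefficients are small, the roots are small -/
theorem root_small (n : ℕ) (c : ℕ → ℂ) (hc0 : c 0 = 1) {y : ℂ} {ε : ℝ} (hε1 : ε < 1)
    (hy : ∑ m ∈ Finset.range (n + 1), c m * y ^ (n - m) = 0)
    (hc : ∑ m ∈ Finset.Icc 1 n, ‖c m‖ ≤ ε) : ‖y‖ ^ n ≤ ε := by
  have hb := root_bound n c hc0 hy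
  have hb1 : ‖y‖ ≤ 1 := hb.trans (max_le le_rfl (hc.trans hε1.le))
  have hn : n ≠ 0 := by
    rintro rfl
    simp [hc0] at hy
  have hy1 : y ^ n = -∑ m ∈ Finset.Icc 1 n, c m * y ^ (n - m) := by
    rw [Finset.range_eq_Ico, Finset.sum_eq_sum_Ico_succ_bot (by omega)] at hy
    rw [hc0, one_mul, Nat.sub_zero] at hy
    rw [eq_neg_iff_add_eq_zero, ← hy]
    congr 1
  rw [← norm_pow, hy1, norm_neg]
  refine (norm_sum_le _ _).trans (le_trans (Finset.sum_le_sum fun m hm => ?_) hc)
  rw [norm_mul, norm_pow]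
  exact mul_le_of_le_one_right (norm_nonneg _) (pow_le_one₀ (norm_nonneg _) hb1)

/-- quotients of holomorphic functions which are integral over holomorphic functions are
holomorphic. -/
theorem exists_holo_quotient {a d : ℍ → ℂ} (ha : MDiff a) (hd : MDiff d) (hd0 : d ≠ 0)
    (n : ℕ) (c : ℕ → ℍ → ℂ) (hc : ∀ m, MDiff (c m)) (hc0 : c 0 = 1)
    (h : ∀ τ, ∑ m ∈ Finset.range (n + 1), c m τ * (d τ) ^ m * (a τ) ^ (n - m) = 0) :
    ∃ F : ℍ → ℂ, MDiff F ∧ ∀ τ, a τ = d τ * F τ := by
  classical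
  set U : Set ℂ := {z | 0 < z.im} with hU
  have hUo : IsOpen U := isOpen_upperHalfPlaneSet
  set A : ℂ → ℂ := a ∘ ofComplex with hA
  set D : ℂ → ℂ := d ∘ ofComplex with hD
  have hAd : DifferentiableOn ℂ A U := UpperHalfPlane.mdifferentiable_iff.mp ha
  have hDd : DifferentiableOn ℂ D U := UpperHalfPlane.mdifferentiable_iff.mp hd
  let G : ℂ → ℂ := fun z => A z / D z
  let F : ℂ → ℂ := fun z => if D z ≠ 0 then G z else limUnder (𝓝[≠] z) G
  have hpoly : ∀ z ∈ U, D z ≠ 0 → ∑ m ∈ Finset.range (n + 1), c m (ofComplex z) *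
      (G z) ^ (n - m) = 0 := by
    intro z hz hDz
    have h1 := h (ofComplex z)
    have h2 : ∀ m ∈ Finset.range (n + 1), c m (ofComplex z) * (d (ofComplex z)) ^ m *
        (a (ofComplex z)) ^ (n - m) = (D z) ^ n * (c m (ofComplex z) * (G z) ^ (n - m)) := by
      intro m hm
      have hm' : m ≤ n := Nat.lt_succ_iff.mp (Finset.mem_range.mp hm)
      have h3 : D z ^ n = D z ^ m * D z ^ (n - m) := by rw [← pow_add, Nat.add_sub_cancel' hm']
      change c m (ofComplex z) * (D z) ^ m * (A z) ^ (n - m) = _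
      rw [h3]
      simp only [G, div_pow]
      field_simp
    rw [Finset.sum_congr rfl h2, ← Finset.mul_sum] at h1
    exact (mul_eq_zero.mp h1).resolve_left (pow_ne_zero _ hDz)
  have hev : ∀ z₀ ∈ U, ∀ᶠ z in 𝓝[≠] z₀, D z ≠ 0 := by
    intro z₀ hz₀
    by_contra hcon
    rw [Filter.not_eventually] at hcon
    simp only [not_not] at hcon
    apply hd0
    have hconn : IsPreconnected U :=
      (convex_halfSpace_im_gt 0).isPreconnected
    have hD0 := (hDd.analyticOnNhd hUo).eqOn_zero_of_preconnected_of_frequently_eq_zero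
      hconn hz₀ hcon
    ext τ
    have := hD0 τ.im_pos
    simpa [hD] using this
  -- the bound
  let B : ℂ → ℝ := fun z => max 1 (∑ m ∈ Finset.Icc 1 n, ‖(c m ∘ ofComplex) z‖)
  have hBcont : ContinuousOn B U := by
    refine ContinuousOn.sup continuousOn_const ?_
    refine continuousOn_finsetSum _ fun m _ => ?_
    exact (UpperHalfPlane.mdifferentiable_iff.mp (hc m)).continuousOn.norm
  have hbound : ∀ z ∈ U, D z ≠ 0 → ‖G z‖ ≤ B z := by
    intro z hz hDz
    exact root_bound n (fun m => c m (ofComplex z)) (by simp [hc0]) (hpoly z hz hDz)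
  have hloc : ∀ z₀ ∈ U, DifferentiableAt ℂ F z₀ := by
    intro z₀ hz₀
    -- a good neighbourhood
    have h1 : ∀ᶠ z in 𝓝 z₀, z ∈ U := hUo.mem_nhds hz₀
    have h2 : ∀ᶠ z in 𝓝 z₀, z ≠ z₀ → D z ≠ 0 := by
      have := hev z₀ hz₀
      rwa [eventually_nhdsWithin_iff] at this
    have h3 : ∀ᶠ z in 𝓝 z₀, B z < B z₀ + 1 := by
      have := (hBcont.continuousAt (hUo.mem_nhds hz₀)).eventually_lt_const
        (show B z₀ < B z₀ + 1 by linarith)
      exact this
    obtain ⟨s, hs, hso, hz₀s⟩ := eventually_nhds_iff.mp (h1.and (h2.and h3))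
    have hsn : s ∈ 𝓝 z₀ := hso.mem_nhds hz₀s
    have hGd : DifferentiableOn ℂ G (s \ {z₀}) := by
      intro z hz
      have hzU := (hs z hz.1).1
      have hDz := (hs z hz.1).2.1 hz.2
      exact ((hAd.differentiableAt (hUo.mem_nhds hzU)).div
        (hDd.differentiableAt (hUo.mem_nhds hzU)) hDz).differentiableWithinAt
    have hbdd : BddAbove (norm ∘ G '' (s \ {z₀})) := by
      refine ⟨B z₀ + 1, ?_⟩
      rintro _ ⟨z, hz, rfl⟩
      exact (hbound z (hs z hz.1).1 ((hs z hz.1).2.1 hz.2)).trans (hs z hz.1).2.2.le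
    have h4 := Complex.differentiableOn_update_limUnder_of_bddAbove hsn hGd hbdd
    have h5 : ∀ z ∈ s, F z = Function.update G z₀ (limUnder (𝓝[≠] z₀) G) z := by
      intro z hz
      by_cases hzz : z = z₀
      · subst hzz
        rw [Function.update_self]
        by_cases hDz : D z ≠ 0
        · simp only [F, if_pos hDz]
          have hcont : ContinuousAt G z :=
            ((hAd.differentiableAt (hUo.mem_nhds hz₀)).div
              (hDd.differentiableAt (hUo.mem_nhds hz₀)) hDz).continuousAt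
          exact ((hcont.tendsto.mono_left nhdsWithin_le_nhds).limUnder_eq).symm
        · simp only [F, if_neg hDz]
      · rw [Function.update_of_ne hzz]
        simp only [F, if_pos ((hs z hz).2.1 hzz)]
    have h6 := h4.differentiableAt hsn
    refine h6.congr_of_eventuallyEq ?_
    filter_upwards [hsn] with z hz using h5 z hz
  refine ⟨fun τ => F τ, ?_, ?_⟩
  · rw [UpperHalfPlane.mdifferentiable_iff]
    intro z hz
    refine ((hloc z hz).congr_of_eventuallyEq ?_).differentiableWithinAt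
    filter_upwards [hUo.mem_nhds hz] with w hw
    simp only [Function.comp_apply]
    rw [ofComplex_apply_of_im_pos hw]
  · -- the identity: by continuity
    have hid : ∀ z ∈ U, A z = D z * F z := by
      intro z hz
      have hF := (hloc z hz).continuousAt
      have hAc := (hAd.differentiableAt (hUo.mem_nhds hz)).continuousAt
      have hDc := (hDd.differentiableAt (hUo.mem_nhds hz)).continuousAt
      have h7 : (A : ℂ → ℂ) =ᶠ[𝓝[≠] z] fun z => D z * F z := by
        filter_upwards [hev z hz] with w hw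
        simp only [F, if_pos hw, G]
        field_simp
      have h8 := (hAc.tendsto.mono_left (nhdsWithin_le_nhds (s := {z}ᶜ)))
      have h9 := ((hDc.mul hF).tendsto.mono_left (nhdsWithin_le_nhds (s := {z}ᶜ)))
      exact tendsto_nhds_unique (h8.congr' h7) h9
    intro τ
    have := hid τ τ.im_pos
    simpa [hA, hD] using this

end Fermat.Agent.ES
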