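import Fermat.Agent.ES.Period
import Fermat.Prelude.Thm_Subgroup_IsArithmetic_exists_nat_mem_strictPeriods_conj
import Fermat.Prelude.Thm_CongruenceSubgroup_one_mem_strictPeriods_Gamma0
import Fermat.Prelude.Def_CuspForm_HeckeAlgebra
import Fermat.Prelude.Sol.S_ModularForm_heckeT_slash_eq_self_of_mem_Gamma0

set_option autoImplicit false

/-!
# Periods of cusp forms: cocycle relation and Hecke operators
-/

open UpperHalfPlane hiding I
open Filter Topology Function Complex Polynomial Matrix.SpecialLinearGroup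
open scoped Manifold MatrixGroups ModularForm Pointwise

noncomputable section

namespace Fermat.Agent.ES

variable {n : ℕ}

/-- cusp forms decay at all cusps -/
theorem exists_decays {Γ : Subgroup (GL (Fin 2) ℝ)} [Γ.IsArithmetic] {k : ℤ} :
    ∃ M : ℕ, 0 < M ∧ ∀ (f : CuspForm Γ k) (g : SL(2, ℤ)),
      Decays M (⇑f ∣[k] (mapGL ℝ g : GL (Fin 2) ℝ)) := by
  obtain ⟨M, hM, h⟩ := Subgroup.IsArithmetic.exists_nat_mem_strictPeriods_conj Γ
  refine ⟨M, hM, fun f g => ⟨?_, ?_, ?_⟩⟩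
  · have h1 := h g⁻¹
    have h2 := SlashInvariantFormClass.periodic_comp_ofComplex
      (ModularForm.translate f (mapGL ℝ g : GL (Fin 2) ℝ)) (h := (M : ℝ))
      (by rw [map_inv] at h1; exact h1)
    exact h2
  · exact (CuspFormClass.holo f).slash k _
  · exact CuspFormClass.zero_at_infty_slash f g

theorem polyInteg_slash {Γ : Subgroup (GL (Fin 2) ℝ)} [Γ.IsArithmetic] {k : ℤ}
    (f : CuspForm Γ k) (g : SL(2, ℤ)) : PolyInteg (⇑f ∣[k] (mapGL ℝ g : GL (Fin 2) ℝ)) := by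
  obtain ⟨M, hM, h⟩ := exists_decays (Γ := Γ) (k := k)
  exact (h f g).polyInteg (by exact_mod_cast hM)

theorem polyInteg_coe {Γ : Subgroup (GL (Fin 2) ℝ)} [Γ.IsArithmetic] {k : ℤ}
    (f : CuspForm Γ k) : PolyInteg ⇑f := by
  have := polyInteg_slash f 1
  simpa using this

/-- the cocycle relation -/
theorem period_mul {f : ℍ → ℂ} (H : ∀ g : SL(2, ℤ), PolyInteg (f ∣[(n : ℤ) + 2]
    (mapGL ℝ g : GL (Fin 2) ℝ))) (g h : SL(2, ℤ)) (u : Fin n → Fin 2 → ℂ) :
    period f (g * h) u = period f g u +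
      period (f ∣[(n : ℤ) + 2] (mapGL ℝ g : GL (Fin 2) ℝ)) h (act u (toC (mapGL ℝ g))) := by
  have H1 : PolyInteg f := by simpa using H 1
  have e1 := integ_smul_eq (n := n) H1 (H (g * h)) u UpperHalfPlane.I
  have e2 := integ_smul_eq (n := n) H1 (H g) u (mapGL ℝ h • UpperHalfPlane.I)
  have H3 : PolyInteg ((f ∣[(n : ℤ) + 2] (mapGL ℝ g : GL (Fin 2) ℝ)) ∣[(n : ℤ) + 2]
      (mapGL ℝ h : GL (Fin 2) ℝ)) := by
    rw [← SlashAction.slash_mul, ← map_mul]; exact H _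
  have e3 := integ_smul_eq (n := n) (H g) H3 (act u (toC (mapGL ℝ g))) UpperHalfPlane.I
  rw [map_mul, mul_smul, toC_mul, ← act_act, SlashAction.slash_mul] at e1
  linear_combination e2 + e3 - e1

theorem period_one {f : ℍ → ℂ} (u : Fin n → Fin 2 → ℂ) : period f 1 u = 0 := by
  simp [period, toC_one]

/-- expansion of the period functional in `u` -/
theorem integ_pm_expand {h : ℍ → ℂ} (H : PolyInteg h) (c : Fin n → Fin 2 → ℂ)
    (w : Fin 2 → Fin 2 → ℂ) :
    integ (pm h (fun i => ∑ a, c i a • w a)) =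
      ∑ s : Fin n → Fin 2, (∏ i, c i (s i)) • integ (pm h (fun i => w (s i))) := by
  have h1 : pm h (fun i => ∑ a, c i a • w a) =
      ∑ s : Fin n → Fin 2, (∏ i, c i (s i)) • pm h (fun i => w (s i)) := by
    ext τ
    simp only [pm, linProd_expand, Polynomial.eval_finsetSum, Polynomial.eval_mul,
      Polynomial.eval_C, Finset.mul_sum, Finset.sum_apply, Pi.smul_apply, smul_eq_mul]
    refine Finset.sum_congr rfl fun s _ => ?_
    ring
  rw [h1, integ_sum fun s _ => (H.pm _).smul _]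
  refine Finset.sum_congr rfl fun s _ => ?_
  rw [integ_smul _ (H.pm _)]

theorem act_expand (c : Fin n → Fin 2 → ℂ) (w : Fin 2 → Fin 2 → ℂ)
    (M : Matrix (Fin 2) (Fin 2) ℂ) :
    act (fun i => ∑ a, c i a • w a) M = fun i => ∑ a, c i a • (Matrix.vecMul (w a) M) := by
  ext i b
  simp [act, Fin.sum_univ_two, Matrix.add_vecMul, Matrix.smul_vecMul]

theorem period_expand {h : ℍ → ℂ} (H : PolyInteg h) {g : SL(2, ℤ)}
    (H' : PolyInteg (h ∣[(n : ℤ) + 2] mapGL ℝ g)) (c : Fin n → Fin 2 → ℂ)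
    (w : Fin 2 → Fin 2 → ℂ) :
    period h g (fun i => ∑ a, c i a • w a) =
      ∑ s : Fin n → Fin 2, (∏ i, c i (s i)) * period h g (fun i => w (s i)) := by
  simp only [period]
  rw [act_expand, integ_pm_expand H, integ_pm_expand H']
  simp only [Finset.sum_apply, Pi.smul_apply, smul_eq_mul, mul_sub, Finset.sum_sub_distrib]
  rfl

/-- adjugate-like matrix -/
def adjD (g : GL (Fin 2) ℝ) : Matrix (Fin 2) (Fin 2) ℂ := (g.det.val : ℂ) • toC g⁻¹

theorem adjD_mul (g : GL (Fin 2) ℝ) :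
    adjD g * toC g = (g.det.val : ℂ) • (1 : Matrix (Fin 2) (Fin 2) ℂ) := by
  rw [adjD, Matrix.smul_mul, ← toC_mul, inv_mul_cancel, toC_one]

/-- Hecke operators and periods -/
theorem period_sum_slash {ι : Type*} [Fintype ι] {f : ℍ → ℂ} (hf : PolyInteg f)
    (δ : ι → GL (Fin 2) ℝ) (hδ : ∀ x, 0 < (δ x).det.val) (hδ0 : ∀ x, (δ x) 1 0 = 0)
    (γ : SL(2, ℤ)) (γ' : ι → SL(2, ℤ)) (σ : Equiv.Perm ι)
    (hσ : ∀ x, δ x * mapGL ℝ γ = mapGL ℝ (γ' x) * δ (σ x))
    (hγ' : ∀ x, f ∣[(n : ℤ) + 2] (mapGL ℝ (γ' x) : GL (Fin 2) ℝ) = f)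
    (u : Fin n → Fin 2 → ℂ) :
    period (∑ x, f ∣[(n : ℤ) + 2] δ x) γ u = ∑ x, period f (γ' x) (act u (adjD (δ x))) := by
  have hγ : (∑ x, f ∣[(n : ℤ) + 2] δ x) ∣[(n : ℤ) + 2] (mapGL ℝ γ : GL (Fin 2) ℝ) =
      ∑ x, f ∣[(n : ℤ) + 2] δ x := by
    rw [SlashAction.sum_slash]
    calc ∑ x, (f ∣[(n : ℤ) + 2] δ x) ∣[(n : ℤ) + 2] (mapGL ℝ γ : GL (Fin 2) ℝ)
        = ∑ x, f ∣[(n : ℤ) + 2] δ (σ x) := by
          refine Finset.sum_congr rfl fun x _ => ?_
          rw [← SlashAction.slash_mul, hσ, SlashAction.slash_mul, hγ']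
      _ = _ := Equiv.sum_comp σ fun x => f ∣[(n : ℤ) + 2] δ x
  have hsum : ∀ v : Fin n → Fin 2 → ℂ, integ (pm (∑ x, f ∣[(n : ℤ) + 2] δ x) v) =
      fun τ => ∑ x, integ (pm f (act v (adjD (δ x)))) (δ x • τ) := by
    intro v
    rw [pm_sum, integ_sum fun x _ => (polyInteg_slash_upper n (hδ x) (hδ0 x) hf).pm v]
    ext τ
    rw [Finset.sum_apply]
    refine Finset.sum_congr rfl fun x _ => ?_
    obtain ⟨h1, h2⟩ := integ_slash_upper (hδ x) (hδ0 x) (u := v) (adjD_mul (δ x)) (hf.pm _)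
    rw [h1.integ_eq h2]
  rw [period, hγ, hsum u, hsum (act u (toC (mapGL ℝ γ)))]
  simp only
  have key : ∀ x, integ (pm f (act u (adjD (δ x)))) (δ x • mapGL ℝ γ • UpperHalfPlane.I) =
      period f (γ' x) (act u (adjD (δ x))) +
      integ (pm f (act (act u (toC (mapGL ℝ γ))) (adjD (δ (σ x))))) (δ (σ x) • UpperHalfPlane.I) := by
    intro x
    rw [← mul_smul, hσ, mul_smul, integ_smul_eq hf (by rw [hγ']; exact hf), hγ', act_act, act_act]
    congr 4
    -- matrix identity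
    have hdet : (δ x).det.val = (δ (σ x)).det.val := by
      have := congrArg (fun m : GL (Fin 2) ℝ => m.det.val) (hσ x)
      simpa using this
    have hinv : (δ x)⁻¹ * mapGL ℝ (γ' x) = mapGL ℝ γ * (δ (σ x))⁻¹ := by
      rw [inv_mul_eq_iff_eq_mul, ← mul_assoc, hσ, mul_assoc, mul_inv_cancel, mul_one]
    rw [adjD, adjD, Matrix.smul_mul, Matrix.mul_smul, ← toC_mul, ← toC_mul, hinv, hdet]
  rw [Finset.sum_congr rfl fun x _ => key x, Finset.sum_add_distrib,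
    Equiv.sum_comp σ fun x => integ (pm f (act (act u (toC (mapGL ℝ γ))) (adjD (δ x))))
      (δ x • UpperHalfPlane.I)]
  ring

end Fermat.Agent.ES
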