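import Mathlib
import Fermat.Agent.ES.Hecke
import Fermat.Prelude.Def_ModularCurve_PeriodHomPair

set_option autoImplicit false
set_option linter.unusedSectionVars false

/-!
# Equivariant primitives of weight two cusp forms and the period map
-/

open UpperHalfPlane hiding I
open Filter Topology Function Complex Matrix.SpecialLinearGroup CongruenceSubgroup
open scoped Manifold MatrixGroups ModularForm Pointwise

noncomputable section

namespace Fermat.Agent.ES

/-- `K ∘ δ` is, up to a constant, periodic, holomorphic and vanishing at `i∞`, for all `δ`. -/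
def CuspConst (M : ℝ) (K : ℍ → ℂ) : Prop :=
  ∀ δ : SL(2, ℤ), ∃ c : ℂ, Decays M (fun z => K (δ • z) - c)

theorem IsPrimitive.comp_SL {F h : ℍ → ℂ} (hF : IsPrimitive F h) (δ : SL(2, ℤ)) :
    IsPrimitive (fun τ => F (δ • τ)) (h ∣[(2 : ℤ)] (mapGL ℝ δ : GL (Fin 2) ℝ)) := by
  have hdet : (mapGL ℝ δ : GL (Fin 2) ℝ).det = 1 := by simp
  have hdet' : (mapGL ℝ δ : GL (Fin 2) ℝ).val.det = 1 := by
    have := congrArg Units.val hdet
    rwa [Matrix.GeneralLinearGroup.val_det_apply] at this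
  have h1 := hF.comp_smul (g := (mapGL ℝ δ : GL (Fin 2) ℝ)) (by rw [hdet']; exact one_pos)
  convert! h1 using 1
  ext τ
  have hσ (x) : σ (mapGL ℝ δ : GL (Fin 2) ℝ) x = x := by
    rw [σ, if_pos (by simp)]; rfl
  simp only [ModularForm.slash_apply, hσ, hdet, hdet']
  simp
  try rw [zpow_neg]
  try norm_cast

theorem exists_primitive_cusp {N : ℕ} [NeZero N] :
    ∃ M : ℕ, 0 < M ∧ ∀ f : CuspForm (Gamma0 N) 2, ∃ F : ℍ → ℂ, IsPrimitive F f ∧
      Tendsto F atImInfty (𝓝 0) ∧ CuspConst M F := by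
  obtain ⟨M, hM, h⟩ := exists_decays (Γ := (Gamma0 N : Subgroup (GL (Fin 2) ℝ))) (k := 2)
  refine ⟨M, hM, fun f => ?_⟩
  have hM' : (0 : ℝ) < M := by exact_mod_cast hM
  obtain ⟨F, hF, hF'⟩ := (h f 1).exists_primitive hM'
  have e1 : (⇑f ∣[(2 : ℤ)] (mapGL ℝ (1 : SL(2, ℤ)) : GL (Fin 2) ℝ)) = ⇑f := by
    rw [map_one, SlashAction.slash_one]
  rw [e1] at hF'
  refine ⟨F, hF', hF.zero, fun δ => ?_⟩
  obtain ⟨H, hH, hH'⟩ := (h f δ).exists_primitive hM'
  obtain ⟨c, hc⟩ := (hF'.comp_SL δ).exists_const hH'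
  refine ⟨c, ?_⟩
  have e2 : (fun z => F (δ • z) - c) = H := by
    ext z
    rw [← hc z]
    ring
  rw [e2]
  exact hH

theorem CuspConst.exists_limit {M : ℝ} {K : ℍ → ℂ} (hK : CuspConst M K) (δ : SL(2, ℤ)) :
    ∃ L : ℂ, Tendsto (fun w : ℍ => K (δ • w)) atImInfty (𝓝 L) := by
  obtain ⟨c, hc⟩ := hK δ
  refine ⟨c, ?_⟩
  have h1 : Tendsto (fun z => K (δ • z) - c) atImInfty (𝓝 0) := hc.zero
  simpa using h1.add_const c

theorem primitive_equivariant {N : ℕ} {f : CuspForm (Gamma0 N) 2} {F : ℍ → ℂ}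
    (hF : IsPrimitive F f) : ModularCurve.Period.IsEquivariantPrimitive (Gamma0 N) F := by
  intro γ
  have h1 := hF.comp_SL (γ : SL(2, ℤ))
  have h2 : (⇑f ∣[(2 : ℤ)] (mapGL ℝ (γ : SL(2, ℤ)) : GL (Fin 2) ℝ)) = ⇑f :=
    f.slash_action_eq' _ ⟨γ, γ.2, rfl⟩
  rw [h2] at h1
  exact h1.exists_const hF

theorem exists_equivPrim {N : ℕ} [NeZero N] (f : CuspForm (Gamma0 N) 2) :
    ∃ F, ModularCurve.HasEquivariantPrimitive N f F := by
  obtain ⟨M, _, h⟩ := exists_primitive_cusp (N := N)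
  obtain ⟨F, hF, h0, hc⟩ := h f
  exact ⟨F, hF, h0, primitive_equivariant hF, hc.exists_limit⟩

theorem periodMap_apply {N : ℕ} [NeZero N] {f : CuspForm (Gamma0 N) 2} {F : ℍ → ℂ}
    (hF : IsPrimitive F f) (γ : Gamma0 N) (z : ℍ) :
    ModularCurve.periodMap N f (Additive.ofMul γ) = F ((γ : SL(2, ℤ)) • z) - F z := by
  obtain ⟨F₀, h₀⟩ := exists_equivPrim f
  obtain ⟨F₁, h₁, h₂⟩ := ModularCurve.periodMap_def N f h₀
  rw [h₂, ModularCurve.Period.IsEquivariantPrimitive.periodHom_apply,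
    ← ModularCurve.Period.IsEquivariantPrimitive.sub_eq_period h₁.2.2.1 γ z]
  have h3 : IsPrimitive F₁ f := h₁.1
  obtain ⟨c, hc⟩ := hF.exists_const h3
  have e1 := hc ((γ : SL(2, ℤ)) • z)
  have e2 := hc z
  linear_combination e2 - e1

theorem isPrimitive_of_exists {N : ℕ} [NeZero N] (f : CuspForm (Gamma0 N) 2) :
    ∃ F, IsPrimitive F f := by
  obtain ⟨F, h⟩ := exists_equivPrim f
  exact ⟨F, h.1⟩

/-- the period map as a linear map -/
def pml (N : ℕ) [NeZero N] : CuspForm (Gamma0 N) 2 →ₗ[ℂ] (Additive (Gamma0 N) →+ ℂ) where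
  toFun f := ModularCurve.periodMap N f
  map_add' f g := by
    obtain ⟨F, hF⟩ := isPrimitive_of_exists f
    obtain ⟨G, hG⟩ := isPrimitive_of_exists g
    refine AddMonoidHom.ext fun γ => ?_
    have h1 : IsPrimitive (F + G) (f + g : CuspForm (Gamma0 N) 2) := hF.add hG
    change ModularCurve.periodMap N (f + g) (Additive.ofMul γ.toMul) =
      ModularCurve.periodMap N f (Additive.ofMul γ.toMul) +
        ModularCurve.periodMap N g (Additive.ofMul γ.toMul)
    rw [periodMap_apply h1 _ UpperHalfPlane.I, periodMap_apply hF _ UpperHalfPlane.I,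
      periodMap_apply hG _ UpperHalfPlane.I]
    simp only [Pi.add_apply]
    ring
  map_smul' c f := by
    obtain ⟨F, hF⟩ := isPrimitive_of_exists f
    refine AddMonoidHom.ext fun γ => ?_
    have h1 : IsPrimitive (c • F) (c • f : CuspForm (Gamma0 N) 2) := hF.const_smul c
    change ModularCurve.periodMap N (c • f) (Additive.ofMul γ.toMul) =
      c • ModularCurve.periodMap N f (Additive.ofMul γ.toMul)
    rw [periodMap_apply h1 _ UpperHalfPlane.I, periodMap_apply hF _ UpperHalfPlane.I]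
    simp only [Pi.smul_apply, smul_eq_mul]
    ring

theorem existsPeriodMapLinear (N : ℕ) [NeZero N] : ModularCurve.ExistsPeriodMapLinear N :=
  ⟨pml N, fun _ => rfl⟩

theorem periodHomPair_apply (N : ℕ) [NeZero N] (a b : CuspForm (Gamma0 N) 2) :
    ModularCurve.periodHomPair N (a, b) = (pml N a + ModularCurve.Period.charInvolution N ℂ ℂ (pml N a)) +
      (pml N b - ModularCurve.Period.charInvolution N ℂ ℂ (pml N b)) := by
  obtain ⟨p, hp, h⟩ := ModularCurve.periodHomPair_def N (existsPeriodMapLinear N)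
  have h1 : p = pml N := LinearMap.ext fun f => hp f
  rw [h, h1]
  rfl

/-- Parabolic elements of `SL(2,ℤ)` are conjugate to translations (on `ℍ`). -/
theorem exists_conj_T {γ : SL(2, ℤ)} (hγ : (γ : Matrix (Fin 2) (Fin 2) ℤ).trace ^ 2 = 4) :
    ∃ (δ : SL(2, ℤ)) (n : ℤ), ∀ z : ℍ, γ • (δ • z) = δ • (ModularGroup.T ^ n • z) := by
  have hdet := γ.det_coe
  rw [Matrix.det_fin_two] at hdet
  rw [Matrix.trace_fin_two] at hγ
  set a := (γ : Matrix (Fin 2) (Fin 2) ℤ) 0 0 with ha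
  set b := (γ : Matrix (Fin 2) (Fin 2) ℤ) 0 1 with hb
  set c := (γ : Matrix (Fin 2) (Fin 2) ℤ) 1 0 with hc
  set d := (γ : Matrix (Fin 2) (Fin 2) ℤ) 1 1 with hd
  obtain ⟨e, he⟩ : ∃ e : ℤ, a + d = 2 * e ∧ e ^ 2 = 1 := by
    have : (a + d - 2) * (a + d + 2) = 0 := by linear_combination hγ
    rcases mul_eq_zero.mp this with h | h
    · exact ⟨1, by linarith, by norm_num⟩
    · exact ⟨-1, by linarith, by norm_num⟩
  obtain ⟨he1, he2⟩ := he
  -- reduce to a conjugate with vanishing lower left entry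
  have key : ∀ δ : SL(2, ℤ), (δ⁻¹ * γ * δ) 1 0 = 0 →
      ∃ (δ : SL(2, ℤ)) (n : ℤ), ∀ z : ℍ, γ • (δ • z) = δ • (ModularGroup.T ^ n • z) := by
    intro δ h0
    obtain ⟨n, hn⟩ := ModularGroup.exists_eq_T_zpow_of_c_eq_zero h0
    refine ⟨δ, n, fun z => ?_⟩
    rw [← hn z, ← mul_smul, ← mul_smul]
    congr 1
    group
  by_cases hc0 : c = 0
  · exact key 1 (by simpa using hc0)
  · -- the fixed vector
    set g := Int.gcd (a - e) c with hg
    have hg0 : (g : ℤ) ≠ 0 := by
      intro h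
      have : g = 0 := by exact_mod_cast h
      rw [hg, Int.gcd_eq_zero_iff] at this
      exact hc0 this.2
    obtain ⟨p, hp⟩ : (g : ℤ) ∣ a - e := Int.gcd_dvd_left ..
    obtain ⟨q, hq⟩ : (g : ℤ) ∣ c := Int.gcd_dvd_right ..
    have hcop : IsCoprime p q := by
      rw [Int.isCoprime_iff_gcd_eq_one]
      have h1 : g = g * Int.gcd p q := by
        conv_lhs => rw [hg, hp, hq]
        rw [Int.gcd_mul_left, Int.natAbs_natCast]
      have h2 : g ≠ 0 := by exact_mod_cast hg0
      have h3 : g * 1 = g * Int.gcd p q := by rw [mul_one]; exact h1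
      exact (mul_left_cancel₀ h2 h3).symm
    obtain ⟨δ, h00, h10⟩ := hcop.exists_SL2_col 0
    refine key δ ?_
    have hd1 : p * δ 1 1 - δ 0 1 * q = 1 := by
      have := δ.det_coe
      rw [Matrix.det_fin_two, h00, h10] at this
      exact this
    have e1 : (δ⁻¹ * γ * δ) 1 0 = (-q * a + p * c) * p + (-q * b + p * d) * q := by
      simp only [Matrix.SpecialLinearGroup.coe_mul, Matrix.SpecialLinearGroup.coe_inv,
        Matrix.adjugate_fin_two, Matrix.mul_apply, Fin.sum_univ_two, h00, h10]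
      simp [← ha, ← hb, ← hc, ← hd]
    rw [e1]
    have e2 : (g : ℤ) ^ 2 * ((-q * a + p * c) * p + (-q * b + p * d) * q) = 0 := by
      have hp' : (g : ℤ) * p = a - e := hp.symm
      have hq' : (g : ℤ) * q = c := hq.symm
      have : (g : ℤ) ^ 2 * ((-q * a + p * c) * p + (-q * b + p * d) * q) =
        (-(g * q) * a + (g * p) * c) * (g * p) + (-(g * q) * b + (g * p) * d) * (g * q) := by ring
      rw [this, hp', hq']
      have hd' : d = 2 * e - a := by linarith
      rw [hd'] at hdet ⊢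
      linear_combination c * hdet - c * he2
    rcases mul_eq_zero.mp e2 with h | h
    · exact absurd (pow_eq_zero_iff (two_ne_zero) |>.mp h) hg0
    · exact h

theorem T_zpow_tendsto (n : ℤ) : Tendsto (fun τ : ℍ => ModularGroup.T ^ n • τ) atImInfty atImInfty := by
  rw [atImInfty, tendsto_comap_iff]
  have h : (UpperHalfPlane.im ∘ fun τ : ℍ => ModularGroup.T ^ n • τ) = UpperHalfPlane.im := by
    ext τ
    exact ModularGroup.im_T_zpow_smul ..
  rw [h]
  exact tendsto_comap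

theorem pml_mem_parabolicHoms {N : ℕ} [NeZero N] (f : CuspForm (Gamma0 N) 2) :
    pml N f ∈ ModularCurve.Period.parabolicHoms ℂ (Gamma0 N) ℂ := by
  intro γ hγ
  obtain ⟨F, hF⟩ := exists_equivPrim f
  have hF' : IsPrimitive F f := hF.1
  obtain ⟨δ, n, h⟩ := exists_conj_T hγ
  obtain ⟨L, hL⟩ := hF.2.2.2 δ
  have h1 : Tendsto (fun w : ℍ => F ((γ : SL(2, ℤ)) • (δ • w)) - F (δ • w)) atImInfty
      (𝓝 (L - L)) := by
    refine Tendsto.sub ?_ hL
    have h2 := hL.comp (T_zpow_tendsto n)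
    refine h2.congr fun w => ?_
    simp only [comp_apply]
    rw [h w]
  have h2 : (fun w : ℍ => F ((γ : SL(2, ℤ)) • (δ • w)) - F (δ • w)) =
      fun _ => pml N f (Additive.ofMul γ) := by
    ext w
    exact (periodMap_apply hF' γ (δ • w)).symm
  rw [h2, sub_self] at h1
  exact tendsto_nhds_unique tendsto_const_nhds h1

theorem periodHomPair_mem (N : ℕ) [NeZero N] (x : CuspForm (Gamma0 N) 2 × CuspForm (Gamma0 N) 2) :
    ModularCurve.periodHomPair N x ∈ ModularCurve.Period.parabolicHoms ℂ (Gamma0 N) ℂ := by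
  obtain ⟨a, b⟩ := x
  rw [periodHomPair_apply]
  have h1 := pml_mem_parabolicHoms a
  have h2 := pml_mem_parabolicHoms b
  exact add_mem (add_mem h1 (ModularCurve.Period.charInvolution_mem_parabolicHoms N ℂ ℂ h1))
    (sub_mem h2 (ModularCurve.Period.charInvolution_mem_parabolicHoms N ℂ ℂ h2))

end Fermat.Agent.ES
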