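import Fermat.Agent.ES.Separate

set_option autoImplicit false

/-!
# The Hecke algebra is a finitely generated abelian group
-/

open UpperHalfPlane hiding I
open Filter Topology Function Complex Polynomial Matrix.SpecialLinearGroup
open scoped Manifold MatrixGroups ModularForm Pointwise

noncomputable section

namespace Fermat.Agent.ES

variable {n : ℕ} {N : ℕ} [NeZero N]

theorem moduleFinite_heckeAlgebra_add_two (S : Set ℕ) :
    Module.Finite ℤ (CuspForm.heckeAlgebra N ((n : ℤ) + 2) S) := by
  obtain ⟨G, hG⟩ := perL_fg (n := n) (N := N)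
  have hfin : Module.Finite ℤ (perL n N) := Module.Finite.iff_fg.mpr perL_fg
  have hmem : ∀ φ : G, (φ : SK n N →ₗ[ℂ] ℂ) ∈ perL n N := fun φ => by
    rw [← hG]; exact Submodule.subset_span φ.2
  let Φ : CuspForm.heckeAlgebra N ((n : ℤ) + 2) S →ₗ[ℤ] (G → perL n N) :=
    { toFun := fun t φ => ⟨(φ : SK n N →ₗ[ℂ] ℂ) ∘ₗ (t : Module.End ℂ (SK n N)),
        perL_comp_heckeAlgebra t.2 (hmem φ)⟩
      map_add' := fun s t => by
        funext φ
        apply Subtype.ext
        exact LinearMap.comp_add _ _ _
      map_smul' := fun c t => by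
        funext φ
        apply Subtype.ext
        change (φ : SK n N →ₗ[ℂ] ℂ) ∘ₗ ((c • t : CuspForm.heckeAlgebra N ((n : ℤ) + 2) S) :
          Module.End ℂ (SK n N)) = c • ((φ : SK n N →ₗ[ℂ] ℂ) ∘ₗ (t : Module.End ℂ (SK n N)))
        ext f
        simp }
  refine Module.Finite.of_injective Φ ?_
  rw [injective_iff_map_eq_zero]
  intro t ht
  have h1 : ∀ φ ∈ perL n N, φ ∘ₗ (t : Module.End ℂ (SK n N)) = 0 := by
    intro φ hφ
    rw [← hG] at hφ
    induction hφ using Submodule.span_induction with
    | mem x hx =>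
      have := congrFun ht ⟨x, hx⟩
      exact congrArg Subtype.val this
    | zero => simp
    | add x y _ _ hx hy => rw [LinearMap.add_comp, hx, hy, add_zero]
    | smul a x _ hx => rw [LinearMap.smul_comp, hx, smul_zero]
  apply Subtype.ext
  refine LinearMap.ext fun f => ?_
  refine eq_zero_of_perL _ fun φ hφ => ?_
  exact LinearMap.congr_fun (h1 φ hφ) f

theorem cuspForm_eq_zero_of_odd {k : ℤ} (hk : Odd k)
    (f : CuspForm (CongruenceSubgroup.Gamma0 N) k) : f = 0 := by
  have h : (-1 : GL (Fin 2) ℝ) ∈ (CongruenceSubgroup.Gamma0 N : Subgroup (GL (Fin 2) ℝ)) :=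
    ⟨-1, by rw [SetLike.mem_coe, CongruenceSubgroup.Gamma0_mem]; simp, by ext; simp⟩
  have h1 := ModularForm.eq_zero_of_neg_one_mem h hk (ModularFormClass.modularForm f)
  apply DFunLike.coe_injective
  have := congrArg (fun F : ModularForm (CongruenceSubgroup.Gamma0 N) k ↦ (⇑F : ℍ → ℂ)) h1
  simpa using this

theorem cuspForm_eq_zero_of_nonpos {k : ℤ} (hk : k ≤ 0)
    (f : CuspForm (CongruenceSubgroup.Gamma0 N) k) : f = 0 := by
  have h1 : (ModularFormClass.modularForm f : ModularForm (CongruenceSubgroup.Gamma0 N) k) = 0 := by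
    refine ModularForm.sturm_bound_Gamma0 N _ fun m hm => ?_
    have hm0 : m = 0 := by
      have : (k * ((CongruenceSubgroup.Gamma0 N).index : ℤ)).toNat = 0 := by
        rw [Int.toNat_eq_zero]
        exact mul_nonpos_of_nonpos_of_nonneg hk (by positivity)
      rw [this] at hm
      simpa using hm
    subst hm0
    exact CuspFormClass.qExpansion_coeff_zero f one_pos
      (CongruenceSubgroup.one_mem_strictPeriods_Gamma0 N)
  apply DFunLike.coe_injective
  have := congrArg (fun F : ModularForm (CongruenceSubgroup.Gamma0 N) k ↦ (⇑F : ℍ → ℂ)) h1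
  simpa using this

theorem moduleFinite_heckeAlgebra (k : ℤ) (S : Set ℕ) :
    Module.Finite ℤ (CuspForm.heckeAlgebra N k S) := by
  by_cases hk : k ≤ 1
  · have hz : ∀ f : CuspForm (CongruenceSubgroup.Gamma0 N) k, f = 0 := by
      rcases hk.lt_or_eq with h | h
      · exact fun f => cuspForm_eq_zero_of_nonpos (by omega) f
      · exact fun f => cuspForm_eq_zero_of_odd (by rw [h]; decide) f
    have : Subsingleton (CuspForm.heckeAlgebra N k S) := by
      refine ⟨fun a b => Subtype.ext (LinearMap.ext fun f => ?_)⟩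
      rw [hz f, map_zero, map_zero]
    exact Module.Finite.of_finite
  · obtain ⟨n, hn⟩ := Int.eq_ofNat_of_zero_le (show 0 ≤ k - 2 by omega)
    obtain rfl : k = (n : ℤ) + 2 := by omega
    exact moduleFinite_heckeAlgebra_add_two S

end Fermat.Agent.ES
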