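import Fermat.Agent.ES.Hecke

set_option autoImplicit false

/-!
# The period lattice (dual version), finite generation and Hecke stability
-/

open UpperHalfPlane hiding I
open Filter Topology Function Complex Polynomial Matrix.SpecialLinearGroup
open scoped Manifold MatrixGroups ModularForm Pointwise

noncomputable section

namespace Fermat.Agent.ES

variable {n : ℕ}

/-- casting integral tuples -/
def castU (u : Fin n → Fin 2 → ℤ) : Fin n → Fin 2 → ℂ := fun i a => (u i a : ℂ)

theorem act_castU (u : Fin n → Fin 2 → ℤ) (M : Matrix (Fin 2) (Fin 2) ℤ) :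
    act (castU u) (M.map (Int.cast : ℤ → ℂ)) = castU (fun i => Matrix.vecMul (u i) M) := by
  ext i a
  simp [act, castU, Matrix.vecMul, dotProduct, Fin.sum_univ_two]

theorem toC_mapGL (g : SL(2, ℤ)) :
    toC (mapGL ℝ g) = (g.val).map (Int.cast : ℤ → ℂ) := by
  ext i j
  simp [toC]

theorem adjD_eq {g : GL (Fin 2) ℝ} {M : Matrix (Fin 2) (Fin 2) ℂ}
    (h : M * toC g = (g.det.val : ℂ) • (1 : Matrix (Fin 2) (Fin 2) ℂ)) : adjD g = M := by
  have h1 : toC g * toC g⁻¹ = 1 := by rw [← toC_mul, mul_inv_cancel, toC_one]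
  calc adjD g = ((g.det.val : ℂ) • (1 : Matrix (Fin 2) (Fin 2) ℂ)) * toC g⁻¹ := by
        rw [adjD, Matrix.smul_mul, Matrix.one_mul]
    _ = M * (toC g * toC g⁻¹) := by rw [← h, Matrix.mul_assoc]
    _ = M := by rw [h1, Matrix.mul_one]

theorem adjD_heckeMatrix {p : ℕ} (hp : p ≠ 0) (j : ℕ) :
    adjD (ModularForm.heckeMatrix p j) =
      (!![(p : ℤ), -(j : ℤ); 0, 1] : Matrix (Fin 2) (Fin 2) ℤ).map (Int.cast : ℤ → ℂ) := by
  apply adjD_eq
  rw [ModularForm.det_heckeMatrix hp]
  ext a b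
  fin_cases a <;> fin_cases b <;>
    simp [Matrix.mul_apply, Fin.sum_univ_two, toC, ModularForm.val_heckeMatrix hp]
  ring

theorem adjD_heckeDiagMatrix {p : ℕ} (hp : p ≠ 0) :
    adjD (ModularForm.heckeDiagMatrix p) =
      (!![(1 : ℤ), 0; 0, (p : ℤ)] : Matrix (Fin 2) (Fin 2) ℤ).map (Int.cast : ℤ → ℂ) := by
  apply adjD_eq
  rw [ModularForm.det_heckeDiagMatrix hp]
  ext a b
  fin_cases a <;> fin_cases b <;>
    simp [Matrix.mul_apply, Fin.sum_univ_two, toC, ModularForm.val_heckeDiagMatrix hp]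

section
variable (N : ℕ) [NeZero N] (n)

/-- cusp forms of weight `n + 2` -/
abbrev SK := CuspForm (CongruenceSubgroup.Gamma0 N) ((n : ℤ) + 2)

theorem slash_of_mem_Gamma0 {N : ℕ} {k : ℤ} (f : CuspForm (CongruenceSubgroup.Gamma0 N) k)
    {g : SL(2, ℤ)} (hg : g ∈ CongruenceSubgroup.Gamma0 N) :
    ⇑f ∣[k] (mapGL ℝ g : GL (Fin 2) ℝ) = ⇑f :=
  SlashInvariantFormClass.slash_action_eq f _ (Subgroup.mem_map_of_mem (mapGL ℝ) hg)

/-- the period functional as a linear form -/
def periodDual (γ : SL(2, ℤ)) (u : Fin n → Fin 2 → ℂ) : SK n N →ₗ[ℂ] ℂ where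
  toFun f := period ⇑f γ u
  map_add' f g := by
    have h1 : ⇑(f + g) = ⇑f + ⇑g := rfl
    simp only [period]
    rw [h1, SlashAction.add_slash, pm_add, pm_add,
      integ_add ((polyInteg_coe f).pm _) ((polyInteg_coe g).pm _),
      integ_add ((polyInteg_slash f γ).pm _) ((polyInteg_slash g γ).pm _)]
    simp only [Pi.add_apply]
    ring
  map_smul' c f := by
    have h1 : ⇑(c • f) = c • ⇑f := rfl
    have h2 : (c • ⇑f) ∣[(n : ℤ) + 2] (mapGL ℝ γ : GL (Fin 2) ℝ) =
        c • (⇑f ∣[(n : ℤ) + 2] (mapGL ℝ γ : GL (Fin 2) ℝ)) := by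
      rw [ModularForm.smul_slash]
      congr 1
      rw [σ, if_pos (det_mapGL_pos γ)]; rfl
    simp only [period]
    rw [h1, h2, pm_smul, pm_smul,
      integ_smul _ ((polyInteg_coe f).pm _), integ_smul _ ((polyInteg_slash f γ).pm _)]
    simp only [Pi.smul_apply, smul_eq_mul, RingHom.id_apply]
    ring

theorem periodDual_apply (γ : SL(2, ℤ)) (u : Fin n → Fin 2 → ℂ) (f : SK n N) :
    periodDual n N γ u f = period ⇑f γ u := rfl

/-- the period lattice in the dual space -/
def perL : Submodule ℤ (SK n N →ₗ[ℂ] ℂ) :=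
  Submodule.span ℤ {φ | ∃ γ ∈ CongruenceSubgroup.Gamma0 N, ∃ u : Fin n → Fin 2 → ℤ,
    φ = periodDual n N γ (castU u)}

variable {n N}

theorem periodDual_mul {γ : SL(2, ℤ)} (hγ : γ ∈ CongruenceSubgroup.Gamma0 N) (γ' : SL(2, ℤ))
    (u : Fin n → Fin 2 → ℂ) :
    periodDual n N (γ * γ') u = periodDual n N γ u + periodDual n N γ' (act u (toC (mapGL ℝ γ))) := by
  ext f
  simp only [LinearMap.add_apply, periodDual_apply]
  rw [period_mul (fun g => polyInteg_slash f g), slash_of_mem_Gamma0 f hγ]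

theorem periodDual_one (u : Fin n → Fin 2 → ℂ) : periodDual n N 1 u = 0 := by
  ext f
  simp [periodDual_apply, period_one]

/-- basis expansions -/
theorem periodDual_expand (γ : SL(2, ℤ)) (u : Fin n → Fin 2 → ℤ) :
    periodDual n N γ (castU u) = ∑ s : Fin n → Fin 2, (∏ i, u i (s i)) •
      periodDual n N γ (castU fun i => Pi.single (s i) 1) := by
  ext f
  have h1 : castU u = fun i => ∑ a, (u i a : ℂ) • (fun b : Fin 2 => ((Pi.single a 1 : Fin 2 → ℤ) b : ℂ)) := by
    ext i b
    fin_cases b <;> simp [castU, Fin.sum_univ_two]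
  rw [periodDual_apply, h1, period_expand (polyInteg_coe f) (polyInteg_slash f γ)]
  simp only [LinearMap.sum_apply, LinearMap.smul_apply, periodDual_apply, zsmul_eq_mul]
  refine Finset.sum_congr rfl fun s _ => ?_
  push_cast
  rfl

theorem perL_fg : (perL n N).FG := by
  classical
  haveI hG : Group.FG SL(2, ℤ) := by
    rw [Group.fg_iff]
    exact ⟨{ModularGroup.S, ModularGroup.T}, SpecialLinearGroup.SL2Z_generators, by simp⟩
  have hfg : Group.FG (CongruenceSubgroup.Gamma0 N) := inferInstance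
  rw [Group.fg_iff_subgroup_fg] at hfg
  obtain ⟨S, hS⟩ := hfg
  let L0 : Submodule ℤ (SK n N →ₗ[ℂ] ℂ) := Submodule.span ℤ
    (Set.range fun x : S × (Fin n → Fin 2) =>
      periodDual n N x.1 (castU fun i => Pi.single (x.2 i) 1))
  have hL0 : L0.FG := Submodule.fg_span (Set.finite_range _)
  have hle : perL n N ≤ L0 := by
    rw [perL, Submodule.span_le]
    rintro _ ⟨γ, hγ, u, rfl⟩
    rw [← hS] at hγ
    have hsub : ∀ {x}, x ∈ Subgroup.closure (S : Set SL(2, ℤ)) → x ∈ CongruenceSubgroup.Gamma0 N :=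
      fun {x} hx => hS ▸ hx
    change periodDual n N γ (castU u) ∈ L0
    induction hγ using Subgroup.closure_induction generalizing u with
    | mem x hx =>
      rw [periodDual_expand]
      refine Submodule.sum_mem _ fun s _ => Submodule.smul_mem _ _ ?_
      exact Submodule.subset_span ⟨(⟨x, hx⟩, s), rfl⟩
    | one => rw [periodDual_one]; exact Submodule.zero_mem _
    | mul x y hx hy ihx ihy =>
      rw [periodDual_mul (hsub hx), toC_mapGL, act_castU]
      exact Submodule.add_mem _ (ihx u) (ihy _)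
    | inv x hx ih =>
      have h1 := periodDual_mul (n := n) (hsub hx) x⁻¹ (act (castU u) (toC (mapGL ℝ x⁻¹)))
      rw [mul_inv_cancel, periodDual_one, act_act, ← toC_mul, ← map_mul, inv_mul_cancel, map_one,
        toC_one, act_one, toC_mapGL, act_castU] at h1
      rw [← add_eq_zero_iff_neg_eq.mp h1.symm]
      exact Submodule.neg_mem _ (ih _)
  exact hL0.of_le hle

open P2MW.S_ModularForm_heckeT_slash_eq_self_of_mem_Gamma0.ModularForm.HeckeSlashInvariance in
theorem perL_comp_heckeT {p : ℕ} (hp : p.Prime) (hpN : ¬ p ∣ N) {φ : SK n N →ₗ[ℂ] ℂ}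
    (hφ : φ ∈ perL n N) : φ ∘ₗ CuspForm.heckeTLin ((n : ℤ) + 2) hp hpN ∈ perL n N := by
  haveI : Fact p.Prime := ⟨hp⟩
  haveI : NeZero p := ⟨hp.ne_zero⟩
  have hp0 : p ≠ 0 := hp.ne_zero
  induction hφ using Submodule.span_induction with
  | zero => simp
  | add x y _ _ hx hy => rw [LinearMap.add_comp]; exact Submodule.add_mem _ hx hy
  | smul a x _ hx => rw [LinearMap.smul_comp]; exact Submodule.smul_mem _ _ hx
  | mem x hx =>
    obtain ⟨γ, hγ, u, rfl⟩ := hx
    have hγN : (N : ℤ) ∣ γ 1 0 :=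
      (ZMod.intCast_zmod_eq_zero_iff_dvd _ _).mp (CongruenceSubgroup.Gamma0_mem.mp hγ)
    choose γ' hγ' hmul using heckeRep_mul (p := p) hpN γ hγN
    have hγ'N : ∀ x, γ' x ∈ CongruenceSubgroup.Gamma0 N := fun x =>
      CongruenceSubgroup.Gamma0_mem.mpr ((ZMod.intCast_zmod_eq_zero_iff_dvd _ _).mpr (hγ' x))
    have hint : ∀ x : OnePoint (ZMod p), ∃ M : Matrix (Fin 2) (Fin 2) ℤ,
        adjD (heckeRep p x) = M.map (Int.cast : ℤ → ℂ) := by
      intro x
      induction x using OnePoint.rec with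
      | infty => exact ⟨_, adjD_heckeDiagMatrix hp0⟩
      | coe j => exact ⟨_, adjD_heckeMatrix hp0 _⟩
    choose M hM using hint
    have key : periodDual n N γ (castU u) ∘ₗ CuspForm.heckeTLin ((n : ℤ) + 2) hp hpN =
        ∑ x : OnePoint (ZMod p), periodDual n N (γ' x)
          (castU fun i => Matrix.vecMul (u i) (M x)) := by
      ext f
      simp only [LinearMap.comp_apply, LinearMap.sum_apply, periodDual_apply,
        CuspForm.coe_heckeTLin_apply]
      rw [heckeT_eq_sum_onePoint]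
      rw [period_sum_slash (polyInteg_coe f) (heckeRep p) ?_ ?_ γ γ'
        (MulAction.toPerm (redMatrix p γ)) hmul (fun x => slash_of_mem_Gamma0 f (hγ'N x))]
      · refine Finset.sum_congr rfl fun x _ => ?_
        rw [hM, act_castU]
      · intro x
        induction x using OnePoint.rec with
        | infty => exact ModularForm.det_heckeDiagMatrix_pos p
        | coe j => exact ModularForm.det_heckeMatrix_pos p _
      · intro x
        induction x using OnePoint.rec with
        | infty => simp [ModularForm.val_heckeDiagMatrix hp0]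
        | coe j => simp [ModularForm.val_heckeMatrix hp0]
    rw [key]
    exact Submodule.sum_mem _ fun x _ => Submodule.subset_span ⟨γ' x, hγ'N x, _, rfl⟩

open P2MW.S_ModularForm_heckeT_slash_eq_self_of_mem_Gamma0.ModularForm.HeckeSlashInvariance in
theorem perL_comp_heckeU {p : ℕ} (hp : p.Prime) (hpN : p ∣ N) {φ : SK n N →ₗ[ℂ] ℂ}
    (hφ : φ ∈ perL n N) : φ ∘ₗ CuspForm.heckeULin ((n : ℤ) + 2) hpN ∈ perL n N := by
  haveI : NeZero p := ⟨hp.ne_zero⟩
  have hp0 : p ≠ 0 := hp.ne_zero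
  induction hφ using Submodule.span_induction with
  | zero => simp
  | add x y _ _ hx hy => rw [LinearMap.add_comp]; exact Submodule.add_mem _ hx hy
  | smul a x _ hx => rw [LinearMap.smul_comp]; exact Submodule.smul_mem _ _ hx
  | mem x hx =>
    obtain ⟨γ, hγ, u, rfl⟩ := hx
    have hγN : (N : ℤ) ∣ γ 1 0 :=
      (ZMod.intCast_zmod_eq_zero_iff_dvd _ _).mp (CongruenceSubgroup.Gamma0_mem.mp hγ)
    have hγp : (p : ℤ) ∣ γ 1 0 := (Int.natCast_dvd_natCast.mpr hpN).trans hγN
    choose γ' hγ' hmul using heckeMatrix_mul_of_dvd (p := p) γ hγp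
    have hγ'N : ∀ x, γ' x ∈ CongruenceSubgroup.Gamma0 N := fun x =>
      CongruenceSubgroup.Gamma0_mem.mpr ((ZMod.intCast_zmod_eq_zero_iff_dvd _ _).mpr
        (by rw [hγ' x]; exact dvd_mul_of_dvd_right hγN _))
    have key : periodDual n N γ (castU u) ∘ₗ CuspForm.heckeULin ((n : ℤ) + 2) hpN =
        ∑ x : ZMod p, periodDual n N (γ' x)
          (castU fun i => Matrix.vecMul (u i) !![(p : ℤ), -(x.val : ℤ); 0, 1]) := by
      ext f
      simp only [LinearMap.comp_apply, LinearMap.sum_apply, periodDual_apply,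
        CuspForm.coe_heckeULin_apply]
      rw [heckeU_eq_sum_zmod]
      rw [period_sum_slash (polyInteg_coe f) (fun x : ZMod p => ModularForm.heckeMatrix p x.val)
        ?_ ?_ γ γ' _ hmul (fun x => slash_of_mem_Gamma0 f (hγ'N x))]
      · refine Finset.sum_congr rfl fun x _ => ?_
        rw [adjD_heckeMatrix hp0, act_castU]
      · intro x
        exact ModularForm.det_heckeMatrix_pos p _
      · intro x
        simp [ModularForm.val_heckeMatrix hp0]
    rw [key]
    exact Submodule.sum_mem _ fun x _ => Submodule.subset_span ⟨γ' x, hγ'N x, _, rfl⟩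

theorem perL_comp_heckeAlgebra {S : Set ℕ}
    {t : Module.End ℂ (SK n N)} (ht : t ∈ CuspForm.heckeAlgebra N ((n : ℤ) + 2) S)
    {φ : SK n N →ₗ[ℂ] ℂ} (hφ : φ ∈ perL n N) : φ ∘ₗ t ∈ perL n N := by
  induction ht using Algebra.adjoin_induction generalizing φ with
  | mem x hx =>
    rcases hx with ⟨ℓ, hℓ, hℓN, hℓS, rfl⟩ | ⟨q, hqN, hq, hqS, rfl⟩
    · exact perL_comp_heckeT hℓ hℓN hφ
    · exact perL_comp_heckeU hq hqN hφ
  | algebraMap r =>
    have : φ ∘ₗ (algebraMap ℤ (Module.End ℂ (SK n N)) r) = r • φ := by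
      ext f
      simp [Module.algebraMap_end_apply]
    rw [this]
    exact Submodule.smul_mem _ _ hφ
  | add x y _ _ hx hy => rw [LinearMap.comp_add]; exact Submodule.add_mem _ (hx hφ) (hy hφ)
  | mul x y _ _ hx hy =>
    have : φ ∘ₗ (x * y) = (φ ∘ₗ x) ∘ₗ y := rfl
    rw [this]
    exact hy (hx hφ)

end

end Fermat.Agent.ES
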