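import Mathlib
import Fermat.Agent.ES.EquivPrim

set_option autoImplicit false
set_option linter.unusedSectionVars false

/-!
# Maximum principle for harmonic functions on modular curves, injectivity of the period pairing
-/

open UpperHalfPlane hiding I
open Filter Topology Function Complex Matrix.SpecialLinearGroup CongruenceSubgroup
open scoped Manifold MatrixGroups ModularForm Pointwise ComplexConjugate

noncomputable section

namespace Fermat.Agent.ES

local notation "𝕢" => Function.Periodic.qParam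

theorem mdiff_isPrimitive {K : ℍ → ℂ} (hK : MDiff K) :
    IsPrimitive K (fun τ => deriv (K ∘ ofComplex) (τ : ℂ)) := by
  intro τ
  rw [UpperHalfPlane.mdifferentiable_iff] at hK
  exact ((hK.differentiableAt (isOpen_upperHalfPlaneSet.mem_nhds τ.im_pos))).hasDerivAt

theorem mdiff_const_of_exp {K : ℍ → ℂ} (hK : MDiff K) {C : ℂ} (h : ∀ z, cexp (K z) = C) (z w : ℍ) :
    K z = K w := by
  have h1 := mdiff_isPrimitive hK
  set k := (fun τ : ℍ => deriv (K ∘ ofComplex) (τ : ℂ)) with hk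
  have h2 : k = 0 := by
    ext τ
    have e1 := (h1 τ).cexp
    have e2 : (fun x => cexp ((K ∘ ofComplex) x)) = fun _ => C := by
      ext x
      exact h _
    rw [e2] at e1
    have e3 := (hasDerivAt_const (τ : ℂ) C).unique e1
    rcases mul_eq_zero.mp e3.symm with h | h
    · exact absurd h (Complex.exp_ne_zero _)
    · exact h
  rw [h2] at h1
  exact h1.eq_const_of_zero z w

theorem Decays.add {w : ℝ} {h k : ℍ → ℂ} (hh : Decays w h) (hk : Decays w k) :
    Decays w (h + k) := by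
  refine ⟨periodic_comp_ofComplex fun τ => ?_, hh.holo.add hk.holo, ?_⟩
  · simp only [Pi.add_apply, hh.vadd, hk.vadd]
  · have := Tendsto.add hh.zero hk.zero
    rw [add_zero] at this
    exact this

theorem Decays.smul {w : ℝ} {h : ℍ → ℂ} (c : ℂ) (hh : Decays w h) :
    Decays w (c • h) := by
  refine ⟨periodic_comp_ofComplex fun τ => ?_, hh.holo.const_smul c, ?_⟩
  · simp only [Pi.smul_apply, hh.vadd]
  · have := Tendsto.const_smul hh.zero c
    rw [smul_zero] at this
    exact this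

theorem CuspConst.add {M : ℝ} {F G : ℍ → ℂ} (hF : CuspConst M F) (hG : CuspConst M G) :
    CuspConst M (F + G) := by
  intro δ
  obtain ⟨c, hc⟩ := hF δ
  obtain ⟨d, hd⟩ := hG δ
  refine ⟨c + d, ?_⟩
  convert hc.add hd using 1
  ext z
  simp only [Pi.add_apply]
  ring

theorem CuspConst.smul {M : ℝ} {F : ℍ → ℂ} (a : ℂ) (hF : CuspConst M F) :
    CuspConst M (a • F) := by
  intro δ
  obtain ⟨c, hc⟩ := hF δ
  refine ⟨a * c, ?_⟩
  convert hc.smul a using 1
  ext z
  simp only [Pi.smul_apply, smul_eq_mul]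
  ring

/-- the exponential at the cusp `δ∞` -/
def eK (K : ℍ → ℂ) (δ : SL(2, ℤ)) : ℍ → ℂ := fun z => cexp (K (δ • z))

theorem CuspConst.mdiff {M : ℝ} {K : ℍ → ℂ} (hK : CuspConst M K) (δ : SL(2, ℤ)) :
    MDiff (fun z : ℍ => K (δ • z)) := by
  obtain ⟨c, hc⟩ := hK δ
  have h1 := hc.holo.add (mdifferentiable_const (c := c))
  convert! h1 using 1
  ext z
  simp

theorem CuspConst.per {M : ℝ} {K : ℍ → ℂ} (hK : CuspConst M K) (δ : SL(2, ℤ)) (z : ℍ) :
    K (δ • (M +ᵥ z)) = K (δ • z) := by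
  obtain ⟨c, hc⟩ := hK δ
  have h1 := hc.vadd z
  simpa using h1

theorem mdiff_cexp {K : ℍ → ℂ} (hK : MDiff K) : MDiff (fun z => cexp (K z)) := by
  rw [UpperHalfPlane.mdifferentiable_iff] at hK ⊢
  exact hK.cexp

theorem eK_diff {M : ℝ} (hM : 0 < M) {K : ℍ → ℂ} (hK : CuspConst M K) (δ : SL(2, ℤ)) :
    DifferentiableOn ℂ (cuspFunction M (eK K δ)) (Metric.ball 0 1) := by
  refine differentiableOn_cuspFunction_ball hM (periodic_comp_ofComplex fun τ => ?_)
    (mdiff_cexp (hK.mdiff δ)) ?_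
  · simp only [eK, hK.per]
  · obtain ⟨c, hc⟩ := hK.exists_limit δ
    have h1 : Tendsto (eK K δ) atImInfty (𝓝 (cexp c)) :=
      (Complex.continuous_exp.tendsto c).comp hc
    exact h1.isBigO_one ℝ

theorem eK_eq {M : ℝ} (hM : 0 < M) {K : ℍ → ℂ} (hK : CuspConst M K) (δ : SL(2, ℤ)) (z : ℍ) :
    cuspFunction M (eK K δ) (𝕢 M z) = eK K δ z := by
  refine eq_cuspFunction z hM.ne' (periodic_comp_ofComplex fun τ => ?_)
  simp only [eK, hK.per]

/-- **Maximum principle.** -/
theorem const_of_re_invariant {M : ℝ} (hM : 0 < M) {K : ℍ → ℂ} (hK : CuspConst M K)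
    {Γ : Subgroup SL(2, ℤ)} [Γ.FiniteIndex]
    (hinv : ∀ γ ∈ Γ, ∀ z : ℍ, (K (γ • z)).re = (K z).re) : ∃ c, ∀ z, K z = c := by
  classical
  let ι := SL(2, ℤ) ⧸ Γ
  have : Finite ι := Subgroup.finite_quotient_of_finiteIndex
  have : Nonempty ι := ⟨((1 : SL(2, ℤ)) : ι)⟩
  let r : ι → SL(2, ℤ) := fun q => (Quotient.out q)⁻¹
  have hr : ∀ g : SL(2, ℤ), ∃ q : ι, ∃ γ ∈ Γ, g = γ * r q := by
    intro g
    refine ⟨((g⁻¹ : SL(2, ℤ)) : ι), g * Quotient.out ((g⁻¹ : SL(2, ℤ)) : ι), ?_, ?_⟩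
    · have h1 : ((Quotient.out ((g⁻¹ : SL(2, ℤ)) : ι) : SL(2, ℤ)) : ι) = ((g⁻¹ : SL(2, ℤ)) : ι) :=
        QuotientGroup.out_eq' _
      have h2 := QuotientGroup.eq.mp h1.symm
      simpa using h2
    · simp [r]
  set ρ : ℝ := Real.exp (-2 * Real.pi * (1 / 2) / M) with hρ
  have hρ1 : ρ < 1 := by
    rw [hρ, Real.exp_lt_one_iff]
    have : 0 < Real.pi / M := by positivity
    have h2 : -2 * Real.pi * (1 / 2) / M = -(Real.pi / M) := by ring
    rw [h2]; linarith
  have hρ0 : 0 ≤ ρ := (Real.exp_pos _).le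
  have hsub : Metric.closedBall (0 : ℂ) ρ ⊆ Metric.ball 0 1 := Metric.closedBall_subset_ball hρ1
  -- maxima over the compact discs
  have hmax : ∀ q : ι, ∃ w ∈ Metric.closedBall (0 : ℂ) ρ,
      IsMaxOn (fun w => ‖cuspFunction M (eK K (r q)) w‖) (Metric.closedBall (0 : ℂ) ρ) w := by
    intro q
    refine (isCompact_closedBall (0 : ℂ) ρ).exists_isMaxOn ⟨0, by simpa using hρ0⟩ ?_
    exact ((eK_diff hM hK (r q)).continuousOn.mono hsub).norm
  choose w hw hwmax using hmax
  obtain ⟨q₀, hq₀⟩ := Finite.exists_max (fun q : ι => ‖cuspFunction M (eK K (r q)) (w q)‖)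
  set B := ‖cuspFunction M (eK K (r q₀)) (w q₀)‖ with hB
  -- global bound
  have hbound : ∀ z : ℍ, ‖cexp (K z)‖ ≤ B := by
    intro z
    obtain ⟨g, hg⟩ := ModularGroup.exists_one_half_le_im_smul z
    obtain ⟨q, γ, hγ, hgγ⟩ := hr g⁻¹
    have h1 : z = γ • (r q • (g • z)) := by
      rw [← mul_smul, ← hgγ, ← mul_smul, inv_mul_cancel, one_smul]
    have h2 : (K z).re = (K (r q • (g • z))).re := by
      conv_lhs => rw [h1]
      exact hinv γ hγ _
    have h3 : ‖cexp (K z)‖ = ‖eK K (r q) (g • z)‖ := by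
      rw [eK, Complex.norm_exp, Complex.norm_exp, h2]
    rw [h3, ← eK_eq hM hK]
    refine le_trans ?_ (hq₀ q)
    refine hwmax q (?_ : 𝕢 M ((g • z : ℍ) : ℂ) ∈ Metric.closedBall (0 : ℂ) ρ)
    rw [mem_closedBall_zero_iff, Function.Periodic.norm_qParam, hρ]
    apply Real.exp_le_exp.mpr
    rw [div_le_div_iff_of_pos_right hM]
    have hp := Real.pi_pos
    have h4 : (1 / 2 : ℝ) ≤ ((g • z : ℍ) : ℂ).im := hg
    nlinarith
  have hmaxon : IsMaxOn (norm ∘ cuspFunction M (eK K (r q₀))) (Metric.ball 0 1) (w q₀) := by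
    intro x hx
    change ‖cuspFunction M (eK K (r q₀)) x‖ ≤ B
    by_cases hx0 : x = 0
    · rw [hx0]
      exact hwmax q₀ (by simpa using hρ0 : (0 : ℂ) ∈ Metric.closedBall (0 : ℂ) ρ)
    · have h1 : 𝕢 M (Function.Periodic.invQParam M x) = x :=
        Function.Periodic.qParam_right_inv hM.ne' hx0
      have h2 : 0 < (Function.Periodic.invQParam M x).im :=
        Function.Periodic.im_invQParam_pos_of_norm_lt_one hM (by simpa using hx) hx0
      have h3 := eK_eq hM hK (r q₀) ⟨_, h2⟩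
      have h4 : 𝕢 M ((⟨_, h2⟩ : ℍ) : ℂ) = x := h1
      rw [h4] at h3
      rw [h3, eK]
      exact hbound _
  have hconst := Complex.eqOn_of_isPreconnected_of_isMaxOn_norm
    (convex_ball (0 : ℂ) 1).isPreconnected Metric.isOpen_ball (eK_diff hM hK (r q₀))
    (hsub (hw q₀)) hmaxon
  have h5 : ∀ z : ℍ, cexp (K (r q₀ • z)) = cuspFunction M (eK K (r q₀)) (w q₀) := by
    intro z
    have h6 := hconst (x := 𝕢 M (z : ℂ)) (by
      simpa using Function.Periodic.norm_qParam_lt_one hM z.im_pos)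
    rw [eK_eq hM hK] at h6
    exact h6
  have h7 := mdiff_const_of_exp (hK.mdiff (r q₀)) h5
  refine ⟨K UpperHalfPlane.I, fun z => ?_⟩
  have h8 := h7 ((r q₀)⁻¹ • z) ((r q₀)⁻¹ • UpperHalfPlane.I)
  simpa using h8

/-! ### complex conjugation -/

/-- `K^c(z) = conj (K (-conj z))` -/
def cj (K : ℍ → ℂ) : ℍ → ℂ := fun z => conj (K (J • z))

theorem J_J (z : ℍ) : J • (J • z) = z := by
  ext1
  rw [coe_J_smul, coe_J_smul]
  simp

theorem cj_cj (K : ℍ → ℂ) : cj (cj K) = K := by
  ext z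
  simp [cj, J_J]

theorem cj_primitive {K k : ℍ → ℂ} (h : IsPrimitive K k) : IsPrimitive (cj K) (-cj k) := by
  intro τ
  have h1 := h (J • τ)
  have h2 : HasDerivAt (fun w : ℂ => (K ∘ ofComplex) (-w)) (-(k (J • τ))) (conj (τ : ℂ)) := by
    have h3 : HasDerivAt (fun w : ℂ => -w) (-1) (conj (τ : ℂ)) := (hasDerivAt_id _).neg
    have h4 : HasDerivAt (K ∘ ofComplex) (k (J • τ)) (-conj (τ : ℂ)) := by
      rw [← coe_J_smul]; exact h1
    have h5 := h4.comp (conj (τ : ℂ)) h3
    rw [mul_neg, mul_one] at h5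
    exact h5
  have h3 := h2.conj_conj
  rw [Complex.conj_conj] at h3
  have h4 : (-cj k) τ = conj (-(k (J • τ))) := by simp [cj]
  rw [h4]
  refine h3.congr_of_eventuallyEq ?_
  filter_upwards [isOpen_upperHalfPlaneSet.mem_nhds τ.im_pos] with z hz
  simp only [comp_apply, cj]
  congr 2
  rw [J_smul, ofComplex_apply_of_im_pos hz]

theorem cj_mdiff {K : ℍ → ℂ} (h : MDiff K) : MDiff (cj K) :=
  (cj_primitive (mdiff_isPrimitive h)).mdiff

theorem J_tendsto : Tendsto (fun τ : ℍ => J • τ) atImInfty atImInfty := by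
  rw [atImInfty, tendsto_comap_iff]
  have h : (UpperHalfPlane.im ∘ fun τ : ℍ => J • τ) = UpperHalfPlane.im := by
    ext τ
    have := congrArg Complex.im (coe_J_smul τ)
    simpa using this
  rw [h]
  exact tendsto_comap

theorem cj_decays {M : ℝ} {K : ℍ → ℂ} (h : Decays M K) : Decays M (cj K) := by
  refine ⟨periodic_comp_ofComplex fun τ => ?_, cj_mdiff h.holo, ?_⟩
  · simp only [cj]
    congr 1
    have e1 : J • τ = M +ᵥ (J • (M +ᵥ τ)) := by
      ext1
      rw [coe_vadd, coe_J_smul, coe_J_smul, coe_vadd]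
      simp
    rw [e1, h.vadd]
  · have h1 : Tendsto (fun τ => K (J • τ)) atImInfty (𝓝 0) := Tendsto.comp h.zero J_tendsto
    have h2 := (Complex.continuous_conj.tendsto 0).comp h1
    rw [map_zero] at h2
    exact h2

theorem J_smul_smul (g : SL(2, ℤ)) (z : ℍ) :
    J • (g • z) = ModularCurve.Period.jConjSL g • (J • z) := by
  ext1
  rw [coe_J_smul, UpperHalfPlane.coe_specialLinearGroup_apply,
    UpperHalfPlane.coe_specialLinearGroup_apply]
  simp only [coe_J_smul, ModularCurve.Period.jConjSL_coe, ModularCurve.Period.jConjMat_apply_zero_zero,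
    ModularCurve.Period.jConjMat_apply_zero_one, ModularCurve.Period.jConjMat_apply_one_zero,
    ModularCurve.Period.jConjMat_apply_one_one, map_div₀, map_add, map_mul]
  simp
  rw [← neg_div, neg_add]

theorem cj_cuspConst {M : ℝ} {K : ℍ → ℂ} (h : CuspConst M K) : CuspConst M (cj K) := by
  intro δ
  obtain ⟨c, hc⟩ := h (ModularCurve.Period.jConjSL δ)
  refine ⟨conj c, ?_⟩
  convert cj_decays hc using 1
  ext z
  simp only [cj, J_smul_smul, map_sub]

theorem IsPrimitive.eq_zero_of_const {K k : ℍ → ℂ} (h : IsPrimitive K k) {c : ℂ}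
    (hc : ∀ z, K z = c) : k = 0 := by
  ext τ
  have h1 := h τ
  have h2 : K ∘ ofComplex = fun _ => c := by
    ext x
    exact hc _
  rw [h2] at h1
  exact h1.unique (hasDerivAt_const (τ : ℂ) c)

theorem exists_primitive_cusp' {N : ℕ} [NeZero N] :
    ∃ M : ℝ, 0 < M ∧ ∀ f : CuspForm (Gamma0 N) 2, ∃ F : ℍ → ℂ, IsPrimitive F f ∧
      CuspConst M F := by
  obtain ⟨M, hM, h⟩ := exists_primitive_cusp (N := N)
  refine ⟨M, by exact_mod_cast hM, fun f => ?_⟩
  obtain ⟨F, h1, _, h2⟩ := h f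
  exact ⟨F, h1, h2⟩

/-- The pairing is injective in terms of `p` and `q`. -/
theorem pml_add_inv_injective {N : ℕ} [NeZero N] {p q : CuspForm (Gamma0 N) 2}
    (h : pml N p + ModularCurve.Period.charInvolution N ℂ ℂ (pml N q) = 0) : p = 0 ∧ q = 0 := by
  obtain ⟨M, hM, hex⟩ := exists_primitive_cusp' (N := N)
  obtain ⟨P, hP, hPc⟩ := hex p
  obtain ⟨Q, hQ, hQc⟩ := hex q
  have key : ∀ (γ : Gamma0 N) (z : ℍ), (P ((γ : SL(2, ℤ)) • z) - P z) +
      conj (cj Q ((γ : SL(2, ℤ)) • z) - cj Q z) = 0 := by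
    intro γ z
    have h1 := DFunLike.congr_fun h (Additive.ofMul γ)
    rw [AddMonoidHom.add_apply, ModularCurve.Period.charInvolution_apply] at h1
    change ModularCurve.periodMap N p (Additive.ofMul γ) +
      ModularCurve.periodMap N q (Additive.ofMul (ModularCurve.Period.jConjGamma0 N γ)) = 0 at h1
    rw [periodMap_apply hP γ z, periodMap_apply hQ _ (J • z)] at h1
    rw [← h1, map_sub]
    simp only [cj, J_smul_smul, Complex.conj_conj, ModularCurve.Period.jConjGamma0_coe]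
  have hR := cj_cuspConst hQc
  have hK1 : ∃ c, ∀ z, (P + cj Q) z = c := by
    refine const_of_re_invariant hM (hPc.add hR) (Γ := Gamma0 N) fun γ hγ z => ?_
    have h1 := congrArg Complex.re (key ⟨γ, hγ⟩ z)
    simp only [Complex.add_re, Complex.sub_re, Complex.conj_re, Complex.zero_re] at h1
    simp only [Pi.add_apply, Complex.add_re]
    linarith
  have hK2 : ∃ c, ∀ z, ((-I) • (P + (-1 : ℂ) • cj Q)) z = c := by
    refine const_of_re_invariant hM ((hPc.add (hR.smul (-1))).smul (-I)) (Γ := Gamma0 N)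
      fun γ hγ z => ?_
    have h1 := congrArg Complex.im (key ⟨γ, hγ⟩ z)
    simp only [Complex.add_im, Complex.sub_im, Complex.conj_im, Complex.zero_im] at h1
    simp only [Pi.smul_apply, Pi.add_apply, smul_eq_mul, Complex.mul_re, Complex.neg_re,
      Complex.neg_im, Complex.I_re, Complex.I_im, Complex.add_im, Complex.mul_im, Complex.one_re,
      Complex.one_im]
    linarith
  obtain ⟨c₁, h₁⟩ := hK1
  obtain ⟨c₂, h₂⟩ := hK2
  have hPconst : ∀ z, P z = (c₁ + I * c₂) / 2 := by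
    intro z
    have e1 := h₁ z
    have e2 := h₂ z
    simp only [Pi.smul_apply, Pi.add_apply, smul_eq_mul] at e1 e2
    rw [← e1, ← e2]
    have hI := Complex.I_mul_I
    linear_combination ((P z - cj Q z) / 2) * hI
  have hRconst : ∀ z, cj Q z = (c₁ - I * c₂) / 2 := by
    intro z
    have e1 := h₁ z
    simp only [Pi.add_apply] at e1
    linear_combination e1 - hPconst z
  have hQconst : ∀ z, Q z = conj ((c₁ - I * c₂) / 2) := by
    intro z
    have := congrFun (cj_cj Q) z
    rw [← this, cj, hRconst]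
  refine ⟨?_, ?_⟩
  · apply DFunLike.coe_injective
    exact hP.eq_zero_of_const hPconst
  · apply DFunLike.coe_injective
    exact hQ.eq_zero_of_const hQconst

/-- **Injectivity part of the Eichler-Shimura isomorphism.** -/
theorem periodHomPair_injective (N : ℕ) [NeZero N] :
    Function.Injective (ModularCurve.periodHomPair N) := by
  rw [injective_iff_map_eq_zero]
  rintro ⟨a, b⟩ h
  rw [periodHomPair_apply] at h
  have h1 : pml N (a + b) + ModularCurve.Period.charInvolution N ℂ ℂ (pml N (a - b)) = 0 := by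
    rw [map_add, map_sub, map_sub, ← h]
    abel
  obtain ⟨h2, h3⟩ := pml_add_inv_injective h1
  have ha : (2 : ℂ) • a = 0 := by
    rw [two_smul]
    calc a + a = (a + b) + (a - b) := by abel
      _ = 0 := by rw [h2, h3, add_zero]
  have ha' : a = 0 := by
    rcases smul_eq_zero.mp ha with h | h
    · norm_num at h
    · exact h
  rw [ha', zero_add] at h2
  rw [ha', h2]
  rfl

end Fermat.Agent.ES
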