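import Mathlib

set_option autoImplicit false

/-!
# Ring endomorphisms of `ℂ` and descent to `ℚ`
-/

open Cardinal Polynomial

noncomputable section

namespace Fermat.Agent.ES

/-- extension of isomorphisms between countable subrings of algebraically closed fields. -/
theorem exists_ringEquiv_extend {R K L : Type} [CommRing R] [IsDomain R] [Field K] [Field L]
    [Algebra R K] [Algebra R L] [IsAlgClosed K] [IsAlgClosed L] [FaithfulSMul R K]
    [FaithfulSMul R L]
    (hR : #R ≤ ℵ₀) (hK : ℵ₀ < #K) (hKL : #K = #L) :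
    ∃ σ : K ≃+* L, ∀ r : R, σ (algebraMap R K r) = algebraMap R L r := by
  obtain ⟨s, hs⟩ := exists_isTranscendenceBasis R K
  obtain ⟨t, ht⟩ := exists_isTranscendenceBasis R L
  have h1 : #K = #s := IsAlgClosed.cardinal_eq_cardinal_transcendence_basis_of_aleph0_lt' _ hs hR hK
  have h2 : #L = #t := IsAlgClosed.cardinal_eq_cardinal_transcendence_basis_of_aleph0_lt' _ ht hR
    (hKL ▸ hK)
  obtain ⟨e⟩ : Nonempty (s ≃ t) := Cardinal.eq.mp (by rw [← h1, ← h2, hKL])
  let := IsAlgClosed.isAlgClosure_of_transcendence_basis _ hs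
  let := IsAlgClosed.isAlgClosure_of_transcendence_basis _ ht
  let E : Algebra.adjoin R (Set.range ((↑) : s → K)) ≃ₐ[R]
      Algebra.adjoin R (Set.range ((↑) : t → L)) :=
    (hs.1.aevalEquiv.symm.trans (MvPolynomial.renameEquiv R e)).trans ht.1.aevalEquiv
  refine ⟨IsAlgClosure.equivOfEquiv K L E.toRingEquiv, fun r => ?_⟩
  have h3 := IsAlgClosure.equivOfEquiv_algebraMap K L E.toRingEquiv (algebraMap R _ r)
  have h4 : E.toRingEquiv (algebraMap R _ r) = algebraMap R _ r := E.commutes r
  rw [h4] at h3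
  rw [← IsScalarTower.algebraMap_apply, ← IsScalarTower.algebraMap_apply] at h3
  exact h3

theorem exists_ringHom_of_injective {R : Type} [CommRing R] [IsDomain R] (hR : #R ≤ ℵ₀)
    (i j : R →+* ℂ) (hi : Function.Injective i) (hj : Function.Injective j) :
    ∃ σ : ℂ →+* ℂ, ∀ r : R, σ (i r) = j r := by
  have hC : ℵ₀ < #ℂ := by
    rw [Cardinal.mk_complex]
    exact Cardinal.aleph0_lt_continuum
  let A1 : Algebra R ℂ := i.toAlgebra
  let A2 : Algebra R ℂ := j.toAlgebra
  have f1 : @FaithfulSMul R ℂ A1.toSMul := (@faithfulSMul_iff_algebraMap_injective R ℂ _ _ A1).mpr hi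
  have f2 : @FaithfulSMul R ℂ A2.toSMul := (@faithfulSMul_iff_algebraMap_injective R ℂ _ _ A2).mpr hj
  obtain ⟨σ, hσ⟩ := @exists_ringEquiv_extend R ℂ ℂ _ _ _ _ A1 A2 _ _ f1 f2 hR hC rfl
  exact ⟨σ, hσ⟩

/-- The fixed field of all ring endomorphisms of `ℂ` is `ℚ`. -/
theorem exists_rat_of_fixed {x : ℂ} (h : ∀ σ : ℂ →+* ℂ, σ x = x) : ∃ q : ℚ, x = q := by
  by_contra hx
  push Not at hx
  by_cases halg : IsAlgebraic ℚ x
  · -- algebraic case
    have hint : IsIntegral ℚ x := halg.isIntegral
    set p := minpoly ℚ x with hp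
    have hirr : Irreducible p := minpoly.irreducible hint
    have : Fact (Irreducible p) := ⟨hirr⟩
    have hdeg : 1 < p.natDegree := by
      by_contra hle
      have h1 : p.natDegree = 1 := le_antisymm (not_lt.mp hle) (minpoly.natDegree_pos hint)
      have h2 := (minpoly.natDegree_eq_one_iff).mp h1
      obtain ⟨q, hq⟩ := h2
      exact hx q hq.symm
    have hsep : (p.map (algebraMap ℚ ℂ)).Separable := (hirr.separable).map
    have hcard : Fintype.card (p.rootSet ℂ) = p.natDegree := by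
      apply Polynomial.card_rootSet_eq_natDegree hirr.separable
      exact IsAlgClosed.splits _
    obtain ⟨y, hy, hyx⟩ : ∃ y ∈ p.rootSet ℂ, y ≠ x := by
      by_contra hcon
      push Not at hcon
      have : Fintype.card (p.rootSet ℂ) ≤ 1 := by
        rw [Fintype.card_le_one_iff_subsingleton]
        exact ⟨fun a b => Subtype.ext ((hcon a a.2).trans (hcon b b.2).symm)⟩
      omega
    have hx0 : p.eval₂ (algebraMap ℚ ℂ) x = 0 := by
      have := minpoly.aeval ℚ x
      rwa [Polynomial.aeval_def] at this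
    have hy0 : p.eval₂ (algebraMap ℚ ℂ) y = 0 := by
      have := Polynomial.aeval_eq_zero_of_mem_rootSet hy
      rwa [Polynomial.aeval_def] at this
    let i : AdjoinRoot p →+* ℂ := AdjoinRoot.lift (algebraMap ℚ ℂ) x hx0
    let j : AdjoinRoot p →+* ℂ := AdjoinRoot.lift (algebraMap ℚ ℂ) y hy0
    have hR : #(AdjoinRoot p) ≤ ℵ₀ := by
      have : Function.Surjective (AdjoinRoot.mk p) := AdjoinRoot.mk_surjective
      refine (Cardinal.mk_le_of_surjective this).trans ?_
      exact (Polynomial.cardinalMk_le_max).trans (by simp)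
    obtain ⟨σ, hσ⟩ := exists_ringHom_of_injective hR i j i.injective j.injective
    have := hσ (AdjoinRoot.root p)
    simp only [i, j, AdjoinRoot.lift_root] at this
    rw [h σ] at this
    exact hyx this.symm
  · -- transcendental case
    have htr : Transcendental ℚ x := halg
    have htr1 : Transcendental ℚ (x + 1) := by
      intro h1
      apply halg
      have := h1.sub (isAlgebraic_one (R := ℚ) (A := ℂ))
      simpa using this
    have hR : #(ℚ[X]) ≤ ℵ₀ := (Polynomial.cardinalMk_le_max).trans (by simp)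
    obtain ⟨σ, hσ⟩ := exists_ringHom_of_injective hR (Polynomial.aeval (R := ℚ) x).toRingHom
      (Polynomial.aeval (R := ℚ) (x + 1)).toRingHom
      (transcendental_iff_injective.mp htr) (transcendental_iff_injective.mp htr1)
    have := hσ X
    simp at this
    rw [h σ] at this
    simpa using this

/-- Galois descent for finite dimensional spaces of sequences. -/
theorem span_rational_eq_top {W : Type*} [AddCommGroup W] [Module ℂ W]
    (c : W →ₗ[ℂ] (ℕ → ℂ)) (S₀ : Finset ℕ) (hinj : ∀ f : W, (∀ n ∈ S₀, c f n = 0) → f = 0)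
    (hσ : ∀ (σ : ℂ →+* ℂ) (f : W), ∃ g : W, ∀ n, c g n = σ (c f n)) :
    Submodule.span ℂ {f : W | ∀ n, ∃ q : ℚ, c f n = q} = ⊤ := by
  classical
  -- minimal separating set
  obtain ⟨S, hS, hmin⟩ : ∃ S : Finset ℕ, (∀ f : W, (∀ n ∈ S, c f n = 0) → f = 0) ∧
      ∀ T : Finset ℕ, T.card < S.card → ¬ (∀ f : W, (∀ n ∈ T, c f n = 0) → f = 0) := by
    have hex : ∃ m : ℕ, ∃ S : Finset ℕ, S.card = m ∧ ∀ f : W, (∀ n ∈ S, c f n = 0) → f = 0 :=
      ⟨_, S₀, rfl, hinj⟩
    obtain ⟨S, hSc, hS⟩ := Nat.find_spec hex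
    refine ⟨S, hS, fun T hT hT' => ?_⟩
    exact Nat.find_min hex (hSc ▸ hT) ⟨T, rfl, hT'⟩
  have key : ∀ s ∈ S, ∃ v : W, c v s = 1 ∧ ∀ n ∈ S, n ≠ s → c v n = 0 := by
    intro s hs
    have h1 := hmin (S.erase s) (Finset.card_erase_lt_of_mem hs)
    push Not at h1
    obtain ⟨f, hf, hf0⟩ := h1
    have hfs : c f s ≠ 0 := by
      intro h0
      apply hf0
      refine hS f fun n hn => ?_
      by_cases hns : n = s
      · rw [hns, h0]
      · exact hf n (Finset.mem_erase.mpr ⟨hns, hn⟩)
    refine ⟨(c f s)⁻¹ • f, ?_, fun n hn hns => ?_⟩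
    · simp [hfs]
    · simp [hf n (Finset.mem_erase.mpr ⟨hns, hn⟩)]
  choose! v hv1 hv0 using key
  have hrat : ∀ s ∈ S, v s ∈ {f : W | ∀ n, ∃ q : ℚ, c f n = q} := by
    intro s hs n
    apply exists_rat_of_fixed
    intro σ
    obtain ⟨g, hg⟩ := hσ σ (v s)
    have : g - v s = 0 := by
      refine hS _ fun m hm => ?_
      by_cases hms : m = s
      · subst hms
        simp [hg, hv1 m hs]
      · simp [hg, hv0 s hs m hm hms]
    rw [← hg n, sub_eq_zero.mp this]
  rw [eq_top_iff]
  intro f _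
  have hf : f = ∑ s ∈ S, c f s • v s := by
    rw [← sub_eq_zero]
    refine hS _ fun m hm => ?_
    rw [map_sub, map_sum, Pi.sub_apply, Finset.sum_apply, Finset.sum_eq_single m]
    · simp [hv1 m hm]
    · intro b hb hbm
      simp [hv0 b hb m hm hbm.symm]
    · intro h; exact absurd hm h
  rw [hf]
  exact Submodule.sum_mem _ fun s hs => Submodule.smul_mem _ _ (Submodule.subset_span (hrat s hs))

end Fermat.Agent.ES
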