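import Mathlib

set_option autoImplicit false

/-!
# Ring endomorphisms of `ℂ` acting on level one modular forms
-/

open UpperHalfPlane hiding I
open ModularForm SlashInvariantForm SlashInvariantFormClass ModularFormClass
  CuspFormClass MatrixGroups OnePoint Filter EisensteinSeries
open scoped Topology Manifold MatrixGroups ModularForm

noncomputable section

namespace Fermat.Agent.ES

/-- the coefficientwise action on `q`-expansions -/
abbrev pmap (σ : ℂ →+* ℂ) (p : PowerSeries ℂ) : PowerSeries ℂ := PowerSeries.map σ p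

theorem pmap_smul (σ : ℂ →+* ℂ) (c : ℂ) (p : PowerSeries ℂ) :
    pmap σ (c • p) = σ c • pmap σ p := by
  ext n; simp [pmap]

theorem pmap_E (σ : ℂ →+* ℂ) {k : ℕ} (hk : 3 ≤ k) (hk2 : Even k) :
    pmap σ (qExpansion 1 (E hk)) = qExpansion 1 (E hk) := by
  ext m
  rw [PowerSeries.coeff_map, E_qExpansion_coeff hk hk2]
  split_ifs with h
  · simp
  · have h2 : σ 2 = 2 := map_ofNat σ 2
    simp [map_neg, map_mul, map_div₀, h2]

theorem smul_discriminant : (1728 : ℂ) • (discriminant : ℍ → ℂ) =
    (E₄ : ℍ → ℂ) * (E₄ : ℍ → ℂ) * (E₄ : ℍ → ℂ) - (E₆ : ℍ → ℂ) * (E₆ : ℍ → ℂ) := by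
  ext z
  simp only [Pi.smul_apply, Pi.sub_apply, Pi.mul_apply, smul_eq_mul,
    discriminant_eq_E₄_cube_sub_E₆_sq]
  ring

theorem qExpansion_discriminant : (1728 : ℂ) • qExpansion 1 discriminant =
    qExpansion 1 E₄ * qExpansion 1 E₄ * qExpansion 1 E₄ - qExpansion 1 E₆ * qExpansion 1 E₆ := by
  have h4 := ModularFormClass.analyticAt_cuspFunction_zero E₄ one_pos one_mem_strictPeriods_SL
  have h6 := ModularFormClass.analyticAt_cuspFunction_zero E₆ one_pos one_mem_strictPeriods_SL
  have hD := ModularFormClass.analyticAt_cuspFunction_zero CuspForm.discriminant one_pos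
    one_mem_strictPeriods_SL
  have h1 := congrArg (qExpansion 1) smul_discriminant
  have e1 : qExpansion 1 ((1728 : ℂ) • (discriminant : ℍ → ℂ)) =
      (1728 : ℂ) • qExpansion 1 discriminant := UpperHalfPlane.qExpansion_smul hD _
  have a44 : AnalyticAt ℂ (cuspFunction 1 ((E₄ : ℍ → ℂ) * (E₄ : ℍ → ℂ))) 0 := by
    rw [cuspFunction_mul h4.continuousAt h4.continuousAt]; exact h4.mul h4
  have a444 : AnalyticAt ℂ (cuspFunction 1 ((E₄ : ℍ → ℂ) * (E₄ : ℍ → ℂ) * (E₄ : ℍ → ℂ))) 0 := by
    rw [cuspFunction_mul a44.continuousAt h4.continuousAt]; exact a44.mul h4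
  have a66 : AnalyticAt ℂ (cuspFunction 1 ((E₆ : ℍ → ℂ) * (E₆ : ℍ → ℂ))) 0 := by
    rw [cuspFunction_mul h6.continuousAt h6.continuousAt]; exact h6.mul h6
  rw [e1, UpperHalfPlane.qExpansion_sub a444 a66, UpperHalfPlane.qExpansion_mul a44 h4,
    UpperHalfPlane.qExpansion_mul h4 h4, UpperHalfPlane.qExpansion_mul h6 h6] at h1
  exact h1

theorem pmap_discriminant (σ : ℂ →+* ℂ) :
    pmap σ (qExpansion 1 discriminant) = qExpansion 1 discriminant := by
  have h1 := congrArg (pmap σ) qExpansion_discriminant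
  have h4 : pmap σ (qExpansion 1 E₄) = qExpansion 1 E₄ := pmap_E σ _ ⟨2, rfl⟩
  have h6 : pmap σ (qExpansion 1 E₆) = qExpansion 1 E₆ := pmap_E σ _ ⟨3, rfl⟩
  rw [pmap_smul] at h1
  simp only [pmap, map_sub, map_mul] at h1
  change σ 1728 • pmap σ (qExpansion 1 discriminant) = pmap σ (qExpansion 1 E₄) *
    pmap σ (qExpansion 1 E₄) * pmap σ (qExpansion 1 E₄) - pmap σ (qExpansion 1 E₆) *
    pmap σ (qExpansion 1 E₆) at h1
  rw [h4, h6, ← qExpansion_discriminant, show σ 1728 = 1728 from map_ofNat σ 1728] at h1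
  have h2 : (1728 : ℂ) ≠ 0 := by norm_num
  exact smul_right_injective _ h2 h1

theorem exists_sigma_levelOne_nat (σ : ℂ →+* ℂ) (k : ℕ) (F : ModularForm 𝒮ℒ (k : ℤ)) :
    ∃ F' : ModularForm 𝒮ℒ (k : ℤ), qExpansion 1 F' = pmap σ (qExpansion 1 F) := by
  induction k using Nat.strong_induction_on with
  | _ k ih =>
    rcases Nat.even_or_odd k with hk2 | hk2
    · have hcases : k = 0 ∨ k = 2 ∨ 3 ≤ k := by
        rcases hk2 with ⟨m, rfl⟩; omega
      rcases hcases with rfl | rfl | hk
      · -- weight zero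
        obtain ⟨c, hc⟩ := levelOne_weight_zero_const F
        refine ⟨σ c • (1 : ModularForm 𝒮ℒ 0), ?_⟩
        have h1 : (⇑F : ℍ → ℂ) = c • ⇑(1 : ModularForm 𝒮ℒ 0) := by
          rw [hc]; ext z; simp
        rw [h1, FunLike.coe_smul, ModularForm.qExpansion_smul one_pos one_mem_strictPeriods_SL,
          ModularForm.qExpansion_smul one_pos one_mem_strictPeriods_SL, pmap_smul,
          ModularForm.one_coe_eq_one, UpperHalfPlane.qExpansion_one]
        simp [pmap]
      · have h0 : F = 0 :=
          rank_zero_iff_forall_zero.mp levelOne_weight_two_rank_zero F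
        refine ⟨0, ?_⟩
        rw [h0]
        simp [qExpansion_zero, pmap]
      · set c := (qExpansion 1 F).coeff 0 with hc
        set G : ModularForm 𝒮ℒ (k : ℤ) := F - c • E hk with hG
        have hE0 := E_qExpansion_coeff_zero hk hk2
        have hGq : qExpansion 1 G = qExpansion 1 F - c • qExpansion 1 (E hk) := by
          rw [hG, FunLike.coe_sub, ModularForm.qExpansion_sub one_pos one_mem_strictPeriods_SL,
            FunLike.coe_smul, ModularForm.qExpansion_smul one_pos one_mem_strictPeriods_SL]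
        have hG0 : (qExpansion 1 G).coeff 0 = 0 := by
          rw [hGq, map_sub, PowerSeries.coeff_smul, hE0]
          simp [hc]
        have hfac := qExpansion_eq_qExpansion_discriminant_mul G hG0
        set F1 := CuspForm.discriminantEquiv (toCuspForm G hG0) with hF1
        have hex : ∃ F1' : ModularForm 𝒮ℒ ((k : ℤ) - 12),
            qExpansion 1 F1' = pmap σ (qExpansion 1 F1) := by
          by_cases hk12 : k < 12
          · have h0 : F1 = 0 := rank_zero_iff_forall_zero.mp
              (levelOne_neg_weight_rank_zero (by omega)) F1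
            refine ⟨0, ?_⟩
            rw [h0]
            simp [qExpansion_zero, pmap]
          · have hkk : ((k - 12 : ℕ) : ℤ) = (k : ℤ) - 12 := by omega
            obtain ⟨F2, hF2⟩ := ih (k - 12) (by omega) (ModularForm.mcast hkk.symm F1)
            refine ⟨ModularForm.mcast hkk F2, ?_⟩
            rw [ModularForm.qExpansion_mcast hkk rfl F2, hF2, ModularForm.qExpansion_mcast]
        obtain ⟨F1', hF1'⟩ := hex
        refine ⟨σ c • E hk + ModularFormClass.modularForm (CuspForm.ofMulDiscriminant F1'), ?_⟩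
        have hq : qExpansion 1 F = c • qExpansion 1 (E hk) +
            qExpansion 1 discriminant * qExpansion 1 F1 := by
          rw [← hfac, hGq]; ring
        have hof : qExpansion 1 (CuspForm.ofMulDiscriminant F1') =
            qExpansion 1 discriminant * qExpansion 1 F1' := by
          have : (⇑(CuspForm.ofMulDiscriminant F1') : ℍ → ℂ) =
              ⇑CuspForm.discriminant * ⇑F1' := by
            ext z; simp
          rw [this, ModularForm.qExpansion_mul_coe one_pos one_mem_strictPeriods_SL]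
          rfl
        rw [FunLike.coe_add, ModularForm.qExpansion_add one_pos one_mem_strictPeriods_SL,
          FunLike.coe_smul, ModularForm.qExpansion_smul one_pos one_mem_strictPeriods_SL,
          ModularFormClass.coe_modularForm, hof, hq, pmap, map_add, map_mul]
        change _ = pmap σ (c • qExpansion 1 (E hk)) + pmap σ (qExpansion 1 discriminant) *
          pmap σ (qExpansion 1 F1)
        rw [pmap_smul, pmap_E σ hk hk2, pmap_discriminant, hF1']
    · have h0 : F = 0 := levelOne_odd_weight_eq_zero (by exact_mod_cast hk2) F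
      refine ⟨0, ?_⟩
      rw [h0]
      simp [qExpansion_zero, pmap]

/-- **Coefficientwise action of `End ℂ` on level one forms.** -/
theorem exists_sigma_levelOne (σ : ℂ →+* ℂ) (k : ℤ) (F : ModularForm 𝒮ℒ k) :
    ∃ F' : ModularForm 𝒮ℒ k, qExpansion 1 F' = pmap σ (qExpansion 1 F) := by
  rcases lt_or_ge k 0 with hk | hk
  · have h0 : F = 0 := rank_zero_iff_forall_zero.mp (levelOne_neg_weight_rank_zero hk) F
    refine ⟨0, ?_⟩
    rw [h0]
    simp [qExpansion_zero, pmap]
  · lift k to ℕ using hk
    exact exists_sigma_levelOne_nat σ k F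

/-- the form with conjugated coefficients -/
def sig (σ : ℂ →+* ℂ) {k : ℤ} (F : ModularForm 𝒮ℒ k) : ModularForm 𝒮ℒ k :=
  (exists_sigma_levelOne σ k F).choose

theorem qExpansion_sig (σ : ℂ →+* ℂ) {k : ℤ} (F : ModularForm 𝒮ℒ k) :
    qExpansion 1 (sig σ F) = pmap σ (qExpansion 1 F) :=
  (exists_sigma_levelOne σ k F).choose_spec

end Fermat.Agent.ES
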