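import Mathlib
import Fermat.Prelude.Thm_UpperHalfPlane_qCoeff_heckeT
import Fermat.Prelude.Thm_UpperHalfPlane_qCoeff_heckeU
import Fermat.Prelude.Thm_CongruenceSubgroup_one_mem_strictPeriods_Gamma0
import Fermat.Prelude.Thm_ModularForm_periodic_heckeU_comp_ofComplex
import Fermat.Prelude.Thm_ModularForm_periodic_heckeT_comp_ofComplex
import Fermat.Prelude.Thm_ModularForm_mdifferentiable_heckeU
import Fermat.Prelude.Thm_ModularForm_mdifferentiable_heckeT
import Fermat.Prelude.Thm_ModularForm_isBoundedAtImInfty_heckeU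
import Fermat.Prelude.Thm_ModularForm_isBoundedAtImInfty_heckeT
import Fermat.Agent.ES.LevelOneSigma

set_option autoImplicit false

/-!
# The form `Δ(Nz)` on `Γ₀(N)`
-/

open UpperHalfPlane hiding I
open ModularForm SlashInvariantForm SlashInvariantFormClass ModularFormClass
  CuspFormClass MatrixGroups OnePoint Filter EisensteinSeries CongruenceSubgroup
open scoped Topology Manifold MatrixGroups ModularForm ConjAct Pointwise

noncomputable section

namespace Fermat.Agent.ES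

/-- restriction of cusp forms to a smaller group -/
def resCusp {Γ Γ' : Subgroup (GL (Fin 2) ℝ)} (h : Γ' ≤ Γ) {k : ℤ} (f : CuspForm Γ k) :
    CuspForm Γ' k where
  toFun := f
  slash_action_eq' γ hγ := f.slash_action_eq' γ (h hγ)
  holo' := f.holo'
  zero_at_cusps' hc := f.zero_at_cusps' (hc.mono h)

theorem resCusp_coe {Γ Γ' : Subgroup (GL (Fin 2) ℝ)} (h : Γ' ≤ Γ) {k : ℤ} (f : CuspForm Γ k) :
    ⇑(resCusp h f) = ⇑f := rfl

/-- `α g = g' α` for `g ∈ Γ₀(N)`. -/
theorem alpha_mul (N : ℕ) (hN : N ≠ 0) (g : SL(2, ℤ)) (e : ℤ) (he : g 1 0 = N * e) :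
    ∃ g' : SL(2, ℤ), heckeDiagMatrix N * Matrix.SpecialLinearGroup.mapGL ℝ g =
      Matrix.SpecialLinearGroup.mapGL ℝ g' * heckeDiagMatrix N := by
  have hdet : g 0 0 * g 1 1 - g 0 1 * g 1 0 = 1 := by
    have := g.det_coe
    rwa [Matrix.det_fin_two] at this
  refine ⟨⟨!![g 0 0, N * g 0 1; e, g 1 1], ?_⟩, ?_⟩
  · rw [Matrix.det_fin_two_of]
    linear_combination hdet + (g 0 1) * he
  · ext i j
    fin_cases i <;> fin_cases j <;>
      simp [hN, Matrix.mul_apply, Fin.sum_univ_two]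
    all_goals first
      | (have := congrArg (Int.cast : ℤ → ℝ) he; push_cast at this ⊢; linear_combination this)
      | (have := congrArg (Int.cast : ℤ → ℝ) he; push_cast at this ⊢; linear_combination -this)
      | ring1

theorem Gamma0_le_conj (N : ℕ) [NeZero N] :
    ((Gamma0 N : Subgroup SL(2, ℤ)) : Subgroup (GL (Fin 2) ℝ)) ≤
      (ConjAct.toConjAct (heckeDiagMatrix N)⁻¹) • 𝒮ℒ := by
  rintro _ ⟨g, hg, rfl⟩
  have hg' : ((N : ℤ) ∣ g 1 0) := by
    have := Gamma0_mem.mp hg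
    exact (ZMod.intCast_zmod_eq_zero_iff_dvd _ _).mp this
  obtain ⟨e, he⟩ := hg'
  obtain ⟨g', hg'⟩ := alpha_mul N (NeZero.ne N) g e he
  rw [Subgroup.mem_pointwise_smul_iff_inv_smul_mem, ← ConjAct.toConjAct_inv, inv_inv,
    ConjAct.toConjAct_smul]
  refine ⟨g', ?_⟩
  rw [hg', mul_assoc, mul_inv_cancel, mul_one]

/-- `N¹¹ Δ(Nz)` as a cusp form on `Γ₀(N)`. -/
def hDelta (N : ℕ) [NeZero N] : CuspForm (Gamma0 N) 12 :=
  resCusp (Gamma0_le_conj N) (CuspForm.translate CuspForm.discriminant (heckeDiagMatrix N))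

theorem hDelta_coe (N : ℕ) [NeZero N] :
    (⇑(hDelta N) : ℍ → ℂ) = ModularForm.discriminant ∣[(12 : ℤ)] heckeDiagMatrix N := rfl

theorem one_mem_G0 (N : ℕ) :
    (1 : ℝ) ∈ ((Gamma0 N : Subgroup SL(2, ℤ)) : Subgroup (GL (Fin 2) ℝ)).strictPeriods :=
  CongruenceSubgroup.one_mem_strictPeriods_Gamma0 N

theorem coeff_hDelta (N : ℕ) [NeZero N] (n : ℕ) :
    (qExpansion 1 (hDelta N)).coeff n =
      if N ∣ n then (N : ℂ) ^ ((12 : ℤ) - 1) * (qExpansion 1 discriminant).coeff (n / N) else 0 := by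
  have hper : Function.Periodic ((CuspForm.discriminant : ℍ → ℂ) ∘ ofComplex) 1 := by
    have := periodic_comp_ofComplex CuspForm.discriminant one_mem_strictPeriods_SL
    simpa using this
  have hper' : ∀ {f : ℍ → ℂ}, Function.Periodic (f ∘ ofComplex) 1 →
      Function.Periodic (f ∘ ofComplex) ((1 : ℝ) : ℂ) := by
    intro f hf; simpa using hf
  have hhol : MDiff (CuspForm.discriminant : ℍ → ℂ) := CuspForm.discriminant.holo'
  have hbdd : IsBoundedAtImInfty (CuspForm.discriminant : ℍ → ℂ) :=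
    ModularFormClass.bdd_at_infty CuspForm.discriminant
  have hT := UpperHalfPlane.qCoeff_heckeT hper hhol hbdd 12 (NeZero.ne N)
  have hU := UpperHalfPlane.qCoeff_heckeU hper hhol hbdd 12 (NeZero.ne N)
  have hN0 := NeZero.ne N
  have hdecomp : (⇑(hDelta N) : ℍ → ℂ) = heckeT 12 N (CuspForm.discriminant : ℍ → ℂ) -
      heckeU 12 N (CuspForm.discriminant : ℍ → ℂ) := by
    rw [heckeT_eq_heckeU_add, hDelta_coe]
    simp
  have hanT : AnalyticAt ℂ (cuspFunction 1 (heckeT 12 N (CuspForm.discriminant : ℍ → ℂ))) 0 :=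
    analyticAt_cuspFunction_zero one_pos
      (hper' (ModularForm.periodic_heckeT_comp_ofComplex hper 12 N))
      (ModularForm.mdifferentiable_heckeT hhol 12 N)
      (ModularForm.isBoundedAtImInfty_heckeT hbdd 12 N)
  have hanU : AnalyticAt ℂ (cuspFunction 1 (heckeU 12 N (CuspForm.discriminant : ℍ → ℂ))) 0 :=
    analyticAt_cuspFunction_zero one_pos
      (hper' (ModularForm.periodic_heckeU_comp_ofComplex hper 12 N))
      (ModularForm.mdifferentiable_heckeU hhol 12 N)
      (ModularForm.isBoundedAtImInfty_heckeU hbdd 12 N)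
  rw [hdecomp, UpperHalfPlane.qExpansion_sub hanT hanU, map_sub]
  have h1 := hT n
  have h2 := hU n
  rw [coeffHeckeT_apply] at h1
  rw [coeffHeckeU_apply] at h2
  change (qExpansion 1 (heckeT 12 N _)).coeff n = _ at h1
  change (qExpansion 1 (heckeU 12 N _)).coeff n = _ at h2
  rw [h1, h2]
  simp only [add_sub_cancel_left]
  rfl

theorem pmap_hDelta (σ : ℂ →+* ℂ) (N : ℕ) [NeZero N] :
    pmap σ (qExpansion 1 (hDelta N)) = qExpansion 1 (hDelta N) := by
  ext n
  rw [PowerSeries.coeff_map, coeff_hDelta]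
  split_ifs with h
  · rw [map_mul, map_zpow₀, map_natCast]
    congr 1
    have := congrArg (PowerSeries.coeff (n / N)) (pmap_discriminant σ)
    rwa [PowerSeries.coeff_map] at this
  · simp

/-- an upper triangular representative of the coset of `α g` -/
theorem exists_upper (N : ℕ) (hN : N ≠ 0) (g : SL(2, ℤ)) (hg : ¬ (N : ℤ) ∣ g 1 0) :
    ∃ (γ : SL(2, ℤ)) (e f : ℕ) (b : ℤ) (had : (e : ℝ) * (f : ℝ) ≠ 0), e * f = N ∧ e < N ∧
      heckeDiagMatrix N * Matrix.SpecialLinearGroup.mapGL ℝ g =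
        Matrix.SpecialLinearGroup.mapGL ℝ γ * upperTriangularGL e b f had := by
  have hdet : g 0 0 * g 1 1 - g 0 1 * g 1 0 = 1 := by
    have := g.det_coe
    rwa [Matrix.det_fin_two] at this
  set a := g 0 0
  set b := g 0 1
  set c := g 1 0
  set d := g 1 1
  have hN' : (N : ℤ) ≠ 0 := by exact_mod_cast hN
  have hne : (N : ℤ) * a ≠ 0 ∨ c ≠ 0 := by
    by_contra hcon
    push Not at hcon
    obtain ⟨h1, h2⟩ := hcon
    have ha : a = 0 := (mul_eq_zero.mp h1).resolve_left hN'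
    rw [ha, h2] at hdet
    simp at hdet
  obtain ⟨e, he⟩ : ∃ e : ℤ, e = ((Int.gcd (N * a) c : ℕ) : ℤ) := ⟨_, rfl⟩
  have hepos : 0 < e := by
    rw [he]
    exact_mod_cast Int.gcd_pos_iff.mpr hne
  obtain ⟨x, hx⟩ : e ∣ N * a := he ▸ Int.gcd_dvd_left _ _
  obtain ⟨y, hy⟩ : e ∣ c := he ▸ Int.gcd_dvd_right _ _
  obtain ⟨u, v, huv⟩ : ∃ u v : ℤ, u * x + v * y = 1 := by
    have h1 := Int.gcd_eq_gcd_ab (N * a) c
    refine ⟨Int.gcdA (N * a) c, Int.gcdB (N * a) c, ?_⟩
    have h2 : e * (Int.gcdA (N * a) c * x + Int.gcdB (N * a) c * y) = e * 1 := by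
      have h3 : e = N * a * Int.gcdA (N * a) c + c * Int.gcdB (N * a) c := he.trans h1
      linear_combination (-Int.gcdA (N * a) c) * hx - (Int.gcdB (N * a) c) * hy - h3
    exact mul_left_cancel₀ hepos.ne' h2
  -- `γ = (x, -v; y, u)`
  set F : ℤ := x * d - y * N * b with hF
  have hef : e * F = N := by
    have : e * F = (e * x) * d - (e * y) * (N * b) := by rw [hF]; ring
    rw [this, ← hx, ← hy]
    linear_combination (N : ℤ) * hdet
  have hFpos : 0 < F := by
    have hNp : (0 : ℤ) < N := by positivity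
    rw [← hef] at hNp
    exact (pos_iff_pos_of_mul_pos hNp).mp hepos
  obtain ⟨e', he'⟩ := Int.eq_ofNat_of_zero_le hepos.le
  obtain ⟨f', hf'⟩ := Int.eq_ofNat_of_zero_le hFpos.le
  have hadef : (e' : ℝ) * (f' : ℝ) ≠ 0 := by
    have h1 : (e' : ℤ) * (f' : ℤ) = N := by rw [← hef, he', hf']
    have h2 : (e' : ℝ) * (f' : ℝ) = N := by exact_mod_cast h1
    rw [h2]
    exact_mod_cast hN
  refine ⟨⟨!![x, -v; y, u], ?_⟩, e', f', u * N * b + v * d, hadef, ?_, ?_, ?_⟩
  · rw [Matrix.det_fin_two_of]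
    linear_combination huv
  · have h1 : (e' : ℤ) * (f' : ℤ) = N := by rw [← hef, he', hf']
    exact_mod_cast h1
  · have h1 : (e' : ℤ) * (f' : ℤ) = N := by rw [← hef, he', hf']
    have h1' : e' * f' = N := by exact_mod_cast h1
    have h2 : e' ≠ N := by
      intro h
      apply hg
      have : e = N := by rw [he', h]
      rw [← this]
      exact ⟨y, hy⟩
    have h3 : e' ∣ N := ⟨f', h1'.symm⟩
    exact lt_of_le_of_ne (Nat.le_of_dvd (Nat.pos_of_ne_zero hN) h3) h2
  · have hx' : (e' : ℤ) * x = N * a := by rw [hx, he']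
    have hy' : (e' : ℤ) * y = c := by
      have : e * y = c := hy.symm
      rw [← this, he']
    have hf'' : (f' : ℤ) = x * d - y * N * b := by rw [← hF, hf']
    have hxR : (e' : ℝ) * x = N * a := by exact_mod_cast hx'
    have hyR : (e' : ℝ) * y = c := by exact_mod_cast hy'
    have hfR : (f' : ℝ) = x * d - y * N * b := by exact_mod_cast hf''
    have huvR : (u : ℝ) * x + v * y = 1 := by exact_mod_cast huv
    ext i j
    fin_cases i <;> fin_cases j
    · simp [hN, Matrix.mul_apply, Fin.sum_univ_two]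
      linear_combination -hxR
    · simp [hN, Matrix.mul_apply, Fin.sum_univ_two]
      rw [hfR]
      linear_combination (-(N : ℝ) * b) * huvR
    · simp [hN, Matrix.mul_apply, Fin.sum_univ_two]
      linear_combination -hyR
    · simp [hN, Matrix.mul_apply, Fin.sum_univ_two]
      rw [hfR]
      linear_combination (-(d : ℝ)) * huvR

theorem tendsto_exp_im_atImInfty {c : ℝ} (hc : 0 < c) :
    Tendsto (fun τ : ℍ => Real.exp (c * τ.im)) atImInfty atTop :=
  Real.tendsto_exp_atTop.comp (Tendsto.const_mul_atTop hc tendsto_comap)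

/-- lower bound for `|Δ ∣ u|` -/
theorem exp_isBigO_slash_upper (e f : ℕ) (b : ℤ) (had : (e : ℝ) * (f : ℝ) ≠ 0) :
    (fun τ : ℍ => Real.exp (-2 * Real.pi * ((e : ℝ) / f * τ.im))) =O[atImInfty]
      (ModularForm.discriminant ∣[(12 : ℤ)] upperTriangularGL e b f had) := by
  have he : (0 : ℝ) < e := by
    rcases Nat.eq_zero_or_pos e with rfl | h
    · simp at had
    · exact_mod_cast h
  have hf : (0 : ℝ) < f := by
    rcases Nat.eq_zero_or_pos f with rfl | h
    · simp at had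
    · exact_mod_cast h
  set u := upperTriangularGL e b f had with hu
  have hdet : (0 : ℝ) < (u.det : ℝ) := by
    rw [hu, Matrix.GeneralLinearGroup.val_det_apply, val_upperTriangularGL, Matrix.det_fin_two_of]
    simp only [mul_zero, sub_zero]
    positivity
  have hdenom : ∀ τ : ℍ, denom u τ = f := by
    intro τ
    simp [denom, hu]
  have him : ∀ τ : ℍ, (u • τ).im = (e : ℝ) / f * τ.im := by
    intro τ
    have h1 : ((u • τ : ℍ) : ℂ) = ((e : ℂ) * τ + b) / f := by
      rw [UpperHalfPlane.coe_smul_of_det_pos hdet]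
      simp [num, denom, hu]
    have h2 : (u • τ).im = ((u • τ : ℍ) : ℂ).im := rfl
    rw [h2, h1]
    have h3 : ((e : ℂ) * τ + b) / f = (((e : ℝ) / f : ℝ) : ℂ) * τ + (((b : ℝ) / f : ℝ) : ℂ) := by
      push_cast; ring
    rw [h3, Complex.add_im, Complex.ofReal_im, add_zero, Complex.im_ofReal_mul]
    rfl
  have hslash : ∀ τ : ℍ, (ModularForm.discriminant ∣[(12 : ℤ)] u) τ =
      discriminant (u • τ) * (((|(u.det : ℝ)| : ℝ) : ℂ) ^ ((12 : ℤ) - 1) * (f : ℂ) ^ (-(12 : ℤ))) := by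
    intro τ
    rw [ModularForm.slash_apply, hdenom, UpperHalfPlane.σ, if_pos hdet, mul_assoc]
    rfl
  have htend : Tendsto (fun τ : ℍ => u • τ) atImInfty atImInfty := by
    rw [atImInfty, tendsto_comap_iff]
    have : (UpperHalfPlane.im ∘ fun τ : ℍ => u • τ) = fun τ : ℍ => (e : ℝ) / f * τ.im := by
      ext τ; exact him τ
    rw [this]
    exact Tendsto.const_mul_atTop (div_pos he hf) tendsto_comap
  have h1 := exp_isBigO_discriminant.comp_tendsto htend
  have h2 : ((fun τ : ℍ => Real.exp (-2 * Real.pi * τ.im)) ∘ fun τ : ℍ => u • τ) =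
      fun τ : ℍ => Real.exp (-2 * Real.pi * ((e : ℝ) / f * τ.im)) := by
    ext τ
    simp only [Function.comp_apply]
    rw [him]
  rw [h2] at h1
  refine h1.trans ?_
  set C : ℂ := (((|(u.det : ℝ)| : ℝ) : ℂ) ^ ((12 : ℤ) - 1) * (f : ℂ) ^ (-(12 : ℤ))) with hC
  have hC0 : C ≠ 0 := by
    rw [hC]
    refine mul_ne_zero (zpow_ne_zero _ ?_) (zpow_ne_zero _ ?_)
    · exact_mod_cast (abs_pos.mpr hdet.ne').ne'
    · exact_mod_cast hf.ne'
  have h3 : (ModularForm.discriminant ∣[(12 : ℤ)] u) = fun τ => C * (discriminant ∘ fun τ : ℍ => u • τ) τ := by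
    ext τ
    rw [hslash, mul_comm]
    rfl
  rw [h3]
  exact Asymptotics.isBigO_self_const_mul hC0 _ _

theorem hDelta_isBigO (N : ℕ) [NeZero N] :
    (⇑(hDelta N) : ℍ → ℂ) =O[atImInfty] fun τ : ℍ => Real.exp (-2 * Real.pi * (N * τ.im)) := by
  have hN0 := NeZero.ne N
  have htend : Tendsto (fun τ : ℍ => heckeDiagMatrix N • τ) atImInfty atImInfty := by
    rw [atImInfty, tendsto_comap_iff]
    have : (UpperHalfPlane.im ∘ fun τ : ℍ => heckeDiagMatrix N • τ) =
        fun τ : ℍ => (N : ℝ) * τ.im := by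
      ext τ
      have h2 : (heckeDiagMatrix N • τ).im = ((heckeDiagMatrix N • τ : ℍ) : ℂ).im := rfl
      simp only [Function.comp_apply]
      rw [h2, coe_heckeDiagMatrix_smul hN0]
      simp
    rw [this]
    exact Tendsto.const_mul_atTop (by positivity) tendsto_comap
  have h0 : (discriminant : ℍ → ℂ) =O[atImInfty] fun τ : ℍ => Real.exp (-2 * Real.pi * τ.im) := by
    have := CuspFormClass.exp_decay_atImInfty (h := 1) CuspForm.discriminant one_pos
      one_mem_strictPeriods_SL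
    simpa using this
  have h1 := h0.comp_tendsto htend
  have h2 : ((fun τ : ℍ => Real.exp (-2 * Real.pi * τ.im)) ∘
      fun τ : ℍ => heckeDiagMatrix N • τ) =
      fun τ : ℍ => Real.exp (-2 * Real.pi * (N * τ.im)) := by
    ext τ
    have h2 : (heckeDiagMatrix N • τ).im = ((heckeDiagMatrix N • τ : ℍ) : ℂ).im := rfl
    simp only [Function.comp_apply]
    rw [h2, coe_heckeDiagMatrix_smul hN0]
    simp
  rw [h2] at h1
  have h3 : (⇑(hDelta N) : ℍ → ℂ) = fun τ => (N : ℂ) ^ ((12 : ℤ) - 1) *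
      (discriminant ∘ fun τ : ℍ => heckeDiagMatrix N • τ) τ := by
    ext τ
    rw [hDelta_coe, slash_heckeDiagMatrix_apply 12 hN0]
    rfl
  rw [h3]
  exact h1.const_mul_left _

/-- `Δ(Nz)` is only fixed by `Γ₀(N)`. -/
theorem hDelta_slash_ne (N : ℕ) [NeZero N] (g : SL(2, ℤ)) (hg : ¬ (N : ℤ) ∣ g 1 0) :
    (⇑(hDelta N) : ℍ → ℂ) ∣[(12 : ℤ)] (Matrix.SpecialLinearGroup.mapGL ℝ g : GL (Fin 2) ℝ) ≠
      ⇑(hDelta N) := by
  intro heq
  have hN0 := NeZero.ne N
  obtain ⟨γ, e, f, b, had, hef, heN, hmul⟩ := exists_upper N hN0 g hg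
  have h1 : (⇑(hDelta N) : ℍ → ℂ) ∣[(12 : ℤ)] (Matrix.SpecialLinearGroup.mapGL ℝ g : GL (Fin 2) ℝ) =
      ModularForm.discriminant ∣[(12 : ℤ)] upperTriangularGL e b f had := by
    rw [hDelta_coe, ← SlashAction.slash_mul, hmul, SlashAction.slash_mul]
    congr 1
    exact CuspForm.discriminant.slash_action_eq' _ ⟨γ, rfl⟩
  rw [h1] at heq
  have h2 := exp_isBigO_slash_upper e f b had
  rw [heq] at h2
  have h3 := h2.trans (hDelta_isBigO N)
  have he : (0 : ℝ) < e := by
    rcases Nat.eq_zero_or_pos e with rfl | h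
    · simp at had
    · exact_mod_cast h
  have hf : (0 : ℝ) < f := by
    rcases Nat.eq_zero_or_pos f with rfl | h
    · simp at had
    · exact_mod_cast h
  have hf1 : (1 : ℝ) ≤ f := by
    have : 0 < f := by exact_mod_cast hf
    exact_mod_cast this
  have hlt : (e : ℝ) / f < N := by
    have h4 : (e : ℝ) / f ≤ e := div_le_self he.le hf1
    have h5 : (e : ℝ) < N := by exact_mod_cast heN
    linarith
  set c : ℝ := 2 * Real.pi * (N - (e : ℝ) / f) with hc
  have hcpos : 0 < c := by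
    have := Real.pi_pos
    have : (0 : ℝ) < N - (e : ℝ) / f := by linarith
    positivity
  have h6 : (fun τ : ℍ => Real.exp (c * τ.im)) =O[atImInfty] fun _ : ℍ => (1 : ℝ) := by
    have h7 := h3.mul (Asymptotics.isBigO_refl
      (fun τ : ℍ => Real.exp (2 * Real.pi * (N * τ.im))) atImInfty)
    refine (h7.congr ?_ ?_)
    · intro τ
      rw [← Real.exp_add]
      congr 1
      rw [hc]; ring
    · intro τ
      rw [← Real.exp_add]
      simp
  have h8 := tendsto_exp_im_atImInfty hcpos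
  have h9 : Tendsto (fun τ : ℍ => ‖Real.exp (c * τ.im)‖) atImInfty atTop :=
    tendsto_abs_atTop_atTop.comp h8
  exact Filter.not_isBoundedUnder_of_tendsto_atTop h9 ((Asymptotics.isBigO_one_iff ℝ).mp h6)

end Fermat.Agent.ES
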