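import Mathlib

set_option autoImplicit false

/-!
# Symmetric expressions in the conjugates of modular forms
-/

open UpperHalfPlane hiding I
open ModularForm SlashInvariantForm SlashInvariantFormClass ModularFormClass
  CuspFormClass MatrixGroups OnePoint Filter EisensteinSeries
open scoped Topology Manifold MatrixGroups ModularForm

noncomputable section

namespace Fermat.Agent.ES

section combinatorics

variable {Q : Type*} [Fintype Q] [DecidableEq Q]

/-- `∑_{q, s : q ∉ s, #s = m} a_q ∏_{s} b` -/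
def gsum (a b : Q → ℂ) (m : ℕ) : ℂ :=
  ∑ x : Q × Finset Q, if x.1 ∉ x.2 ∧ x.2.card = m then a x.1 * ∏ q ∈ x.2, b q else 0

/-- elementary symmetric function -/
def esum (a : Q → ℂ) (m : ℕ) : ℂ :=
  ∑ s : Finset Q, if s.card = m then ∏ q ∈ s, a q else 0

theorem gsum_lagrange (a b : Q → ℂ) (x : ℂ) :
    ∑ m ∈ Finset.range (Fintype.card Q), (-1) ^ m * gsum a b m * x ^ (Fintype.card Q - 1 - m) =
      ∑ q, a q * ∏ q' ∈ Finset.univ.erase q, (x - b q') := by
  have h1 : ∀ q, ∏ q' ∈ Finset.univ.erase q, (x - b q') =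
      ∑ s ∈ (Finset.univ.erase q).powerset, (-1) ^ s.card * (∏ q' ∈ s, b q') *
        x ^ (Fintype.card Q - 1 - s.card) := by
    intro q
    have h2 : ∀ q' ∈ Finset.univ.erase q, (x - b q') = (-b q') + x := fun q' _ => by ring
    rw [Finset.prod_congr rfl h2, Finset.prod_add]
    refine Finset.sum_congr rfl fun s hs => ?_
    have hs' : s ⊆ Finset.univ.erase q := Finset.mem_powerset.mp hs
    rw [Finset.prod_neg, Finset.prod_const, Finset.card_sdiff_of_subset hs',
      Finset.card_erase_of_mem (Finset.mem_univ q), Finset.card_univ]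
  have h3 : ∀ q, a q * ∏ q' ∈ Finset.univ.erase q, (x - b q') =
      ∑ s : Finset Q, if q ∉ s then (-1) ^ s.card * (a q * ∏ q' ∈ s, b q') *
        x ^ (Fintype.card Q - 1 - s.card) else 0 := by
    intro q
    rw [h1, Finset.mul_sum, ← Finset.sum_filter]
    refine Finset.sum_congr ?_ fun s _ => by ring
    ext s
    simp only [Finset.mem_powerset, Finset.mem_filter, Finset.mem_univ, true_and]
    constructor
    · intro h hq
      exact (Finset.mem_erase.mp (h hq)).1 rfl
    · intro h q' hq'
      refine Finset.mem_erase.mpr ⟨?_, Finset.mem_univ _⟩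
      rintro rfl
      exact h hq'
  rw [Finset.sum_congr rfl fun q _ => h3 q]
  simp only [gsum, Finset.mul_sum, Finset.sum_mul]
  rw [Finset.sum_comm, ← Finset.univ_product_univ, Finset.sum_product]
  refine Finset.sum_congr rfl fun q _ => Finset.sum_congr rfl fun s _ => ?_
  by_cases hq : q ∉ s
  · have hcard : s.card < Fintype.card Q := by
      have : s ⊂ Finset.univ := by
        rw [Finset.ssubset_univ_iff]
        intro h
        exact hq (h ▸ Finset.mem_univ q)
      simpa using Finset.card_lt_card this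
    rw [Finset.sum_eq_single s.card]
    · simp only [hq, not_false_eq_true, and_self, if_true]
    · intro m _ hm
      simp [hm.symm]
    · intro h
      exact absurd (Finset.mem_range.mpr hcard) h
  · push Not at hq
    simp [hq]

theorem gsum_lagrange_self (a b : Q → ℂ) (q₀ : Q) :
    ∑ m ∈ Finset.range (Fintype.card Q), (-1) ^ m * gsum a b m * (b q₀) ^ (Fintype.card Q - 1 - m) =
      a q₀ * ∏ q' ∈ Finset.univ.erase q₀, (b q₀ - b q') := by
  rw [gsum_lagrange, Finset.sum_eq_single q₀]
  · intro q _ hq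
    rw [Finset.prod_eq_zero (i := q₀) (Finset.mem_erase.mpr ⟨hq.symm, Finset.mem_univ _⟩)
      (sub_self _), mul_zero]
  · intro h; exact absurd (Finset.mem_univ _) h

theorem esum_zero (a : Q → ℂ) : esum a 0 = 1 := by
  rw [esum, Finset.sum_eq_single ∅]
  · simp
  · intro s _ hs
    rw [if_neg]
    intro h
    exact hs (Finset.card_eq_zero.mp h)
  · simp

theorem esum_charpoly (a : Q → ℂ) (x : ℂ) :
    ∑ m ∈ Finset.range (Fintype.card Q + 1), (-1) ^ m * esum a m * x ^ (Fintype.card Q - m) =
      ∏ q, (x - a q) := by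
  have h2 : ∀ q ∈ Finset.univ, (x - a q) = (-a q) + x := fun q' _ => by ring
  rw [Finset.prod_congr rfl h2, Finset.prod_add, Finset.powerset_univ]
  simp only [esum, Finset.mul_sum, Finset.sum_mul]
  rw [Finset.sum_comm]
  refine Finset.sum_congr rfl fun s _ => ?_
  have hcard : s.card < Fintype.card Q + 1 := Nat.lt_succ_of_le (Finset.card_le_univ s)
  rw [Finset.sum_eq_single s.card, if_pos rfl, Finset.prod_neg, Finset.prod_const,
    Finset.card_sdiff_of_subset (Finset.subset_univ s), Finset.card_univ]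
  · intro m _ hm
    simp [hm.symm]
  · intro h
    exact absurd (Finset.mem_range.mpr hcard) h

theorem esum_charpoly_self (a : Q → ℂ) (q₀ : Q) :
    ∑ m ∈ Finset.range (Fintype.card Q + 1),
      (-1) ^ m * esum a m * (a q₀) ^ (Fintype.card Q - m) = 0 := by
  rw [esum_charpoly]
  exact Finset.prod_eq_zero (Finset.mem_univ q₀) (sub_self _)

theorem gsum_equiv (a b : Q → ℂ) (m : ℕ) (e : Equiv.Perm Q) :
    gsum (fun q => a (e q)) (fun q => b (e q)) m = gsum a b m := by
  rw [gsum, gsum]
  conv_rhs => rw [← Equiv.sum_comp (e.prodCongr e.finsetCongr)]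
  refine Finset.sum_congr rfl fun x _ => ?_
  simp

theorem esum_equiv (a : Q → ℂ) (m : ℕ) (e : Equiv.Perm Q) :
    esum (fun q => a (e q)) m = esum a m := by
  rw [esum, esum]
  conv_rhs => rw [← Equiv.sum_comp e.finsetCongr]
  refine Finset.sum_congr rfl fun x _ => ?_
  simp

theorem gsum_smul (a b : Q → ℂ) (m : ℕ) (c d : ℂ) :
    gsum (fun q => c * a q) (fun q => d * b q) m = c * d ^ m * gsum a b m := by
  simp only [gsum, Finset.mul_sum]
  refine Finset.sum_congr rfl fun x _ => ?_
  split_ifs with h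
  · rw [Finset.prod_mul_distrib, Finset.prod_const, h.2]; ring
  · simp

theorem esum_smul (a : Q → ℂ) (m : ℕ) (c : ℂ) :
    esum (fun q => c * a q) m = c ^ m * esum a m := by
  simp only [esum, Finset.mul_sum]
  refine Finset.sum_congr rfl fun x _ => ?_
  split_ifs with h
  · rw [Finset.prod_mul_distrib, Finset.prod_const, h]
  · simp

end combinatorics

section forms

variable {𝒢 : Subgroup (GL (Fin 2) ℝ)} [𝒢.IsArithmetic]

/-- the coset space -/
abbrev QQ (𝒢 : Subgroup (GL (Fin 2) ℝ)) := 𝒮ℒ ⧸ (𝒢.subgroupOf 𝒮ℒ)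

instance : Finite (QQ 𝒢) := by
  have : 𝒢.IsFiniteRelIndex 𝒮ℒ := inferInstance
  have := this.to_finiteIndex_subgroupOf
  exact Subgroup.finite_quotient_of_finiteIndex

noncomputable instance : Fintype (QQ 𝒢) := Fintype.ofFinite _
noncomputable instance : DecidableEq (QQ 𝒢) := Classical.decEq _

variable {k l : ℤ}

/-- the element of `𝒮ℒ` -/
def slElt (γ : SL(2, ℤ)) : 𝒮ℒ :=
  ⟨Matrix.SpecialLinearGroup.mapGL ℝ γ, MonoidHom.mem_range.mpr ⟨γ, rfl⟩⟩

theorem quotientFunc_smul_apply (f : ModularForm 𝒢 k) (γ : SL(2, ℤ)) (q : QQ 𝒢) (τ : ℍ) :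
    quotientFunc f q (γ • τ) = denom γ τ ^ k *
      quotientFunc f ((slElt γ)⁻¹ • q) τ := by
  have h1 := congrFun (quotientFunc_smul f
    (h := Matrix.SpecialLinearGroup.mapGL ℝ γ) (MonoidHom.mem_range.mpr ⟨γ, rfl⟩) q) τ
  change _ = quotientFunc f ((slElt γ)⁻¹ • q) τ at h1
  have h2 : (quotientFunc f q ∣[k] (Matrix.SpecialLinearGroup.mapGL ℝ γ : GL (Fin 2) ℝ)) τ =
      quotientFunc f q (γ • τ) * denom γ τ ^ (-k) := SL_slash_apply _ _ _
  rw [← h1, h2]
  have hd : denom γ (τ : ℂ) ≠ 0 := denom_ne_zero _ τ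
  rw [mul_comm, mul_assoc, ← zpow_add₀ hd]
  simp

theorem quotientFunc_mdiff (f : ModularForm 𝒢 k) (q : QQ 𝒢) : MDiff (quotientFunc f q) := by
  induction q using Quotient.inductionOn with
  | h r => exact (ModularFormClass.holo f).slash k _

theorem quotientFunc_bdd (f : ModularForm 𝒢 k) (q : QQ 𝒢) :
    IsBoundedAtImInfty (quotientFunc f q) := by
  induction q using Quotient.inductionOn with
  | h r =>
    obtain ⟨_, ⟨γ, rfl⟩⟩ := r
    have := ModularFormClass.bdd_at_infty_slash f γ⁻¹
    rw [ModularForm.SL_slash] at this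
    simpa using! this

theorem quotientFunc_zero (f : ModularForm 𝒢 k)
    (hf : ∀ γ : SL(2, ℤ), IsZeroAtImInfty (⇑f ∣[k] γ)) (q : QQ 𝒢) :
    IsZeroAtImInfty (quotientFunc f q) := by
  induction q using Quotient.inductionOn with
  | h r =>
    obtain ⟨_, ⟨γ, rfl⟩⟩ := r
    have := hf γ⁻¹
    rw [ModularForm.SL_slash] at this
    simpa using! this

theorem mdiff_finset_sum {ι : Type*} {s : Finset ι} {f : ι → ℍ → ℂ} (h : ∀ i ∈ s, MDiff (f i)) :
    MDiff (fun τ => ∑ i ∈ s, f i τ) := by
  classical
  induction s using Finset.induction_on with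
  | empty => simpa using mdifferentiable_const
  | insert a s ha ih =>
    simp only [Finset.sum_insert ha]
    exact (h a (Finset.mem_insert_self _ _)).add (ih fun i hi => h i (Finset.mem_insert_of_mem hi))

theorem mdiff_finset_prod {ι : Type*} {s : Finset ι} {f : ι → ℍ → ℂ} (h : ∀ i ∈ s, MDiff (f i)) :
    MDiff (fun τ => ∏ i ∈ s, f i τ) := by
  classical
  induction s using Finset.induction_on with
  | empty => simpa using mdifferentiable_const
  | insert a s ha ih =>
    simp only [Finset.prod_insert ha]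
    exact (h a (Finset.mem_insert_self _ _)).mul (ih fun i hi => h i (Finset.mem_insert_of_mem hi))

theorem bdd_finset_sum {ι : Type*} {s : Finset ι} {f : ι → ℍ → ℂ}
    (h : ∀ i ∈ s, IsBoundedAtImInfty (f i)) : IsBoundedAtImInfty (fun τ => ∑ i ∈ s, f i τ) := by
  classical
  induction s using Finset.induction_on with
  | empty => simpa using! Filter.const_boundedAtFilter atImInfty (0 : ℂ)
  | insert a s ha ih =>
    simp only [Finset.sum_insert ha]
    exact (h a (Finset.mem_insert_self _ _)).add (ih fun i hi => h i (Finset.mem_insert_of_mem hi))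

theorem bdd_finset_prod {ι : Type*} {s : Finset ι} {f : ι → ℍ → ℂ}
    (h : ∀ i ∈ s, IsBoundedAtImInfty (f i)) : IsBoundedAtImInfty (fun τ => ∏ i ∈ s, f i τ) := by
  classical
  induction s using Finset.induction_on with
  | empty => simpa using! Filter.const_boundedAtFilter atImInfty (1 : ℂ)
  | insert a s ha ih =>
    simp only [Finset.prod_insert ha]
    exact (h a (Finset.mem_insert_self _ _)).mul (ih fun i hi => h i (Finset.mem_insert_of_mem hi))

/-- building level one forms from functions with the right transformation behaviour -/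
def mkLevelOne (F : ℍ → ℂ) (w : ℤ) (h1 : ∀ (γ : SL(2, ℤ)) (τ : ℍ), F (γ • τ) = denom γ τ ^ w * F τ)
    (h2 : MDiff F) (h3 : IsBoundedAtImInfty F) : ModularForm 𝒮ℒ w :=
  have hinv : ∀ γ : SL(2, ℤ), F ∣[w] γ = F := fun γ => by
    ext τ
    rw [SL_slash_apply, h1]
    have hd : denom γ (τ : ℂ) ≠ 0 := denom_ne_zero _ τ
    rw [mul_comm, ← mul_assoc, ← zpow_add₀ hd]
    simp
  { toFun := F
    slash_action_eq' := by
      rintro _ ⟨γ, rfl⟩
      exact hinv γ
    holo' := h2
    bdd_at_cusps' := fun {c} hc => by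
      rw [isBoundedAt_iff_forall_SL2Z hc]
      intro γ _
      rw [hinv γ]
      exact h3 }

/-- the form `G_m(f, h)` -/
def gform (f : ModularForm 𝒢 k) (h : ModularForm 𝒢 l) (m : ℕ) : ModularForm 𝒮ℒ (k + m * l) :=
  mkLevelOne (fun τ => gsum (fun q : QQ 𝒢 => quotientFunc f q τ) (fun q => quotientFunc h q τ) m)
    (k + m * l)
    (by
      intro γ τ
      simp only [quotientFunc_smul_apply]
      rw [gsum_smul]
      have he := gsum_equiv (fun q : QQ 𝒢 => quotientFunc f q τ) (fun q => quotientFunc h q τ) m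
        (MulAction.toPerm (slElt γ)⁻¹)
      simp only [MulAction.toPerm_apply] at he
      rw [he]
      have hd : denom γ (τ : ℂ) ≠ 0 := denom_ne_zero _ τ
      rw [zpow_add₀ hd, mul_comm (m : ℤ) l, zpow_mul, zpow_natCast])
    (by
      refine mdiff_finset_sum fun x _ => ?_
      split_ifs
      · exact (quotientFunc_mdiff f _).mul (mdiff_finset_prod fun q _ => quotientFunc_mdiff h q)
      · exact mdifferentiable_const)
    (by
      refine bdd_finset_sum fun x _ => ?_
      split_ifs
      · exact (quotientFunc_bdd f _).mul (bdd_finset_prod fun q _ => quotientFunc_bdd h q)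
      · exact Filter.const_boundedAtFilter atImInfty (0 : ℂ))

theorem gform_apply (f : ModularForm 𝒢 k) (h : ModularForm 𝒢 l) (m : ℕ) (τ : ℍ) :
    gform f h m τ =
      gsum (fun q : QQ 𝒢 => quotientFunc f q τ) (fun q => quotientFunc h q τ) m := rfl

/-- the form `E_m(f)` -/
def eform (f : ModularForm 𝒢 k) (m : ℕ) : ModularForm 𝒮ℒ (m * k) :=
  mkLevelOne (fun τ => esum (fun q : QQ 𝒢 => quotientFunc f q τ) m) (m * k)
    (by
      intro γ τ
      simp only [quotientFunc_smul_apply]
      rw [esum_smul]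
      have he := esum_equiv (fun q : QQ 𝒢 => quotientFunc f q τ) m
        (MulAction.toPerm (slElt γ)⁻¹)
      simp only [MulAction.toPerm_apply] at he
      rw [he]
      rw [mul_comm (m : ℤ) k, zpow_mul, zpow_natCast])
    (by
      refine mdiff_finset_sum fun x _ => ?_
      split_ifs
      · exact mdiff_finset_prod fun q _ => quotientFunc_mdiff f q
      · exact mdifferentiable_const)
    (by
      refine bdd_finset_sum fun x _ => ?_
      split_ifs
      · exact bdd_finset_prod fun q _ => quotientFunc_bdd f q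
      · exact Filter.const_boundedAtFilter atImInfty (0 : ℂ))

theorem eform_apply (f : ModularForm 𝒢 k) (m : ℕ) (τ : ℍ) :
    eform f m τ = esum (fun q : QQ 𝒢 => quotientFunc f q τ) m := rfl

theorem zero_finset_sum {ι : Type*} {s : Finset ι} {f : ι → ℍ → ℂ}
    (h : ∀ i ∈ s, IsZeroAtImInfty (f i)) : IsZeroAtImInfty (fun τ => ∑ i ∈ s, f i τ) := by
  have := tendsto_finsetSum s h
  simpa using! this

theorem eform_zero_atImInfty (f : ModularForm 𝒢 k)
    (hf : ∀ γ : SL(2, ℤ), IsZeroAtImInfty (⇑f ∣[k] γ)) {m : ℕ} (hm : m ≠ 0) :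
    IsZeroAtImInfty (eform f m) := by
  have : (⇑(eform f m) : ℍ → ℂ) = fun τ => ∑ s : Finset (QQ 𝒢),
      (if s.card = m then ∏ q ∈ s, quotientFunc f q τ else 0) := rfl
  rw [this]
  refine zero_finset_sum fun s _ => ?_
  split_ifs with hs
  · obtain ⟨q, hq⟩ : s.Nonempty := by
      rw [← Finset.card_pos]; omega
    have h1 : (fun τ => ∏ q ∈ s, quotientFunc f q τ) =
        fun τ => quotientFunc f q τ * ∏ q ∈ s.erase q, quotientFunc f q τ := by
      ext τ
      rw [Finset.mul_prod_erase s (fun q => quotientFunc f q τ) hq]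
    rw [h1]
    exact (quotientFunc_zero f hf q).mul_boundedAtFilter
      (bdd_finset_prod fun q _ => quotientFunc_bdd f q)
  · exact Filter.zero_zeroAtFilter _

end forms

end Fermat.Agent.ES
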