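import Mathlib
import Fermat.Agent.ES.LevelOneSigma
import Fermat.Agent.ES.ConjPoly
import Fermat.Agent.ES.HolRing

set_option autoImplicit false

/-!
# Ring endomorphisms of `ℂ` acting on modular forms of higher level
-/

open UpperHalfPlane hiding I
open ModularForm SlashInvariantForm SlashInvariantFormClass ModularFormClass
  CuspFormClass MatrixGroups OnePoint Filter EisensteinSeries
open scoped Topology Manifold MatrixGroups ModularForm

noncomputable section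

namespace Fermat.Agent.ES

/-- element of `BRing` associated to a modular form -/
def bmk {Γ : Subgroup (GL (Fin 2) ℝ)} {k : ℤ} (h1 : (1 : ℝ) ∈ Γ.strictPeriods)
    (f : ModularForm Γ k) : BRing := ⟨f, mem_BRing h1 f⟩

theorem bmk_coe {Γ : Subgroup (GL (Fin 2) ℝ)} {k : ℤ} (h1 : (1 : ℝ) ∈ Γ.strictPeriods)
    (f : ModularForm Γ k) : ((bmk h1 f : BRing) : ℍ → ℂ) = f := rfl

theorem qhom_bmk {Γ : Subgroup (GL (Fin 2) ℝ)} {k : ℤ} (h1 : (1 : ℝ) ∈ Γ.strictPeriods)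
    (f : ModularForm Γ k) : qhom (bmk h1 f) = qExpansion 1 f := rfl

theorem bring_mdiff (F : BRing) : MDiff (F : ℍ → ℂ) := F.2.2.1

theorem form_smul_apply {Γ : Subgroup (GL (Fin 2) ℝ)} {k : ℤ} (f : ModularForm Γ k)
    (g : SL(2, ℤ)) (hg : (Matrix.SpecialLinearGroup.mapGL ℝ g : GL (Fin 2) ℝ) ∈ Γ) (τ : ℍ) :
    f (g • τ) = denom g τ ^ k * f τ := by
  have h1 := congrFun (f.slash_action_eq' _ hg) τ
  have h2 : ((f : ℍ → ℂ) ∣[k] (Matrix.SpecialLinearGroup.mapGL ℝ g : GL (Fin 2) ℝ)) τ =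
      f (g • τ) * denom g τ ^ (-k) := SL_slash_apply _ _ _
  have h3 : f (g • τ) * denom g τ ^ (-k) = f τ := h2.symm.trans h1
  have hd : denom g (τ : ℂ) ≠ 0 := denom_ne_zero _ τ
  rw [← h3, mul_comm, mul_assoc, ← zpow_add₀ hd]
  simp

theorem form_smul_apply_SL {k : ℤ} (f : ModularForm 𝒮ℒ k) (g : SL(2, ℤ)) (τ : ℍ) :
    f (g • τ) = denom g τ ^ k * f τ :=
  form_smul_apply f g ⟨g, rfl⟩ τ

section comb

/-- the sum `∑ (-1)^m G_m h^(ψ-1-m)` -/
def comb (ψ : ℕ) (G : ℕ → BRing) (H : BRing) : BRing :=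
  ∑ m ∈ Finset.range ψ, (-1) ^ m * G m * H ^ (ψ - 1 - m)

theorem comb_apply (ψ : ℕ) (G : ℕ → BRing) (H : BRing) (τ : ℍ) :
    (comb ψ G H : ℍ → ℂ) τ = ∑ m ∈ Finset.range ψ, (-1) ^ m * (G m : ℍ → ℂ) τ *
      ((H : ℍ → ℂ) τ) ^ (ψ - 1 - m) := by
  have h1 : ((comb ψ G H : BRing) : ℍ → ℂ) = ∑ m ∈ Finset.range ψ,
      ((-1 : ℍ → ℂ) ^ m * (G m : ℍ → ℂ) * (H : ℍ → ℂ) ^ (ψ - 1 - m)) := by
    rw [comb]
    push_cast
    rfl
  rw [h1, Finset.sum_apply]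
  simp

theorem qhom_comb (ψ : ℕ) (G : ℕ → BRing) (H : BRing) :
    qhom (comb ψ G H) = ∑ m ∈ Finset.range ψ, (-1) ^ m * qhom (G m) * qhom H ^ (ψ - 1 - m) := by
  simp [comb]

theorem pmap_qhom_comb (σ : ℂ →+* ℂ) (ψ : ℕ) (G G' : ℕ → BRing) (H : BRing)
    (hG : ∀ m, pmap σ (qhom (G m)) = qhom (G' m)) (hH : pmap σ (qhom H) = qhom H) :
    pmap σ (qhom (comb ψ G H)) = qhom (comb ψ G' H) := by
  simp only [pmap] at hG hH ⊢
  rw [qhom_comb, qhom_comb, map_sum]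
  refine Finset.sum_congr rfl fun m _ => ?_
  rw [map_mul, map_mul, map_pow, map_pow, map_neg, map_one, hG, hH]

end comb

variable {𝒢 : Subgroup (GL (Fin 2) ℝ)} [𝒢.IsArithmetic] {k l : ℤ}

theorem quotientFunc_one (f : ModularForm 𝒢 k) :
    quotientFunc f (QuotientGroup.mk 1 : QQ 𝒢) = f := by
  have : quotientFunc f (⟦1⟧ : QQ 𝒢) = (f : ℍ → ℂ) ∣[k] ((1 : 𝒮ℒ) : GL (Fin 2) ℝ)⁻¹ := rfl
  have h2 : quotientFunc f (QuotientGroup.mk 1 : QQ 𝒢) = quotientFunc f (⟦1⟧ : QQ 𝒢) := rfl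
  rw [h2, this]
  simp

/-- the hypotheses on the auxiliary form -/
structure IsGood (h : ModularForm 𝒢 l) : Prop where
  period : (1 : ℝ) ∈ 𝒢.strictPeriods
  le : 𝒢 ≤ 𝒮ℒ
  inv : ∀ σ : ℂ →+* ℂ, pmap σ (qExpansion 1 h) = qExpansion 1 h
  dist : ∀ g : SL(2, ℤ), (Matrix.SpecialLinearGroup.mapGL ℝ g : GL (Fin 2) ℝ) ∉ 𝒢 →
    (⇑h : ℍ → ℂ) ∣[l] (Matrix.SpecialLinearGroup.mapGL ℝ g : GL (Fin 2) ℝ) ≠ ⇑h

theorem IsGood.quotientFunc_ne {h : ModularForm 𝒢 l} (hh : IsGood h) {q : QQ 𝒢}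
    (hq : q ≠ QuotientGroup.mk 1) : quotientFunc h q ≠ h := by
  induction q using Quotient.inductionOn with
  | h r =>
    obtain ⟨x, ⟨γ, rfl⟩⟩ := r
    have h1 : quotientFunc h (⟦⟨Matrix.SpecialLinearGroup.mapGL ℝ γ, ⟨γ, rfl⟩⟩⟧ : QQ 𝒢) =
      (h : ℍ → ℂ) ∣[l] (Matrix.SpecialLinearGroup.mapGL ℝ γ⁻¹ : GL (Fin 2) ℝ) := by
      rw [quotientFunc_mk, map_inv]
    rw [h1]
    refine hh.dist γ⁻¹ fun hcon => hq ?_
    symm
    change (QuotientGroup.mk _ : QQ 𝒢) = QuotientGroup.mk _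
    rw [QuotientGroup.eq, inv_one, one_mul, Subgroup.mem_subgroupOf]
    have := inv_mem hcon
    rwa [map_inv, inv_inv] at this

variable (f : ModularForm 𝒢 k) {h : ModularForm 𝒢 l} (hh : IsGood h) (σ : ℂ →+* ℂ)

/-- `ψ` -/
abbrev psi (𝒢 : Subgroup (GL (Fin 2) ℝ)) [𝒢.IsArithmetic] : ℕ := Fintype.card (QQ 𝒢)

/-- unconjugated combination -/
def comb0 (f : ModularForm 𝒢 k) {h : ModularForm 𝒢 l} (hh : IsGood h) : BRing :=
  comb (psi 𝒢) (fun m => bmk one_mem_strictPeriods_SL (gform f h m)) (bmk hh.period h)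

/-- conjugated combination -/
def combσ (σ : ℂ →+* ℂ) (f : ModularForm 𝒢 k) {h : ModularForm 𝒢 l} (hh : IsGood h) : BRing :=
  comb (psi 𝒢) (fun m => bmk one_mem_strictPeriods_SL (sig σ (gform f h m))) (bmk hh.period h)

theorem comb0_apply (τ : ℍ) : (comb0 f hh : ℍ → ℂ) τ =
    f τ * ∏ q' ∈ Finset.univ.erase (QuotientGroup.mk 1 : QQ 𝒢), (h τ - quotientFunc h q' τ) := by
  rw [comb0, comb_apply]
  have h1 := gsum_lagrange_self (fun q : QQ 𝒢 => quotientFunc f q τ)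
    (fun q => quotientFunc h q τ) (QuotientGroup.mk 1)
  simp only [quotientFunc_one] at h1
  exact h1

theorem pmap_comb0 : pmap σ (qhom (comb0 f hh)) = qhom (combσ σ f hh) := by
  refine pmap_qhom_comb σ _ _ _ _ (fun m => ?_) ?_
  · rw [qhom_bmk, qhom_bmk, qExpansion_sig]
  · exact hh.inv σ

theorem comb0_one_ne_zero : (comb0 (1 : ModularForm 𝒢 0) hh : ℍ → ℂ) ≠ 0 := by
  intro hcon
  have h1 : ∏ q' ∈ Finset.univ.erase (QuotientGroup.mk 1 : QQ 𝒢),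
      ((⇑h : ℍ → ℂ) - quotientFunc h q') = 0 := by
    ext τ
    have := congrFun hcon τ
    rw [comb0_apply, ModularForm.one_coe_eq_one, Pi.one_apply, one_mul] at this
    rw [Finset.prod_apply]
    exact this
  rw [UpperHalfPlane.prod_eq_zero_iff] at h1
  · obtain ⟨q, hq, hq0⟩ := h1
    exact hh.quotientFunc_ne (Finset.mem_erase.mp hq).1 (sub_eq_zero.mp hq0).symm
  · intro q _
    exact (ModularFormClass.holo h).sub (quotientFunc_mdiff h q)

theorem combσ_one_ne_zero : (combσ σ (1 : ModularForm 𝒢 0) hh : ℍ → ℂ) ≠ 0 := by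
  intro hcon
  have h1 : combσ σ (1 : ModularForm 𝒢 0) hh = 0 := Subtype.ext hcon
  have h2 := pmap_comb0 (1 : ModularForm 𝒢 0) hh σ
  rw [h1, map_zero] at h2
  have h3 : qhom (comb0 (1 : ModularForm 𝒢 0) hh) = 0 := by
    refine PowerSeries.map_injective σ σ.injective ?_
    rw [map_zero]; exact h2
  have h4 : comb0 (1 : ModularForm 𝒢 0) hh = 0 := by
    apply qhom_injective
    rw [h3, map_zero]
  exact comb0_one_ne_zero hh (by rw [h4]; rfl)

theorem comb0_eq : comb0 f hh = bmk hh.period f * comb0 (1 : ModularForm 𝒢 0) hh := by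
  apply Subtype.ext
  funext τ
  rw [comb0_apply]
  change _ = f τ * (comb0 (1 : ModularForm 𝒢 0) hh : ℍ → ℂ) τ
  rw [comb0_apply, ModularForm.one_coe_eq_one, Pi.one_apply, one_mul]

theorem charpoly0 : ∑ m ∈ Finset.range (psi 𝒢 + 1), (-1) ^ m *
    bmk one_mem_strictPeriods_SL (eform f m) * (comb0 (1 : ModularForm 𝒢 0) hh) ^ m *
      (comb0 f hh) ^ (psi 𝒢 - m) = 0 := by
  have h1 : ∑ m ∈ Finset.range (psi 𝒢 + 1), (-1) ^ m *
      bmk one_mem_strictPeriods_SL (eform f m) * (bmk hh.period f) ^ (psi 𝒢 - m) = 0 := by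
    apply Subtype.ext
    funext τ
    have h2 := esum_charpoly_self (fun q : QQ 𝒢 => quotientFunc f q τ) (QuotientGroup.mk 1)
    simp only [quotientFunc_one] at h2
    have h3 : ((∑ m ∈ Finset.range (psi 𝒢 + 1), (-1) ^ m *
      bmk one_mem_strictPeriods_SL (eform f m) * (bmk hh.period f) ^ (psi 𝒢 - m) : BRing) :
        ℍ → ℂ) = ∑ m ∈ Finset.range (psi 𝒢 + 1), ((-1 : ℍ → ℂ) ^ m * (⇑(eform f m) : ℍ → ℂ) *
          (⇑f : ℍ → ℂ) ^ (psi 𝒢 - m)) := by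
      push_cast
      rfl
    rw [h3, Finset.sum_apply]
    simpa [eform_apply] using h2
  have h4 : (comb0 (1 : ModularForm 𝒢 0) hh) ^ (psi 𝒢) * ∑ m ∈ Finset.range (psi 𝒢 + 1), (-1) ^ m *
      bmk one_mem_strictPeriods_SL (eform f m) * (bmk hh.period f) ^ (psi 𝒢 - m) = 0 := by
    rw [h1, mul_zero]
  rw [← h4, Finset.mul_sum]
  refine Finset.sum_congr rfl fun m hm => ?_
  have hm' : m ≤ psi 𝒢 := Nat.lt_succ_iff.mp (Finset.mem_range.mp hm)
  rw [comb0_eq f hh, mul_pow]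
  have : (comb0 (1 : ModularForm 𝒢 0) hh) ^ (psi 𝒢) =
      (comb0 (1 : ModularForm 𝒢 0) hh) ^ m * (comb0 (1 : ModularForm 𝒢 0) hh) ^ (psi 𝒢 - m) := by
    rw [← pow_add, Nat.add_sub_cancel' hm']
  rw [this]
  ring

theorem charpolyσ : ∑ m ∈ Finset.range (psi 𝒢 + 1), (-1) ^ m *
    bmk one_mem_strictPeriods_SL (sig σ (eform f m)) * (combσ σ (1 : ModularForm 𝒢 0) hh) ^ m *
      (combσ σ f hh) ^ (psi 𝒢 - m) = 0 := by
  apply qhom_injective
  have h1 := congrArg (fun x => pmap σ (qhom x)) (charpoly0 f hh)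
  simp only [map_sum, map_mul, map_pow, map_neg, map_one, map_zero] at h1 ⊢
  rw [← h1]
  refine Finset.sum_congr rfl fun m _ => ?_
  have e1 := pmap_comb0 f hh σ
  have e2 := pmap_comb0 (1 : ModularForm 𝒢 0) hh σ
  simp only [pmap] at e1 e2
  rw [e1, e2, qhom_bmk, qhom_bmk, qExpansion_sig]

theorem comb_smul_apply (ψ : ℕ) (G : (m : ℕ) → ModularForm 𝒮ℒ (k + m * l)) (g : SL(2, ℤ))
    (hg : (Matrix.SpecialLinearGroup.mapGL ℝ g : GL (Fin 2) ℝ) ∈ 𝒢) (τ : ℍ) :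
    (comb ψ (fun m => bmk one_mem_strictPeriods_SL (G m)) (bmk hh.period h) : ℍ → ℂ) (g • τ) =
      denom g τ ^ (k + ((ψ - 1 : ℕ) : ℤ) * l) *
      (comb ψ (fun m => bmk one_mem_strictPeriods_SL (G m)) (bmk hh.period h) : ℍ → ℂ) τ := by
  rw [comb_apply, comb_apply, Finset.mul_sum]
  refine Finset.sum_congr rfl fun m hm => ?_
  have hm' : m ≤ ψ - 1 := by have := Finset.mem_range.mp hm; omega
  rw [bmk_coe, bmk_coe, form_smul_apply_SL, form_smul_apply h g hg, mul_pow]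
  have hd : denom g (τ : ℂ) ≠ 0 := denom_ne_zero _ τ
  have h1 : denom g (τ : ℂ) ^ (k + ((ψ - 1 : ℕ) : ℤ) * l) =
      denom g (τ : ℂ) ^ (k + m * l) * (denom g (τ : ℂ) ^ l) ^ (ψ - 1 - m) := by
    rw [← zpow_natCast (denom g (τ : ℂ) ^ l), ← zpow_mul, ← zpow_add₀ hd]
    congr 1
    rw [Nat.cast_sub hm']
    ring
  rw [h1]
  ring

theorem sig_eform_zero : (⇑(sig σ (eform f 0)) : ℍ → ℂ) = 1 := by
  have h0 : (⇑(eform f 0) : ℍ → ℂ) = 1 := by
    ext τ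
    rw [eform_apply, esum_zero]
    rfl
  have h1 : bmk one_mem_strictPeriods_SL (sig σ (eform f 0)) = 1 := by
    apply qhom_injective
    rw [qhom_bmk, qExpansion_sig, h0, UpperHalfPlane.qExpansion_one, map_one, pmap, map_one]
  have h2 := congrArg (fun x : BRing => (x : ℍ → ℂ)) h1
  exact h2

theorem charpolyσ_apply (τ : ℍ) : ∑ m ∈ Finset.range (psi 𝒢 + 1), (-1) ^ m *
    sig σ (eform f m) τ * ((combσ σ (1 : ModularForm 𝒢 0) hh : ℍ → ℂ) τ) ^ m *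
      ((combσ σ f hh : ℍ → ℂ) τ) ^ (psi 𝒢 - m) = 0 := by
  have h1 := charpolyσ f hh σ
  have h3 : ((∑ m ∈ Finset.range (psi 𝒢 + 1), (-1) ^ m *
    bmk one_mem_strictPeriods_SL (sig σ (eform f m)) * (combσ σ (1 : ModularForm 𝒢 0) hh) ^ m *
      (combσ σ f hh) ^ (psi 𝒢 - m) : BRing) :
        ℍ → ℂ) = ∑ m ∈ Finset.range (psi 𝒢 + 1), ((-1 : ℍ → ℂ) ^ m *
          (⇑(sig σ (eform f m)) : ℍ → ℂ) *
          ((combσ σ (1 : ModularForm 𝒢 0) hh : BRing) : ℍ → ℂ) ^ m *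
          ((combσ σ f hh : BRing) : ℍ → ℂ) ^ (psi 𝒢 - m)) := by
    push_cast
    rfl
  rw [h1] at h3
  have h4 := congrFun h3 τ
  rw [Finset.sum_apply] at h4
  simp only [Pi.mul_apply, Pi.pow_apply, Pi.neg_apply, Pi.one_apply] at h4
  exact h4.symm

/-- **Existence of the conjugate form (holomorphic function).** -/
theorem exists_conj_fun : ∃ F : ℍ → ℂ, MDiff F ∧
    (∀ τ, (combσ σ f hh : ℍ → ℂ) τ = (combσ σ (1 : ModularForm 𝒢 0) hh : ℍ → ℂ) τ * F τ) := by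
  refine exists_holo_quotient (bring_mdiff _) (bring_mdiff _) (combσ_one_ne_zero hh σ) (psi 𝒢)
    (fun m τ => (-1) ^ m * sig σ (eform f m) τ) (fun m => ?_) ?_ ?_
  · exact mdifferentiable_const.mul (ModularFormClass.holo (sig σ (eform f m)))
  · ext τ
    simp only [pow_zero, one_mul]
    exact congrFun (sig_eform_zero f σ) τ
  · exact charpolyσ_apply f hh σ

/-- the conjugate of `f`, as a function -/
def conjFun (σ : ℂ →+* ℂ) (f : ModularForm 𝒢 k) {h : ModularForm 𝒢 l} (hh : IsGood h) : ℍ → ℂ :=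
  (exists_conj_fun f hh σ).choose

theorem conjFun_mdiff : MDiff (conjFun σ f hh) := (exists_conj_fun f hh σ).choose_spec.1

theorem conjFun_spec (τ : ℍ) : (combσ σ f hh : ℍ → ℂ) τ =
    (combσ σ (1 : ModularForm 𝒢 0) hh : ℍ → ℂ) τ * conjFun σ f hh τ :=
  (exists_conj_fun f hh σ).choose_spec.2 τ

/-- cancellation of `D` -/
theorem cancel_D {F : ℍ → ℂ} (hF : MDiff F) (n : ℕ)
    (h0 : ∀ τ, ((combσ σ (1 : ModularForm 𝒢 0) hh : ℍ → ℂ) τ) ^ n * F τ = 0) : F = 0 := by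
  induction n with
  | zero => ext τ; simpa using h0 τ
  | succ n ih =>
    apply ih
    intro τ
    have h1 : (combσ σ (1 : ModularForm 𝒢 0) hh : ℍ → ℂ) *
        (fun τ => ((combσ σ (1 : ModularForm 𝒢 0) hh : ℍ → ℂ) τ) ^ n * F τ) = 0 := by
      ext τ
      simp only [Pi.mul_apply, Pi.zero_apply]
      rw [← mul_assoc, ← pow_succ']
      exact h0 τ
    rw [UpperHalfPlane.mul_eq_zero_iff (bring_mdiff _)] at h1
    · have h2 := h1.resolve_left (combσ_one_ne_zero hh σ)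
      exact congrFun h2 τ
    · exact ((bring_mdiff _).pow n).mul hF

theorem conjFun_charpoly (τ : ℍ) : ∑ m ∈ Finset.range (psi 𝒢 + 1), (-1) ^ m *
    sig σ (eform f m) τ * (conjFun σ f hh τ) ^ (psi 𝒢 - m) = 0 := by
  have h1 : (fun τ => ∑ m ∈ Finset.range (psi 𝒢 + 1), (-1) ^ m *
      sig σ (eform f m) τ * (conjFun σ f hh τ) ^ (psi 𝒢 - m)) = 0 := by
    refine cancel_D hh σ ?_ (psi 𝒢) ?_
    · refine mdiff_finset_sum fun m _ => ?_
      exact (mdifferentiable_const.mul (ModularFormClass.holo (sig σ (eform f m)))).mul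
        ((conjFun_mdiff f hh σ).pow _)
    · intro τ
      rw [← charpolyσ_apply f hh σ τ, Finset.mul_sum]
      refine Finset.sum_congr rfl fun m hm => ?_
      have hm' : m ≤ psi 𝒢 := Nat.lt_succ_iff.mp (Finset.mem_range.mp hm)
      rw [conjFun_spec f hh σ τ, mul_pow]
      have : ((combσ σ (1 : ModularForm 𝒢 0) hh : ℍ → ℂ) τ) ^ (psi 𝒢) =
          ((combσ σ (1 : ModularForm 𝒢 0) hh : ℍ → ℂ) τ) ^ m *
          ((combσ σ (1 : ModularForm 𝒢 0) hh : ℍ → ℂ) τ) ^ (psi 𝒢 - m) := by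
        rw [← pow_add, Nat.add_sub_cancel' hm']
      rw [this]
      ring
  exact congrFun h1 τ

theorem conjFun_smul (g : SL(2, ℤ))
    (hg : (Matrix.SpecialLinearGroup.mapGL ℝ g : GL (Fin 2) ℝ) ∈ 𝒢) :
    conjFun σ f hh ∣[k] g = conjFun σ f hh := by
  rw [← sub_eq_zero]
  refine cancel_D hh σ (((conjFun_mdiff f hh σ).slash k _).sub (conjFun_mdiff f hh σ)) 1 ?_
  intro τ
  have h1 := conjFun_spec f hh σ (g • τ)
  have h2 := conjFun_spec f hh σ τ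
  have e1 := comb_smul_apply (k := k) hh (psi 𝒢) (fun m => sig σ (gform f h m)) g hg τ
  have e2 := comb_smul_apply (k := 0) hh (psi 𝒢)
    (fun m => sig σ (gform (1 : ModularForm 𝒢 0) h m)) g hg τ
  change (combσ σ f hh : ℍ → ℂ) (g • τ) = _ * (combσ σ f hh : ℍ → ℂ) τ at e1
  change (combσ σ (1 : ModularForm 𝒢 0) hh : ℍ → ℂ) (g • τ) =
    _ * (combσ σ (1 : ModularForm 𝒢 0) hh : ℍ → ℂ) τ at e2
  rw [e1, e2, h2] at h1
  have hd : denom g (τ : ℂ) ≠ 0 := denom_ne_zero _ τ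
  rw [pow_one, Pi.sub_apply, SL_slash_apply, mul_sub]
  rw [zero_add, zpow_add₀ hd] at h1
  have h3 : denom g (τ : ℂ) ^ (((psi 𝒢 - 1 : ℕ) : ℤ) * l) ≠ 0 := zpow_ne_zero _ hd
  have h4 : denom g (τ : ℂ) ^ k ≠ 0 := zpow_ne_zero _ hd
  rw [zpow_neg]
  field_simp
  apply mul_left_cancel₀ h3
  linear_combination -h1

/-- `q`-expansion -/
theorem conjFun_bdd_slash (g : SL(2, ℤ)) : IsBoundedAtImInfty (conjFun σ f hh ∣[k] g) := by
  have h0 : ∀ τ, ∑ m ∈ Finset.range (psi 𝒢 + 1), ((-1) ^ m *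
      sig σ (eform f m) τ) * ((conjFun σ f hh ∣[k] g) τ) ^ (psi 𝒢 - m) = 0 := by
    intro τ
    have h1 := conjFun_charpoly f hh σ (g • τ)
    have hd : denom g (τ : ℂ) ≠ 0 := denom_ne_zero _ τ
    have h2 : (denom g (τ : ℂ) ^ k) ^ (psi 𝒢) ≠ 0 := pow_ne_zero _ (zpow_ne_zero _ hd)
    apply mul_left_cancel₀ h2
    rw [mul_zero, ← h1, Finset.mul_sum]
    refine Finset.sum_congr rfl fun m hm => ?_
    have hm' : m ≤ psi 𝒢 := Nat.lt_succ_iff.mp (Finset.mem_range.mp hm)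
    rw [form_smul_apply_SL, SL_slash_apply, mul_pow]
    have h3 : (denom g (τ : ℂ) ^ k) ^ (psi 𝒢) = (denom g (τ : ℂ) ^ k) ^ m *
        (denom g (τ : ℂ) ^ k) ^ (psi 𝒢 - m) := by
      rw [← pow_add, Nat.add_sub_cancel' hm']
    have h4 : denom g (τ : ℂ) ^ ((m : ℤ) * k) = (denom g (τ : ℂ) ^ k) ^ m := by
      rw [mul_comm, zpow_mul, zpow_natCast]
    have h5 : (denom g (τ : ℂ) ^ k) ^ (psi 𝒢 - m) * (denom g (τ : ℂ) ^ (-k)) ^ (psi 𝒢 - m) = 1 := by
      rw [← mul_pow, ← zpow_add₀ hd]; simp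
    rw [h3, h4]
    linear_combination ((denom g (τ : ℂ) ^ k) ^ m * (-1) ^ m * sig σ (eform f m) τ *
      (conjFun σ f hh (g • τ)) ^ (psi 𝒢 - m)) * h5
  have hB : ∀ m, IsBoundedAtImInfty (⇑(sig σ (eform f m)) : ℍ → ℂ) := fun m =>
    ModularFormClass.bdd_at_infty _
  -- the bound
  have hbd : ∃ M A : ℝ, ∀ τ : ℍ, A ≤ τ.im →
      ∑ m ∈ Finset.Icc 1 (psi 𝒢), ‖(-1) ^ m * sig σ (eform f m) τ‖ ≤ M := by
    have h1 : ∀ m, ∃ M A : ℝ, ∀ τ : ℍ, A ≤ τ.im → ‖sig σ (eform f m) τ‖ ≤ M := fun m =>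
      UpperHalfPlane.isBoundedAtImInfty_iff.mp (hB m)
    choose M A hMA using h1
    refine ⟨∑ m ∈ Finset.Icc 1 (psi 𝒢), M m, ∑ m ∈ Finset.Icc 1 (psi 𝒢), |A m|, fun τ hτ => ?_⟩
    refine Finset.sum_le_sum fun m hm => ?_
    rw [norm_mul, norm_pow, norm_neg, norm_one, one_pow, one_mul]
    refine hMA m τ (le_trans (le_abs_self _) (le_trans ?_ hτ))
    exact Finset.single_le_sum (f := fun m => |A m|) (fun i _ => abs_nonneg _) hm
  obtain ⟨M, A, hMA⟩ := hbd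
  rw [UpperHalfPlane.isBoundedAtImInfty_iff]
  refine ⟨max 1 M, A, fun τ hτ => ?_⟩
  refine (root_bound (psi 𝒢) (fun m => (-1) ^ m * sig σ (eform f m) τ) ?_ (h0 τ)).trans
    (max_le_max le_rfl (hMA τ hτ))
  simp only [pow_zero, one_mul]
  exact congrFun (sig_eform_zero f σ) τ

theorem sig_zero_atImInfty {w : ℤ} {F : ModularForm 𝒮ℒ w} (hF : IsZeroAtImInfty F) :
    IsZeroAtImInfty (sig σ F) := by
  have h1 : valueAtInfty (⇑F : ℍ → ℂ) = 0 := hF.valueAtInfty_eq_zero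
  have h2 : (qExpansion 1 F).coeff 0 = 0 := by
    rw [UpperHalfPlane.qExpansion_coeff_zero one_pos
      (ModularFormClass.analyticAt_cuspFunction_zero F one_pos one_mem_strictPeriods_SL)
      (periodic_comp_ofComplex F one_mem_strictPeriods_SL), h1]
  have h3 : (qExpansion 1 (sig σ F)).coeff 0 = 0 := by
    rw [qExpansion_sig, pmap, PowerSeries.coeff_map, h2, map_zero]
  rw [UpperHalfPlane.qExpansion_coeff_zero one_pos
      (ModularFormClass.analyticAt_cuspFunction_zero (sig σ F) one_pos one_mem_strictPeriods_SL)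
      (periodic_comp_ofComplex (sig σ F) one_mem_strictPeriods_SL)] at h3
  have h4 := UpperHalfPlane.exp_decay_sub_atImInfty one_pos
    (periodic_comp_ofComplex (sig σ F) one_mem_strictPeriods_SL)
    (ModularFormClass.holo (sig σ F)) (ModularFormClass.bdd_at_infty (sig σ F))
  rw [h3] at h4
  simp only [sub_zero] at h4
  refine h4.trans_tendsto ?_
  have h5 : Tendsto (fun τ : ℍ => Real.exp (-(2 * Real.pi * τ.im))) atImInfty (𝓝 0) :=
    Real.tendsto_exp_neg_atTop_nhds_zero.comp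
      (Tendsto.const_mul_atTop (by positivity) tendsto_comap)
  refine h5.congr fun τ => ?_
  congr 1; ring

theorem conjFun_charpoly_slash (g : SL(2, ℤ)) (τ : ℍ) :
    ∑ m ∈ Finset.range (psi 𝒢 + 1), ((-1) ^ m *
      sig σ (eform f m) τ) * ((conjFun σ f hh ∣[k] g) τ) ^ (psi 𝒢 - m) = 0 := by
  have h1 := conjFun_charpoly f hh σ (g • τ)
  have hd : denom g (τ : ℂ) ≠ 0 := denom_ne_zero _ τ
  have h2 : (denom g (τ : ℂ) ^ k) ^ (psi 𝒢) ≠ 0 := pow_ne_zero _ (zpow_ne_zero _ hd)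
  apply mul_left_cancel₀ h2
  rw [mul_zero, ← h1, Finset.mul_sum]
  refine Finset.sum_congr rfl fun m hm => ?_
  have hm' : m ≤ psi 𝒢 := Nat.lt_succ_iff.mp (Finset.mem_range.mp hm)
  rw [form_smul_apply_SL, SL_slash_apply, mul_pow]
  have h3 : (denom g (τ : ℂ) ^ k) ^ (psi 𝒢) = (denom g (τ : ℂ) ^ k) ^ m *
      (denom g (τ : ℂ) ^ k) ^ (psi 𝒢 - m) := by
    rw [← pow_add, Nat.add_sub_cancel' hm']
  have h4 : denom g (τ : ℂ) ^ ((m : ℤ) * k) = (denom g (τ : ℂ) ^ k) ^ m := by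
    rw [mul_comm, zpow_mul, zpow_natCast]
  have h5 : (denom g (τ : ℂ) ^ k) ^ (psi 𝒢 - m) * (denom g (τ : ℂ) ^ (-k)) ^ (psi 𝒢 - m) = 1 := by
    rw [← mul_pow, ← zpow_add₀ hd]; simp
  rw [h3, h4]
  linear_combination ((denom g (τ : ℂ) ^ k) ^ m * (-1) ^ m * sig σ (eform f m) τ *
    (conjFun σ f hh (g • τ)) ^ (psi 𝒢 - m)) * h5

theorem conjFun_zero_slash (hf : ∀ γ : SL(2, ℤ), IsZeroAtImInfty (⇑f ∣[k] γ)) (g : SL(2, ℤ)) :
    IsZeroAtImInfty (conjFun σ f hh ∣[k] g) := by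
  have h0 := conjFun_charpoly_slash f hh σ g
  have hz : ∀ m, m ≠ 0 → IsZeroAtImInfty (⇑(sig σ (eform f m)) : ℍ → ℂ) := fun m hm =>
    sig_zero_atImInfty σ (eform_zero_atImInfty f hf hm)
  have hsum : Tendsto (fun τ : ℍ => ∑ m ∈ Finset.Icc 1 (psi 𝒢),
      ‖(-1) ^ m * sig σ (eform f m) τ‖) atImInfty (𝓝 0) := by
    have h1 : ∀ m ∈ Finset.Icc 1 (psi 𝒢),
        Tendsto (fun τ : ℍ => ‖(-1) ^ m * sig σ (eform f m) τ‖) atImInfty (𝓝 0) := by
      intro m hm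
      have h2 := (hz m (by have := (Finset.mem_Icc.mp hm).1; omega)).norm
      rw [norm_zero] at h2
      refine h2.congr fun τ => ?_
      rw [norm_mul, norm_pow, norm_neg, norm_one, one_pow, one_mul]
    simpa using tendsto_finsetSum _ h1
  have hpsi : 0 < psi 𝒢 := Fintype.card_pos_iff.mpr ⟨QuotientGroup.mk 1⟩
  rw [IsZeroAtImInfty, ZeroAtFilter, Metric.tendsto_nhds]
  intro ε hε
  set ε' : ℝ := min (ε ^ (psi 𝒢) / 2) (1 / 2) with hε'
  have hε'pos : 0 < ε' := by positivity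
  have hev := (Metric.tendsto_nhds.mp hsum) ε' hε'pos
  filter_upwards [hev] with τ hτ
  have h1 : ∑ m ∈ Finset.Icc 1 (psi 𝒢), ‖(-1) ^ m * sig σ (eform f m) τ‖ ≤ ε' := by
    rw [Real.dist_eq, sub_zero] at hτ
    exact (le_abs_self _).trans hτ.le
  have h2 := root_small (psi 𝒢) (fun m => (-1) ^ m * sig σ (eform f m) τ)
    (by simp only [pow_zero, one_mul]; exact congrFun (sig_eform_zero f σ) τ)
    (lt_of_le_of_lt (min_le_right _ _) (by norm_num)) (h0 τ) h1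
  rw [dist_zero_right]
  have h3 : ‖(conjFun σ f hh ∣[k] g) τ‖ ^ (psi 𝒢) < ε ^ (psi 𝒢) := by
    refine lt_of_le_of_lt h2 (lt_of_le_of_lt (min_le_left _ _) ?_)
    have : 0 < ε ^ (psi 𝒢) := by positivity
    linarith
  exact lt_of_pow_lt_pow_left₀ _ hε.le h3

/-- **The conjugate of a modular form** -/
def conjForm (σ : ℂ →+* ℂ) (f : ModularForm 𝒢 k) {h : ModularForm 𝒢 l} (hh : IsGood h) :
    ModularForm 𝒢 k where
  toFun := conjFun σ f hh
  slash_action_eq' := by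
    intro γ hγ
    obtain ⟨g, rfl⟩ := hh.le hγ
    exact conjFun_smul f hh σ g hγ
  holo' := conjFun_mdiff f hh σ
  bdd_at_cusps' := fun {c} hc => by
    rw [Subgroup.IsArithmetic.isCusp_iff_isCusp_SL2Z] at hc
    rw [isBoundedAt_iff_forall_SL2Z hc]
    intro γ _
    exact conjFun_bdd_slash f hh σ γ

theorem conjForm_coe : (⇑(conjForm σ f hh) : ℍ → ℂ) = conjFun σ f hh := rfl

theorem qExpansion_conjForm :
    qExpansion 1 (conjForm σ f hh) = pmap σ (qExpansion 1 f) := by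
  have h1 : combσ σ f hh = combσ σ (1 : ModularForm 𝒢 0) hh * bmk hh.period (conjForm σ f hh) := by
    apply Subtype.ext
    funext τ
    exact conjFun_spec f hh σ τ
  have h2 := pmap_comb0 f hh σ
  have h3 := pmap_comb0 (1 : ModularForm 𝒢 0) hh σ
  rw [comb0_eq f hh, h1, map_mul, map_mul, pmap, map_mul] at h2
  simp only [pmap] at h3
  rw [h3, mul_comm] at h2
  have h4 : qhom (combσ σ (1 : ModularForm 𝒢 0) hh) ≠ 0 := by
    intro hcon
    apply combσ_one_ne_zero hh σ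
    have : combσ σ (1 : ModularForm 𝒢 0) hh = 0 := by
      apply qhom_injective
      rw [hcon, map_zero]
    rw [this]; rfl
  have h5 := mul_left_cancel₀ h4 h2
  rw [qhom_bmk, qhom_bmk] at h5
  exact h5.symm

/-- **The conjugate of a cusp form** -/
def conjCusp (σ : ℂ →+* ℂ) (f : CuspForm 𝒢 k) {h : ModularForm 𝒢 l} (hh : IsGood h) :
    CuspForm 𝒢 k where
  toFun := conjFun σ (ModularFormClass.modularForm f) hh
  slash_action_eq' := (conjForm σ (ModularFormClass.modularForm f) hh).slash_action_eq'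
  holo' := (conjForm σ (ModularFormClass.modularForm f) hh).holo'
  zero_at_cusps' := fun {c} hc => by
    rw [Subgroup.IsArithmetic.isCusp_iff_isCusp_SL2Z] at hc
    rw [isZeroAt_iff_forall_SL2Z hc]
    intro γ _
    refine conjFun_zero_slash _ hh σ (fun γ => ?_) γ
    exact CuspFormClass.zero_at_infty_slash f γ

theorem qExpansion_conjCusp (f : CuspForm 𝒢 k) :
    qExpansion 1 (conjCusp σ f hh) = pmap σ (qExpansion 1 f) :=
  qExpansion_conjForm (ModularFormClass.modularForm f) hh σ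

end Fermat.Agent.ES
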