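import Mathlib
import Fermat.Prelude.Thm_ModularForm_sturm_bound_Gamma0
import Fermat.Prelude.Thm_ModularFormClass_qCoeff_heckeT
import Fermat.Prelude.Thm_ModularFormClass_qCoeff_heckeU
import Fermat.Prelude.Def_CuspForm_HeckeAlgebra
import Fermat.Prelude.Def_CuspForm_IntegralStructure
import Fermat.Prelude.Def_CuspForm_IntegralLattice
import Fermat.Agent.ES.AutC
import Fermat.Agent.ES.Conj
import Fermat.Agent.ES.DeltaN
import Fermat.Agent.ES.HeckeFinite

set_option autoImplicit false

/-!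
# Rational and integral structures on spaces of cusp forms
-/

open UpperHalfPlane hiding I
open ModularForm SlashInvariantForm SlashInvariantFormClass ModularFormClass
  CuspFormClass MatrixGroups OnePoint Filter EisensteinSeries CongruenceSubgroup
open scoped Topology Manifold MatrixGroups ModularForm

noncomputable section

namespace Fermat.Agent.ES

variable (N : ℕ) [NeZero N] (k : ℤ)

theorem isGood_hDelta : IsGood (ModularFormClass.modularForm (hDelta N) :
    ModularForm (Gamma0 N) 12) where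
  period := one_mem_G0 N
  le := by
    rintro _ ⟨g, _, rfl⟩
    exact ⟨g, rfl⟩
  inv σ := pmap_hDelta σ N
  dist g hg := by
    refine hDelta_slash_ne N g fun hcon => hg ⟨g, ?_, rfl⟩
    rw [SetLike.mem_coe, Gamma0_mem]
    exact (ZMod.intCast_zmod_eq_zero_iff_dvd _ _).mpr hcon

/-- `q`-coefficients as a linear map, modular forms -/
def qcM : ModularForm (Gamma0 N) k →ₗ[ℂ] (ℕ → ℂ) where
  toFun f n := (qExpansion 1 f).coeff n
  map_add' f g := by
    funext n
    rw [FunLike.coe_add, ModularForm.qExpansion_add one_pos (one_mem_G0 N), map_add]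
    rfl
  map_smul' a f := by
    funext n
    rw [FunLike.coe_smul, ModularForm.qExpansion_smul one_pos (one_mem_G0 N),
      PowerSeries.coeff_smul]
    rfl

/-- `q`-coefficients as a linear map, cusp forms -/
def qcS : CuspForm (Gamma0 N) k →ₗ[ℂ] (ℕ → ℂ) where
  toFun f n := (qExpansion 1 f).coeff n
  map_add' f g := by
    funext n
    rw [FunLike.coe_add, ModularForm.qExpansion_add one_pos (one_mem_G0 N), map_add]
    rfl
  map_smul' a f := by
    funext n
    rw [FunLike.coe_smul, ModularForm.qExpansion_smul one_pos (one_mem_G0 N),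
      PowerSeries.coeff_smul]
    rfl

theorem qcS_apply (f : CuspForm (Gamma0 N) k) (n : ℕ) :
    qcS N k f n = ModularFormClass.qCoeff f n := rfl

theorem qcS_inj (f : CuspForm (Gamma0 N) k)
    (hf : ∀ n ∈ Finset.range ((k * (Gamma0 N).index).toNat / 12 + 1), qcS N k f n = 0) :
    f = 0 := by
  have h1 : (ModularFormClass.modularForm f : ModularForm (Gamma0 N) k) = 0 := by
    refine ModularForm.sturm_bound_Gamma0 N _ fun m hm => ?_
    exact hf m (Finset.mem_range.mpr (by omega))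
  apply DFunLike.coe_injective
  have := congrArg (fun F : ModularForm (Gamma0 N) k ↦ (⇑F : ℍ → ℂ)) h1
  simpa using! this

theorem qcM_inj (f : ModularForm (Gamma0 N) k)
    (hf : ∀ n ∈ Finset.range ((k * (Gamma0 N).index).toNat / 12 + 1), qcM N k f n = 0) :
    f = 0 := by
  refine ModularForm.sturm_bound_Gamma0 N _ fun m hm => ?_
  exact hf m (Finset.mem_range.mpr (by omega))

/-- **Cusp forms are spanned by those with rational coefficients.** -/
theorem span_rational_cuspForm :
    Submodule.span ℂ {f : CuspForm (Gamma0 N) k | ∀ n, ∃ q : ℚ, qCoeff f n = q} = ⊤ :=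
  span_rational_eq_top (qcS N k) _ (qcS_inj N k) fun σ f =>
    ⟨conjCusp σ f (isGood_hDelta N), fun n => by
      have := congrArg (PowerSeries.coeff n) (qExpansion_conjCusp (isGood_hDelta N) σ f)
      rwa [PowerSeries.coeff_map] at this⟩

/-- **Modular forms are spanned by those with rational coefficients.** -/
theorem span_rational_modularForm :
    Submodule.span ℂ {f : ModularForm (Gamma0 N) k | ∀ n, ∃ q : ℚ, qCoeff f n = q} = ⊤ :=
  span_rational_eq_top (qcM N k) _ (qcM_inj N k) fun σ f =>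
    ⟨conjForm σ f (isGood_hDelta N), fun n => by
      have := congrArg (PowerSeries.coeff n) (qExpansion_conjForm f (isGood_hDelta N) σ)
      rwa [PowerSeries.coeff_map] at this⟩

variable {N k}

theorem qCoeff_T {ℓ : ℕ} (hℓ : ℓ.Prime) (hN : ¬ ℓ ∣ N) (f : CuspForm (Gamma0 N) k) (n : ℕ) :
    qCoeff (CuspForm.heckeTLin k hℓ hN f) n =
      qCoeff f (n * ℓ) + if ℓ ∣ n then (ℓ : ℂ) ^ (k - 1) * qCoeff f (n / ℓ) else 0 :=
  ModularFormClass.qCoeff_heckeT f (one_mem_G0 N) hℓ.ne_zero n

theorem qCoeff_U {q : ℕ} (hq : q.Prime) (hN : q ∣ N) (f : CuspForm (Gamma0 N) k) (n : ℕ) :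
    qCoeff (CuspForm.heckeULin k hN f) n = qCoeff f (n * q) :=
  ModularFormClass.qCoeff_heckeU f (one_mem_G0 N) hq.ne_zero n

/-- cusp forms with rational coefficients -/
def ratForms (N : ℕ) [NeZero N] (k : ℤ) : Submodule ℤ (CuspForm (Gamma0 N) k) where
  carrier := {f | ∀ n, ∃ q : ℚ, qCoeff f n = q}
  zero_mem' n := ⟨0, by rw [← qcS_apply, map_zero]; simp⟩
  add_mem' {f g} hf hg n := by
    obtain ⟨a, ha⟩ := hf n
    obtain ⟨b, hb⟩ := hg n
    refine ⟨a + b, ?_⟩
    rw [← qcS_apply] at ha hb ⊢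
    rw [map_add, Pi.add_apply, ha, hb]; push_cast; rfl
  smul_mem' c f hf n := by
    obtain ⟨a, ha⟩ := hf n
    refine ⟨c * a, ?_⟩
    rw [← qcS_apply] at ha ⊢
    rw [map_zsmul, Pi.smul_apply, ha]
    simp

theorem heckeAlgebra_ratForms {S : Set ℕ} {t : Module.End ℂ (CuspForm (Gamma0 N) k)}
    (ht : t ∈ CuspForm.heckeAlgebra N k S) :
    ∀ f ∈ ratForms N k, t f ∈ ratForms N k := by
  induction ht using Algebra.adjoin_induction with
  | mem x hx =>
    rcases hx with ⟨ℓ, hℓ, hℓN, -, rfl⟩ | ⟨q, hqN, hq, -, rfl⟩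
    · intro f hf n
      obtain ⟨a, ha⟩ := hf (n * ℓ)
      obtain ⟨b, hb⟩ := hf (n / ℓ)
      rw [qCoeff_T, ha, hb]
      split_ifs
      · exact ⟨a + (ℓ : ℚ) ^ (k - 1) * b, by push_cast; rfl⟩
      · exact ⟨a, by simp⟩
    · intro f hf n
      rw [qCoeff_U hq]
      exact hf _
  | algebraMap r =>
    intro f hf
    rw [Module.algebraMap_end_apply]
    exact (ratForms N k).smul_mem r hf
  | add x y _ _ hx hy =>
    intro f hf
    exact (ratForms N k).add_mem (hx f hf) (hy f hf)
  | mul x y _ _ hx hy =>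
    intro f hf
    exact hx _ (hy f hf)

/-- `a_n(g) = a_1(t_n g)` -/
theorem exists_t (hk : 1 ≤ k) (n : ℕ) (hn : 0 < n) :
    ∃ t : Module.End ℂ (CuspForm (Gamma0 N) k), t ∈ CuspForm.heckeAlgebra N k ∅ ∧
      ∀ g : CuspForm (Gamma0 N) k, qCoeff g n = qCoeff (t g) 1 := by
  induction n using Nat.strong_induction_on with
  | _ n ih =>
    rcases Nat.lt_or_ge 1 n with h1 | h1
    · set ℓ := n.minFac with hℓ
      have hp : ℓ.Prime := Nat.minFac_prime (by omega)
      obtain ⟨m, hm⟩ : ℓ ∣ n := Nat.minFac_dvd n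
      have hmpos : 0 < m := by
        rcases Nat.eq_zero_or_pos m with h | h
        · rw [h] at hm; omega
        · exact h
      have hmn : m < n := by
        have := hp.two_le
        nlinarith
      obtain ⟨t, ht, htm⟩ := ih m hmn hmpos
      by_cases hN : ℓ ∣ N
      · refine ⟨t * CuspForm.heckeULin k hN, Subalgebra.mul_mem _ ht
          (CuspForm.heckeULin_mem_heckeAlgebra hp hN (by simp)), fun g => ?_⟩
        rw [Module.End.mul_apply, ← htm, qCoeff_U hp, hm, mul_comm]
      · by_cases hm' : ℓ ∣ m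
        · have hpos : 0 < m / ℓ := Nat.div_pos (Nat.le_of_dvd hmpos hm') hp.pos
          have hlt : m / ℓ < n := lt_of_le_of_lt (Nat.div_le_self _ _) hmn
          obtain ⟨t', ht', htm'⟩ := ih (m / ℓ) hlt hpos
          refine ⟨t * CuspForm.heckeTLin k hp hN - (((ℓ ^ (k - 1).toNat : ℕ) : ℤ)) • t',
            Subalgebra.sub_mem _ (Subalgebra.mul_mem _ ht
              (CuspForm.heckeTLin_mem_heckeAlgebra hp hN (by simp)))
              (Subalgebra.smul_mem _ ht' _), fun g => ?_⟩
          have h2 : qCoeff ((t * CuspForm.heckeTLin k hp hN -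
              (((ℓ ^ (k - 1).toNat : ℕ) : ℤ)) • t') g) 1 =
              qCoeff (t (CuspForm.heckeTLin k hp hN g)) 1 -
              (((ℓ ^ (k - 1).toNat : ℕ) : ℤ)) • qCoeff (t' g) 1 := by
            rw [← qcS_apply, ← qcS_apply, ← qcS_apply, LinearMap.sub_apply, map_sub,
              LinearMap.smul_apply, map_zsmul]
            rfl
          rw [h2, ← htm, ← htm', qCoeff_T, if_pos hm', hm, mul_comm ℓ m]
          have h3 : (ℓ : ℂ) ^ (k - 1) = ((ℓ ^ (k - 1).toNat : ℕ) : ℂ) := by
            rw [Nat.cast_pow, ← zpow_natCast, Int.toNat_of_nonneg (by omega)]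
          rw [h3]
          simp
        · refine ⟨t * CuspForm.heckeTLin k hp hN, Subalgebra.mul_mem _ ht
            (CuspForm.heckeTLin_mem_heckeAlgebra hp hN (by simp)), fun g => ?_⟩
          rw [Module.End.mul_apply, ← htm, qCoeff_T, if_neg hm', add_zero, hm, mul_comm]
    · have : n = 1 := by omega
      subst this
      exact ⟨1, Subalgebra.one_mem _, fun g => rfl⟩

/-- bounded denominators for finitely generated subgroups of `ℚ` -/
theorem exists_denominator {M : Type*} [AddCommGroup M] [Module.Finite ℤ M] (φ : M →ₗ[ℤ] ℂ)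
    (hφ : ∀ m, ∃ q : ℚ, φ m = q) : ∃ D : ℕ, D ≠ 0 ∧ ∀ m, ∃ z : ℤ, (D : ℂ) * φ m = z := by
  obtain ⟨s, hs⟩ := (Module.Finite.fg_top : (⊤ : Submodule ℤ M).FG)
  choose q hq using hφ
  refine ⟨∏ x ∈ s, (q x).den, Finset.prod_ne_zero_iff.mpr fun x _ => (q x).den_nz, fun m => ?_⟩
  have hm : m ∈ Submodule.span ℤ (s : Set M) := by rw [hs]; trivial
  induction hm using Submodule.span_induction with
  | mem x hx =>
    obtain ⟨c, hc⟩ : (q x).den ∣ ∏ x ∈ s, (q x).den := Finset.dvd_prod_of_mem _ hx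
    refine ⟨c * (q x).num, ?_⟩
    rw [hq, hc]
    have h1 : ((q x).den : ℂ) * (q x : ℂ) = ((q x).num : ℂ) := by
      have := Rat.den_mul_eq_num (q x)
      exact_mod_cast this
    push_cast
    linear_combination (c : ℂ) * h1
  | zero => exact ⟨0, by simp⟩
  | add x y _ _ hx hy =>
    obtain ⟨a, ha⟩ := hx
    obtain ⟨b, hb⟩ := hy
    exact ⟨a + b, by rw [map_add, mul_add, ha, hb]; push_cast; rfl⟩
  | smul c x _ hx =>
    obtain ⟨a, ha⟩ := hx
    refine ⟨c * a, ?_⟩
    rw [map_zsmul, zsmul_eq_mul, mul_left_comm, ha]; push_cast; rfl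

/-- **Bounded denominators.** -/
theorem exists_mul_integral (hk : 1 ≤ k) (f : CuspForm (Gamma0 N) k) (hf : f ∈ ratForms N k) :
    ∃ D : ℕ, D ≠ 0 ∧ ∀ n, ∃ z : ℤ,
      qCoeff (((D : ℂ) • f : CuspForm (Gamma0 N) k) : ℍ → ℂ) n = z := by
  have hfin := moduleFinite_heckeAlgebra (N := N) k ∅
  let φ : CuspForm.heckeAlgebra N k ∅ →ₗ[ℤ] ℂ :=
    { toFun := fun t => qcS N k ((t : Module.End ℂ (CuspForm (Gamma0 N) k)) f) 1
      map_add' := fun a b => by
        change qcS N k (((a : Module.End ℂ (CuspForm (Gamma0 N) k)) +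
          (b : Module.End ℂ (CuspForm (Gamma0 N) k))) f) 1 = _
        rw [LinearMap.add_apply, map_add]; rfl
      map_smul' := fun c a => by
        change qcS N k ((c • (a : Module.End ℂ (CuspForm (Gamma0 N) k))) f) 1 = _
        rw [LinearMap.smul_apply, map_zsmul]; rfl }
  obtain ⟨D, hD0, hD⟩ := exists_denominator φ fun t => heckeAlgebra_ratForms t.2 f hf 1
  refine ⟨D, hD0, fun n => ?_⟩
  have h1 : qCoeff (((D : ℂ) • f : CuspForm (Gamma0 N) k) : ℍ → ℂ) n =
      (D : ℂ) * qCoeff f n := by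
    rw [← qcS_apply, ← qcS_apply, _root_.map_smul]; rfl
  rw [h1]
  rcases Nat.eq_zero_or_pos n with rfl | hn
  · refine ⟨0, ?_⟩
    have : qCoeff f 0 = 0 := CuspFormClass.qExpansion_coeff_zero f one_pos (one_mem_G0 N)
    rw [this]; simp
  · obtain ⟨t, ht, htn⟩ := exists_t (N := N) hk n hn
    obtain ⟨z, hz⟩ := hD ⟨t, ht⟩
    exact ⟨z, by rw [htn, ← hz]; rfl⟩

theorem hasIntegralStructure (N : ℕ) [NeZero N] (k : ℤ) : CuspForm.HasIntegralStructure N k := by
  rw [CuspForm.HasIntegralStructure, eq_top_iff]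
  rcases lt_or_ge 0 k with hk | hk
  · rw [← span_rational_cuspForm N k, Submodule.span_le]
    intro f hf
    obtain ⟨D, hD0, hD⟩ := exists_mul_integral (N := N) (k := k) (by omega) f hf
    have hD0' : (D : ℂ) ≠ 0 := by exact_mod_cast hD0
    have h1 : (D : ℂ) • f ∈ Submodule.span ℂ ((CuspForm.intLattice N k :
        Submodule ℤ (CuspForm (CongruenceSubgroup.Gamma0 N) k)) :
        Set (CuspForm (CongruenceSubgroup.Gamma0 N) k)) :=
      Submodule.subset_span (Submodule.subset_span hD)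
    have h2 := Submodule.smul_mem _ ((D : ℂ)⁻¹) h1
    rwa [inv_smul_smul₀ hD0'] at h2
  · intro f _
    rw [cuspForm_eq_zero_of_nonpos hk f]
    exact Submodule.zero_mem _

theorem hasIntegralBasis (N : ℕ) [NeZero N] : CuspForm.HasIntegralBasis N := by
  rw [CuspForm.HasIntegralBasis, eq_top_iff]
  rw [← span_rational_cuspForm N 2, Submodule.span_le]
  intro f hf
  obtain ⟨D, hD0, hD⟩ := exists_mul_integral (N := N) (k := 2) (by omega) f hf
  have hD0' : (D : ℂ) ≠ 0 := by exact_mod_cast hD0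
  have h1 : (D : ℂ) • f ∈ Submodule.span ℂ (CuspForm.qIntegralSet N) := by
    refine Submodule.subset_span fun n => ?_
    obtain ⟨z, hz⟩ := hD n
    rw [hz]
    exact Subring.mem_bot.mpr ⟨z, rfl⟩
  have h2 := Submodule.smul_mem _ ((D : ℂ)⁻¹) h1
  rwa [inv_smul_smul₀ hD0'] at h2

end Fermat.Agent.ES
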