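import Mathlib
import Fermat.Agent.ES.LevelOneSigma
import Fermat.Agent.ES.ConjPoly
import Fermat.Agent.ES.Conj

set_option autoImplicit false
set_option linter.unusedSectionVars false

/-!
# Vector valued modular forms for permutation representations of `SL(2, ℤ)`
-/

open UpperHalfPlane hiding I
open ModularForm SlashInvariantForm SlashInvariantFormClass ModularFormClass
  CuspFormClass MatrixGroups OnePoint Filter EisensteinSeries
open scoped Topology Manifold MatrixGroups ModularForm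

noncomputable section

namespace Fermat.Agent.ES

section levelOne

/-- level one forms as a subspace of functions -/
def RR (k : ℤ) : Submodule ℂ (ℍ → ℂ) where
  carrier := {r | ∃ F : ModularForm 𝒮ℒ k, ⇑F = r}
  add_mem' := by
    rintro _ _ ⟨F, rfl⟩ ⟨G, rfl⟩
    exact ⟨F + G, rfl⟩
  zero_mem' := ⟨0, rfl⟩
  smul_mem' := by
    rintro c _ ⟨F, rfl⟩
    exact ⟨c • F, rfl⟩

theorem RR_iff {k : ℤ} {r : ℍ → ℂ} : r ∈ RR k ↔
    MDiff r ∧ IsBoundedAtImInfty r ∧ ∀ (γ : SL(2, ℤ)) (τ : ℍ), r (γ • τ) = denom γ τ ^ k * r τ := by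
  constructor
  · rintro ⟨F, rfl⟩
    exact ⟨ModularFormClass.holo F, ModularFormClass.bdd_at_infty F, form_smul_apply_SL F⟩
  · rintro ⟨h1, h2, h3⟩
    exact ⟨mkLevelOne r k h3 h1 h2, rfl⟩

theorem RR_mul {k l : ℤ} {r s : ℍ → ℂ} (hr : r ∈ RR k) (hs : s ∈ RR l) : r * s ∈ RR (k + l) := by
  rw [RR_iff] at hr hs ⊢
  refine ⟨hr.1.mul hs.1, hr.2.1.mul hs.2.1, fun γ τ => ?_⟩
  have hd : denom γ (τ : ℂ) ≠ 0 := denom_ne_zero _ τ
  rw [Pi.mul_apply, Pi.mul_apply, hr.2.2, hs.2.2, zpow_add₀ hd]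
  ring

theorem RR_neg {k : ℤ} (hk : k < 0) {r : ℍ → ℂ} (hr : r ∈ RR k) : r = 0 := by
  obtain ⟨F, rfl⟩ := hr
  exact ModularFormClass.levelOne_neg_weight_eq_zero hk F

theorem RR_zero {r : ℍ → ℂ} (hr : r ∈ RR 0) : ∃ c : ℂ, r = fun _ => c := by
  obtain ⟨F, rfl⟩ := hr
  exact levelOne_weight_zero_const F

theorem RR_two {r : ℍ → ℂ} (hr : r ∈ RR 2) : r = 0 := by
  obtain ⟨F, rfl⟩ := hr
  rw [rank_zero_iff_forall_zero.mp levelOne_weight_two_rank_zero F]
  rfl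

theorem RR_odd {k : ℤ} (hk : Odd k) {r : ℍ → ℂ} (hr : r ∈ RR k) : r = 0 := by
  obtain ⟨F, rfl⟩ := hr
  rw [levelOne_odd_weight_eq_zero hk F]
  rfl

/-- the functions `E₄`, `E₆`, `Δ` -/
def e4 : ℍ → ℂ := fun τ => E₄ τ
/-- `E₆` -/
def e6 : ℍ → ℂ := fun τ => E₆ τ
/-- `Δ` -/
def dl : ℍ → ℂ := fun τ => discriminant τ

theorem e4_mem : e4 ∈ RR 4 := ⟨E₄, rfl⟩
theorem e6_mem : e6 ∈ RR 6 := ⟨E₆, rfl⟩
theorem dl_mem : dl ∈ RR 12 :=
  ⟨ModularFormClass.modularForm CuspForm.discriminant, rfl⟩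

theorem dl_ne (τ : ℍ) : dl τ ≠ 0 := discriminant_ne_zero τ

theorem dl_eq (τ : ℍ) : 1728 * dl τ = e4 τ ^ 3 - e6 τ ^ 2 := by
  change 1728 * discriminant τ = _
  rw [discriminant_eq_E₄_cube_sub_E₆_sq]
  change 1728 * ((E₄ τ ^ 3 - E₆ τ ^ 2) / 1728) = E₄ τ ^ 3 - E₆ τ ^ 2
  ring

theorem dl_eq' : (1728 : ℍ → ℂ) * dl = e4 ^ 3 - e6 ^ 2 := by
  ext τ
  exact dl_eq τ

theorem tendsto_of_coeff_zero {k : ℤ} (F : ModularForm 𝒮ℒ k) :
    Tendsto (⇑F) atImInfty (𝓝 ((qExpansion 1 F).coeff 0)) := by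
  have h3 := UpperHalfPlane.qExpansion_coeff_zero one_pos
      (ModularFormClass.analyticAt_cuspFunction_zero F one_pos one_mem_strictPeriods_SL)
      (periodic_comp_ofComplex F one_mem_strictPeriods_SL)
  have h4 := UpperHalfPlane.exp_decay_sub_atImInfty one_pos
    (periodic_comp_ofComplex F one_mem_strictPeriods_SL)
    (ModularFormClass.holo F) (ModularFormClass.bdd_at_infty F)
  rw [← h3] at h4
  have h5 : Tendsto (fun τ : ℍ => Real.exp (-(2 * Real.pi * τ.im))) atImInfty (𝓝 0) :=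
    Real.tendsto_exp_neg_atTop_nhds_zero.comp
      (Tendsto.const_mul_atTop (by positivity) tendsto_comap)
  have h6 : Tendsto (fun τ => F τ - (qExpansion 1 F).coeff 0) atImInfty (𝓝 0) := by
    refine h4.trans_tendsto (h5.congr fun τ => ?_)
    congr 1; ring
  have h7 := h6.add_const ((qExpansion 1 F).coeff 0)
  simpa using h7

/-- existence of forms with constant term one -/
theorem exists_const_term_one {k : ℤ} (hk : 4 ≤ k ∨ k = 0) (hk2 : Even k) :
    ∃ r ∈ RR k, Tendsto r atImInfty (𝓝 1) := by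
  rcases hk with hk | rfl
  · lift k to ℕ using (by omega)
    have hk3 : 3 ≤ k := by omega
    have hke : Even k := by exact_mod_cast hk2
    refine ⟨E hk3, ⟨E hk3, rfl⟩, ?_⟩
    have := tendsto_of_coeff_zero (E hk3)
    rwa [E_qExpansion_coeff_zero hk3 hke] at this
  · exact ⟨1, ⟨1, ModularForm.one_coe_eq_one⟩, tendsto_const_nhds⟩

theorem e4_tendsto : Tendsto e4 atImInfty (𝓝 1) := by
  have := tendsto_of_coeff_zero E₄
  rwa [E_qExpansion_coeff_zero _ ⟨2, rfl⟩] at this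

theorem e6_tendsto : Tendsto e6 atImInfty (𝓝 1) := by
  have := tendsto_of_coeff_zero E₆
  rwa [E_qExpansion_coeff_zero _ ⟨3, rfl⟩] at this

theorem dl_tendsto : Tendsto dl atImInfty (𝓝 0) := discriminant_isZeroAtImInfty

theorem exists_limit {k : ℤ} {r : ℍ → ℂ} (hr : r ∈ RR k) : ∃ c : ℂ, Tendsto r atImInfty (𝓝 c) := by
  obtain ⟨F, rfl⟩ := hr
  exact ⟨_, tendsto_of_coeff_zero F⟩

/-- a form vanishing at infinity is divisible by `Δ` -/
theorem RR_div_dl {k : ℤ} {r : ℍ → ℂ} (hr : r ∈ RR k) (h0 : Tendsto r atImInfty (𝓝 0)) :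
    ∃ s ∈ RR (k - 12), r = dl * s := by
  obtain ⟨F, rfl⟩ := hr
  have hG0 : (qExpansion 1 F).coeff 0 = 0 := tendsto_nhds_unique (tendsto_of_coeff_zero F) h0
  set F1 := CuspForm.discriminantEquiv (toCuspForm F hG0) with hF1
  refine ⟨F1, ⟨F1, rfl⟩, ?_⟩
  ext τ
  exact (ModularForm.discriminant_mul_discriminantEquiv_apply (toCuspForm F hG0) τ).symm

theorem const_mem_RR (c : ℂ) : (fun _ => c : ℍ → ℂ) ∈ RR 0 := by
  have h1 : (1 : ℍ → ℂ) ∈ RR 0 := ⟨1, ModularForm.one_coe_eq_one⟩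
  have h2 := (RR 0).smul_mem c h1
  have h3 : (c • (1 : ℍ → ℂ)) = fun _ => c := by ext; simp
  rwa [h3] at h2

/-- every form of positive weight lies in the ideal `(E₄, E₆)`. -/
theorem RR_pos {k : ℤ} (hk : 0 < k) {r : ℍ → ℂ} (hr : r ∈ RR k) :
    ∃ a ∈ RR (k - 4), ∃ b ∈ RR (k - 6), r = e4 * a + e6 * b := by
  by_cases hk2 : Even k
  · rcases (by rcases hk2 with ⟨m, rfl⟩; omega : k = 2 ∨ 4 ≤ k) with rfl | hk4
    · exact ⟨0, zero_mem _, 0, zero_mem _, by rw [RR_two hr]; simp⟩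
    · obtain ⟨c, hc⟩ := exists_limit hr
      -- a monomial of weight `k`
      have hmono : ∃ a ∈ RR (k - 4), ∃ b ∈ RR (k - 6),
          Tendsto (e4 * a + e6 * b) atImInfty (𝓝 1) := by
        rcases (by rcases hk2 with ⟨m, rfl⟩; omega : k = 6 ∨ (4 ≤ k - 4 ∨ k - 4 = 0)) with rfl | h
        · obtain ⟨b, hb, hb1⟩ := exists_const_term_one (k := 0) (Or.inr rfl) ⟨0, rfl⟩
          refine ⟨0, zero_mem _, b, by simpa using hb, ?_⟩
          simpa using! e6_tendsto.mul hb1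
        · obtain ⟨a, ha, ha1⟩ := exists_const_term_one (k := k - 4) h (hk2.sub ⟨2, rfl⟩)
          refine ⟨a, ha, 0, zero_mem _, ?_⟩
          simpa using! e4_tendsto.mul ha1
      obtain ⟨a, ha, b, hb, hab⟩ := hmono
      have hs : r - c • (e4 * a + e6 * b) ∈ RR k := by
        refine (RR k).sub_mem hr ((RR k).smul_mem c ((RR k).add_mem ?_ ?_))
        · have := RR_mul e4_mem ha
          rwa [add_sub_cancel] at this
        · have := RR_mul e6_mem hb
          rwa [add_sub_cancel] at this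
      have hlim : Tendsto (r - c • (e4 * a + e6 * b)) atImInfty (𝓝 0) := by
        have h0 := hc.sub (hab.const_smul c)
        rw [smul_eq_mul, mul_one, sub_self] at h0
        exact h0
      obtain ⟨s, hs, hrs⟩ := RR_div_dl hs hlim
      have h4 : e4 * e4 * s ∈ RR (k - 4) := by
        have := RR_mul (RR_mul e4_mem e4_mem) hs
        convert this using 2; ring
      have h6 : e6 * s ∈ RR (k - 6) := by
        have := RR_mul e6_mem hs
        convert this using 2; ring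
      refine ⟨c • a + (1728 : ℂ)⁻¹ • (e4 * e4 * s), (RR _).add_mem ((RR _).smul_mem c ha)
        ((RR _).smul_mem _ h4), c • b - (1728 : ℂ)⁻¹ • (e6 * s), (RR _).sub_mem
        ((RR _).smul_mem c hb) ((RR _).smul_mem _ h6), ?_⟩
      have h7 : r = c • (e4 * a + e6 * b) + dl * s := by rw [← hrs]; abel
      rw [h7]
      ext τ
      have h8 := dl_eq τ
      simp only [Pi.add_apply, Pi.mul_apply, Pi.smul_apply, Pi.sub_apply, smul_eq_mul]
      have h9 : dl τ = (1728 : ℂ)⁻¹ * (e4 τ ^ 3 - e6 τ ^ 2) := by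
        rw [← h8]; ring
      rw [h9]
      ring
  · exact ⟨0, zero_mem _, 0, zero_mem _, by rw [RR_odd (Int.not_even_iff_odd.mp hk2) hr]; simp⟩

end levelOne

section vv

variable (P : Type) [Fintype P] [DecidableEq P] [MulAction SL(2, ℤ) P]

/-- vector valued modular forms for the permutation representation -/
def VV (k : ℤ) : Submodule ℂ (P → ℍ → ℂ) where
  carrier := {F | (∀ p, MDiff (F p)) ∧ (∀ p, IsBoundedAtImInfty (F p)) ∧
    ∀ (γ : SL(2, ℤ)) (p : P) (τ : ℍ), F p (γ • τ) = denom γ τ ^ k * F (γ⁻¹ • p) τ}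
  add_mem' := by
    rintro F G ⟨h1, h2, h3⟩ ⟨h4, h5, h6⟩
    refine ⟨fun p => (h1 p).add (h4 p), fun p => (h2 p).add (h5 p), fun γ p τ => ?_⟩
    simp only [Pi.add_apply]
    rw [h3, h6]; ring
  zero_mem' := by
    refine ⟨fun p => mdifferentiable_const, fun p => Filter.const_boundedAtFilter atImInfty (0 : ℂ),
      fun γ p τ => ?_⟩
    simp
  smul_mem' := by
    rintro c F ⟨h1, h2, h3⟩
    refine ⟨fun p => (h1 p).const_smul c, fun p => (h2 p).const_smul_left c, fun γ p τ => ?_⟩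
    simp only [Pi.smul_apply, smul_eq_mul]
    rw [h3]; ring

variable {P}

theorem VV_smul {k l : ℤ} {r : ℍ → ℂ} {F : P → ℍ → ℂ} (hr : r ∈ RR k) (hF : F ∈ VV P l) :
    r • F ∈ VV P (k + l) := by
  rw [RR_iff] at hr
  refine ⟨fun p => hr.1.mul (hF.1 p), fun p => hr.2.1.mul (hF.2.1 p), fun γ p τ => ?_⟩
  have hd : denom γ (τ : ℂ) ≠ 0 := denom_ne_zero _ τ
  simp only [Pi.smul_apply, smul_eq_mul, Pi.mul_apply]
  rw [hr.2.2, hF.2.2, zpow_add₀ hd]
  ring

theorem VV_pair {k l : ℤ} {F G : P → ℍ → ℂ} (hF : F ∈ VV P k) (hG : G ∈ VV P l) :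
    (∑ p, F p * G p) ∈ RR (k + l) := by
  rw [RR_iff]
  refine ⟨?_, ?_, fun γ τ => ?_⟩
  · have : (∑ p, F p * G p) = fun τ => ∑ p, F p τ * G p τ := by
      ext τ; simp [Finset.sum_apply]
    rw [this]
    exact mdiff_finset_sum fun p _ => (hF.1 p).mul (hG.1 p)
  · have : (∑ p, F p * G p) = fun τ => ∑ p, F p τ * G p τ := by
      ext τ; simp [Finset.sum_apply]
    rw [this]
    exact bdd_finset_sum fun p _ => (hF.2.1 p).mul (hG.2.1 p)
  · have hd : denom γ (τ : ℂ) ≠ 0 := denom_ne_zero _ τ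
    simp only [Finset.sum_apply, Pi.mul_apply]
    rw [Finset.mul_sum, ← Equiv.sum_comp (MulAction.toPerm γ⁻¹) (fun p =>
      denom γ τ ^ (k + l) * (F p τ * G p τ))]
    refine Finset.sum_congr rfl fun p _ => ?_
    rw [hF.2.2, hG.2.2, zpow_add₀ hd, MulAction.toPerm_apply]
    ring

/-- **The regular sequence property.** -/
theorem VV_regular {m : ℤ} {A B : P → ℍ → ℂ} (hA : A ∈ VV P (m - 4)) (hB : B ∈ VV P (m - 6))
    (h : e4 • A + e6 • B = 0) : ∃ C ∈ VV P (m - 10), A = e6 • C ∧ B = -(e4 • C) := by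
  have h' : ∀ p τ, e4 τ * A p τ + e6 τ * B p τ = 0 := fun p τ => congrFun (congrFun h p) τ
  let C : P → ℍ → ℂ := fun p τ => -(e4 τ ^ 2 * B p τ + e6 τ * A p τ) / (1728 * dl τ)
  have h1728 : ∀ τ, (1728 : ℂ) * dl τ ≠ 0 := fun τ => mul_ne_zero (by norm_num) (dl_ne τ)
  have hAC : A = e6 • C := by
    ext p τ
    simp only [Pi.smul_apply, smul_eq_mul, Pi.mul_apply, C]
    rw [mul_div_assoc', eq_div_iff (h1728 τ), dl_eq]
    linear_combination (e4 τ ^ 2) * h' p τ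
  have hBC : B = -(e4 • C) := by
    ext p τ
    simp only [Pi.smul_apply, smul_eq_mul, Pi.mul_apply, Pi.neg_apply, C]
    rw [mul_div_assoc', ← neg_div, eq_div_iff (h1728 τ), dl_eq]
    linear_combination (-e6 τ) * h' p τ
  refine ⟨C, ⟨fun p => ?_, fun p => ?_, fun γ p τ => ?_⟩, hAC, hBC⟩
  · have he4 := (RR_iff.mp e4_mem).1
    have he6 := (RR_iff.mp e6_mem).1
    have hdl := (RR_iff.mp dl_mem).1
    have hn : MDiff (fun τ => -(e4 τ ^ 2 * B p τ + e6 τ * A p τ)) :=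
      (((he4.pow 2).mul (hB.1 p)).add (he6.mul (hA.1 p))).neg
    have hdn : MDiff (fun τ => 1728 * dl τ) := mdifferentiable_const.mul hdl
    rw [UpperHalfPlane.mdifferentiable_iff] at hn hdn ⊢
    exact hn.div hdn fun z _ => h1728 _
  · -- boundedness: `C = -B / E₄`
    obtain ⟨M, A', hM⟩ := UpperHalfPlane.isBoundedAtImInfty_iff.mp (hB.2.1 p)
    have hev : ∀ᶠ τ in atImInfty, 1 / 2 < ‖e4 τ‖ := by
      have := e4_tendsto.norm
      rw [norm_one] at this
      exact this.eventually (lt_mem_nhds (by norm_num))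
    obtain ⟨A'', hA''⟩ := UpperHalfPlane.atImInfty_mem _ |>.mp hev
    rw [UpperHalfPlane.isBoundedAtImInfty_iff]
    refine ⟨2 * M, max A' A'', fun τ hτ => ?_⟩
    have h1 := hM τ ((le_max_left _ _).trans hτ)
    have h2 : 1 / 2 < ‖e4 τ‖ := hA'' τ ((le_max_right _ _).trans hτ)
    have h3 : ‖B p τ‖ = ‖e4 τ‖ * ‖C p τ‖ := by
      have := congrFun (congrFun hBC p) τ
      rw [this]
      simp only [Pi.neg_apply, Pi.smul_apply, smul_eq_mul, Pi.mul_apply, norm_neg, norm_mul]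
    have h4 : 0 ≤ ‖C p τ‖ := norm_nonneg _
    nlinarith
  · have hd : denom γ (τ : ℂ) ≠ 0 := denom_ne_zero _ τ
    have hA1 : ∀ p τ, A p τ = e6 τ * C p τ := fun p τ => congrFun (congrFun hAC p) τ
    have hB1 : ∀ p τ, B p τ = -(e4 τ * C p τ) := fun p τ => congrFun (congrFun hBC p) τ
    by_cases h4 : e4 τ = 0
    · have h6 : e6 τ ≠ 0 := by
        intro h6
        have := dl_eq τ
        rw [h4, h6] at this
        exact h1728 τ (by rw [this]; ring)
      have h1 := hA.2.2 γ p τ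
      rw [hA1, hA1, (RR_iff.mp e6_mem).2.2] at h1
      have e1 : denom γ (τ : ℂ) ^ (m - 4) = denom γ (τ : ℂ) ^ (6 : ℤ) * denom γ (τ : ℂ) ^ (m - 10) := by
        rw [← zpow_add₀ hd]; congr 1; ring
      rw [e1] at h1
      have h2 : denom γ (τ : ℂ) ^ (6 : ℤ) * e6 τ ≠ 0 := mul_ne_zero (zpow_ne_zero _ hd) h6
      apply mul_left_cancel₀ h2
      linear_combination h1
    · have h1 := hB.2.2 γ p τ
      rw [hB1, hB1, (RR_iff.mp e4_mem).2.2] at h1
      have e1 : denom γ (τ : ℂ) ^ (m - 6) = denom γ (τ : ℂ) ^ (4 : ℤ) * denom γ (τ : ℂ) ^ (m - 10) := by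
        rw [← zpow_add₀ hd]; congr 1; ring
      rw [e1] at h1
      have h2 : denom γ (τ : ℂ) ^ (4 : ℤ) * e4 τ ≠ 0 := mul_ne_zero (zpow_ne_zero _ hd) h4
      apply mul_left_cancel₀ h2
      linear_combination -h1

/-- the slash relation -/
theorem VV_slash {k : ℤ} {F : P → ℍ → ℂ} (hF : F ∈ VV P k) (γ : SL(2, ℤ)) (p : P) :
    F p ∣[k] γ = F (γ⁻¹ • p) := by
  ext τ
  have hd : denom γ (τ : ℂ) ≠ 0 := denom_ne_zero _ τ
  rw [SL_slash_apply, hF.2.2, mul_comm, ← mul_assoc, ← zpow_add₀ hd]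
  simp

theorem VV_of_slash {k : ℤ} {F : P → ℍ → ℂ} (h1 : ∀ p, MDiff (F p))
    (h2 : ∀ p, IsBoundedAtImInfty (F p)) (h3 : ∀ (γ : SL(2, ℤ)) p, F p ∣[k] γ = F (γ⁻¹ • p)) :
    F ∈ VV P k := by
  refine ⟨h1, h2, fun γ p τ => ?_⟩
  have hd : denom γ (τ : ℂ) ≠ 0 := denom_ne_zero _ τ
  rw [← h3, SL_slash_apply, mul_comm, mul_assoc, ← zpow_add₀ hd]
  simp

instance stab_finiteIndex (p : P) : (MulAction.stabilizer SL(2, ℤ) p).FiniteIndex := by
  have : Finite (SL(2, ℤ) ⧸ MulAction.stabilizer SL(2, ℤ) p) :=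
    Finite.of_equiv _ (MulAction.orbitEquivQuotientStabilizer SL(2, ℤ) p)
  exact Subgroup.finiteIndex_of_finite_quotient

/-- a component of a vector valued form, as a form for the stabilizer -/
def toForm {k : ℤ} {F : P → ℍ → ℂ} (hF : F ∈ VV P k) (p : P) :
    ModularForm (MulAction.stabilizer SL(2, ℤ) p) k where
  toFun := F p
  slash_action_eq' := by
    rintro _ ⟨γ, hγ, rfl⟩
    have h := VV_slash hF γ p
    have h2 : γ⁻¹ • p = p := by
      rw [inv_smul_eq_iff]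
      exact (MulAction.mem_stabilizer_iff.mp hγ).symm
    rw [h2] at h
    exact h
  holo' := hF.1 p
  bdd_at_cusps' := fun {c} hc => by
    rw [Subgroup.IsArithmetic.isCusp_iff_isCusp_SL2Z] at hc
    rw [isBoundedAt_iff_forall_SL2Z hc]
    intro γ _
    rw [VV_slash hF γ p]
    exact hF.2.1 _

theorem VV_neg {k : ℤ} (hk : k < 0) {F : P → ℍ → ℂ} (hF : F ∈ VV P k) : F = 0 := by
  funext p
  have h1 := ModularForm.isZero_of_neg_weight hk (toForm hF p)
  have h2 := congrArg (fun G : ModularForm (MulAction.stabilizer SL(2, ℤ) p) k => (⇑G : ℍ → ℂ)) h1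
  exact h2

theorem VV_zero {F : P → ℍ → ℂ} (hF : F ∈ VV P 0) : ∃ c : P → ℂ, ∀ p τ, F p τ = c p := by
  have h1 : ∀ p, ∃ c, (toForm hF p : ℍ → ℂ) = Function.const ℍ c := fun p =>
    ModularForm.eq_const_of_weight_zero (toForm hF p)
  choose c hc using h1
  exact ⟨c, fun p τ => congrFun (hc p) τ⟩

variable (P) in
/-- `-1` acts trivially -/
def NegTriv : Prop := ∀ p : P, (-1 : SL(2, ℤ)) • p = p

theorem VV_odd (hneg : NegTriv P) {k : ℤ} (hk : Odd k) {F : P → ℍ → ℂ} (hF : F ∈ VV P k) :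
    F = 0 := by
  funext p τ
  have h1 := hF.2.2 (-1) p τ
  have h2 : ((-1 : SL(2, ℤ))⁻¹) • p = p := by
    rw [inv_smul_eq_iff]; exact (hneg p).symm
  have h3 : ((-1 : SL(2, ℤ)) • τ : ℍ) = τ := by
    rw [ModularGroup.SL_neg_smul, one_smul]
  rw [h2, h3] at h1
  have h4 : denom (-1 : SL(2, ℤ)) (τ : ℂ) = -1 := by
    simp [denom]
  rw [h4, hk.neg_one_zpow] at h1
  have h5 : (2 : ℂ) * F p τ = 0 := by linear_combination h1
  simpa using h5

variable (P) in
/-- vector valued cusp forms -/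
def VC (k : ℤ) : Submodule ℂ (P → ℍ → ℂ) where
  carrier := {F | F ∈ VV P k ∧ ∀ p, Tendsto (F p) atImInfty (𝓝 0)}
  add_mem' := by
    rintro F G ⟨h1, h2⟩ ⟨h3, h4⟩
    exact ⟨(VV P k).add_mem h1 h3, fun p => by simpa using! (h2 p).add (h4 p)⟩
  zero_mem' := ⟨(VV P k).zero_mem, fun p => tendsto_const_nhds⟩
  smul_mem' := by
    rintro c F ⟨h1, h2⟩
    exact ⟨(VV P k).smul_mem c h1, fun p => by simpa using! (h2 p).const_smul c⟩

theorem VC_nonpos {k : ℤ} (hk : k ≤ 0) {F : P → ℍ → ℂ} (hF : F ∈ VC P k) : F = 0 := by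
  rcases hk.lt_or_eq with hk | rfl
  · exact VV_neg hk hF.1
  · obtain ⟨c, hc⟩ := VV_zero hF.1
    funext p τ
    have h1 := hF.2 p
    have h2 : F p = fun _ => c p := funext fun τ => hc p τ
    rw [h2] at h1 ⊢
    exact tendsto_nhds_unique tendsto_const_nhds h1

end vv

end Fermat.Agent.ES
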