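import Mathlib
import Fermat.Agent.ES.VVBasic

set_option autoImplicit false
set_option linter.unusedSectionVars false

/-!
# Vector valued modular forms are free over `ℂ[E₄, E₆]`
-/

open UpperHalfPlane hiding I
open ModularForm SlashInvariantForm SlashInvariantFormClass ModularFormClass
  CuspFormClass MatrixGroups OnePoint Filter EisensteinSeries
open scoped Topology Manifold MatrixGroups ModularForm

noncomputable section

namespace Fermat.Agent.ES

/-- complements as families of vectors -/
theorem exists_family {W : Type} [AddCommGroup W] [Module ℂ W] (U V : Submodule ℂ W) (_h : U ≤ V) :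
    ∃ (ι : Type) (g : ι → W), (∀ i, g i ∈ V) ∧
      (∀ F ∈ V, ∃ c : ι →₀ ℂ, F - Finsupp.linearCombination ℂ g c ∈ U) ∧
      (∀ c : ι →₀ ℂ, Finsupp.linearCombination ℂ g c ∈ U → c = 0) := by
  classical
  let U' : Submodule ℂ V := U.submoduleOf V
  let b := Module.Basis.ofVectorSpace ℂ (V ⧸ U')
  let ι := Module.Basis.ofVectorSpaceIndex ℂ (V ⧸ U')
  have hsurj : Function.Surjective U'.mkQ := Submodule.mkQ_surjective U'
  choose g0 hg0 using fun i : ι => hsurj (b i)
  refine ⟨ι, fun i => (g0 i : W), fun i => (g0 i).2, fun F hF => ?_, fun c hc => ?_⟩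
  · refine ⟨b.repr (U'.mkQ ⟨F, hF⟩), ?_⟩
    have h1 : U'.mkQ (⟨F, hF⟩ - Finsupp.linearCombination ℂ g0 (b.repr (U'.mkQ ⟨F, hF⟩))) = 0 := by
      rw [map_sub, Finsupp.apply_linearCombination, sub_eq_zero]
      have h2 : (U'.mkQ ∘ g0) = b := funext hg0
      rw [h2, b.linearCombination_repr]
    rw [Submodule.mkQ_apply, Submodule.Quotient.mk_eq_zero] at h1
    have h3 : ((⟨F, hF⟩ - Finsupp.linearCombination ℂ g0 (b.repr (U'.mkQ ⟨F, hF⟩)) : V) : W) ∈ U := h1
    have h4 : ((Finsupp.linearCombination ℂ g0 (b.repr (U'.mkQ ⟨F, hF⟩)) : V) : W) =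
        Finsupp.linearCombination ℂ (fun i => (g0 i : W)) (b.repr (U'.mkQ ⟨F, hF⟩)) :=
      Finsupp.apply_linearCombination ℂ V.subtype g0 _
    rw [← h4]
    exact h3
  · have h4 : ((Finsupp.linearCombination ℂ g0 c : V) : W) =
        Finsupp.linearCombination ℂ (fun i => (g0 i : W)) c :=
      Finsupp.apply_linearCombination ℂ V.subtype g0 _
    rw [← h4] at hc
    have h5 : Finsupp.linearCombination ℂ g0 c ∈ U' := hc
    rw [← Submodule.Quotient.mk_eq_zero, ← Submodule.mkQ_apply, Finsupp.apply_linearCombination,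
      show (U'.mkQ ∘ g0) = b from funext hg0] at h5
    exact (linearIndependent_iff.mp b.linearIndependent) c h5

variable {P : Type} [Fintype P] [DecidableEq P] [MulAction SL(2, ℤ) P]

/-- multiplication by a function -/
def lsm (r : ℍ → ℂ) : (P → ℍ → ℂ) →ₗ[ℂ] (P → ℍ → ℂ) where
  toFun F := r • F
  map_add' F G := smul_add r F G
  map_smul' c F := by
    ext p τ
    simp only [Pi.smul_apply, smul_eq_mul, Pi.mul_apply, RingHom.id_apply]
    ring

variable (P) in
/-- the decomposable forms -/
def UU (k : ℤ) : Submodule ℂ (P → ℍ → ℂ) :=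
  (VV P (k - 4)).map (lsm e4) ⊔ (VV P (k - 6)).map (lsm e6)

theorem mem_UU {k : ℤ} {F : P → ℍ → ℂ} : F ∈ UU P k ↔
    ∃ A ∈ VV P (k - 4), ∃ B ∈ VV P (k - 6), F = e4 • A + e6 • B := by
  rw [UU, Submodule.mem_sup]
  constructor
  · rintro ⟨_, ⟨A, hA, rfl⟩, _, ⟨B, hB, rfl⟩, rfl⟩
    exact ⟨A, hA, B, hB, rfl⟩
  · rintro ⟨A, hA, B, hB, rfl⟩
    exact ⟨_, ⟨A, hA, rfl⟩, _, ⟨B, hB, rfl⟩, rfl⟩

theorem UU_le (k : ℤ) : UU P k ≤ VV P k := by
  intro F hF
  obtain ⟨A, hA, B, hB, rfl⟩ := mem_UU.mp hF
  refine (VV P k).add_mem ?_ ?_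
  · have := VV_smul e4_mem hA
    rwa [add_sub_cancel] at this
  · have := VV_smul e6_mem hB
    rwa [add_sub_cancel] at this

/-- the data of a homogeneous basis -/
structure HBasis (P : Type) [Fintype P] [DecidableEq P] [MulAction SL(2, ℤ) P] where
  /-- index type -/
  J : Type
  /-- weights -/
  wt : J → ℕ
  /-- the basis vectors -/
  g : J → P → ℍ → ℂ
  mem : ∀ j, g j ∈ VV P (wt j)
  gen : ∀ k : ℤ, ∀ F ∈ VV P k, ∃ r : J →₀ (ℍ → ℂ), (∀ j, r j ∈ RR (k - wt j)) ∧
    Finsupp.linearCombination (ℍ → ℂ) g r = F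
  ind : ∀ k : ℤ, ∀ r : J →₀ (ℍ → ℂ), (∀ j, r j ∈ RR (k - wt j)) →
    Finsupp.linearCombination (ℍ → ℂ) g r = 0 → r = 0

theorem lc_mem {J : Type} {wt : J → ℕ} {g : J → P → ℍ → ℂ} (hg : ∀ j, g j ∈ VV P (wt j))
    {k : ℤ} (r : J →₀ (ℍ → ℂ)) (hr : ∀ j, r j ∈ RR (k - wt j)) :
    Finsupp.linearCombination (ℍ → ℂ) g r ∈ VV P k := by
  rw [Finsupp.linearCombination_apply, Finsupp.sum]
  refine (VV P k).sum_mem fun j _ => ?_
  have := VV_smul (hr j) (hg j)
  rwa [sub_add_cancel] at this

theorem const_smul_eq (c : ℂ) (F : P → ℍ → ℂ) : ((fun _ => c : ℍ → ℂ)) • F = c • F := by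
  ext p τ; simp

/-- embedding of constant coefficients -/
def cJ {ι : ℕ → Type} (n : ℕ) (c : ι n →₀ ℂ) : (Σ k, ι k) →₀ (ℍ → ℂ) :=
  Finsupp.mapDomain (Sigma.mk n) (c.mapRange (fun x => (fun _ => x : ℍ → ℂ)) rfl)

theorem cJ_apply_self {ι : ℕ → Type} (n : ℕ) (c : ι n →₀ ℂ) (i : ι n) :
    cJ n c ⟨n, i⟩ = fun _ => c i := by
  rw [cJ, Finsupp.mapDomain_apply sigma_mk_injective]
  rfl

theorem cJ_apply_ne {ι : ℕ → Type} (n : ℕ) (c : ι n →₀ ℂ) (j : Σ k, ι k) (hj : j.1 ≠ n) :
    cJ n c j = 0 := by
  rw [cJ, Finsupp.mapDomain_of_notMem_range]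
  rintro ⟨i, rfl⟩
  exact hj rfl

theorem lc_cJ {ι : ℕ → Type} (g : (Σ k, ι k) → P → ℍ → ℂ) (n : ℕ) (c : ι n →₀ ℂ) :
    Finsupp.linearCombination (ℍ → ℂ) g (cJ n c) =
      Finsupp.linearCombination ℂ (fun i => g ⟨n, i⟩) c := by
  rw [cJ, Finsupp.linearCombination_mapDomain, Finsupp.linearCombination_apply,
    Finsupp.linearCombination_apply, Finsupp.sum_mapRange_index]
  · refine Finsupp.sum_congr fun i _ => ?_
    exact const_smul_eq _ _
  · intro i
    exact zero_smul _ _

theorem cJ_mem {ι : ℕ → Type} (n : ℕ) (c : ι n →₀ ℂ) (j : Σ k, ι k) :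
    cJ n c j ∈ RR ((n : ℤ) - (j.1 : ℕ)) := by
  by_cases hj : j.1 = n
  · obtain ⟨m, i⟩ := j
    dsimp only at hj
    subst hj
    rw [cJ_apply_self, sub_self]
    exact const_mem_RR _
  · rw [cJ_apply_ne n c j hj]
    exact zero_mem _

variable (P) in
theorem exists_hbasis : Nonempty (HBasis P) := by
  classical
  choose ι g hmem hgen hind using fun k : ℕ => exists_family (UU P k) (VV P k) (UU_le k)
  let J := Σ k, ι k
  let G : J → P → ℍ → ℂ := fun j => g j.1 j.2
  have hG : ∀ j : J, G j ∈ VV P ((j.1 : ℕ) : ℤ) := fun j => hmem j.1 j.2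
  have hgen' : ∀ n : ℕ, ∀ k : ℤ, k < n → ∀ F ∈ VV P k, ∃ r : J →₀ (ℍ → ℂ),
      (∀ j, r j ∈ RR (k - (j.1 : ℕ))) ∧ Finsupp.linearCombination (ℍ → ℂ) G r = F := by
    intro n
    induction n with
    | zero =>
      intro k hk F hF
      have hk' : k < 0 := by simpa using hk
      exact ⟨0, fun j => zero_mem _, by rw [VV_neg hk' hF, map_zero]⟩
    | succ n ih =>
      intro k hk F hF
      rcases (by push_cast at hk; omega : k < n ∨ k = n) with h | rfl
      · exact ih k h F hF
      · obtain ⟨c, hc⟩ := hgen n F hF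
        obtain ⟨A, hA, B, hB, hAB⟩ := mem_UU.mp hc
        obtain ⟨a, ha, haA⟩ := ih _ (by omega) A hA
        obtain ⟨b, hb, hbB⟩ := ih _ (by omega) B hB
        refine ⟨cJ n c + (e4 • a + e6 • b), fun j => ?_, ?_⟩
        · rw [Finsupp.add_apply, Finsupp.add_apply, Finsupp.smul_apply, Finsupp.smul_apply]
          refine (RR _).add_mem (cJ_mem n c j) ((RR _).add_mem ?_ ?_)
          · have := RR_mul e4_mem (ha j)
            rw [smul_eq_mul]
            convert this using 2; ring
          · have := RR_mul e6_mem (hb j)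
            rw [smul_eq_mul]
            convert this using 2; ring
        · rw [map_add, map_add, _root_.map_smul, _root_.map_smul, haA, hbB, ← hAB, lc_cJ]
          simp [G]
  have hind' : ∀ n : ℕ, ∀ k : ℤ, k < n → ∀ r : J →₀ (ℍ → ℂ),
      (∀ j, r j ∈ RR (k - (j.1 : ℕ))) → Finsupp.linearCombination (ℍ → ℂ) G r = 0 → r = 0 := by
    intro n
    induction n with
    | zero =>
      intro k hk r hr _
      have hk' : k < 0 := by simpa using hk
      ext1 j
      exact RR_neg (by omega) (hr j)
    | succ n ih =>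
      intro k hk r hr h0
      rcases (by push_cast at hk; omega : k < n ∨ k = n) with h | rfl
      · exact ih k h r hr h0
      · have hex : ∀ j : J, ∃ a ∈ RR ((n : ℤ) - 4 - (j.1 : ℕ)), ∃ b ∈ RR ((n : ℤ) - 6 - (j.1 : ℕ)),
            ∃ c : ℂ, r j = e4 * a + e6 * b + (fun _ => c) ∧ (j.1 ≠ n → c = 0) ∧
              (r j = 0 → a = 0 ∧ b = 0 ∧ c = 0) := by
          intro j
          by_cases hrj : r j = 0
          · exact ⟨0, zero_mem _, 0, zero_mem _, 0, by rw [hrj]; ext; simp, fun _ => rfl,
              fun _ => ⟨rfl, rfl, rfl⟩⟩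
          · rcases lt_trichotomy (j.1 : ℕ) n with hlt | heq | hgt
            · obtain ⟨a, ha, b, hb, hab⟩ := RR_pos (by omega) (hr j)
              refine ⟨a, by convert ha using 2; ring, b, by convert hb using 2; ring, 0, ?_,
                fun _ => rfl, fun h => absurd h hrj⟩
              rw [hab]; ext; simp
            · have h1 := hr j
              rw [heq, sub_self] at h1
              obtain ⟨c, hc⟩ := RR_zero h1
              refine ⟨0, zero_mem _, 0, zero_mem _, c, ?_, fun h => absurd heq h,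
                fun h => absurd h hrj⟩
              rw [hc]; simp
            · exact absurd (RR_neg (by omega) (hr j)) hrj
        choose a ha b hb c hc hcn hz using hex
        let a' : J →₀ (ℍ → ℂ) := Finsupp.onFinset r.support a fun j hj => by
          rw [Finsupp.mem_support_iff]
          exact fun h => hj (hz j h).1
        let b' : J →₀ (ℍ → ℂ) := Finsupp.onFinset r.support b fun j hj => by
          rw [Finsupp.mem_support_iff]
          exact fun h => hj (hz j h).2.1
        let c0 : J →₀ ℂ := Finsupp.onFinset r.support c fun j hj => by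
          rw [Finsupp.mem_support_iff]
          exact fun h => hj (hz j h).2.2
        let c' : ι n →₀ ℂ := c0.comapDomain (Sigma.mk n) sigma_mk_injective.injOn
        have hr' : r = cJ n c' + (e4 • a' + e6 • b') := by
          ext1 j
          rw [Finsupp.add_apply, Finsupp.add_apply, Finsupp.smul_apply, Finsupp.smul_apply, hc j]
          have h1 : cJ n c' j = fun _ => c j := by
            by_cases hj : j.1 = n
            · obtain ⟨m, i⟩ := j
              dsimp only at hj
              subst hj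
              rw [cJ_apply_self]
              rfl
            · rw [cJ_apply_ne n c' j hj, hcn j hj]
              rfl
          rw [h1]
          simp only [a', b', Finsupp.onFinset_apply, smul_eq_mul]
          ring
        have haV := lc_mem hG a' (k := (n : ℤ) - 4) (fun j => by
          simp only [a', Finsupp.onFinset_apply]; exact ha j)
        have hbV := lc_mem hG b' (k := (n : ℤ) - 6) (fun j => by
          simp only [b', Finsupp.onFinset_apply]; exact hb j)
        have h1 := h0
        rw [hr', map_add, map_add, _root_.map_smul, _root_.map_smul, lc_cJ] at h1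
        have h2 : Finsupp.linearCombination ℂ (fun i => G ⟨n, i⟩) c' ∈ UU P n := by
          rw [eq_neg_of_add_eq_zero_left h1]
          exact (UU P n).neg_mem (mem_UU.mpr ⟨_, haV, _, hbV, rfl⟩)
        have hc'0 : c' = 0 := hind n c' h2
        rw [hc'0, map_zero, zero_add] at h1
        obtain ⟨C, hC, hAC, hBC⟩ := VV_regular haV hbV h1
        obtain ⟨d, hd, hdC⟩ := hgen' (n + 1) _ (by push_cast; omega) C hC
        have h3 : a' - e6 • d = 0 := by
          refine ih ((n : ℤ) - 4) (by omega) _ (fun j => ?_) ?_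
          · rw [Finsupp.sub_apply, Finsupp.smul_apply]
            refine (RR _).sub_mem (by simp only [a', Finsupp.onFinset_apply]; exact ha j) ?_
            have := RR_mul e6_mem (hd j)
            rw [smul_eq_mul]
            convert this using 2; ring
          · rw [map_sub, _root_.map_smul, hdC, hAC, sub_self]
        have h4 : b' + e4 • d = 0 := by
          refine ih ((n : ℤ) - 6) (by omega) _ (fun j => ?_) ?_
          · rw [Finsupp.add_apply, Finsupp.smul_apply]
            refine (RR _).add_mem (by simp only [b', Finsupp.onFinset_apply]; exact hb j) ?_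
            have := RR_mul e4_mem (hd j)
            rw [smul_eq_mul]
            convert this using 2; ring
          · rw [map_add, _root_.map_smul, hdC, hBC, neg_add_cancel]
        rw [hr', hc'0, sub_eq_zero.mp h3, eq_neg_of_add_eq_zero_left h4]
        have h5 : cJ n (0 : ι n →₀ ℂ) = 0 := by
          rw [cJ, Finsupp.mapRange_zero, Finsupp.mapDomain_zero]
        rw [h5, zero_add, smul_neg, smul_smul, smul_smul, mul_comm e6 e4, add_neg_cancel]
  exact ⟨{
    J := J
    wt := fun j => j.1
    g := G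
    mem := hG
    gen := fun k F hF => hgen' (k.toNat + 1) k (by push_cast; omega) F hF
    ind := fun k r hr h0 => hind' (k.toNat + 1) k (by push_cast; omega) r hr h0 }⟩

end Fermat.Agent.ES
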