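import Mathlib

set_option autoImplicit false
set_option linter.unusedSectionVars false

/-!
# Spectral idempotents of an element of finite order
-/

open scoped Matrix

noncomputable section

namespace Fermat.Agent.ES

section idem

variable {𝔸 : Type*} [Ring 𝔸] [Algebra ℂ 𝔸] (t : 𝔸) (N : ℕ)

/-- the primitive root of unity -/
def zt (N : ℕ) : ℂ := Complex.exp (2 * Real.pi * Complex.I / N)

theorem zt_prim (hN : 0 < N) : IsPrimitiveRoot (zt N) N :=
  Complex.isPrimitiveRoot_exp N hN.ne'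

theorem zt_ne (N : ℕ) : zt N ≠ 0 := Complex.exp_ne_zero _

theorem geom_zero {w : ℂ} (hw : w ^ N = 1) (hw1 : w ≠ 1) : ∑ k ∈ Finset.range N, w ^ k = 0 := by
  have h := geom_sum_mul w N
  rw [hw, sub_self] at h
  exact (mul_eq_zero.mp h).resolve_right (sub_ne_zero.mpr hw1)

/-- spectral idempotents -/
def idem (n : ℕ) : 𝔸 := (N : ℂ)⁻¹ • ∑ k ∈ Finset.range N, ((zt N ^ n)⁻¹) ^ k • t ^ k

variable {t N}

theorem t_mul_idem (hN : 0 < N) (ht : t ^ N = 1) (n : ℕ) :
    t * idem t N n = (zt N ^ n) • idem t N n := by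
  have hz : zt N ^ n ≠ 0 := pow_ne_zero _ (zt_ne N)
  have hzN : ((zt N ^ n)⁻¹) ^ N = 1 := by
    rw [inv_pow, ← pow_mul, mul_comm, pow_mul, (zt_prim N hN).pow_eq_one, one_pow, inv_one]
  rw [idem, mul_smul_comm, smul_comm (zt N ^ n)]
  congr 1
  rw [Finset.mul_sum, Finset.smul_sum]
  have h1 : ∀ k ∈ Finset.range N, t * ((zt N ^ n)⁻¹ ^ k • t ^ k) =
      (fun k => zt N ^ n • ((zt N ^ n)⁻¹ ^ k • t ^ k)) (k + 1) := by
    intro k _
    simp only
    rw [mul_smul_comm, ← pow_succ', smul_smul]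
    congr 1
    rw [pow_succ]
    field_simp
  rw [Finset.sum_congr rfl h1]
  have h2 := Finset.sum_range_succ (fun k => zt N ^ n • ((zt N ^ n)⁻¹ ^ k • t ^ k)) N
  rw [Finset.sum_range_succ'] at h2
  simp only [pow_zero] at h2
  rw [hzN, ht] at h2
  exact add_right_cancel h2

theorem tpow_mul_idem (hN : 0 < N) (ht : t ^ N = 1) (n k : ℕ) :
    t ^ k * idem t N n = (zt N ^ n) ^ k • idem t N n := by
  induction k with
  | zero => simp
  | succ k ih =>
    rw [pow_succ, mul_assoc, t_mul_idem hN ht, mul_smul_comm, ih, smul_smul, pow_succ, mul_comm]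

theorem idem_mul_idem (hN : 0 < N) (ht : t ^ N = 1) {m n : ℕ} (hm : m < N) (hn : n < N) :
    idem t N m * idem t N n = if m = n then idem t N n else 0 := by
  have hNc : (N : ℂ) ≠ 0 := by exact_mod_cast hN.ne'
  have hz : ∀ j, zt N ^ j ≠ 0 := fun j => pow_ne_zero _ (zt_ne N)
  conv_lhs => rw [idem]
  rw [smul_mul_assoc, Finset.sum_mul]
  have h1 : ∀ k ∈ Finset.range N, (zt N ^ m)⁻¹ ^ k • t ^ k * idem t N n =
      ((zt N ^ m)⁻¹ * zt N ^ n) ^ k • idem t N n := by
    intro k _
    rw [smul_mul_assoc, tpow_mul_idem hN ht, smul_smul, mul_pow]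
  rw [Finset.sum_congr rfl h1, ← Finset.sum_smul]
  split_ifs with h
  · subst h
    rw [inv_mul_cancel₀ (hz m)]
    simp only [one_pow, Finset.sum_const, Finset.card_range, nsmul_eq_mul, mul_one]
    rw [smul_smul, inv_mul_cancel₀ hNc, one_smul]
  · rw [geom_zero, zero_smul, smul_zero]
    · rw [mul_pow, inv_pow, ← pow_mul, ← pow_mul, mul_comm m, mul_comm n, pow_mul, pow_mul,
        (zt_prim N hN).pow_eq_one]
      simp
    · intro h2
      apply h
      have h3 : zt N ^ n = zt N ^ m := by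
        have := congrArg (fun x => zt N ^ m * x) h2
        simp only [mul_one] at this
        rwa [mul_inv_cancel_left₀ (hz m)] at this
      exact ((zt_prim N hN).pow_inj hn hm h3).symm

theorem sum_idem (hN : 0 < N) : ∑ n ∈ Finset.range N, idem t N n = 1 := by
  have hNc : (N : ℂ) ≠ 0 := by exact_mod_cast hN.ne'
  simp only [idem]
  rw [← Finset.smul_sum, Finset.sum_comm]
  have h1 : ∀ k ∈ Finset.range N, ∑ n ∈ Finset.range N, ((zt N ^ n)⁻¹) ^ k • t ^ k =
      if k = 0 then (N : ℂ) • (1 : 𝔸) else 0 := by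
    intro k hk
    rw [← Finset.sum_smul]
    have h2 : ∀ n, ((zt N ^ n)⁻¹) ^ k = ((zt N ^ k)⁻¹) ^ n := by
      intro n
      rw [inv_pow, inv_pow, ← pow_mul, ← pow_mul, mul_comm]
    simp only [h2]
    split_ifs with h
    · subst h
      simp
    · rw [geom_zero, zero_smul]
      · rw [inv_pow, ← pow_mul, mul_comm, pow_mul, (zt_prim N hN).pow_eq_one, one_pow, inv_one]
      · intro h3
        rw [inv_eq_one] at h3
        have := (zt_prim N hN).pow_inj (Finset.mem_range.mp hk) hN (by rw [h3, pow_zero])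
        exact h this
  rw [Finset.sum_congr rfl h1, Finset.sum_ite_eq' (Finset.range N) 0,
    if_pos (Finset.mem_range.mpr hN), smul_smul, inv_mul_cancel₀ hNc, one_smul]

variable (t N) in
/-- the one parameter group `exp(s log t)`, `s ↦ ∑ e(ns/N) π_n` -/
def ug (s : ℂ) : 𝔸 := ∑ n ∈ Finset.range N, Complex.exp (2 * Real.pi * Complex.I * n * s / N) • idem t N n

theorem ug_mul (hN : 0 < N) (ht : t ^ N = 1) (s s' : ℂ) : ug t N s * ug t N s' = ug t N (s + s') := by
  rw [ug, ug, ug, Finset.sum_mul_sum]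
  refine Finset.sum_congr rfl fun m hm => ?_
  rw [Finset.sum_eq_single m]
  · rw [smul_mul_smul_comm, idem_mul_idem hN ht (Finset.mem_range.mp hm) (Finset.mem_range.mp hm),
      if_pos rfl, ← Complex.exp_add]
    congr 2
    ring
  · intro n hn hnm
    rw [smul_mul_smul_comm, idem_mul_idem hN ht (Finset.mem_range.mp hm) (Finset.mem_range.mp hn),
      if_neg hnm.symm, smul_zero]
  · intro h
    exact absurd hm h

theorem ug_zero (hN : 0 < N) : ug t N 0 = 1 := by
  rw [ug]
  simp only [mul_zero, zero_div, Complex.exp_zero, one_smul]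
  exact sum_idem hN

theorem ug_one (hN : 0 < N) (ht : t ^ N = 1) : ug t N 1 = t := by
  have h1 : t = t * ∑ n ∈ Finset.range N, idem t N n := by rw [sum_idem hN, mul_one]
  conv_rhs => rw [h1]
  rw [ug, Finset.mul_sum]
  refine Finset.sum_congr rfl fun n _ => ?_
  rw [t_mul_idem hN ht]
  congr 1
  rw [zt, ← Complex.exp_nat_mul]
  congr 1
  ring

end idem

end Fermat.Agent.ES
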