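import Mathlib
import Fermat.Agent.ES.VVBasis
import Fermat.Agent.ES.VVIdem

set_option autoImplicit false
set_option linter.unusedSectionVars false

/-!
# The fiber at infinity of the module of vector valued modular forms
-/

open UpperHalfPlane hiding I
open ModularForm SlashInvariantForm SlashInvariantFormClass ModularFormClass
  CuspFormClass MatrixGroups OnePoint Filter EisensteinSeries
open scoped Topology Manifold MatrixGroups ModularForm Matrix

noncomputable section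

namespace Fermat.Agent.ES

section analysis

/-- `q = exp(2πiτ)` -/
def qf (τ : ℍ) : ℂ := Complex.exp (2 * Real.pi * Complex.I * τ)

theorem norm_qf (τ : ℍ) : ‖qf τ‖ = Real.exp (-2 * Real.pi * τ.im) := by
  rw [qf, Complex.norm_exp]
  congr 1
  simp [Complex.mul_re, Complex.mul_im]

theorem norm_exp_mul (c : ℝ) (τ : ℍ) :
    ‖Complex.exp (2 * Real.pi * Complex.I * c * τ)‖ = Real.exp (-2 * Real.pi * c * τ.im) := by
  rw [Complex.norm_exp]
  congr 1
  simp [Complex.mul_re, Complex.mul_im]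

theorem mdiff_exp (c : ℂ) : MDiff (fun τ : ℍ => Complex.exp (c * τ)) := by
  rw [UpperHalfPlane.mdifferentiable_iff]
  have h1 : DifferentiableOn ℂ (fun z : ℂ => Complex.exp (c * z)) {z | 0 < z.im} := by
    fun_prop
  refine h1.congr fun z hz => ?_
  simp only [Function.comp_apply]
  rw [ofComplex_apply_of_im_pos hz]

theorem periodic_iff {f : ℍ → ℂ} : Function.Periodic (f ∘ ofComplex) ((1 : ℝ) : ℂ) ↔
    ∀ τ : ℍ, f ((1 : ℝ) +ᵥ τ) = f τ := by
  constructor
  · intro h τ
    have h1 := h τ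
    simp only [Function.comp_apply, ofComplex_apply] at h1
    rw [← h1]
    congr 1
    apply UpperHalfPlane.ext
    have h2 : 0 < ((τ : ℂ) + ((1 : ℝ) : ℂ)).im := by simpa using τ.im_pos
    rw [ofComplex_apply_of_im_pos h2, UpperHalfPlane.coe_vadd]
    simp [add_comm]
  · intro h z
    simp only [Function.comp_apply]
    by_cases hz : 0 < z.im
    · have h2 : 0 < (z + ((1 : ℝ) : ℂ)).im := by simpa using hz
      rw [ofComplex_apply_of_im_pos h2, ofComplex_apply_of_im_pos hz]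
      rw [← h ⟨z, hz⟩]
      congr 1
      apply UpperHalfPlane.ext
      rw [UpperHalfPlane.coe_vadd]
      simp [add_comm]
    · have h2 : ¬ 0 < (z + ((1 : ℝ) : ℂ)).im := by simpa using hz
      rw [ofComplex_apply_of_im_nonpos (not_lt.mp h2), ofComplex_apply_of_im_nonpos (not_lt.mp hz)]

theorem tendsto_exp_neg_im {c : ℝ} (hc : 0 < c) :
    Tendsto (fun τ : ℍ => Real.exp (-(c * τ.im))) atImInfty (𝓝 0) :=
  Real.tendsto_exp_neg_atTop_nhds_zero.comp (Tendsto.const_mul_atTop hc tendsto_comap)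

/-- removable singularity: `1`-periodic function with `q f → 0` is bounded. -/
theorem bdd_of_mul_q {f : ℍ → ℂ} (hd : MDiff f) (hp : ∀ τ : ℍ, f ((1 : ℝ) +ᵥ τ) = f τ)
    (h0 : Tendsto (fun τ => qf τ * f τ) atImInfty (𝓝 0)) : IsBoundedAtImInfty f := by
  set g : ℍ → ℂ := fun τ => qf τ * f τ with hg
  have hgp : Function.Periodic (g ∘ ofComplex) ((1 : ℝ) : ℂ) := by
    rw [periodic_iff]
    intro τ
    simp only [hg]
    rw [hp, qf, qf, UpperHalfPlane.coe_vadd]
    congr 1
    have : 2 * Real.pi * Complex.I * (((1 : ℝ) : ℂ) + τ) = 2 * Real.pi * Complex.I * τ +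
        2 * Real.pi * Complex.I := by push_cast; ring
    rw [this, Complex.exp_add, Complex.exp_two_pi_mul_I, mul_one]
  have hgd : MDiff g := (mdiff_exp (2 * Real.pi * Complex.I)).mul hd
  have hgz : IsZeroAtImInfty g := h0
  have hgb : IsBoundedAtImInfty g := hgz.isBoundedAtImInfty
  have h1 := hgz.exp_decay_atImInfty one_pos hgp hgd hgb
  obtain ⟨C, hC⟩ := h1.bound
  obtain ⟨A, hA⟩ := UpperHalfPlane.atImInfty_mem _ |>.mp hC
  rw [UpperHalfPlane.isBoundedAtImInfty_iff]
  refine ⟨C, A, fun τ hτ => ?_⟩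
  have h2 : ‖g τ‖ ≤ C * ‖Real.exp (-2 * Real.pi * τ.im / 1)‖ := hA τ hτ
  rw [hg] at h2
  simp only [norm_mul] at h2
  rw [norm_qf, div_one, Real.norm_of_nonneg (Real.exp_pos _).le] at h2
  have h3 : 0 < Real.exp (-2 * Real.pi * τ.im) := Real.exp_pos _
  have h4 : Real.exp (-2 * Real.pi * τ.im) * ‖f τ‖ ≤ Real.exp (-2 * Real.pi * τ.im) * C := by
    linarith
  exact le_of_mul_le_mul_left h4 h3

theorem exists_limit_of_bdd {f : ℍ → ℂ} (hd : MDiff f) (hp : ∀ τ : ℍ, f ((1 : ℝ) +ᵥ τ) = f τ)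
    (hb : IsBoundedAtImInfty f) : Tendsto f atImInfty (𝓝 (valueAtInfty f)) := by
  have h4 := UpperHalfPlane.exp_decay_sub_atImInfty one_pos (periodic_iff.mpr hp) hd hb
  have h6 : Tendsto (fun τ => f τ - valueAtInfty f) atImInfty (𝓝 0) := by
    refine h4.trans_tendsto ((tendsto_exp_neg_im (c := 2 * Real.pi) (by positivity)).congr
      fun τ => ?_)
    congr 1; ring
  have h7 := h6.add_const (valueAtInfty f)
  simpa using h7

end analysis

variable {P : Type} [Fintype P] [DecidableEq P] [MulAction SL(2, ℤ) P]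

variable (P) in
/-- the permutation matrix of `T` -/
def tm : Matrix P P ℂ := Matrix.of fun p p' => if p' = ModularGroup.T⁻¹ • p then 1 else 0

theorem tm_mulVec (v : P → ℂ) (p : P) : (tm P *ᵥ v) p = v (ModularGroup.T⁻¹ • p) := by
  simp [tm, Matrix.mulVec, dotProduct]

theorem tm_pow_mulVec (k : ℕ) (v : P → ℂ) (p : P) :
    (tm P ^ k *ᵥ v) p = v ((ModularGroup.T ^ k)⁻¹ • p) := by
  induction k generalizing v p with
  | zero => simp
  | succ k ih =>
    rw [pow_succ, ← Matrix.mulVec_mulVec, ih, tm_mulVec, smul_smul, pow_succ, mul_inv_rev]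

variable (P) in
/-- the order of `T` on `P` -/
def NT : ℕ := orderOf (MulAction.toPermHom SL(2, ℤ) P ModularGroup.T)

theorem NT_pos : 0 < NT P := orderOf_pos _

theorem T_pow_NT (p : P) : ModularGroup.T ^ NT P • p = p := by
  have h := pow_orderOf_eq_one (MulAction.toPermHom SL(2, ℤ) P ModularGroup.T)
  rw [← map_pow] at h
  exact congrArg (fun σ : Equiv.Perm P => σ p) h

theorem tm_pow_NT : tm P ^ NT P = 1 := by
  apply Matrix.ext_of_mulVec_single
  intro i
  funext p
  rw [tm_pow_mulVec, Matrix.one_mulVec]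
  congr 1
  rw [inv_smul_eq_iff, T_pow_NT]

/-- the value vector -/
def ev (F : P → ℍ → ℂ) (τ : ℍ) : P → ℂ := fun p => F p τ

theorem ev_T {k : ℤ} {F : P → ℍ → ℂ} (hF : F ∈ VV P k) (τ : ℍ) :
    ev F ((1 : ℝ) +ᵥ τ) = tm P *ᵥ ev F τ := by
  funext p
  rw [tm_mulVec, ev, ev, ← UpperHalfPlane.modular_T_smul, hF.2.2]
  have : denom (ModularGroup.T) (τ : ℂ) = 1 := by
    simp [denom, ModularGroup.T]
  rw [this, one_zpow, one_mul]

/-- the canonical extension -/
def CF (F : P → ℍ → ℂ) : P → ℍ → ℂ := fun p τ => (ug (tm P) (NT P) (-τ) *ᵥ ev F τ) p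

/-- components -/
def comp (n : ℕ) (F : P → ℍ → ℂ) (p : P) (τ : ℍ) : ℂ :=
  Complex.exp (2 * Real.pi * Complex.I * n * (-τ) / NT P) * (idem (tm P) (NT P) n *ᵥ ev F τ) p

theorem CF_eq (F : P → ℍ → ℂ) (p : P) (τ : ℍ) :
    CF F p τ = ∑ n ∈ Finset.range (NT P), comp n F p τ := by
  rw [CF, ug, Matrix.sum_mulVec, Finset.sum_apply]
  refine Finset.sum_congr rfl fun n _ => ?_
  rw [comp, Matrix.smul_mulVec, Pi.smul_apply, smul_eq_mul]

theorem comp_mdiff {k : ℤ} {F : P → ℍ → ℂ} (hF : F ∈ VV P k) (n : ℕ) (p : P) :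
    MDiff (comp n F p) := by
  have h1 : MDiff (fun τ : ℍ => Complex.exp (2 * Real.pi * Complex.I * n * (-τ) / NT P)) := by
    have h0 := mdiff_exp (-(2 * Real.pi * Complex.I * n) / NT P)
    have h2 : (fun τ : ℍ => Complex.exp (2 * Real.pi * Complex.I * n * (-τ) / NT P)) =
        fun τ : ℍ => Complex.exp (-(2 * Real.pi * Complex.I * n) / NT P * τ) := by
      funext τ
      congr 1
      ring
    rw [h2]
    exact h0
  refine h1.mul ?_
  have h2 : (fun τ => (idem (tm P) (NT P) n *ᵥ ev F τ) p) =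
      fun τ => ∑ p', idem (tm P) (NT P) n p p' * F p' τ := rfl
  rw [h2]
  exact mdiff_finset_sum fun p' _ => mdifferentiable_const.mul (hF.1 p')

theorem comp_periodic {k : ℤ} {F : P → ℍ → ℂ} (hF : F ∈ VV P k) (n : ℕ) (p : P) (τ : ℍ) :
    comp n F p ((1 : ℝ) +ᵥ τ) = comp n F p τ := by
  rw [comp, comp, ev_T hF, Matrix.mulVec_mulVec]
  have h1 : idem (tm P) (NT P) n * tm P = (zt (NT P) ^ n) • idem (tm P) (NT P) n := by
    rw [← t_mul_idem NT_pos tm_pow_NT]
    rw [idem, smul_mul_assoc, mul_smul_comm, Finset.sum_mul, Finset.mul_sum]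
    congr 1
    refine Finset.sum_congr rfl fun i _ => ?_
    rw [smul_mul_assoc, mul_smul_comm, ← pow_succ, ← pow_succ']
  rw [h1, Matrix.smul_mulVec, Pi.smul_apply, smul_eq_mul, ← mul_assoc]
  congr 1
  rw [zt, ← Complex.exp_nat_mul, ← Complex.exp_add, UpperHalfPlane.coe_vadd]
  congr 1
  have hN : (NT P : ℂ) ≠ 0 := by exact_mod_cast (NT_pos (P := P)).ne'
  field_simp
  push_cast
  ring

theorem comp_bdd {k : ℤ} {F : P → ℍ → ℂ} (hF : F ∈ VV P k) {n : ℕ} (hn : n < NT P) (p : P) :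
    IsBoundedAtImInfty (comp n F p) := by
  refine bdd_of_mul_q (comp_mdiff hF n p) (comp_periodic hF n p) ?_
  have hb : IsBoundedAtImInfty (fun τ => (idem (tm P) (NT P) n *ᵥ ev F τ) p) := by
    have h2 : (fun τ => (idem (tm P) (NT P) n *ᵥ ev F τ) p) =
        fun τ => ∑ p', idem (tm P) (NT P) n p p' * F p' τ := rfl
    rw [h2]
    refine bdd_finset_sum fun p' _ => ?_
    exact (Filter.const_boundedAtFilter atImInfty _).mul (hF.2.1 p')
  have hNpos : (0 : ℝ) < NT P := by exact_mod_cast NT_pos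
  have hc : 0 < 1 - (n : ℝ) / NT P := by
    rw [sub_pos, div_lt_one hNpos]
    exact_mod_cast hn
  have hz : IsZeroAtImInfty (fun τ : ℍ =>
      Complex.exp (2 * Real.pi * Complex.I * ((1 - (n : ℝ) / NT P : ℝ) : ℂ) * τ)) := by
    rw [IsZeroAtImInfty, ZeroAtFilter, tendsto_zero_iff_norm_tendsto_zero]
    refine (tendsto_exp_neg_im (c := 2 * Real.pi * (1 - (n : ℝ) / NT P)) (by positivity)).congr
      fun τ => ?_
    rw [norm_exp_mul]
    congr 1; ring
  have h3 := hz.mul_boundedAtFilter hb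
  refine Tendsto.congr (fun τ => ?_) h3
  simp only [Pi.mul_apply, comp, qf]
  rw [← mul_assoc, ← Complex.exp_add]
  congr 2
  push_cast
  ring

theorem CF_mdiff {k : ℤ} {F : P → ℍ → ℂ} (hF : F ∈ VV P k) (p : P) : MDiff (CF F p) := by
  have : CF F p = fun τ => ∑ n ∈ Finset.range (NT P), comp n F p τ := funext fun τ => CF_eq F p τ
  rw [this]
  exact mdiff_finset_sum fun n _ => comp_mdiff hF n p

theorem CF_periodic {k : ℤ} {F : P → ℍ → ℂ} (hF : F ∈ VV P k) (p : P) (τ : ℍ) :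
    CF F p ((1 : ℝ) +ᵥ τ) = CF F p τ := by
  rw [CF_eq, CF_eq]
  exact Finset.sum_congr rfl fun n _ => comp_periodic hF n p τ

theorem CF_bdd {k : ℤ} {F : P → ℍ → ℂ} (hF : F ∈ VV P k) (p : P) :
    IsBoundedAtImInfty (CF F p) := by
  have : CF F p = fun τ => ∑ n ∈ Finset.range (NT P), comp n F p τ := funext fun τ => CF_eq F p τ
  rw [this]
  exact bdd_finset_sum fun n hn => comp_bdd hF (Finset.mem_range.mp hn) p

/-- the fiber at infinity -/
def fib (F : P → ℍ → ℂ) : P → ℂ := fun p => valueAtInfty (CF F p)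

theorem fib_tendsto {k : ℤ} {F : P → ℍ → ℂ} (hF : F ∈ VV P k) (p : P) :
    Tendsto (CF F p) atImInfty (𝓝 (fib F p)) :=
  exists_limit_of_bdd (CF_mdiff hF p) (CF_periodic hF p) (CF_bdd hF p)

theorem ev_eq (F : P → ℍ → ℂ) (τ : ℍ) : ev F τ = ug (tm P) (NT P) τ *ᵥ ev (CF F) τ := by
  have h1 : ev (CF F) τ = ug (tm P) (NT P) (-τ) *ᵥ ev F τ := rfl
  rw [h1, Matrix.mulVec_mulVec, ug_mul NT_pos tm_pow_NT, add_neg_cancel, ug_zero NT_pos,
    Matrix.one_mulVec]

theorem CF_smul (r : ℍ → ℂ) (F : P → ℍ → ℂ) : CF (r • F) = r • CF F := by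
  funext p τ
  have h1 : ev (r • F) τ = r τ • ev F τ := rfl
  rw [CF, h1, Matrix.mulVec_smul]
  rfl

theorem CF_add (F G : P → ℍ → ℂ) : CF (F + G) = CF F + CF G := by
  funext p τ
  have h1 : ev (F + G) τ = ev F τ + ev G τ := rfl
  rw [CF, h1, Matrix.mulVec_add]
  rfl

/-- `CF` as a linear map over the ring of functions -/
def CFL : (P → ℍ → ℂ) →ₗ[ℍ → ℂ] (P → ℍ → ℂ) where
  toFun := CF
  map_add' := CF_add
  map_smul' := CF_smul

/-- **The kernel of the fiber map.** -/
theorem exists_div_dl {k : ℤ} {F : P → ℍ → ℂ} (hF : F ∈ VV P k)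
    (h0 : ∀ p, Tendsto (CF F p) atImInfty (𝓝 0)) : ∃ G ∈ VV P (k - 12), F = dl • G := by
  refine ⟨fun p τ => F p τ / dl τ, ⟨fun p => ?_, fun p => ?_, fun γ p τ => ?_⟩, ?_⟩
  · have hn := hF.1 p
    have hdn : MDiff dl := (RR_iff.mp dl_mem).1
    rw [UpperHalfPlane.mdifferentiable_iff] at hn hdn ⊢
    exact hn.div hdn fun z _ => dl_ne _
  · -- growth
    have h1 : ∀ p, (CF F p) =O[atImInfty] fun τ : ℍ => Real.exp (-2 * Real.pi * τ.im) := by
      intro p
      have h2 : IsZeroAtImInfty (CF F p) := h0 p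
      have := h2.exp_decay_atImInfty one_pos (periodic_iff.mpr (CF_periodic hF p)) (CF_mdiff hF p)
        (CF_bdd hF p)
      simpa using this
    have h2 : (F p) =O[atImInfty] fun τ : ℍ => Real.exp (-2 * Real.pi * τ.im) := by
      have h3 : F p = fun τ : ℍ => ∑ n ∈ Finset.range (NT P), ∑ p',
          (Complex.exp (2 * Real.pi * Complex.I * n * τ / NT P) * idem (tm P) (NT P) n p p') *
            CF F p' τ := by
        funext τ
        have h4 := congrFun (ev_eq F τ) p
        have h5 : F p τ = ev F τ p := rfl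
        rw [h5, h4, ug, Matrix.sum_mulVec, Finset.sum_apply]
        refine Finset.sum_congr rfl fun n _ => ?_
        rw [Matrix.smul_mulVec, Pi.smul_apply, smul_eq_mul, Matrix.mulVec, dotProduct,
          Finset.mul_sum]
        refine Finset.sum_congr rfl fun p' _ => ?_
        rw [← mul_assoc]
        rfl
      rw [h3]
      refine Asymptotics.IsBigO.fun_sum fun n _ => Asymptotics.IsBigO.fun_sum fun p' _ => ?_
      have h6 : (fun τ : ℍ => Complex.exp (2 * Real.pi * Complex.I * n * τ / NT P) *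
          idem (tm P) (NT P) n p p') =O[atImInfty] fun _ : ℍ => (1 : ℝ) := by
        refine Asymptotics.IsBigO.of_bound ‖idem (tm P) (NT P) n p p'‖
          (Filter.Eventually.of_forall fun τ => ?_)
        rw [norm_mul, norm_one, mul_one]
        have h7 : ‖Complex.exp (2 * Real.pi * Complex.I * n * τ / NT P)‖ ≤ 1 := by
          have h8 : (2 * Real.pi * Complex.I * n * τ / NT P : ℂ) =
              2 * Real.pi * Complex.I * (((n : ℝ) / NT P : ℝ) : ℂ) * τ := by
            push_cast; ring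
          rw [h8, norm_exp_mul, Real.exp_le_one_iff]
          have h9 : 0 ≤ (n : ℝ) / NT P := by positivity
          have h10 := τ.im_pos
          have h11 := Real.pi_pos
          have h12 : 0 ≤ 2 * Real.pi * ((n : ℝ) / NT P) * τ.im := by positivity
          linarith
        exact mul_le_of_le_one_left (norm_nonneg _) h7
      have := h6.mul (h1 p')
      simpa using this
    have h3 := h2.trans exp_isBigO_discriminant
    obtain ⟨C, hC⟩ := h3.bound
    obtain ⟨A, hA⟩ := UpperHalfPlane.atImInfty_mem _ |>.mp hC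
    rw [UpperHalfPlane.isBoundedAtImInfty_iff]
    refine ⟨C, A, fun τ hτ => ?_⟩
    have h4 : ‖F p τ‖ ≤ C * ‖discriminant τ‖ := hA τ hτ
    rw [norm_div, div_le_iff₀ (norm_pos_iff.mpr (dl_ne τ))]
    exact h4
  · have hd : denom γ (τ : ℂ) ≠ 0 := denom_ne_zero _ τ
    have hdl : dl τ ≠ 0 := dl_ne τ
    change F p (γ • τ) / dl (γ • τ) = _ * (F (γ⁻¹ • p) τ / dl τ)
    rw [hF.2.2, (RR_iff.mp dl_mem).2.2, zpow_sub₀ hd]
    have h12 : denom γ (τ : ℂ) ^ (12 : ℤ) ≠ 0 := zpow_ne_zero _ hd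
    field_simp
  · ext p τ
    simp only [Pi.smul_apply, smul_eq_mul, Pi.mul_apply]
    rw [mul_div_cancel₀ _ (dl_ne τ)]

end Fermat.Agent.ES
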