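import Mathlib
import Fermat.Agent.ES.VVInfty

set_option autoImplicit false
set_option linter.unusedSectionVars false

/-!
# Rank of the module of vector valued modular forms
-/

open UpperHalfPlane hiding I
open ModularForm SlashInvariantForm SlashInvariantFormClass ModularFormClass
  CuspFormClass MatrixGroups OnePoint Filter EisensteinSeries
open scoped Topology Manifold MatrixGroups ModularForm Matrix

noncomputable section

namespace Fermat.Agent.ES

variable {P : Type} [Fintype P] [DecidableEq P] [MulAction SL(2, ℤ) P]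

theorem HBasis.g_ne_zero (B : HBasis P) (j : B.J) : B.g j ≠ 0 := by
  classical
  intro h
  have h1 := B.ind (B.wt j) (Finsupp.single j (1 : ℍ → ℂ)) (fun i => by
    by_cases hij : j = i
    · subst hij
      rw [Finsupp.single_eq_same, sub_self]
      exact ⟨1, ModularForm.one_coe_eq_one⟩
    · rw [Finsupp.single_eq_of_ne' hij]
      exact zero_mem _) (by rw [Finsupp.linearCombination_single, h, smul_zero])
  have h2 := (Finsupp.single_eq_zero.mp h1)
  exact one_ne_zero h2

theorem HBasis.even_wt (B : HBasis P) (hneg : NegTriv P) (j : B.J) : Even (B.wt j) := by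
  by_contra h
  rw [Nat.not_even_iff_odd] at h
  exact B.g_ne_zero j (VV_odd hneg (by exact_mod_cast h) (B.mem j))

theorem CF_lc {J : Type} (g : J → P → ℍ → ℂ) (r : J →₀ (ℍ → ℂ)) (p : P) (τ : ℍ) :
    CF (Finsupp.linearCombination (ℍ → ℂ) g r) p τ = r.sum fun j rj => rj τ * CF (g j) p τ := by
  have h1 : CF (Finsupp.linearCombination (ℍ → ℂ) g r) =
      CFL (Finsupp.linearCombination (ℍ → ℂ) g r) := rfl
  rw [h1, Finsupp.linearCombination_apply, map_finsuppSum, Finsupp.sum, Finsupp.sum]
  simp only [_root_.map_smul, Finset.sum_apply, Pi.smul_apply, smul_eq_mul, Pi.mul_apply]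
  rfl

/-- the fibers at infinity of the basis vectors are linearly independent -/
theorem HBasis.linearIndependent_fib (B : HBasis P) (hneg : NegTriv P) :
    LinearIndependent ℂ (fun j => fib (B.g j)) := by
  classical
  rw [linearIndependent_iff]
  intro l hl
  set m : ℕ := ∑ j ∈ l.support, B.wt j with hm
  set k : ℤ := 2 * (m + 2) with hk
  have hex : ∀ j, ∃ e ∈ RR (k - B.wt j), j ∈ l.support → Tendsto e atImInfty (𝓝 1) := by
    intro j
    by_cases hj : j ∈ l.support
    · have hle : B.wt j ≤ m := Finset.single_le_sum (f := B.wt) (fun i _ => Nat.zero_le _) hj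
      have heven := B.even_wt hneg j
      obtain ⟨e, he, he1⟩ := exists_const_term_one (k := k - B.wt j) (Or.inl (by omega))
        (by rw [hk]; exact (even_two_mul _).sub (by exact_mod_cast heven))
      exact ⟨e, he, fun _ => he1⟩
    · exact ⟨0, zero_mem _, fun h => absurd h hj⟩
  choose e he he1 using hex
  let r : B.J →₀ (ℍ → ℂ) := Finsupp.onFinset l.support (fun j => l j • e j) (fun j hj => by
    rw [Finsupp.mem_support_iff]
    intro h
    exact hj (by rw [h, zero_smul]))
  have hr : ∀ j, r j ∈ RR (k - B.wt j) := fun j => by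
    simp only [r, Finsupp.onFinset_apply]
    exact (RR _).smul_mem _ (he j)
  set G := Finsupp.linearCombination (ℍ → ℂ) B.g r with hG
  have hGV : G ∈ VV P k := lc_mem B.mem r hr
  have hrsub : r.support ⊆ l.support := Finsupp.support_onFinset_subset
  have hlim : ∀ p, Tendsto (CF G p) atImInfty (𝓝 0) := by
    intro p
    have h1 : CF G p = fun τ => ∑ j ∈ l.support, (l j • e j τ) * CF (B.g j) p τ := by
      funext τ
      rw [hG, CF_lc, Finsupp.sum_of_support_subset _ hrsub]
      · rfl
      · intro i _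
        simp
    rw [h1]
    have h2 : Tendsto (fun τ => ∑ j ∈ l.support, (l j • e j τ) * CF (B.g j) p τ) atImInfty
        (𝓝 (∑ j ∈ l.support, (l j • (1 : ℂ)) * fib (B.g j) p)) :=
      tendsto_finsetSum _ fun j hj =>
        ((he1 j hj).const_smul (l j)).mul (fib_tendsto (B.mem j) p)
    have h3 : ∑ j ∈ l.support, (l j • (1 : ℂ)) * fib (B.g j) p = 0 := by
      have h4 := congrFun hl p
      rw [Finsupp.linearCombination_apply, Finsupp.sum, Finset.sum_apply] at h4
      rw [Pi.zero_apply] at h4
      rw [← h4]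
      refine Finset.sum_congr rfl fun j _ => ?_
      simp
    rwa [h3] at h2
  obtain ⟨G', hG'V, hGG'⟩ := exists_div_dl hGV hlim
  obtain ⟨s, hs, hsG'⟩ := B.gen _ G' hG'V
  have h0 : r - dl • s = 0 := by
    refine B.ind k _ (fun j => ?_) ?_
    · rw [Finsupp.sub_apply, Finsupp.smul_apply, smul_eq_mul]
      refine (RR _).sub_mem (hr j) ?_
      have := RR_mul dl_mem (hs j)
      convert this using 2; ring
    · rw [map_sub, _root_.map_smul, hsG', ← hGG', ← hG, sub_self]
  ext j
  rw [Finsupp.zero_apply]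
  by_contra hne
  have hj : j ∈ l.support := Finsupp.mem_support_iff.mpr hne
  have h1 : r j = dl * s j := by
    have := congrArg (fun x : B.J →₀ (ℍ → ℂ) => x j) (sub_eq_zero.mp h0)
    simpa using this
  obtain ⟨c, hc⟩ := exists_limit (hs j)
  have h2 : Tendsto (r j) atImInfty (𝓝 0) := by
    rw [h1]
    have := dl_tendsto.mul hc
    simpa using! this
  have h3 : Tendsto (r j) atImInfty (𝓝 (l j • (1 : ℂ))) := by
    have : r j = fun τ => l j • e j τ := rfl
    rw [this]
    exact (he1 j hj).const_smul (l j)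
  have h4 := tendsto_nhds_unique h2 h3
  rw [smul_eq_mul, mul_one] at h4
  exact hne h4.symm

theorem HBasis.finite (B : HBasis P) (hneg : NegTriv P) : Finite B.J :=
  (B.linearIndependent_fib hneg).finite

theorem HBasis.card_le (B : HBasis P) (hneg : NegTriv P) : Nat.card B.J ≤ Fintype.card P := by
  have := B.finite hneg
  have := Fintype.ofFinite B.J
  have h := (B.linearIndependent_fib hneg).fintype_card_le_finrank
  rw [Module.finrank_fintype_fun_eq_card] at h
  rwa [Nat.card_eq_fintype_card]

variable (P) in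
/-- existence of a form with pairwise distinct components -/
def HasSep : Prop := ∃ k : ℤ, ∃ H ∈ VV P k, Function.Injective H

theorem exists_point (h : HasSep P) : ∃ z₀ : ℍ, ⊤ ≤ Submodule.span ℂ
    {v : P → ℂ | ∃ k : ℤ, ∃ F ∈ VV P k, v = ev F z₀} := by
  obtain ⟨k, H, hH, hinj⟩ := h
  -- a point at which the values are distinct
  have h1 : ∃ z₀ : ℍ, ∀ p q : P, p ≠ q → H p z₀ ≠ H q z₀ := by
    by_contra hcon
    push Not at hcon
    have h2 : ∏ x ∈ (Finset.univ : Finset (P × P)).filter (fun x => x.1 ≠ x.2),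
        (H x.1 - H x.2) = 0 := by
      ext z
      obtain ⟨p, q, hpq, h3⟩ := hcon z
      rw [Finset.prod_apply]
      refine Finset.prod_eq_zero (i := (p, q)) (by simp [hpq]) ?_
      rw [Pi.sub_apply, h3, sub_self]
    rw [UpperHalfPlane.prod_eq_zero_iff] at h2
    · obtain ⟨x, hx, hx0⟩ := h2
      have h3 : x.1 ≠ x.2 := (Finset.mem_filter.mp hx).2
      exact h3 (hinj (sub_eq_zero.mp hx0))
    · intro x _
      exact (hH.1 x.1).sub (hH.1 x.2)
  obtain ⟨z₀, hz₀⟩ := h1
  refine ⟨z₀, ?_⟩
  -- powers of `H`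
  have hpow : ∀ m : ℕ, (fun p => H p ^ m) ∈ VV P (m * k) := by
    intro m
    refine ⟨fun p => (hH.1 p).pow m, fun p => ?_, fun γ p τ => ?_⟩
    · induction m with
      | zero => simpa using! Filter.const_boundedAtFilter atImInfty (1 : ℂ)
      | succ m ih =>
        have := ih.mul (hH.2.1 p)
        simpa [pow_succ] using! this
    · simp only [Pi.pow_apply]
      rw [hH.2.2, mul_pow, mul_comm (m : ℤ) k, zpow_mul, zpow_natCast]
  set e : Fin (Fintype.card P) ≃ P := (Fintype.equivFin P).symm with he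
  have hdet : (Matrix.vandermonde (fun i => H (e i) z₀)).det ≠ 0 := by
    rw [Matrix.det_vandermonde_ne_zero_iff]
    intro i j hij
    by_contra hne
    exact hz₀ _ _ (fun h => hne (e.injective h)) hij
  intro w _
  -- solve the linear system
  have hunit : IsUnit (Matrix.vandermonde (fun i => H (e i) z₀)) := by
    rw [Matrix.isUnit_iff_isUnit_det]
    exact isUnit_iff_ne_zero.mpr hdet
  obtain ⟨c, hc⟩ := (Matrix.mulVec_surjective_iff_isUnit.mpr hunit) (fun i => w (e i))
  have hw : w = ∑ m : Fin (Fintype.card P), c m • ev (fun p => H p ^ (m : ℕ)) z₀ := by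
    funext p
    have h2 := congrFun hc (e.symm p)
    simp only [Equiv.apply_symm_apply] at h2
    rw [← h2, Finset.sum_apply, Matrix.mulVec, dotProduct]
    refine Finset.sum_congr rfl fun m _ => ?_
    simp only [Matrix.vandermonde_apply, Equiv.apply_symm_apply, Pi.smul_apply, smul_eq_mul, ev,
      Pi.pow_apply]
    ring
  rw [hw]
  refine Submodule.sum_mem _ fun m _ => Submodule.smul_mem _ _ (Submodule.subset_span ?_)
  exact ⟨_, _, hpow m, rfl⟩

theorem ev_lc {J : Type} (g : J → P → ℍ → ℂ) (r : J →₀ (ℍ → ℂ)) (τ : ℍ) :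
    ev (Finsupp.linearCombination (ℍ → ℂ) g r) τ = r.sum fun j rj => rj τ • ev (g j) τ := by
  funext p
  rw [ev, Finsupp.linearCombination_apply, Finsupp.sum, Finsupp.sum]
  simp [Finset.sum_apply, ev]

theorem HBasis.span_ev (B : HBasis P) (h : HasSep P) : ∃ z₀ : ℍ,
    ⊤ ≤ Submodule.span ℂ (Set.range fun j => ev (B.g j) z₀) := by
  obtain ⟨z₀, hz₀⟩ := exists_point h
  refine ⟨z₀, hz₀.trans ?_⟩
  rw [Submodule.span_le]
  rintro _ ⟨k, F, hF, rfl⟩
  obtain ⟨r, -, hr⟩ := B.gen k F hF
  rw [← hr, SetLike.mem_coe, ev_lc, Finsupp.sum]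
  exact Submodule.sum_mem _ fun j _ => Submodule.smul_mem _ _ (Submodule.subset_span ⟨j, rfl⟩)

theorem HBasis.card_eq (B : HBasis P) (hneg : NegTriv P) (h : HasSep P) :
    Nat.card B.J = Fintype.card P := by
  refine le_antisymm (B.card_le hneg) ?_
  obtain ⟨z₀, hz₀⟩ := B.span_ev h
  have := B.finite hneg
  have := Fintype.ofFinite B.J
  have h1 := finrank_range_le_card (R := ℂ) (fun j => ev (B.g j) z₀)
  rw [Set.finrank, top_le_iff.mp hz₀, finrank_top, Module.finrank_fintype_fun_eq_card] at h1
  rwa [Nat.card_eq_fintype_card]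

/-- a homogeneous basis indexed by `P` -/
structure PBasis (P : Type) [Fintype P] [DecidableEq P] [MulAction SL(2, ℤ) P] where
  /-- weights -/
  wt : P → ℕ
  /-- the basis vectors -/
  g : P → P → ℍ → ℂ
  mem : ∀ j, g j ∈ VV P (wt j)
  even_wt : ∀ j, Even (wt j)
  gen : ∀ k : ℤ, ∀ F ∈ VV P k, ∃ r : P → ℍ → ℂ, (∀ j, r j ∈ RR (k - wt j)) ∧
    ∀ p τ, F p τ = ∑ j, r j τ * g j p τ
  ind : ∀ k : ℤ, ∀ r : P → ℍ → ℂ, (∀ j, r j ∈ RR (k - wt j)) →
    (∀ p τ, ∑ j, r j τ * g j p τ = 0) → r = 0
  fib_ind : LinearIndependent ℂ (fun j => fib (g j))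
  /-- a base point -/
  z₀ : ℍ
  span_z₀ : ⊤ ≤ Submodule.span ℂ (Set.range fun j => ev (g j) z₀)

theorem exists_pbasis (hneg : NegTriv P) (h : HasSep P) : Nonempty (PBasis P) := by
  classical
  obtain ⟨B⟩ := exists_hbasis P
  have hfin := B.finite hneg
  have hft := Fintype.ofFinite B.J
  have hcard : Fintype.card P = Fintype.card B.J := by
    rw [← B.card_eq hneg h, Nat.card_eq_fintype_card]
  let e : P ≃ B.J := Fintype.equivOfCardEq hcard
  obtain ⟨z₀, hz₀⟩ := B.span_ev h
  exact ⟨{
    wt := fun p => B.wt (e p)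
    g := fun p => B.g (e p)
    mem := fun j => B.mem (e j)
    even_wt := fun j => B.even_wt hneg (e j)
    gen := fun k F hF => by
      obtain ⟨r, hr, hrF⟩ := B.gen k F hF
      refine ⟨fun p => r (e p), fun j => hr (e j), fun p τ => ?_⟩
      rw [← hrF, Finsupp.linearCombination_apply, Finsupp.sum_fintype r (fun i a => a • B.g i)
        (fun i => zero_smul (ℍ → ℂ) (B.g i))]
      simp only [Finset.sum_apply, Pi.smul_apply, smul_eq_mul, Pi.mul_apply]
      exact (Equiv.sum_comp e (fun j => r j τ * B.g j p τ)).symm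
    ind := fun k r hr h0 => by
      let r' : B.J →₀ (ℍ → ℂ) := Finsupp.equivFunOnFinite.symm (fun j => r (e.symm j))
      have h1 := B.ind k r' (fun j => by
          have := hr (e.symm j)
          rwa [Equiv.apply_symm_apply] at this) (by
        ext p τ
        rw [Finsupp.linearCombination_apply, Finsupp.sum_fintype r' (fun i a => a • B.g i)
          (fun i => zero_smul (ℍ → ℂ) (B.g i))]
        simp only [Finset.sum_apply, Pi.smul_apply, smul_eq_mul, Pi.mul_apply, Pi.zero_apply]
        rw [← h0 p τ, ← Equiv.sum_comp e]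
        refine Finset.sum_congr rfl fun j _ => ?_
        simp [r'])
      funext p
      have h2 := congrArg (fun x : B.J →₀ (ℍ → ℂ) => x (e p)) h1
      simpa [r'] using h2
    fib_ind := (B.linearIndependent_fib hneg).comp e e.injective
    z₀ := z₀
    span_z₀ := by
      refine hz₀.trans (Submodule.span_mono ?_)
      rintro _ ⟨j, rfl⟩
      exact ⟨e.symm j, by simp⟩ }⟩

end Fermat.Agent.ES
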