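import Mathlib
import Fermat.Agent.ES.VVRank

set_option autoImplicit false
set_option linter.unusedSectionVars false

/-!
# The fundamental matrix is invertible at every point of the upper half plane
-/

open UpperHalfPlane hiding I
open ModularForm SlashInvariantForm SlashInvariantFormClass ModularFormClass
  CuspFormClass MatrixGroups OnePoint Filter EisensteinSeries
open scoped Topology Manifold MatrixGroups ModularForm Matrix

noncomputable section

namespace Fermat.Agent.ES

open Derivative in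
/-- derivatives of bounded functions are bounded -/
theorem bdd_deriv {F : ℍ → ℂ} (hd : MDiff F) (hb : IsBoundedAtImInfty F) :
    IsBoundedAtImInfty (normalizedDerivOfComplex F) := by
  obtain ⟨M, A, hM⟩ := UpperHalfPlane.isBoundedAtImInfty_iff.mp hb
  rw [UpperHalfPlane.isBoundedAtImInfty_iff]
  refine ⟨‖(2 * Real.pi * Complex.I : ℂ)⁻¹‖ * (M / (1 / 2)), max A 0 + 1, fun τ hτ => ?_⟩
  rw [normalizedDerivOfComplex, norm_mul]
  refine mul_le_mul_of_nonneg_left ?_ (norm_nonneg _)
  have him : ∀ z ∈ Metric.closedBall (τ : ℂ) (1 / 2), max A 0 < z.im := by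
    intro z hz
    rw [Metric.mem_closedBall, Complex.dist_eq] at hz
    have h1 := Complex.abs_im_le_norm (z - τ)
    rw [Complex.sub_im] at h1
    have h2 := (abs_le.mp (h1.trans hz)).1
    have h3 : (τ : ℂ).im = τ.im := rfl
    rw [h3] at h2
    linarith
  have hdiff : DifferentiableOn ℂ (F ∘ ofComplex) (Metric.closedBall (τ : ℂ) (1 / 2)) := by
    refine (UpperHalfPlane.mdifferentiable_iff.mp hd).mono fun z hz => ?_
    exact lt_of_le_of_lt (le_max_right _ _) (him z hz)
  refine Complex.norm_deriv_le_of_forall_mem_sphere_norm_le (by norm_num)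
    (hdiff.diffContOnCl_ball (fun z hz => hz)) ?_
  intro z hz
  have hz' := him z (Metric.sphere_subset_closedBall hz)
  have h0 : 0 < z.im := lt_of_le_of_lt (le_max_right _ _) hz'
  simp only [Function.comp_apply]
  rw [ofComplex_apply_of_im_pos h0]
  exact hM _ ((le_max_left _ _).trans hz'.le)

variable {P : Type} [Fintype P] [DecidableEq P] [MulAction SL(2, ℤ) P]

open Derivative in
/-- the Serre derivative of a vector valued form -/
theorem VV_serre {k : ℤ} {F : P → ℍ → ℂ} (hF : F ∈ VV P k) :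
    (fun p => serreDerivative k (F p)) ∈ VV P (k + 2) := by
  refine VV_of_slash (fun p => serreDerivative_mdifferentiable _ (hF.1 p)) (fun p => ?_)
    (fun γ p => ?_)
  · have h1 := bdd_deriv (hF.1 p) (hF.2.1 p)
    have h2 : IsBoundedAtImInfty (fun z => (k : ℂ) * 12⁻¹ * EisensteinSeries.E2 z * F p z) := by
      have h3 := ((Filter.const_boundedAtFilter atImInfty ((k : ℂ) * 12⁻¹)).mul
        isBoundedAtImInfty_E2).mul (hF.2.1 p)
      exact h3
    exact h1.sub h2
  · rw [serreDerivative_slash_equivariant (hF.1 p), VV_slash hF]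

/-- uniqueness for linear ODE on the upper half plane -/
theorem ode_unique {J : Type} [Fintype J] (y : J → ℍ → ℂ) (b : J → J → ℍ → ℂ)
    (hb : ∀ j i, MDiff (b j i))
    (hy : ∀ j (τ : ℍ), HasDerivAt (y j ∘ ofComplex) (∑ i, b j i τ * y i τ) τ)
    (z₁ : ℍ) (h0 : ∀ j, y j z₁ = 0) (z₀ : ℍ) : ∀ j, y j z₀ = 0 := by
  let γ : ℝ → ℂ := fun s => (z₁ : ℂ) + s * ((z₀ : ℂ) - z₁)
  have hγim : ∀ s ∈ Set.Icc (0 : ℝ) 1, 0 < (γ s).im := by
    intro s hs
    have h1 : (γ s).im = (1 - s) * z₁.im + s * z₀.im := by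
      simp only [γ, Complex.add_im, Complex.im_ofReal_mul, Complex.sub_im, coe_im]
      ring
    rw [h1]
    have := z₁.im_pos
    have := z₀.im_pos
    rcases eq_or_lt_of_le hs.1 with h | h
    · rw [← h]; simpa using z₁.im_pos
    · have h2 : 0 ≤ (1 - s) * z₁.im := mul_nonneg (by linarith [hs.2]) z₁.im_pos.le
      have h3 : 0 < s * z₀.im := mul_pos h z₀.im_pos
      linarith
  have hγd : ∀ s, HasDerivAt γ ((z₀ : ℂ) - z₁) s := by
    intro s
    have h1 : HasDerivAt (fun s : ℝ => (s : ℂ)) 1 s := Complex.ofRealCLM.hasDerivAt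
    have h2 := (h1.mul_const ((z₀ : ℂ) - z₁)).const_add (z₁ : ℂ)
    rw [one_mul] at h2
    exact h2
  have hγc : Continuous γ := by fun_prop
  let Y : ℝ → J → ℂ := fun s j => y j (ofComplex (γ s))
  let Y' : ℝ → J → ℂ := fun s j => ((z₀ : ℂ) - z₁) * ∑ i, b j i (ofComplex (γ s)) * y i (ofComplex (γ s))
  have hYd : ∀ s ∈ Set.Icc (0 : ℝ) 1, HasDerivAt Y (Y' s) s := by
    intro s hs
    rw [hasDerivAt_pi]
    intro j
    have hz := hγim s hs
    have h1 := hy j (ofComplex (γ s))
    have h2 : ((ofComplex (γ s) : ℍ) : ℂ) = γ s := by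
      rw [ofComplex_apply_of_im_pos hz]
    rw [h2] at h1
    have h3 := h1.scomp s (hγd s)
    exact h3
  -- bound
  have hcont : ContinuousOn (fun s => ∑ j, ∑ i, ‖b j i (ofComplex (γ s))‖) (Set.Icc 0 1) := by
    refine continuousOn_finsetSum _ fun j _ => continuousOn_finsetSum _ fun i _ => ?_
    have h1 := (UpperHalfPlane.mdifferentiable_iff.mp (hb j i)).continuousOn
    exact (h1.comp hγc.continuousOn fun s hs => hγim s hs).norm
  obtain ⟨K, hK⟩ := isCompact_Icc.bddAbove_image hcont
  have hK' : ∀ s ∈ Set.Icc (0 : ℝ) 1, ∑ j, ∑ i, ‖b j i (ofComplex (γ s))‖ ≤ K := fun s hs =>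
    hK ⟨s, hs, rfl⟩
  have hbound : ∀ s ∈ Set.Ico (0 : ℝ) 1, ‖Y' s‖ ≤ (‖(z₀ : ℂ) - z₁‖ * K) * ‖Y s‖ := by
    intro s hs
    have hs' : s ∈ Set.Icc (0 : ℝ) 1 := ⟨hs.1, hs.2.le⟩
    have hKs := hK' s hs'
    have hK0 : 0 ≤ K := le_trans (Finset.sum_nonneg fun j _ => Finset.sum_nonneg fun i _ =>
      norm_nonneg _) hKs
    rw [pi_norm_le_iff_of_nonneg (by positivity)]
    intro j
    simp only [Y']
    rw [norm_mul, mul_assoc]
    refine mul_le_mul_of_nonneg_left ?_ (norm_nonneg _)
    refine (norm_sum_le _ _).trans ?_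
    have h1 : ∀ i ∈ Finset.univ, ‖b j i (ofComplex (γ s)) * y i (ofComplex (γ s))‖ ≤
        ‖b j i (ofComplex (γ s))‖ * ‖Y s‖ := by
      intro i _
      rw [norm_mul]
      exact mul_le_mul_of_nonneg_left (norm_le_pi_norm (Y s) i) (norm_nonneg _)
    refine (Finset.sum_le_sum h1).trans ?_
    rw [← Finset.sum_mul]
    refine mul_le_mul_of_nonneg_right (le_trans ?_ hKs) (norm_nonneg _)
    exact Finset.single_le_sum (f := fun j => ∑ i, ‖b j i (ofComplex (γ s))‖)
      (fun j _ => Finset.sum_nonneg fun i _ => norm_nonneg _) (Finset.mem_univ j)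
  have hY0 : Y 0 = 0 := by
    funext j
    simp only [Y, γ]
    simp only [Complex.ofReal_zero, zero_mul, add_zero, ofComplex_apply, Pi.zero_apply]
    exact h0 j
  have hfin := eq_zero_of_abs_deriv_le_mul_abs_self_of_eq_zero_right
    (fun s hs => (hYd s hs).continuousAt.continuousWithinAt)
    (fun s hs => (hYd s ⟨hs.1, hs.2.le⟩).hasDerivWithinAt) hY0 hbound 1 (by simp)
  intro j
  have h1 := congrFun hfin j
  simp only [Y, γ] at h1
  simpa using h1

open Derivative in
/-- **The fundamental matrix is invertible everywhere.** -/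
theorem PBasis.left_kernel (B : PBasis P) (z₁ : ℍ) (c : P → ℂ)
    (h : ∀ j, ∑ p, c p * B.g j p z₁ = 0) : c = 0 := by
  choose a ha hag using fun j => B.gen _ _ (VV_serre (B.mem j))
  let y : P → ℍ → ℂ := fun j τ => ∑ p, c p * B.g j p τ
  let b : P → P → ℍ → ℂ := fun j i τ => 2 * Real.pi * Complex.I *
    ((if j = i then (((B.wt j : ℤ) : ℂ) * 12⁻¹ * EisensteinSeries.E2 τ) else 0) + a j i τ)
  have hb : ∀ j i, MDiff (b j i) := by
    intro j i
    refine mdifferentiable_const.mul (MDifferentiable.add ?_ (RR_iff.mp (ha j i)).1)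
    split_ifs
    · exact (mdifferentiable_const.mul E2_mdifferentiable)
    · exact mdifferentiable_const
  have hy : ∀ j (τ : ℍ), HasDerivAt (y j ∘ ofComplex) (∑ i, b j i τ * y i τ) τ := by
    intro j τ
    have h1 : ∀ p, HasDerivAt (B.g j p ∘ ofComplex)
        (2 * Real.pi * Complex.I * normalizedDerivOfComplex (B.g j p) τ) τ := by
      intro p
      have h2 := (UpperHalfPlane.mdifferentiableAt_iff.mp ((B.mem j).1 p τ)).hasDerivAt
      have h3 : 2 * Real.pi * Complex.I * normalizedDerivOfComplex (B.g j p) τ =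
          deriv (B.g j p ∘ ofComplex) τ := by
        rw [normalizedDerivOfComplex, mul_inv_cancel_left₀ Complex.two_pi_I_ne_zero]
      rw [h3]
      exact h2
    have h2 : HasDerivAt (fun w => ∑ p, c p * (B.g j p ∘ ofComplex) w)
        (∑ p, c p * (2 * Real.pi * Complex.I * normalizedDerivOfComplex (B.g j p) τ)) τ :=
      HasDerivAt.fun_sum fun p _ => (h1 p).const_mul (c p)
    have h3 : ∑ p, c p * (2 * Real.pi * Complex.I * normalizedDerivOfComplex (B.g j p) τ) =
        ∑ i, b j i τ * y i τ := by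
      have h4 : ∀ p, normalizedDerivOfComplex (B.g j p) τ =
          ((B.wt j : ℤ) : ℂ) * 12⁻¹ * EisensteinSeries.E2 τ * B.g j p τ +
            ∑ i, a j i τ * B.g i p τ := by
        intro p
        have h5 := hag j p τ
        rw [serreDerivative_apply] at h5
        linear_combination h5
      have h6 : ∑ i, b j i τ * y i τ = 2 * Real.pi * Complex.I *
          (((B.wt j : ℤ) : ℂ) * 12⁻¹ * EisensteinSeries.E2 τ * y j τ + ∑ i, a j i τ * y i τ) := by
        simp only [b]
        have h7 : ∀ i, 2 * Real.pi * Complex.I *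
            ((if j = i then (((B.wt j : ℤ) : ℂ) * 12⁻¹ * EisensteinSeries.E2 τ) else 0) +
              a j i τ) * y i τ =
            2 * Real.pi * Complex.I * ((if j = i then (((B.wt j : ℤ) : ℂ) * 12⁻¹ *
              EisensteinSeries.E2 τ * y i τ) else 0) + a j i τ * y i τ) := by
          intro i
          split_ifs <;> ring
        rw [Finset.sum_congr rfl fun i _ => h7 i, ← Finset.mul_sum, Finset.sum_add_distrib,
          Finset.sum_ite_eq Finset.univ j, if_pos (Finset.mem_univ j)]
      rw [h6]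
      simp only [h4, y]
      rw [mul_add, Finset.mul_sum, Finset.mul_sum, Finset.mul_sum]
      have h8 : ∀ p, c p * (2 * Real.pi * Complex.I * (((B.wt j : ℤ) : ℂ) * 12⁻¹ *
          EisensteinSeries.E2 τ * B.g j p τ + ∑ i, a j i τ * B.g i p τ)) =
          2 * Real.pi * Complex.I * (((B.wt j : ℤ) : ℂ) * 12⁻¹ *
          EisensteinSeries.E2 τ * (c p * B.g j p τ)) +
          ∑ i, 2 * Real.pi * Complex.I * (a j i τ * (c p * B.g i p τ)) := by
        intro p
        rw [← Finset.mul_sum]
        have : ∑ i, a j i τ * (c p * B.g i p τ) = c p * ∑ i, a j i τ * B.g i p τ := by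
          rw [Finset.mul_sum]
          exact Finset.sum_congr rfl fun i _ => by ring
        rw [this]; ring
      rw [Finset.sum_congr rfl fun p _ => h8 p, Finset.sum_add_distrib]
      congr 1
      rw [Finset.sum_comm]
      refine Finset.sum_congr rfl fun i _ => ?_
      rw [Finset.mul_sum, Finset.mul_sum]
    rw [← h3]
    exact h2
  have h0 := ode_unique y b hb hy z₁ h B.z₀
  -- `c` is orthogonal to everything
  have h1 : ∀ v : P → ℂ, ∑ p, c p * v p = 0 := by
    intro v
    have hv : v ∈ Submodule.span ℂ (Set.range fun j => ev (B.g j) B.z₀) := B.span_z₀ trivial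
    induction hv using Submodule.span_induction with
    | mem x hx =>
      obtain ⟨j, rfl⟩ := hx
      exact h0 j
    | zero => simp
    | add x y _ _ hx hy =>
      simp only [Pi.add_apply, mul_add, Finset.sum_add_distrib, hx, hy, add_zero]
    | smul r x _ hx =>
      have : ∑ p, c p * (r • x) p = r * ∑ p, c p * x p := by
        rw [Finset.mul_sum]
        exact Finset.sum_congr rfl fun p _ => by simp only [Pi.smul_apply, smul_eq_mul]; ring
      rw [this, hx, mul_zero]
  funext p
  have h2 := h1 (Pi.single p 1)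
  simpa [Pi.single_apply] using h2

end Fermat.Agent.ES
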