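import Mathlib
import Fermat.Agent.ES.VVOde

set_option autoImplicit false
set_option linter.unusedSectionVars false

/-!
# The dual basis consists of cusp forms
-/

open UpperHalfPlane hiding I
open ModularForm SlashInvariantForm SlashInvariantFormClass ModularFormClass
  CuspFormClass MatrixGroups OnePoint Filter EisensteinSeries
open scoped Topology Manifold MatrixGroups ModularForm Matrix

noncomputable section

namespace Fermat.Agent.ES

variable {P : Type} [Fintype P] [DecidableEq P] [MulAction SL(2, ℤ) P]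

theorem mdiff_det {M : ℍ → Matrix P P ℂ} (hM : ∀ i j, MDiff (fun τ => M τ i j)) :
    MDiff (fun τ => (M τ).det) := by
  simp only [Matrix.det_apply]
  refine mdiff_finset_sum fun σ _ => ?_
  have h1 := mdiff_finset_prod (s := Finset.univ) fun i _ => hM (σ i) i
  have h2 := h1.const_smul (((Equiv.Perm.sign σ : ℤˣ) : ℤ) : ℂ)
  convert! h2 using 1
  funext τ
  simp [Units.smul_def]

theorem mdiff_adjugate {M : ℍ → Matrix P P ℂ} (hM : ∀ i j, MDiff (fun τ => M τ i j)) (i j : P) :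
    MDiff (fun τ => (M τ).adjugate i j) := by
  simp only [Matrix.adjugate_apply]
  refine mdiff_det fun a b => ?_
  by_cases h : a = j
  · subst h
    simp only [Matrix.updateRow_self]
    exact mdifferentiable_const
  · simp only [Matrix.updateRow_ne h]
    exact hM a b

variable (B : PBasis P)

/-- the fundamental matrix -/
def PBasis.Phi (τ : ℍ) : Matrix P P ℂ := Matrix.of fun p j => B.g j p τ

theorem PBasis.Phi_apply (τ : ℍ) (p j : P) : B.Phi τ p j = B.g j p τ := rfl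

theorem PBasis.isUnit_det (τ : ℍ) : IsUnit (B.Phi τ).det := by
  rw [isUnit_iff_ne_zero]
  intro h
  obtain ⟨v, hv, hv0⟩ := Matrix.exists_vecMul_eq_zero_iff.mpr h
  exact hv (B.left_kernel τ v fun j => congrFun hv0 j)

/-- dual basis times `Δ` -/
def PBasis.h (l p : P) (τ : ℍ) : ℂ := dl τ * (B.Phi τ)⁻¹ l p

theorem PBasis.h_pair (l j : P) (τ : ℍ) :
    ∑ p, B.h l p τ * B.g j p τ = if l = j then dl τ else 0 := by
  have h1 : (B.Phi τ)⁻¹ * B.Phi τ = 1 := Matrix.nonsing_inv_mul _ (B.isUnit_det τ)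
  have h2 := congrArg (fun M : Matrix P P ℂ => M l j) h1
  simp only [Matrix.mul_apply, Matrix.one_apply] at h2
  simp only [h, mul_assoc, ← Finset.mul_sum]
  change dl τ * ∑ p, (B.Phi τ)⁻¹ l p * B.Phi τ p j = _
  rw [h2]
  split_ifs <;> simp

theorem PBasis.h_unique (l : P) (τ : ℍ) (v : P → ℂ)
    (hv : ∀ j, ∑ p, v p * B.g j p τ = if l = j then dl τ else 0) : ∀ p, v p = B.h l p τ := by
  have h1 := B.left_kernel τ (fun p => v p - B.h l p τ) fun j => by
    simp only [sub_mul, Finset.sum_sub_distrib]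
    rw [hv j, B.h_pair, sub_self]
  intro p
  have := congrFun h1 p
  exact sub_eq_zero.mp this

theorem PBasis.h_smul (l : P) (γ : SL(2, ℤ)) (p : P) (τ : ℍ) :
    B.h l p (γ • τ) = denom γ τ ^ (12 - (B.wt l : ℤ)) * B.h l (γ⁻¹ • p) τ := by
  have hd : denom γ (τ : ℂ) ≠ 0 := denom_ne_zero _ τ
  refine (B.h_unique l (γ • τ) (fun p => denom γ τ ^ (12 - (B.wt l : ℤ)) * B.h l (γ⁻¹ • p) τ)
    (fun j => ?_) p).symm
  have h1 : ∀ p, denom γ τ ^ (12 - (B.wt l : ℤ)) * B.h l (γ⁻¹ • p) τ * B.g j p (γ • τ) =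
      denom γ τ ^ (12 - (B.wt l : ℤ) + B.wt j) * (B.h l (γ⁻¹ • p) τ * B.g j (γ⁻¹ • p) τ) := by
    intro p
    rw [(B.mem j).2.2, zpow_add₀ hd]
    ring
  rw [Finset.sum_congr rfl fun p _ => h1 p, ← Finset.mul_sum]
  have h2 := Equiv.sum_comp (MulAction.toPerm γ⁻¹) (fun p => B.h l p τ * B.g j p τ)
  simp only [MulAction.toPerm_apply] at h2
  rw [h2, B.h_pair]
  split_ifs with hlj
  · subst hlj
    rw [sub_add_cancel, (RR_iff.mp dl_mem).2.2]
  · rw [mul_zero]

theorem PBasis.h_mdiff (l p : P) : MDiff (B.h l p) := by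
  have hent : ∀ i j, MDiff (fun τ => B.Phi τ i j) := fun i j => (B.mem j).1 i
  have h1 : B.h l p = fun τ => (dl τ * (B.Phi τ).adjugate l p) / (B.Phi τ).det := by
    funext τ
    rw [PBasis.h, Matrix.inv_def, Ring.inverse_eq_inv', Matrix.smul_apply, smul_eq_mul]
    ring
  rw [h1]
  have hn : MDiff (fun τ => dl τ * (B.Phi τ).adjugate l p) :=
    (RR_iff.mp dl_mem).1.mul (mdiff_adjugate hent l p)
  have hdn := mdiff_det hent
  rw [UpperHalfPlane.mdifferentiable_iff] at hn hdn ⊢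
  exact hn.div hdn fun z _ => (B.isUnit_det _).ne_zero

/-- the matrix of canonical extensions -/
def PBasis.Cm (τ : ℍ) : Matrix P P ℂ := Matrix.of fun p j => CF (B.g j) p τ

theorem PBasis.Phi_eq (τ : ℍ) : B.Phi τ = ug (tm P) (NT P) τ * B.Cm τ := by
  ext p j
  have h1 := congrFun (ev_eq (B.g j) τ) p
  exact h1

/-- the fiber at infinity of the fundamental matrix -/
def PBasis.PhiInf : Matrix P P ℂ := Matrix.of fun p j => fib (B.g j) p

theorem PBasis.isUnit_detInf : IsUnit (B.PhiInf).det := by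
  rw [← Matrix.isUnit_iff_isUnit_det]
  apply Matrix.linearIndependent_cols_iff_isUnit.mp
  exact B.fib_ind

theorem PBasis.Cm_tendsto : Tendsto B.Cm atImInfty (𝓝 B.PhiInf) := by
  refine tendsto_pi_nhds.mpr fun p => tendsto_pi_nhds.mpr fun j => ?_
  exact fib_tendsto (B.mem j) p

theorem PBasis.Cm_inv_tendsto : Tendsto (fun τ => (B.Cm τ)⁻¹) atImInfty (𝓝 (B.PhiInf)⁻¹) := by
  have h1 : Tendsto (fun τ => (B.Cm τ).det) atImInfty (𝓝 (B.PhiInf).det) :=
    ((continuous_id.matrix_det).tendsto _).comp B.Cm_tendsto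
  have h2 : Tendsto (fun τ => (B.Cm τ).adjugate) atImInfty (𝓝 (B.PhiInf).adjugate) :=
    ((continuous_id.matrix_adjugate).tendsto _).comp B.Cm_tendsto
  simp only [Matrix.inv_def, Ring.inverse_eq_inv']
  exact (h1.inv₀ B.isUnit_detInf.ne_zero).smul h2

/-- `Δ(τ) e(-nτ/N) → 0` -/
theorem dl_mul_exp_tendsto {n : ℕ} (hn : n < NT P) :
    Tendsto (fun τ : ℍ => dl τ * Complex.exp (2 * Real.pi * Complex.I * n * (-τ) / NT P))
      atImInfty (𝓝 0) := by
  have hNpos : (0 : ℝ) < NT P := by exact_mod_cast NT_pos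
  have hc : 0 < 1 - (n : ℝ) / NT P := by
    rw [sub_pos, div_lt_one hNpos]
    exact_mod_cast hn
  have h0 : (dl : ℍ → ℂ) =O[atImInfty] fun τ : ℍ => Real.exp (-2 * Real.pi * τ.im) := by
    have := CuspFormClass.exp_decay_atImInfty (h := 1) CuspForm.discriminant one_pos
      one_mem_strictPeriods_SL
    simpa using! this
  have h1 : (fun τ : ℍ => Complex.exp (2 * Real.pi * Complex.I * n * (-τ) / NT P)) =O[atImInfty]
      fun τ : ℍ => Real.exp (2 * Real.pi * (n / NT P) * τ.im) := by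
    refine Asymptotics.IsBigO.of_bound 1 (Filter.Eventually.of_forall fun τ => ?_)
    have h8 : (2 * Real.pi * Complex.I * n * (-τ) / NT P : ℂ) =
        2 * Real.pi * Complex.I * ((-((n : ℝ) / NT P) : ℝ) : ℂ) * τ := by
      push_cast; ring
    rw [h8, norm_exp_mul, one_mul, Real.norm_of_nonneg (Real.exp_pos _).le]
    apply le_of_eq
    congr 1; ring
  refine (h0.mul h1).trans_tendsto ?_
  refine (tendsto_exp_neg_im (c := 2 * Real.pi * (1 - (n : ℝ) / NT P)) (by positivity)).congr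
    fun τ => ?_
  rw [← Real.exp_add]
  congr 1; ring

theorem PBasis.h_tendsto (l p : P) : Tendsto (B.h l p) atImInfty (𝓝 0) := by
  have h1 : ∀ τ, B.h l p τ = ∑ p', (B.Cm τ)⁻¹ l p' * ∑ n ∈ Finset.range (NT P),
      (dl τ * Complex.exp (2 * Real.pi * Complex.I * n * (-τ) / NT P)) *
        idem (tm P) (NT P) n p' p := by
    intro τ
    have h2 : (B.Phi τ)⁻¹ = (B.Cm τ)⁻¹ * ug (tm P) (NT P) (-τ) := by
      rw [B.Phi_eq, Matrix.mul_inv_rev]
      congr 1
      apply Matrix.inv_eq_left_inv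
      rw [ug_mul NT_pos tm_pow_NT, neg_add_cancel, ug_zero NT_pos]
    rw [PBasis.h, h2, Matrix.mul_apply, Finset.mul_sum]
    refine Finset.sum_congr rfl fun p' _ => ?_
    have h3 : (ug (tm P) (NT P) (-τ) : Matrix P P ℂ) p' p = ∑ n ∈ Finset.range (NT P),
        Complex.exp (2 * Real.pi * Complex.I * n * (-τ) / NT P) * idem (tm P) (NT P) n p' p := by
      rw [ug, Matrix.sum_apply]
      rfl
    rw [h3, Finset.mul_sum, Finset.mul_sum, Finset.mul_sum]
    refine Finset.sum_congr rfl fun n _ => ?_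
    ring
  have h2 : B.h l p = fun τ => ∑ p', (B.Cm τ)⁻¹ l p' * ∑ n ∈ Finset.range (NT P),
      (dl τ * Complex.exp (2 * Real.pi * Complex.I * n * (-τ) / NT P)) *
        idem (tm P) (NT P) n p' p := funext h1
  rw [h2]
  have h3 : (0 : ℂ) = ∑ p', (B.PhiInf)⁻¹ l p' * ∑ n ∈ Finset.range (NT P),
      (0 : ℂ) * idem (tm P) (NT P) n p' p := by simp
  rw [h3]
  refine tendsto_finsetSum _ fun p' _ => Tendsto.mul ?_ (tendsto_finsetSum _ fun n hn => ?_)
  · exact tendsto_pi_nhds.mp (tendsto_pi_nhds.mp B.Cm_inv_tendsto l) p'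
  · exact (dl_mul_exp_tendsto (Finset.mem_range.mp hn)).mul_const _

theorem PBasis.h_mem (l : P) : B.h l ∈ VC P (12 - (B.wt l : ℤ)) := by
  refine ⟨⟨B.h_mdiff l, fun p => ?_, B.h_smul l⟩, B.h_tendsto l⟩
  have : IsZeroAtImInfty (B.h l p) := B.h_tendsto l p
  exact this.isBoundedAtImInfty

theorem PBasis.h_ne_zero (l : P) : B.h l ≠ 0 := by
  intro h
  have h1 := B.h_pair l l B.z₀
  rw [if_pos rfl, h] at h1
  simp only [Pi.zero_apply, zero_mul, Finset.sum_const_zero] at h1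
  exact dl_ne _ h1.symm

theorem PBasis.wt_le (l : P) : B.wt l ≤ 10 := by
  by_contra hlt
  have heven := B.even_wt l
  obtain ⟨m, hm⟩ := heven
  have h12 : (12 : ℤ) - B.wt l ≤ 0 := by omega
  exact B.h_ne_zero l (VC_nonpos h12 (B.h_mem l))

theorem PBasis.h_indep : LinearIndependent ℂ (fun l => B.h l) := by
  rw [Fintype.linearIndependent_iff]
  intro c hc l
  have h1 : ∑ p, (∑ i, c i • B.h i) p B.z₀ * B.g l p B.z₀ = 0 := by
    rw [hc]; simp
  have h2 : ∑ p, (∑ i, c i • B.h i) p B.z₀ * B.g l p B.z₀ = ∑ i, c i * ∑ p, B.h i p B.z₀ * B.g l p B.z₀ := by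
    simp only [Finset.sum_apply, Pi.smul_apply, smul_eq_mul, Finset.sum_mul, Finset.mul_sum]
    rw [Finset.sum_comm]
    refine Finset.sum_congr rfl fun i _ => Finset.sum_congr rfl fun p _ => by ring
  rw [h2] at h1
  simp only [B.h_pair, mul_ite, mul_zero] at h1
  rw [Finset.sum_ite_eq' Finset.univ l] at h1
  simp only [Finset.mem_univ, if_true] at h1
  exact (mul_eq_zero.mp h1).resolve_right (dl_ne _)

end Fermat.Agent.ES
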