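import Mathlib
import Fermat.Agent.ES.VVDual

set_option autoImplicit false
set_option linter.unusedSectionVars false

/-!
# The elliptic points and the weights of the generators
-/

open UpperHalfPlane hiding I
open ModularForm SlashInvariantForm SlashInvariantFormClass ModularFormClass
  CuspFormClass MatrixGroups OnePoint Filter EisensteinSeries
open scoped Topology Manifold MatrixGroups ModularForm Matrix

noncomputable section

namespace Fermat.Agent.ES

variable {P : Type} [Fintype P] [DecidableEq P] [MulAction SL(2, ℤ) P] (B : PBasis P)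

/-- the trace formula at a fixed point -/
theorem PBasis.trace_fixed (γ : SL(2, ℤ)) (z : ℍ) (hz : γ • z = z) :
    ∑ j, (denom γ z ^ (B.wt j : ℤ))⁻¹ = (Nat.card {p : P // γ • p = p} : ℂ) := by
  classical
  set Sm : Matrix P P ℂ := Matrix.of fun p p' => if p' = γ⁻¹ • p then 1 else 0 with hSm
  have hd : denom γ (z : ℂ) ≠ 0 := denom_ne_zero _ z
  have h1 : Sm * B.Phi z = B.Phi z * Matrix.diagonal (fun j => (denom γ z ^ (B.wt j : ℤ))⁻¹) := by
    ext p j
    rw [Matrix.mul_diagonal, Matrix.mul_apply]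
    have h2 : ∑ p', Sm p p' * B.Phi z p' j = B.Phi z (γ⁻¹ • p) j := by
      simp [hSm]
    rw [h2, B.Phi_apply, B.Phi_apply]
    have h3 := (B.mem j).2.2 γ p z
    rw [hz] at h3
    rw [h3]
    have h4 : denom γ (z : ℂ) ^ (B.wt j : ℤ) ≠ 0 := zpow_ne_zero _ hd
    field_simp
  have hu := B.isUnit_det z
  have h2 : Sm = B.Phi z * Matrix.diagonal (fun j => (denom γ z ^ (B.wt j : ℤ))⁻¹) * (B.Phi z)⁻¹ := by
    rw [← h1, mul_assoc, Matrix.mul_nonsing_inv _ hu, mul_one]
  have h3 : Sm.trace = ∑ j, (denom γ z ^ (B.wt j : ℤ))⁻¹ := by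
    rw [h2, Matrix.trace_mul_comm, ← mul_assoc, Matrix.nonsing_inv_mul _ hu, one_mul,
      Matrix.trace_diagonal]
  rw [← h3, Matrix.trace]
  simp only [Matrix.diag_apply, hSm, Matrix.of_apply]
  rw [Finset.sum_boole]
  congr 1
  rw [Nat.card_eq_fintype_card, Fintype.card_subtype]
  congr 1
  ext p
  simp only [Finset.mem_filter, Finset.mem_univ, true_and]
  rw [eq_inv_smul_iff]

/-- number of generators of a given weight -/
def PBasis.n (w : ℕ) : ℕ := (Finset.univ.filter fun j => B.wt j = w).card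

theorem PBasis.sum_eq (f : ℕ → ℂ) : ∑ j, f (B.wt j) =
    B.n 0 * f 0 + B.n 2 * f 2 + B.n 4 * f 4 + B.n 6 * f 6 + B.n 8 * f 8 + B.n 10 * f 10 := by
  classical
  have hmem : ∀ j ∈ (Finset.univ : Finset P), B.wt j ∈ ({0, 2, 4, 6, 8, 10} : Finset ℕ) := by
    intro j _
    have h1 := B.wt_le j
    obtain ⟨m, hm⟩ := B.even_wt j
    simp only [Finset.mem_insert, Finset.mem_singleton]
    omega
  rw [← Finset.sum_fiberwise_of_maps_to hmem]
  have h1 : ∀ w, ∑ j ∈ Finset.univ.filter (fun j => B.wt j = w), f (B.wt j) = B.n w * f w := by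
    intro w
    rw [Finset.sum_congr rfl (g := fun _ => f w)]
    · rw [Finset.sum_const, nsmul_eq_mul]; rfl
    · intro j hj
      rw [(Finset.mem_filter.mp hj).2]
  simp only [h1]
  rw [Finset.sum_insert (by decide), Finset.sum_insert (by decide), Finset.sum_insert (by decide),
    Finset.sum_insert (by decide), Finset.sum_insert (by decide), Finset.sum_singleton]
  ring

theorem PBasis.card_eq : B.n 0 + B.n 2 + B.n 4 + B.n 6 + B.n 8 + B.n 10 = Fintype.card P := by
  have h := B.sum_eq (fun _ => 1)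
  simp only [mul_one, Finset.sum_const, Finset.card_univ, nsmul_eq_mul] at h
  exact_mod_cast h.symm

theorem S_smul_I : (ModularGroup.S • UpperHalfPlane.I : ℍ) = UpperHalfPlane.I := by
  rw [UpperHalfPlane.modular_S_smul]
  apply UpperHalfPlane.ext
  simp

theorem PBasis.nu_two : (B.n 0 : ℤ) - B.n 2 + B.n 4 - B.n 6 + B.n 8 - B.n 10 =
    Nat.card {p : P // ModularGroup.S • p = p} := by
  have h1 := B.trace_fixed ModularGroup.S UpperHalfPlane.I S_smul_I
  have hden : denom ModularGroup.S (UpperHalfPlane.I : ℍ) = Complex.I := by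
    rw [ModularGroup.denom_S]; rfl
  rw [hden, B.sum_eq (fun w => (Complex.I ^ (w : ℤ))⁻¹)] at h1
  have e0 : (Complex.I ^ ((0 : ℕ) : ℤ))⁻¹ = 1 := by simp
  have e2 : (Complex.I ^ ((2 : ℕ) : ℤ))⁻¹ = -1 := by simp
  have h4 : Complex.I ^ 4 = 1 := Complex.I_pow_four
  have e4 : (Complex.I ^ ((4 : ℕ) : ℤ))⁻¹ = 1 := by rw [zpow_natCast, h4, inv_one]
  have e6 : (Complex.I ^ ((6 : ℕ) : ℤ))⁻¹ = -1 := by
    rw [zpow_natCast, show (6 : ℕ) = 4 + 2 from rfl, pow_add, h4, one_mul, Complex.I_sq]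
    norm_num
  have e8 : (Complex.I ^ ((8 : ℕ) : ℤ))⁻¹ = 1 := by
    rw [zpow_natCast, show (8 : ℕ) = 4 + 4 from rfl, pow_add, h4]
    norm_num
  have e10 : (Complex.I ^ ((10 : ℕ) : ℤ))⁻¹ = -1 := by
    rw [zpow_natCast, show (10 : ℕ) = 4 + 4 + 2 from rfl, pow_add, pow_add, h4, one_mul, one_mul,
      Complex.I_sq]
    norm_num
  rw [e0, e2, e4, e6, e8, e10] at h1
  have h2 : ((B.n 0 : ℤ) - B.n 2 + B.n 4 - B.n 6 + B.n 8 - B.n 10 : ℤ) =
      ((Nat.card {p : P // ModularGroup.S • p = p} : ℕ) : ℂ) := by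
    push_cast
    linear_combination h1
  exact_mod_cast h2

/-- the point `ρ = e^{2πi/3}` -/
def rho : ℍ := ⟨⟨-1 / 2, Real.sqrt 3 / 2⟩, by
  have : (0 : ℝ) < Real.sqrt 3 := Real.sqrt_pos.mpr (by norm_num)
  simp only [gt_iff_lt]
  positivity⟩

theorem rho_re : (rho : ℂ).re = -1 / 2 := rfl
theorem rho_im : (rho : ℂ).im = Real.sqrt 3 / 2 := rfl

theorem rho_sq : (rho : ℂ) ^ 2 + rho + 1 = 0 := by
  have h3 : Real.sqrt 3 * Real.sqrt 3 = 3 := Real.mul_self_sqrt (by norm_num)
  apply Complex.ext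
  · simp only [pow_two, Complex.add_re, Complex.mul_re, rho_re, rho_im, Complex.one_re,
      Complex.zero_re]
    nlinarith
  · simp only [pow_two, Complex.add_im, Complex.mul_im, rho_re, rho_im, Complex.one_im,
      Complex.zero_im]
    ring

theorem ST_smul_rho : (ModularGroup.S * ModularGroup.T) • rho = rho := by
  rw [mul_smul, UpperHalfPlane.modular_T_smul, UpperHalfPlane.modular_S_smul]
  apply UpperHalfPlane.ext
  rw [UpperHalfPlane.coe_mk, UpperHalfPlane.coe_vadd]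
  refine inv_eq_of_mul_eq_one_right ?_
  have h := rho_sq
  push_cast
  linear_combination -h

theorem denom_ST (z : ℍ) : denom (ModularGroup.S * ModularGroup.T : SL(2, ℤ)) (z : ℂ) = z + 1 := by
  rw [ModularGroup.denom_apply]
  have h1 : (ModularGroup.S * ModularGroup.T : SL(2, ℤ)) 1 0 = 1 := by
    simp [ModularGroup.coe_S, ModularGroup.coe_T, Matrix.SpecialLinearGroup.coe_mul,
      Matrix.mul_apply, Fin.sum_univ_two]
  have h2 : (ModularGroup.S * ModularGroup.T : SL(2, ℤ)) 1 1 = 1 := by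
    simp [ModularGroup.coe_S, ModularGroup.coe_T, Matrix.SpecialLinearGroup.coe_mul,
      Matrix.mul_apply, Fin.sum_univ_two]
  rw [h1, h2]
  simp

theorem PBasis.nu_three : B.n 2 + B.n 8 = B.n 4 + B.n 10 ∧ (B.n 0 : ℤ) + B.n 6 - (B.n 2 + B.n 8) =
    Nat.card {p : P // (ModularGroup.S * ModularGroup.T) • p = p} := by
  have h1 := B.trace_fixed (ModularGroup.S * ModularGroup.T) rho ST_smul_rho
  rw [denom_ST, B.sum_eq (fun w => (((rho : ℂ) + 1) ^ (w : ℤ))⁻¹)] at h1
  have hr := rho_sq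
  have hr3 : (rho : ℂ) ^ 3 = 1 := by linear_combination ((rho : ℂ) - 1) * hr
  have hrne : (rho : ℂ) ≠ 0 := by
    intro h
    rw [h] at hr3
    norm_num at hr3
  have hw2 : ((rho : ℂ) + 1) ^ 2 = rho := by linear_combination hr
  have hinv : (rho : ℂ)⁻¹ = -1 - rho := by
    refine inv_eq_of_mul_eq_one_right ?_
    linear_combination -hr
  have e0 : (((rho : ℂ) + 1) ^ ((0 : ℕ) : ℤ))⁻¹ = 1 := by simp
  have e2 : (((rho : ℂ) + 1) ^ ((2 : ℕ) : ℤ))⁻¹ = -1 - rho := by
    rw [zpow_natCast, hw2, hinv]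
  have e4 : (((rho : ℂ) + 1) ^ ((4 : ℕ) : ℤ))⁻¹ = rho := by
    rw [zpow_natCast, show (4 : ℕ) = 2 * 2 from rfl, pow_mul, hw2]
    refine inv_eq_of_mul_eq_one_right ?_
    rw [← hr3]; ring
  have e6 : (((rho : ℂ) + 1) ^ ((6 : ℕ) : ℤ))⁻¹ = 1 := by
    rw [zpow_natCast, show (6 : ℕ) = 2 * 3 from rfl, pow_mul, hw2, hr3, inv_one]
  have e8 : (((rho : ℂ) + 1) ^ ((8 : ℕ) : ℤ))⁻¹ = -1 - rho := by
    rw [zpow_natCast, show (8 : ℕ) = 2 * (3 + 1) from rfl, pow_mul, hw2, pow_add, hr3, one_mul,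
      pow_one, hinv]
  have e10 : (((rho : ℂ) + 1) ^ ((10 : ℕ) : ℤ))⁻¹ = rho := by
    rw [zpow_natCast, show (10 : ℕ) = 2 * (3 + 2) from rfl, pow_mul, hw2, pow_add, hr3, one_mul]
    refine inv_eq_of_mul_eq_one_right ?_
    rw [← hr3]; ring
  rw [e0, e2, e4, e6, e8, e10] at h1
  have h3 : (0 : ℝ) < Real.sqrt 3 := Real.sqrt_pos.mpr (by norm_num)
  have him := congrArg Complex.im h1
  have hre := congrArg Complex.re h1
  simp only [Complex.add_im, Complex.add_re, Complex.mul_im, Complex.mul_re, Complex.natCast_re,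
    Complex.natCast_im, Complex.one_re, Complex.one_im, Complex.sub_re, Complex.sub_im,
    Complex.neg_re, Complex.neg_im, rho_re, rho_im] at him hre
  have h4 : (B.n 2 : ℝ) + B.n 8 = B.n 4 + B.n 10 := by
    have h5 : Real.sqrt 3 * ((B.n 2 : ℝ) + B.n 8 - (B.n 4 + B.n 10)) = 0 := by
      linear_combination (-2) * him
    have h6 := (mul_eq_zero.mp h5).resolve_left h3.ne'
    linarith
  refine ⟨by exact_mod_cast h4, ?_⟩
  have h7 : (B.n 0 : ℝ) + B.n 6 - (B.n 2 + B.n 8) =
      (Nat.card {p : P // (ModularGroup.S * ModularGroup.T) • p = p} : ℝ) := by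
    linear_combination hre - (1 / 2) * h4
  exact_mod_cast h7

/-- there is a generator of weight zero -/
theorem PBasis.n_zero_pos [Nonempty P] : 1 ≤ B.n 0 := by
  have h1 : (fun _ _ => 1 : P → ℍ → ℂ) ∈ VV P 0 := by
    refine ⟨fun p => mdifferentiable_const, fun p =>
      Filter.const_boundedAtFilter atImInfty (1 : ℂ), fun γ p τ => ?_⟩
    simp
  obtain ⟨r, hr, hr1⟩ := B.gen 0 _ h1
  by_contra hcon
  have h0 : B.n 0 = 0 := by omega
  have h2 : ∀ j, r j = 0 := by
    intro j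
    have h3 : B.wt j ≠ 0 := by
      intro h
      have : j ∈ Finset.univ.filter (fun j => B.wt j = 0) := by simp [h]
      rw [Finset.card_eq_zero.mp h0] at this
      simp at this
    exact RR_neg (by omega) (hr j)
  have h3 := hr1 (Classical.arbitrary P) UpperHalfPlane.I
  simp [h2] at h3

/-- the number of generators of weights `2` and `10` -/
theorem PBasis.count [Nonempty P] : (6 + Fintype.card P : ℤ) ≤ 6 * (B.n 2 + B.n 10) +
    4 * Nat.card {p : P // (ModularGroup.S * ModularGroup.T) • p = p} +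
    3 * Nat.card {p : P // ModularGroup.S • p = p} := by
  have h1 := B.card_eq
  have h2 := B.nu_two
  obtain ⟨h3, h4⟩ := B.nu_three
  have h5 := B.n_zero_pos
  rw [← h2, ← h4, ← h1]
  push_cast
  omega

end Fermat.Agent.ES
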