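import Mathlib
import Fermat.Agent.ES.VVTrace

set_option autoImplicit false
set_option linter.unusedSectionVars false

/-!
# Dimension estimates for vector valued modular forms
-/

open UpperHalfPlane hiding I
open ModularForm SlashInvariantForm SlashInvariantFormClass ModularFormClass
  CuspFormClass MatrixGroups OnePoint Filter EisensteinSeries
open scoped Topology Manifold MatrixGroups ModularForm Matrix

noncomputable section

namespace Fermat.Agent.ES

variable {P : Type} [Fintype P] [DecidableEq P] [MulAction SL(2, ℤ) P]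

theorem VV_tendsto {k : ℤ} {F : P → ℍ → ℂ} (hF : F ∈ VV P k) (p : P) :
    Tendsto (F p) atImInfty (𝓝 (valueAtInfty (F p))) := by
  obtain ⟨c, hc, h⟩ := ModularFormClass.exp_decay_sub_atImInfty' (toForm hF p)
  have h1 : (⇑(toForm hF p) : ℍ → ℂ) = F p := rfl
  rw [h1] at h
  have h6 : Tendsto (fun τ => F p τ - valueAtInfty (F p)) atImInfty (𝓝 0) := by
    refine h.trans_tendsto ((tendsto_exp_neg_im hc).congr fun τ => ?_)
    congr 1; ring
  have h7 := h6.add_const (valueAtInfty (F p))
  simpa using h7

variable (P) in
/-- limits at infinity -/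
def limL (k : ℤ) : VV P k →ₗ[ℂ] (P → ℂ) where
  toFun F p := valueAtInfty (F.1 p)
  map_add' F G := by
    funext p
    have h1 := (VV_tendsto F.2 p).add (VV_tendsto G.2 p)
    exact tendsto_nhds_unique (VV_tendsto (F + G).2 p) h1
  map_smul' c F := by
    funext p
    have h1 := (VV_tendsto F.2 p).const_smul c
    exact tendsto_nhds_unique (VV_tendsto (c • F).2 p) h1

variable (P) in
/-- fibers at infinity -/
def fibL (k : ℤ) : VV P k →ₗ[ℂ] (P → ℂ) where
  toFun F := fib F.1
  map_add' F G := by
    funext p
    have h1 := (fib_tendsto F.2 p).add (fib_tendsto G.2 p)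
    refine tendsto_nhds_unique (fib_tendsto (F + G).2 p) (h1.congr fun τ => ?_)
    change _ = CF (F.1 + G.1) p τ
    rw [CF_add]; rfl
  map_smul' c F := by
    funext p
    have h1 := (fib_tendsto F.2 p).const_smul c
    refine tendsto_nhds_unique (fib_tendsto (c • F).2 p) (h1.congr fun τ => ?_)
    change _ = CF (c • F.1) p τ
    have : c • F.1 = (fun _ => c : ℍ → ℂ) • F.1 := (const_smul_eq c F.1).symm
    rw [this, CF_smul]
    simp

instance VV_finite (k : ℤ) : Module.Finite ℂ (VV P k) := by
  have h : ∀ n : ℕ, ∀ k : ℤ, k < n → Module.Finite ℂ (VV P k) := by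
    intro n
    induction n with
    | zero =>
      intro k hk
      have hk' : k < 0 := by simpa using hk
      have : Subsingleton (VV P k) := ⟨fun a b => Subtype.ext ((VV_neg hk' a.2).trans
        (VV_neg hk' b.2).symm)⟩
      infer_instance
    | succ n ih =>
      intro k hk
      have hfin := ih (k - 12) (by push_cast at hk; omega)
      -- the kernel of the fiber map
      let m : VV P (k - 12) →ₗ[ℂ] VV P k :=
        { toFun := fun F => ⟨dl • F.1, by
            have := VV_smul dl_mem F.2
            rwa [add_sub_cancel] at this⟩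
          map_add' := fun F G => Subtype.ext (smul_add dl F.1 G.1)
          map_smul' := fun c F => Subtype.ext (by
            ext p τ
            simp only [Pi.smul_apply, smul_eq_mul, Pi.mul_apply, RingHom.id_apply,
              SetLike.val_smul]
            ring) }
      have hker : LinearMap.ker (fibL P k) = LinearMap.range m := by
        ext F
        rw [LinearMap.mem_ker, LinearMap.mem_range]
        constructor
        · intro h0
          have h1 : ∀ p, Tendsto (CF F.1 p) atImInfty (𝓝 0) := by
            intro p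
            have h2 := fib_tendsto F.2 p
            have h3 : fib F.1 p = 0 := congrFun h0 p
            rwa [h3] at h2
          obtain ⟨G, hG, hFG⟩ := exists_div_dl F.2 h1
          exact ⟨⟨G, hG⟩, Subtype.ext hFG.symm⟩
        · rintro ⟨G, rfl⟩
          funext p
          have h1 := fib_tendsto (m G).2 p
          have h2 : Tendsto (CF (m G).1 p) atImInfty (𝓝 0) := by
            have h3 := dl_tendsto.mul (fib_tendsto G.2 p)
            rw [zero_mul] at h3
            refine h3.congr fun τ => ?_
            change _ = CF (dl • G.1) p τ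
            rw [CF_smul]; rfl
          exact tendsto_nhds_unique h1 h2
      have h1 : (LinearMap.ker (fibL P k)).FG := by
        rw [hker]
        exact Module.Finite.iff_fg.mp inferInstance
      have h2 : ((⊤ : Submodule ℂ (VV P k)).map (fibL P k)).FG := Module.Finite.iff_fg.mp inferInstance
      exact ⟨Submodule.fg_of_fg_map_of_fg_inf_ker (fibL P k) h2 (by rwa [top_inf_eq])⟩
  exact h (k.toNat + 1) k (by push_cast; omega)

theorem VC_le (k : ℤ) : VC P k ≤ VV P k := fun _ h => h.1

instance VC_finite (k : ℤ) : Module.Finite ℂ (VC P k) :=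
  Submodule.finiteDimensional_of_le (VC_le k)

theorem PBasis.n_ten_le (B : PBasis P) : B.n 10 ≤ Module.finrank ℂ (VC P 2) := by
  classical
  have h1 : LinearIndependent ℂ (fun l : {l : P // B.wt l = 10} => B.h l) :=
    B.h_indep.comp _ Subtype.val_injective
  have h2 : ∀ l : {l : P // B.wt l = 10}, B.h l ∈ VC P 2 := by
    intro l
    have := B.h_mem l
    rw [l.2] at this
    norm_num at this
    exact this
  have h3 : LinearIndependent ℂ (fun l : {l : P // B.wt l = 10} => (⟨B.h l, h2 l⟩ : VC P 2)) := by
    rw [← LinearMap.linearIndependent_iff (VC P 2).subtype (Submodule.ker_subtype _)]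
    exact h1
  have h4 := h3.fintype_card_le_finrank
  rwa [Fintype.card_subtype] at h4

theorem PBasis.g_indep (B : PBasis P) (w : ℕ) :
    LinearIndependent ℂ (fun l : {l : P // B.wt l = w} => B.g l) := by
  classical
  rw [Fintype.linearIndependent_iff]
  intro c hc i
  have h1 := B.ind w (fun j => if h : B.wt j = w then (fun _ => c ⟨j, h⟩) else 0) (fun j => by
    split_ifs with h
    · rw [h, sub_self]
      exact const_mem_RR _
    · exact zero_mem _) (fun p τ => by
    have h2 := congrFun (congrFun hc p) τ
    simp only [Finset.sum_apply, Pi.smul_apply, smul_eq_mul, Pi.zero_apply] at h2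
    rw [← h2]
    have h3 : ∀ j, (if h : B.wt j = w then (fun _ => c ⟨j, h⟩ : ℍ → ℂ) else 0) τ * B.g j p τ =
        if h : B.wt j = w then c ⟨j, h⟩ * B.g j p τ else 0 := by
      intro j
      split_ifs <;> simp
    rw [Finset.sum_congr rfl fun j _ => h3 j]
    have h5 : ∑ x : {l : P // B.wt l = w}, c x * B.g (↑x) p τ =
        ∑ x : {l : P // B.wt l = w}, (fun j => if h : B.wt j = w then c ⟨j, h⟩ * B.g j p τ
          else 0) x.1 := by
      refine Finset.sum_congr rfl fun x _ => ?_
      simp only [x.2, dif_pos]
    rw [h5, ← Finset.sum_subtype (Finset.univ.filter fun j => B.wt j = w) (by simp)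
      (fun j => if h : B.wt j = w then c ⟨j, h⟩ * B.g j p τ else 0), Finset.sum_filter]
    refine Finset.sum_congr rfl fun j _ => ?_
    split_ifs <;> rfl)
  have h2 := congrFun (congrFun h1 i.1) UpperHalfPlane.I
  simpa [i.2] using h2

theorem PBasis.n_two_le (B : PBasis P) : B.n 2 ≤ Module.finrank ℂ (VV P 2) := by
  classical
  have h2 : ∀ l : {l : P // B.wt l = 2}, B.g l ∈ VV P 2 := by
    intro l
    have := B.mem l
    rwa [l.2] at this
  have h3 : LinearIndependent ℂ (fun l : {l : P // B.wt l = 2} => (⟨B.g l, h2 l⟩ : VV P 2)) := by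
    rw [← LinearMap.linearIndependent_iff (VV P 2).subtype (Submodule.ker_subtype _)]
    exact B.g_indep 2
  have h4 := h3.fintype_card_le_finrank
  rwa [Fintype.card_subtype] at h4

variable (P) in
/-- `T`-invariant vectors -/
def Einv : Submodule ℂ (P → ℂ) where
  carrier := {v | ∀ p, v (ModularGroup.T⁻¹ • p) = v p}
  add_mem' h1 h2 p := by simp only [Pi.add_apply]; rw [h1 p, h2 p]
  zero_mem' p := rfl
  smul_mem' c v h p := by simp only [Pi.smul_apply]; rw [h p]

variable (P) in
/-- the orbits of `T` -/
abbrev TOrb : Type := MulAction.orbitRel.Quotient (Subgroup.zpowers ModularGroup.T) P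

theorem Einv_orbit {v : P → ℂ} (hv : v ∈ Einv P) (n : ℤ) (p : P) :
    v (ModularGroup.T ^ n • p) = v p := by
  have h1 : ∀ p, v (ModularGroup.T • p) = v p := by
    intro p
    have := hv (ModularGroup.T • p)
    rw [inv_smul_smul] at this
    exact this.symm
  induction n using Int.induction_on generalizing p with
  | zero => simp
  | succ n ih => rw [zpow_add_one, mul_smul, ih, h1]
  | pred n ih => rw [zpow_sub_one, mul_smul, ih, hv]

theorem finrank_Einv_le : Module.finrank ℂ (Einv P) ≤ Nat.card (TOrb P) := by
  classical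
  have : Finite (TOrb P) := Quotient.finite _
  have := Fintype.ofFinite (TOrb P)
  -- injection into functions on orbits
  let f : Einv P →ₗ[ℂ] (TOrb P → ℂ) :=
    { toFun := fun v o => v.1 o.out
      map_add' := fun _ _ => rfl
      map_smul' := fun _ _ => rfl }
  have hf : Function.Injective f := by
    rw [← LinearMap.ker_eq_bot, LinearMap.ker_eq_bot']
    intro v hv
    apply Subtype.ext
    funext p
    have h1 := congrFun hv (Quotient.mk'' p)
    have h2 : (Quotient.mk'' (Quotient.out (Quotient.mk'' p : TOrb P)) : TOrb P) =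
      Quotient.mk'' p := Quotient.out_eq' _
    rw [Quotient.eq'', MulAction.orbitRel_apply, MulAction.mem_orbit_iff] at h2
    obtain ⟨⟨_, ⟨n, rfl⟩⟩, h3⟩ := h2
    have h4 : ModularGroup.T ^ n • p = Quotient.out (Quotient.mk'' p : TOrb P) := h3
    have h5 : v.1 (Quotient.out (Quotient.mk'' p : TOrb P)) = 0 := h1
    rw [← h4, Einv_orbit v.2] at h5
    exact h5
  have h1 := LinearMap.finrank_le_finrank_of_injective hf
  rwa [Module.finrank_fintype_fun_eq_card, ← Nat.card_eq_fintype_card] at h1

theorem T_tendsto : Tendsto (fun τ : ℍ => ModularGroup.T • τ) atImInfty atImInfty := by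
  rw [atImInfty, tendsto_comap_iff]
  have : (UpperHalfPlane.im ∘ fun τ : ℍ => ModularGroup.T • τ) = UpperHalfPlane.im := by
    ext τ
    simp only [Function.comp_apply]
    rw [UpperHalfPlane.modular_T_smul, UpperHalfPlane.vadd_im]
  rw [this]
  exact tendsto_comap

theorem one_mem_VV : (fun _ _ => 1 : P → ℍ → ℂ) ∈ VV P 0 := by
  refine ⟨fun p => mdifferentiable_const, fun p =>
    Filter.const_boundedAtFilter atImInfty (1 : ℂ), fun γ p τ => ?_⟩
  simp

/-- the residue theorem -/
theorem finrank_VV_two_le [Nonempty P] :
    Module.finrank ℂ (VV P 2) + 1 ≤ Module.finrank ℂ (VC P 2) + Nat.card (TOrb P) := by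
  classical
  have hrange : LinearMap.range (limL P 2) < Einv P := by
    rw [lt_iff_le_and_ne]
    constructor
    · rintro _ ⟨F, rfl⟩ p
      have h1 := (VV_tendsto F.2 p).comp T_tendsto
      have h2 : (F.1 p ∘ fun τ : ℍ => ModularGroup.T • τ) = F.1 (ModularGroup.T⁻¹ • p) := by
        funext τ
        simp only [Function.comp_apply]
        rw [F.2.2.2]
        have : denom (ModularGroup.T) (τ : ℂ) = 1 := by simp [denom, ModularGroup.T]
        rw [this, one_zpow, one_mul]
      rw [h2] at h1
      exact tendsto_nhds_unique (VV_tendsto F.2 _) h1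
    · intro heq
      have h1 : (fun _ => 1 : P → ℂ) ∈ Einv P := fun p => rfl
      rw [← heq] at h1
      obtain ⟨F, hF⟩ := h1
      have h2 : Tendsto (fun τ => ∑ p, F.1 p τ) atImInfty (𝓝 (∑ p : P, (1 : ℂ))) := by
        refine tendsto_finsetSum _ fun p _ => ?_
        have h3 := VV_tendsto F.2 p
        have h4 : valueAtInfty (F.1 p) = 1 := congrFun hF p
        rwa [h4] at h3
      have h5 := RR_two (VV_pair F.2 one_mem_VV)
      have h6 : (fun τ => ∑ p, F.1 p τ) = 0 := by
        rw [← h5]
        ext τ
        simp [Finset.sum_apply]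
      rw [h6] at h2
      have h7 := tendsto_nhds_unique h2 tendsto_const_nhds
      rw [Finset.sum_const, Finset.card_univ, nsmul_eq_mul, mul_one] at h7
      have h8 : (Fintype.card P : ℂ) ≠ 0 := by exact_mod_cast Fintype.card_ne_zero
      exact h8 h7
  have hker : Module.finrank ℂ (LinearMap.ker (limL P 2)) ≤ Module.finrank ℂ (VC P 2) := by
    let f : LinearMap.ker (limL P 2) →ₗ[ℂ] VC P 2 :=
      { toFun := fun F => ⟨F.1.1, F.1.2, fun p => by
          have h1 := VV_tendsto F.1.2 p
          have h2 : valueAtInfty (F.1.1 p) = 0 := congrFun (LinearMap.mem_ker.mp F.2) p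
          rwa [h2] at h1⟩
        map_add' := fun _ _ => rfl
        map_smul' := fun _ _ => rfl }
    refine LinearMap.finrank_le_finrank_of_injective (f := f) fun a b hab => ?_
    exact Subtype.ext (Subtype.ext (congrArg (fun x : VC P 2 => x.1) hab))
  have h1 := LinearMap.finrank_range_add_finrank_ker (limL P 2)
  have h2 := Submodule.finrank_lt_finrank_of_lt hrange
  have h3 := finrank_Einv_le (P := P)
  omega

/-- **Lower bound for the dimension of the space of weight two cusp forms.** -/
theorem finrank_VC_two_ge [Nonempty P] (hneg : NegTriv P) (hsep : HasSep P) :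
    12 + Fintype.card P ≤ 12 * Module.finrank ℂ (VC P 2) +
    4 * Nat.card {p : P // (ModularGroup.S * ModularGroup.T) • p = p} +
    3 * Nat.card {p : P // ModularGroup.S • p = p} + 6 * Nat.card (TOrb P) := by
  obtain ⟨B⟩ := exists_pbasis hneg hsep
  have h1 := B.count
  have h2 := B.n_ten_le
  have h3 := B.n_two_le
  have h4 := finrank_VV_two_le (P := P)
  omega

end Fermat.Agent.ES
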