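import Mathlib
import Fermat.Agent.ES.VVDim

set_option autoImplicit false
set_option linter.unusedSectionVars false

/-!
# The dimension of the space of period relations
-/

open Module
open scoped MatrixGroups

noncomputable section

namespace Fermat.Agent.ES

variable {P : Type} [Fintype P] [DecidableEq P] [MulAction SL(2, ℤ) P]

/-- the order three element -/
def Um : SL(2, ℤ) := ModularGroup.S * ModularGroup.T

theorem S_mul_S : (ModularGroup.S * ModularGroup.S : SL(2, ℤ)) = -1 := by
  ext i j
  fin_cases i <;> fin_cases j <;> simp [ModularGroup.S]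

theorem Um_cube : (Um * Um * Um : SL(2, ℤ)) = -1 := by
  ext i j
  fin_cases i <;> fin_cases j <;> simp [Um, ModularGroup.S, ModularGroup.T]

theorem S_S_smul (hneg : NegTriv P) (p : P) :
    ModularGroup.S • ModularGroup.S • p = p := by
  rw [← mul_smul, S_mul_S, hneg p]

theorem U_U_U_smul (hneg : NegTriv P) (p : P) : Um • Um • Um • p = p := by
  rw [← mul_smul, ← mul_smul, Um_cube, hneg p]

/-- pull back of functions -/
def pb (g : SL(2, ℤ)) : (P → ℂ) →ₗ[ℂ] (P → ℂ) where
  toFun v := fun p => v (g • p)
  map_add' _ _ := rfl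
  map_smul' _ _ := rfl

theorem pb_apply (g : SL(2, ℤ)) (v : P → ℂ) (p : P) : pb g v p = v (g • p) := rfl

theorem pb_trace (g : SL(2, ℤ)) :
    LinearMap.trace ℂ (P → ℂ) (pb g) = (Nat.card {p : P // g • p = p} : ℂ) := by
  rw [LinearMap.trace_eq_matrix_trace ℂ (Pi.basisFun ℂ P), Matrix.trace]
  have h1 : ∀ i : P, Matrix.diag (LinearMap.toMatrix (Pi.basisFun ℂ P) (Pi.basisFun ℂ P) (pb g)) i =
      if g • i = i then 1 else 0 := by
    intro i
    rw [Matrix.diag_apply, LinearMap.toMatrix_apply]
    simp only [Pi.basisFun_repr, Pi.basisFun_apply, pb_apply, Pi.single_apply]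
  rw [Finset.sum_congr rfl fun i _ => h1 i, Finset.sum_boole, Nat.card_eq_fintype_card,
    Fintype.card_subtype]

variable (P) in
/-- functions with `ξ + ξ∘S = 0` -/
def AS : Submodule ℂ (P → ℂ) := LinearMap.ker (1 + pb (P := P) ModularGroup.S)

variable (P) in
/-- functions with `ξ + ξ∘U + ξ∘U² = 0` -/
def BU : Submodule ℂ (P → ℂ) := LinearMap.ker (1 + pb (P := P) Um + pb (P := P) (Um * Um))

theorem mem_AS {v : P → ℂ} : v ∈ AS P ↔ ∀ p, v p + v (ModularGroup.S • p) = 0 := by
  rw [AS, LinearMap.mem_ker, funext_iff]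
  rfl

theorem mem_BU {v : P → ℂ} : v ∈ BU P ↔ ∀ p, v p + v (Um • p) + v (Um • Um • p) = 0 := by
  rw [BU, LinearMap.mem_ker, funext_iff]
  refine forall_congr' fun p => ?_
  simp only [LinearMap.add_apply, Pi.add_apply, pb_apply, Module.End.one_apply, mul_smul]
  rfl

theorem finrank_AS (hneg : NegTriv P) :
    2 * finrank ℂ (AS P) + Nat.card {p : P // ModularGroup.S • p = p} = Fintype.card P := by
  have hp : LinearMap.IsProj (AS P) ((2 : ℂ)⁻¹ • (1 - pb (P := P) ModularGroup.S)) := by
    constructor
    · intro v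
      rw [mem_AS]
      intro p
      simp only [LinearMap.smul_apply, LinearMap.sub_apply, Pi.smul_apply, Pi.sub_apply, pb_apply,
        Module.End.one_apply, smul_eq_mul, S_S_smul hneg]
      ring
    · intro v hv
      rw [mem_AS] at hv
      ext p
      simp only [LinearMap.smul_apply, LinearMap.sub_apply, Pi.smul_apply, Pi.sub_apply, pb_apply,
        Module.End.one_apply, smul_eq_mul]
      linear_combination (-(1 : ℂ) / 2) * hv p
  have h1 := hp.trace
  rw [map_smul, map_sub, pb_trace, LinearMap.trace_one, finrank_fintype_fun_eq_card] at h1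
  have h2 : (2 * finrank ℂ (AS P) + Nat.card {p : P // ModularGroup.S • p = p} : ℂ) =
      Fintype.card P := by
    rw [← h1, smul_eq_mul]; ring
  exact_mod_cast h2

theorem finrank_BU (hneg : NegTriv P) :
    3 * finrank ℂ (BU P) + 2 * Nat.card {p : P // Um • p = p} = 2 * Fintype.card P := by
  have hp : LinearMap.IsProj (BU P) (1 - (3 : ℂ)⁻¹ • (1 + pb (P := P) Um + pb (P := P) (Um * Um))) := by
    constructor
    · intro v
      rw [mem_BU]
      intro p
      simp only [LinearMap.smul_apply, LinearMap.sub_apply, LinearMap.add_apply, Pi.add_apply,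
        Pi.smul_apply, Pi.sub_apply, pb_apply,
        Module.End.one_apply, smul_eq_mul, mul_smul, U_U_U_smul hneg]
      ring
    · intro v hv
      rw [mem_BU] at hv
      ext p
      simp only [LinearMap.smul_apply, LinearMap.sub_apply, LinearMap.add_apply, Pi.add_apply,
        Pi.smul_apply, Pi.sub_apply, pb_apply,
        Module.End.one_apply, smul_eq_mul, mul_smul]
      linear_combination (-(1 : ℂ) / 3) * hv p
  have h1 := hp.trace
  rw [map_sub, map_smul, map_add, map_add, pb_trace, pb_trace, LinearMap.trace_one,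
    finrank_fintype_fun_eq_card] at h1
  have h3 : Nat.card {p : P // (Um * Um) • p = p} = Nat.card {p : P // Um • p = p} := by
    refine Nat.card_congr (Equiv.subtypeEquivRight fun p => ?_)
    constructor
    · intro h
      have h4 := U_U_U_smul hneg p
      rw [← mul_smul Um Um p, h] at h4
      exact h4
    · intro h
      rw [mul_smul, h, h]
  rw [h3] at h1
  have h2 : (3 * finrank ℂ (BU P) + 2 * Nat.card {p : P // Um • p = p} : ℂ) =
      2 * Fintype.card P := by
    rw [← h1, smul_eq_mul]; ring
  exact_mod_cast h2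

theorem single_mem_AS (hneg : NegTriv P) (x : P) :
    (Pi.single x 1 - Pi.single (ModularGroup.S • x) 1 : P → ℂ) ∈ AS P := by
  rw [mem_AS]
  intro p
  simp only [Pi.sub_apply, Pi.single_apply]
  have h1 : (ModularGroup.S • p = x) ↔ (p = ModularGroup.S • x) := by
    constructor
    · intro h; rw [← h, S_S_smul hneg]
    · intro h; rw [h, S_S_smul hneg]
  have h2 : (ModularGroup.S • p = ModularGroup.S • x) ↔ (p = x) := by
    rw [smul_left_cancel_iff]
  rw [if_congr h1 rfl rfl, if_congr h2 rfl rfl]
  ring

theorem single_mem_BU (hneg : NegTriv P) (x : P) :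
    (Pi.single x 1 - Pi.single (Um • x) 1 : P → ℂ) ∈ BU P := by
  rw [mem_BU]
  intro p
  simp only [Pi.sub_apply, Pi.single_apply]
  have h2 : (Um • p = Um • x) ↔ (p = x) := by
    rw [smul_left_cancel_iff]
  have h3 : (Um • Um • p = Um • x) ↔ (Um • p = x) := by
    rw [smul_left_cancel_iff]
  have h4 : (Um • Um • p = x) ↔ (p = Um • x) := by
    constructor
    · intro h; rw [← h, U_U_U_smul hneg]
    · intro h; rw [h, U_U_U_smul hneg]
  rw [if_congr h2 rfl rfl, if_congr h3 rfl rfl, if_congr h4 rfl rfl]
  ring

theorem single_mem_sup (hneg : NegTriv P) (g : SL(2, ℤ)) : ∀ x : P,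
    (Pi.single x 1 - Pi.single (g • x) 1 : P → ℂ) ∈ AS P ⊔ BU P := by
  have hA : AS P ≤ AS P ⊔ BU P := le_sup_left
  have hB : BU P ≤ AS P ⊔ BU P := le_sup_right
  have hg : g ∈ Subgroup.closure {ModularGroup.S, ModularGroup.T} := by
    rw [SpecialLinearGroup.SL2Z_generators]; trivial
  induction hg using Subgroup.closure_induction with
  | mem y hy =>
    rcases hy with rfl | rfl
    · exact fun x => hA (single_mem_AS hneg x)
    · intro x
      have h1 := hB (single_mem_BU hneg x)
      have h2 := hA (single_mem_AS hneg (ModularGroup.T • x))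
      have e : Um • x = ModularGroup.S • ModularGroup.T • x := mul_smul _ _ _
      rw [← e] at h2
      have h3 := sub_mem h1 h2
      convert h3 using 1
      abel
  | one =>
    intro x
    rw [one_smul, sub_self]
    exact zero_mem _
  | mul a b _ _ ha hb =>
    intro x
    have h1 := add_mem (hb x) (ha (b • x))
    rw [← mul_smul] at h1
    convert h1 using 1
    abel
  | inv a _ ha =>
    intro x
    have h1 := neg_mem (ha (a⁻¹ • x))
    rw [smul_inv_smul] at h1
    convert h1 using 1
    abel

theorem finrank_sup (hneg : NegTriv P) [MulAction.IsPretransitive SL(2, ℤ) P] :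
    Fintype.card P ≤ finrank ℂ ((AS P ⊔ BU P : Submodule ℂ (P → ℂ))) + 1 := by
  rcases isEmpty_or_nonempty P with hE | ⟨⟨x₀⟩⟩
  · simp
  have h1 : (AS P ⊔ BU P) ⊔ Submodule.span ℂ {(Pi.single x₀ 1 : P → ℂ)} = ⊤ := by
    rw [eq_top_iff]
    have h2 : Submodule.span ℂ (Set.range fun x : P => (Pi.single x 1 : P → ℂ)) = ⊤ := by
      have := (Pi.basisFun ℂ P).span_eq
      convert this using 3
      ext x
      rw [Pi.basisFun_apply]
    rw [← h2, Submodule.span_le]
    rintro _ ⟨x, rfl⟩
    obtain ⟨g, hg⟩ := MulAction.exists_smul_eq SL(2, ℤ) x x₀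
    have h3 := single_mem_sup hneg g x
    rw [hg] at h3
    have h4 : (Pi.single x 1 : P → ℂ) = (Pi.single x 1 - Pi.single x₀ 1) + Pi.single x₀ 1 := by
      abel
    simp only [SetLike.mem_coe]
    rw [h4]
    exact add_mem (Submodule.mem_sup_left h3)
      (Submodule.mem_sup_right (Submodule.mem_span_singleton_self _))
  have h2 := Submodule.finrank_add_le_finrank_add_finrank (AS P ⊔ BU P)
    (Submodule.span ℂ {(Pi.single x₀ 1 : P → ℂ)})
  rw [h1, finrank_top, finrank_fintype_fun_eq_card] at h2
  have h3 := finrank_span_le_card (R := ℂ) ({(Pi.single x₀ 1 : P → ℂ)} : Set (P → ℂ))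
  simp only [Set.toFinset_card, Fintype.card_unique] at h3
  omega

/-- **The dimension of the space of period relations.** -/
theorem finrank_W_le (hneg : NegTriv P) [MulAction.IsPretransitive SL(2, ℤ) P] :
    6 * finrank ℂ ((AS P ⊓ BU P : Submodule ℂ (P → ℂ))) +
      3 * Nat.card {p : P // ModularGroup.S • p = p} + 4 * Nat.card {p : P // Um • p = p} ≤
      Fintype.card P + 6 := by
  have h1 := finrank_AS hneg
  have h2 := finrank_BU hneg
  have h3 := finrank_sup hneg
  have h4 := Submodule.finrank_sup_add_finrank_inf_eq (AS P) (BU P)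
  omega

/-- the number of cusps is at most the dimension of the `T`-invariants -/
theorem le_finrank_Einv : Nat.card (TOrb P) ≤ finrank ℂ (Einv P) := by
  classical
  have : Finite (TOrb P) := Quotient.finite _
  have := Fintype.ofFinite (TOrb P)
  let f : (TOrb P → ℂ) →ₗ[ℂ] Einv P :=
    { toFun := fun v => ⟨fun p => v (Quotient.mk'' p), fun p => by
        have : (Quotient.mk'' (ModularGroup.T⁻¹ • p) : TOrb P) = Quotient.mk'' p := by
          rw [Quotient.eq'', MulAction.orbitRel_apply, MulAction.mem_orbit_iff]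
          exact ⟨⟨ModularGroup.T⁻¹, ⟨-1, by simp⟩⟩, rfl⟩
        simp only [this]⟩
      map_add' := fun _ _ => rfl
      map_smul' := fun _ _ => rfl }
  have hf : Function.Injective f := by
    intro v w h
    funext o
    induction o using Quotient.inductionOn' with
    | h p =>
      have h1 := congrArg (fun u : Einv P => u.1 p) h
      exact h1
  have h1 := LinearMap.finrank_le_finrank_of_injective hf
  rwa [finrank_fintype_fun_eq_card, ← Nat.card_eq_fintype_card] at h1

end Fermat.Agent.ES
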