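import Mathlib
import Fermat.Agent.ES.WDim
import Fermat.Agent.ES.EquivPrim

set_option autoImplicit false
set_option linter.unusedSectionVars false

/-!
# Upper bound for the dimension of the space of parabolic homomorphisms
-/

open Module
open scoped MatrixGroups

noncomputable section

namespace Fermat.Agent.ES

section Coc

variable {Γ : Subgroup SL(2, ℤ)}

theorem kap_mem (g : SL(2, ℤ)) (x : SL(2, ℤ) ⧸ Γ) :
    (Quotient.out (g • x))⁻¹ * (g * Quotient.out x) ∈ Γ := by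
  rw [← QuotientGroup.eq]
  have h1 : ((Quotient.out (g • x) : SL(2, ℤ)) : SL(2, ℤ) ⧸ Γ) = g • x := QuotientGroup.out_eq' _
  have h2 : ((g * Quotient.out x : SL(2, ℤ)) : SL(2, ℤ) ⧸ Γ) = g • x := by
    have h3 : ((g * Quotient.out x : SL(2, ℤ)) : SL(2, ℤ) ⧸ Γ) =
      g • ((Quotient.out x : SL(2, ℤ)) : SL(2, ℤ) ⧸ Γ) := rfl
    rw [h3]
    congr 1
    exact QuotientGroup.out_eq' x
  rw [h1, h2]

/-- the Schreier cocycle -/
def kap (g : SL(2, ℤ)) (x : SL(2, ℤ) ⧸ Γ) : Γ :=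
  ⟨(Quotient.out (g • x))⁻¹ * (g * Quotient.out x), kap_mem g x⟩

theorem kap_mul (g h : SL(2, ℤ)) (x : SL(2, ℤ) ⧸ Γ) :
    kap (g * h) x = kap g (h • x) * kap h x := by
  apply Subtype.ext
  change (Quotient.out ((g * h) • x))⁻¹ * ((g * h) * Quotient.out x) =
    ((Quotient.out (g • h • x))⁻¹ * (g * Quotient.out (h • x))) *
      ((Quotient.out (h • x))⁻¹ * (h * Quotient.out x))
  rw [mul_smul]
  group

/-- the cocycle of a homomorphism -/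
def coc (φ : Additive Γ →+ ℂ) (g : SL(2, ℤ)) (x : SL(2, ℤ) ⧸ Γ) : ℂ :=
  φ (Additive.ofMul (kap g x))

theorem coc_mul (φ : Additive Γ →+ ℂ) (g h : SL(2, ℤ)) (x : SL(2, ℤ) ⧸ Γ) :
    coc φ (g * h) x = coc φ g (h • x) + coc φ h x := by
  rw [coc, kap_mul, ofMul_mul, map_add]
  rfl

theorem coc_one (φ : Additive Γ →+ ℂ) (x : SL(2, ℤ) ⧸ Γ) : coc φ 1 x = 0 := by
  have := coc_mul φ 1 1 x
  rw [one_mul, one_smul] at this
  simpa using this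

theorem coc_add (φ ψ : Additive Γ →+ ℂ) (g : SL(2, ℤ)) (x : SL(2, ℤ) ⧸ Γ) :
    coc (φ + ψ) g x = coc φ g x + coc ψ g x := rfl

theorem coc_smul (c : ℂ) (φ : Additive Γ →+ ℂ) (g : SL(2, ℤ)) (x : SL(2, ℤ) ⧸ Γ) :
    coc (c • φ) g x = c * coc φ g x := rfl

theorem coc_of_fixed {φ : Additive Γ →+ ℂ} (hφ : ModularCurve.Period.IsParabolicHom Γ φ)
    {g : SL(2, ℤ)} (hg : (g : Matrix (Fin 2) (Fin 2) ℤ).trace ^ 2 = 4) {x : SL(2, ℤ) ⧸ Γ}
    (hx : g • x = x) : coc φ g x = 0 := by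
  refine hφ (kap g x) ?_
  have h1 : ((kap g x : Γ) : SL(2, ℤ)) = (Quotient.out x)⁻¹ * (g * Quotient.out x) := by
    change (Quotient.out (g • x))⁻¹ * (g * Quotient.out x) = _
    rw [hx]
  rw [h1]
  have h2 : (((Quotient.out x)⁻¹ * (g * Quotient.out x) : SL(2, ℤ)) :
      Matrix (Fin 2) (Fin 2) ℤ).trace = (g : Matrix (Fin 2) (Fin 2) ℤ).trace := by
    rw [Matrix.SpecialLinearGroup.coe_mul, Matrix.trace_mul_comm,
      ← Matrix.SpecialLinearGroup.coe_mul]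
    congr 2
    group
  rw [h2, hg]

theorem coc_eq_of_mem (φ : Additive Γ →+ ℂ) (γ : Γ) :
    coc φ (γ : SL(2, ℤ)) ((1 : SL(2, ℤ)) : SL(2, ℤ) ⧸ Γ) = φ (Additive.ofMul γ) := by
  have h0 : (γ : SL(2, ℤ)) • ((1 : SL(2, ℤ)) : SL(2, ℤ) ⧸ Γ) = ((1 : SL(2, ℤ)) : SL(2, ℤ) ⧸ Γ) := by
    have h1 : (γ : SL(2, ℤ)) • ((1 : SL(2, ℤ)) : SL(2, ℤ) ⧸ Γ) =
      (((γ : SL(2, ℤ)) * 1 : SL(2, ℤ)) : SL(2, ℤ) ⧸ Γ) := rfl
    rw [h1, mul_one, eq_comm, QuotientGroup.eq, inv_one, one_mul]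
    exact γ.2
  have ho : Quotient.out ((1 : SL(2, ℤ)) : SL(2, ℤ) ⧸ Γ) ∈ Γ := by
    have h1 : ((Quotient.out ((1 : SL(2, ℤ)) : SL(2, ℤ) ⧸ Γ) : SL(2, ℤ)) : SL(2, ℤ) ⧸ Γ) =
      ((1 : SL(2, ℤ)) : SL(2, ℤ) ⧸ Γ) := QuotientGroup.out_eq' _
    rw [eq_comm, QuotientGroup.eq, inv_one, one_mul] at h1
    exact h1
  have h2 : kap (γ : SL(2, ℤ)) ((1 : SL(2, ℤ)) : SL(2, ℤ) ⧸ Γ) =
      (⟨_, ho⟩ : Γ)⁻¹ * (γ * ⟨_, ho⟩) := by
    apply Subtype.ext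
    change (Quotient.out ((γ : SL(2, ℤ)) • ((1 : SL(2, ℤ)) : SL(2, ℤ) ⧸ Γ)))⁻¹ * _ = _
    rw [h0]
    rfl
  rw [coc, h2, ofMul_mul, ofMul_mul, ofMul_inv, map_add, map_add, map_neg]
  ring

theorem trace_T_pow (n : ℕ) :
    ((ModularGroup.T ^ n : SL(2, ℤ)) : Matrix (Fin 2) (Fin 2) ℤ).trace ^ 2 = 4 := by
  have h := ModularGroup.coe_T_zpow (n : ℤ)
  rw [zpow_natCast] at h
  rw [h, Matrix.trace_fin_two]
  simp

theorem trace_neg_one : ((-1 : SL(2, ℤ)) : Matrix (Fin 2) (Fin 2) ℤ).trace ^ 2 = 4 := by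
  rw [Matrix.trace_fin_two]
  simp

variable [Fintype (SL(2, ℤ) ⧸ Γ)] [DecidableEq (SL(2, ℤ) ⧸ Γ)]

/-- the potential along the cusps -/
def vpot (φ : Additive Γ →+ ℂ) (x : SL(2, ℤ) ⧸ Γ) : ℂ :=
  -(NT (SL(2, ℤ) ⧸ Γ) : ℂ)⁻¹ * ∑ i ∈ Finset.range (NT (SL(2, ℤ) ⧸ Γ)),
    coc φ (ModularGroup.T ^ i) x

theorem vpot_add (φ ψ : Additive Γ →+ ℂ) (x : SL(2, ℤ) ⧸ Γ) :
    vpot (φ + ψ) x = vpot φ x + vpot ψ x := by
  simp only [vpot, coc_add, Finset.sum_add_distrib, mul_add]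

theorem vpot_smul (c : ℂ) (φ : Additive Γ →+ ℂ) (x : SL(2, ℤ) ⧸ Γ) :
    vpot (c • φ) x = c * vpot φ x := by
  simp only [vpot, coc_smul, ← Finset.mul_sum]
  ring

theorem vpot_T {φ : Additive Γ →+ ℂ} (hφ : ModularCurve.Period.IsParabolicHom Γ φ)
    (x : SL(2, ℤ) ⧸ Γ) : vpot φ (ModularGroup.T • x) - vpot φ x = coc φ ModularGroup.T x := by
  set L := NT (SL(2, ℤ) ⧸ Γ) with hL
  have hL0 : (L : ℂ) ≠ 0 := by
    have := NT_pos (P := SL(2, ℤ) ⧸ Γ)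
    exact_mod_cast this.ne'
  have h1 : ∀ i : ℕ, coc φ (ModularGroup.T ^ i) (ModularGroup.T • x) =
      coc φ (ModularGroup.T ^ (i + 1)) x - coc φ ModularGroup.T x := by
    intro i
    rw [pow_succ, coc_mul]
    ring
  have h2 : ∑ i ∈ Finset.range L, coc φ (ModularGroup.T ^ (i + 1)) x =
      ∑ i ∈ Finset.range L, coc φ (ModularGroup.T ^ i) x := by
    have e1 := Finset.sum_range_succ (fun i => coc φ (ModularGroup.T ^ i) x) L
    have e2 := Finset.sum_range_succ' (fun i => coc φ (ModularGroup.T ^ i) x) L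
    have e3 : coc φ (ModularGroup.T ^ L) x = 0 :=
      coc_of_fixed hφ (trace_T_pow L) (T_pow_NT x)
    rw [e3] at e1
    rw [pow_zero, coc_one] at e2
    rw [add_zero] at e1 e2
    rw [← e2, e1]
  rw [vpot, vpot, ← hL, Finset.sum_congr rfl fun i _ => h1 i, Finset.sum_sub_distrib, h2,
    Finset.sum_const, Finset.card_range, nsmul_eq_mul]
  field_simp
  ring

/-- the normalised cocycle -/
def coc' (φ : Additive Γ →+ ℂ) (u : SL(2, ℤ) ⧸ Γ → ℂ) (g : SL(2, ℤ)) (x : SL(2, ℤ) ⧸ Γ) : ℂ :=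
  coc φ g x - (vpot φ (g • x) + u (g • x)) + (vpot φ x + u x)

theorem coc'_mul (φ : Additive Γ →+ ℂ) (u : SL(2, ℤ) ⧸ Γ → ℂ) (g h : SL(2, ℤ))
    (x : SL(2, ℤ) ⧸ Γ) : coc' φ u (g * h) x = coc' φ u g (h • x) + coc' φ u h x := by
  simp only [coc', coc_mul, mul_smul]
  ring

theorem coc'_one (φ : Additive Γ →+ ℂ) (u : SL(2, ℤ) ⧸ Γ → ℂ) (x : SL(2, ℤ) ⧸ Γ) :
    coc' φ u 1 x = 0 := by
  simp only [coc', coc_one, one_smul]
  ring

theorem coc'_T {φ : Additive Γ →+ ℂ} (hφ : ModularCurve.Period.IsParabolicHom Γ φ)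
    {u : SL(2, ℤ) ⧸ Γ → ℂ} (hu : u ∈ Einv (SL(2, ℤ) ⧸ Γ)) (x : SL(2, ℤ) ⧸ Γ) :
    coc' φ u ModularGroup.T x = 0 := by
  have h1 := vpot_T hφ x
  have h2 : u (ModularGroup.T • x) = u x := by
    have := hu (ModularGroup.T • x)
    rw [inv_smul_smul] at this
    exact this.symm
  rw [coc', ← h1, h2]
  ring

theorem coc'_neg_one (hneg : NegTriv (SL(2, ℤ) ⧸ Γ)) {φ : Additive Γ →+ ℂ}
    (hφ : ModularCurve.Period.IsParabolicHom Γ φ)
    (u : SL(2, ℤ) ⧸ Γ → ℂ) (x : SL(2, ℤ) ⧸ Γ) :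
    coc' φ u (-1) x = 0 := by
  rw [coc', coc_of_fixed hφ trace_neg_one (hneg x), hneg x]
  ring

theorem coc'_S_mem (hneg : NegTriv (SL(2, ℤ) ⧸ Γ)) {φ : Additive Γ →+ ℂ}
    (hφ : ModularCurve.Period.IsParabolicHom Γ φ)
    {u : SL(2, ℤ) ⧸ Γ → ℂ} (hu : u ∈ Einv (SL(2, ℤ) ⧸ Γ)) :
    coc' φ u ModularGroup.S ∈ AS (SL(2, ℤ) ⧸ Γ) ⊓ BU (SL(2, ℤ) ⧸ Γ) := by
  have hS : ∀ x, coc' φ u ModularGroup.S x + coc' φ u ModularGroup.S (ModularGroup.S • x) = 0 := by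
    intro x
    have h1 := coc'_mul φ u ModularGroup.S ModularGroup.S x
    rw [S_mul_S, coc'_neg_one hneg hφ] at h1
    rw [add_comm]
    exact h1.symm
  refine ⟨mem_AS.mpr hS, mem_BU.mpr fun x => ?_⟩
  have hU : ∀ x, coc' φ u Um x = - coc' φ u ModularGroup.S (Um • x) := by
    intro x
    have h1 : coc' φ u Um x = coc' φ u ModularGroup.S (ModularGroup.T • x) +
      coc' φ u ModularGroup.T x := coc'_mul φ u ModularGroup.S ModularGroup.T x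
    rw [coc'_T hφ hu, add_zero] at h1
    have h2 := hS (ModularGroup.T • x)
    have e : Um • x = ModularGroup.S • ModularGroup.T • x := mul_smul _ _ _
    rw [← e] at h2
    rw [h1]
    linear_combination h2
  have h3 := coc'_mul φ u (Um * Um) Um x
  rw [Um_cube, coc'_neg_one hneg hφ, coc'_mul, hU, hU, hU, U_U_U_smul hneg] at h3
  linear_combination h3

/-- the map to period relations -/
def Psi (Γ : Subgroup SL(2, ℤ)) [Fintype (SL(2, ℤ) ⧸ Γ)] [DecidableEq (SL(2, ℤ) ⧸ Γ)] :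
    (ModularCurve.Period.parabolicHoms ℂ Γ ℂ × Einv (SL(2, ℤ) ⧸ Γ)) →ₗ[ℂ]
      (SL(2, ℤ) ⧸ Γ → ℂ) where
  toFun y := fun x => coc' y.1.1 y.2.1 ModularGroup.S x
  map_add' y z := by
    ext x
    simp only [coc', Prod.fst_add, Prod.snd_add, Submodule.coe_add, coc_add, vpot_add, Pi.add_apply]
    ring
  map_smul' c y := by
    ext x
    simp only [coc', Prod.smul_fst, Prod.smul_snd, Submodule.coe_smul, coc_smul, vpot_smul,
      Pi.smul_apply, smul_eq_mul, RingHom.id_apply]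
    ring

theorem Psi_ker {y : ModularCurve.Period.parabolicHoms ℂ Γ ℂ × Einv (SL(2, ℤ) ⧸ Γ)}
    (hy : Psi Γ y = 0) : y.1 = 0 ∧ ∀ x x', y.2.1 x = y.2.1 x' := by
  obtain ⟨⟨φ, hφ⟩, ⟨u, hu⟩⟩ := y
  have hφ' : ModularCurve.Period.IsParabolicHom Γ φ := hφ
  have hS : ∀ x, coc' φ u ModularGroup.S x = 0 := fun x => congrFun hy x
  have hall : ∀ g : SL(2, ℤ), ∀ x, coc' φ u g x = 0 := by
    intro g
    have hg : g ∈ Subgroup.closure {ModularGroup.S, ModularGroup.T} := by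
      rw [SpecialLinearGroup.SL2Z_generators]; trivial
    induction hg using Subgroup.closure_induction with
    | mem y hy =>
      rcases hy with rfl | rfl
      · exact hS
      · exact coc'_T hφ' hu
    | one => exact coc'_one φ u
    | mul a b _ _ ha hb =>
      intro x
      rw [coc'_mul, ha, hb, add_zero]
    | inv a _ ha =>
      intro x
      have h1 := coc'_mul φ u a a⁻¹ x
      rw [mul_inv_cancel, coc'_one, ha, zero_add] at h1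
      exact h1.symm
  have h0 : φ = 0 := by
    refine AddMonoidHom.ext fun γ => ?_
    have h1 := hall (γ.toMul : Γ) ((1 : SL(2, ℤ)) : SL(2, ℤ) ⧸ Γ)
    have h0 : ((γ.toMul : Γ) : SL(2, ℤ)) • ((1 : SL(2, ℤ)) : SL(2, ℤ) ⧸ Γ) =
        ((1 : SL(2, ℤ)) : SL(2, ℤ) ⧸ Γ) := by
      have h1 : ((γ.toMul : Γ) : SL(2, ℤ)) • ((1 : SL(2, ℤ)) : SL(2, ℤ) ⧸ Γ) =
        ((((γ.toMul : Γ) : SL(2, ℤ)) * 1 : SL(2, ℤ)) : SL(2, ℤ) ⧸ Γ) := rfl
      rw [h1, mul_one, eq_comm, QuotientGroup.eq, inv_one, one_mul]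
      exact (γ.toMul : Γ).2
    rw [coc', h0, coc_eq_of_mem] at h1
    change φ (Additive.ofMul γ.toMul) = 0
    linear_combination h1
  refine ⟨Subtype.ext h0, fun x x' => ?_⟩
  obtain ⟨g, hg⟩ := MulAction.exists_smul_eq SL(2, ℤ) x x'
  have h1 := hall g x
  subst h0
  have h2 : ∀ x, vpot (0 : Additive Γ →+ ℂ) x = 0 := by
    intro x
    have := vpot_smul (0 : ℂ) (0 : Additive Γ →+ ℂ) x
    simpa using this
  have h3 : coc (0 : Additive Γ →+ ℂ) g x = 0 := rfl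
  rw [coc', h2, h2, h3, hg] at h1
  change u x = u x'
  linear_combination h1

instance finite_parabolicHoms : Module.Finite ℂ (ModularCurve.Period.parabolicHoms ℂ Γ ℂ) := by
  let f : ModularCurve.Period.parabolicHoms ℂ Γ ℂ →ₗ[ℂ] (SL(2, ℤ) ⧸ Γ → ℂ) :=
    (Psi Γ).comp (LinearMap.inl ℂ _ _)
  have hf : Function.Injective f := by
    rw [injective_iff_map_eq_zero]
    intro φ h
    exact (Psi_ker h).1
  exact Module.Finite.of_injective f hf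

theorem finrank_par_le (hneg : NegTriv (SL(2, ℤ) ⧸ Γ)) :
    finrank ℂ (ModularCurve.Period.parabolicHoms ℂ Γ ℂ) + finrank ℂ (Einv (SL(2, ℤ) ⧸ Γ)) ≤
      finrank ℂ (AS (SL(2, ℤ) ⧸ Γ) ⊓ BU (SL(2, ℤ) ⧸ Γ) : Submodule ℂ (SL(2, ℤ) ⧸ Γ → ℂ)) + 1 := by
  have h1 := LinearMap.finrank_range_add_finrank_ker (Psi Γ)
  rw [Module.finrank_prod] at h1
  have h2 : finrank ℂ (LinearMap.range (Psi Γ)) ≤ finrank ℂ
      (AS (SL(2, ℤ) ⧸ Γ) ⊓ BU (SL(2, ℤ) ⧸ Γ) : Submodule ℂ (SL(2, ℤ) ⧸ Γ → ℂ)) := by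
    refine Submodule.finrank_mono ?_
    rintro _ ⟨⟨⟨φ, hφ⟩, ⟨u, hu⟩⟩, rfl⟩
    exact coc'_S_mem hneg hφ hu
  have h3 : finrank ℂ (LinearMap.ker (Psi Γ)) ≤ 1 := by
    let f : LinearMap.ker (Psi Γ) →ₗ[ℂ] ℂ :=
      { toFun := fun y => y.1.2.1 ((1 : SL(2, ℤ)) : SL(2, ℤ) ⧸ Γ)
        map_add' := fun _ _ => rfl
        map_smul' := fun _ _ => rfl }
    have hf : Function.Injective f := by
      rw [injective_iff_map_eq_zero]
      rintro ⟨y, hy⟩ h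
      obtain ⟨h4, h5⟩ := Psi_ker hy
      apply Subtype.ext
      refine Prod.ext h4 (Subtype.ext ?_)
      funext x
      rw [h5 x ((1 : SL(2, ℤ)) : SL(2, ℤ) ⧸ Γ)]
      exact h
    have := LinearMap.finrank_le_finrank_of_injective hf
    rwa [finrank_self] at this
  omega

end Coc

end Fermat.Agent.ES
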