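import Mathlib
import Fermat.Agent.ES.VVDim
import Fermat.Agent.ES.DeltaN
import Fermat.Agent.Gamma0Comb.Genus
import Fermat.Agent.Gamma0Comb.Cusps
import Fermat.Agent.Gamma0Comb.Coset

set_option autoImplicit false
set_option linter.unusedSectionVars false

/-!
# Cusp forms for `Γ₀(N)` as vector valued forms, lower bound for the dimension
-/

open UpperHalfPlane hiding I
open ModularForm SlashInvariantForm SlashInvariantFormClass ModularFormClass
  CuspFormClass MatrixGroups OnePoint Filter EisensteinSeries CongruenceSubgroup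
open scoped Topology Manifold MatrixGroups ModularForm Matrix
open Fermat.Agent.Gamma0Comb (X)

noncomputable section

namespace Fermat.Agent.ES

variable {N : ℕ} [NeZero N] {k : ℤ}

instance : Finite (X N) := Subgroup.finite_quotient_of_finiteIndex
instance : Fintype (X N) := Fintype.ofFinite _
instance : DecidableEq (X N) := Classical.decEq _
instance : Nonempty (X N) := ⟨((1 : SL(2, ℤ)) : X N)⟩

theorem cusp_slash (f : CuspForm (Gamma0 N) k) {γ : SL(2, ℤ)} (hγ : γ ∈ Gamma0 N) :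
    (⇑f : ℍ → ℂ) ∣[k] γ = f :=
  f.slash_action_eq' _ ⟨γ, hγ, rfl⟩

/-- the vector valued form of a cusp form -/
def vv (f : CuspForm (Gamma0 N) k) (q : X N) : ℍ → ℂ :=
  Quotient.liftOn' q (fun g => (⇑f : ℍ → ℂ) ∣[k] g⁻¹) (fun g g' h => by
    have h1 : g⁻¹ * g' ∈ Gamma0 N := QuotientGroup.leftRel_apply.mp h
    have h2 : g'⁻¹ = (g⁻¹ * g')⁻¹ * g⁻¹ := by group
    rw [h2, SlashAction.slash_mul, cusp_slash f (inv_mem h1)])

theorem vv_mk (f : CuspForm (Gamma0 N) k) (g : SL(2, ℤ)) :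
    vv f (g : X N) = (⇑f : ℍ → ℂ) ∣[k] g⁻¹ := rfl

theorem vv_mem (f : CuspForm (Gamma0 N) k) : vv f ∈ VC (X N) k := by
  have hz : ∀ p : X N, IsZeroAtImInfty (vv f p) := by
    intro p
    obtain ⟨g, rfl⟩ := QuotientGroup.mk_surjective p
    rw [vv_mk]
    exact CuspFormClass.zero_at_infty_slash f g⁻¹
  refine ⟨VV_of_slash (fun p => ?_) (fun p => (hz p).isBoundedAtImInfty) (fun γ p => ?_), hz⟩
  · obtain ⟨g, rfl⟩ := QuotientGroup.mk_surjective p
    rw [vv_mk]
    exact (CuspFormClass.holo f).slash k _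
  · obtain ⟨g, rfl⟩ := QuotientGroup.mk_surjective p
    have h1 : γ⁻¹ • (g : X N) = ((γ⁻¹ * g : SL(2, ℤ)) : X N) := rfl
    rw [h1, vv_mk, vv_mk, ← SlashAction.slash_mul, mul_inv_rev, inv_inv]

/-- back from vector valued forms -/
def ofVC (F : VC (X N) k) : CuspForm (Gamma0 N) k where
  toFun := F.1 ((1 : SL(2, ℤ)) : X N)
  slash_action_eq' := by
    rintro _ ⟨γ, hγ, rfl⟩
    have h := VV_slash F.2.1 γ ((1 : SL(2, ℤ)) : X N)
    have h2 : γ⁻¹ • ((1 : SL(2, ℤ)) : X N) = ((1 : SL(2, ℤ)) : X N) := by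
      have h1 : γ⁻¹ • ((1 : SL(2, ℤ)) : X N) = ((γ⁻¹ * 1 : SL(2, ℤ)) : X N) := rfl
      rw [h1, mul_one, QuotientGroup.eq, inv_inv, mul_one]
      exact hγ
    rw [h2] at h
    exact h
  holo' := F.2.1.1 _
  zero_at_cusps' := fun {c} hc => by
    rw [Subgroup.IsArithmetic.isCusp_iff_isCusp_SL2Z] at hc
    rw [isZeroAt_iff_forall_SL2Z hc]
    intro γ _
    rw [VV_slash F.2.1 γ _]
    exact F.2.2 _

/-- **Cusp forms are vector valued cusp forms.** -/
def vvEquiv (N : ℕ) [NeZero N] (k : ℤ) : CuspForm (Gamma0 N) k ≃ₗ[ℂ] VC (X N) k where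
  toFun f := ⟨vv f, vv_mem f⟩
  map_add' f g := by
    apply Subtype.ext
    funext p
    obtain ⟨h, rfl⟩ := QuotientGroup.mk_surjective p
    change (⇑(f + g) : ℍ → ℂ) ∣[k] h⁻¹ = (⇑f : ℍ → ℂ) ∣[k] h⁻¹ + (⇑g : ℍ → ℂ) ∣[k] h⁻¹
    rw [FunLike.coe_add, SlashAction.add_slash]
  map_smul' c f := by
    apply Subtype.ext
    funext p
    obtain ⟨h, rfl⟩ := QuotientGroup.mk_surjective p
    change (⇑(c • f) : ℍ → ℂ) ∣[k] h⁻¹ = c • ((⇑f : ℍ → ℂ) ∣[k] h⁻¹)
    rw [FunLike.coe_smul, ModularForm.SL_smul_slash]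
  invFun F := ofVC F
  left_inv f := by
    apply DFunLike.coe_injective
    change (⇑f : ℍ → ℂ) ∣[k] (1 : SL(2, ℤ))⁻¹ = f
    rw [inv_one, SlashAction.slash_one]
  right_inv F := by
    apply Subtype.ext
    funext p
    obtain ⟨h, rfl⟩ := QuotientGroup.mk_surjective p
    change (F.1 ((1 : SL(2, ℤ)) : X N)) ∣[k] h⁻¹ = F.1 (h : X N)
    rw [VV_slash F.2.1, inv_inv]
    have h1 : h • ((1 : SL(2, ℤ)) : X N) = ((h * 1 : SL(2, ℤ)) : X N) := rfl
    rw [h1, mul_one]

theorem negTriv_X : NegTriv (X N) := by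
  intro p
  have h := Fermat.Agent.Gamma0Comb.rep_neg_one (N := N)
  have h1 := congrArg (fun σ : Equiv.Perm (X N) => σ p) h
  exact h1

theorem hasSep_X : HasSep (X N) := by
  refine ⟨12, vv (hDelta N), (vv_mem (hDelta N)).1, fun p q hpq => ?_⟩
  obtain ⟨g, rfl⟩ := QuotientGroup.mk_surjective p
  obtain ⟨g', rfl⟩ := QuotientGroup.mk_surjective q
  rw [vv_mk, vv_mk] at hpq
  rw [QuotientGroup.eq]
  by_contra hcon
  have h1 : (⇑(hDelta N) : ℍ → ℂ) ∣[(12 : ℤ)] (g⁻¹ * g') = ⇑(hDelta N) := by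
    rw [SlashAction.slash_mul, hpq, ← SlashAction.slash_mul, inv_mul_cancel, SlashAction.slash_one]
  refine hDelta_slash_ne N (g⁻¹ * g') (fun hd => hcon ?_) h1
  rw [Gamma0_mem]
  exact (ZMod.intCast_zmod_eq_zero_iff_dvd _ _).mpr hd

instance cuspForm_finite (N : ℕ) [NeZero N] (k : ℤ) : Module.Finite ℂ (CuspForm (Gamma0 N) k) :=
  Module.Finite.equiv (vvEquiv N k).symm

/-- **Lower bound for the dimension of `S₂(Γ₀(N))`.** -/
theorem genus_le_finrank (N : ℕ) [NeZero N] :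
    ModularCurve.genusFormula N ≤ (Module.finrank ℂ (CuspForm (Gamma0 N) 2) : ℚ) := by
  have h1 := finrank_VC_two_ge (P := X N) negTriv_X hasSep_X
  rw [← LinearEquiv.finrank_eq (vvEquiv N 2)] at h1
  have h2 : Fintype.card (X N) = ModularCurve.dedekindPsi N := by
    rw [← Nat.card_eq_fintype_card]
    exact Fermat.Agent.Gamma0Comb.natCard_coset N
  have h3 : Nat.card {p : X N // (ModularGroup.S * ModularGroup.T) • p = p} =
      ModularCurve.nuThree N := Fermat.Agent.Gamma0Comb.natCard_fixed_ST N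
  have h4 : Nat.card {p : X N // ModularGroup.S • p = p} = ModularCurve.nuTwo N :=
    Fermat.Agent.Gamma0Comb.natCard_fixed_S N
  have h5 : Nat.card (TOrb (X N)) = ModularCurve.cuspCount N :=
    Fermat.Agent.Gamma0Comb.natCard_cuspOrbits N
  rw [h2, h3, h4, h5] at h1
  rw [ModularCurve.genusFormula]
  have h6 : (12 + ModularCurve.dedekindPsi N : ℚ) ≤
      12 * Module.finrank ℂ (CuspForm (Gamma0 N) 2) + 4 * ModularCurve.nuThree N +
        3 * ModularCurve.nuTwo N + 6 * ModularCurve.cuspCount N := by exact_mod_cast h1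
  linarith

end Fermat.Agent.ES
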