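import Mathlib
import Fermat.Agent.ES.ParDim
import Fermat.Agent.ES.MaxPrinciple
import Fermat.Agent.ES.VVGamma0

set_option autoImplicit false
set_option linter.unusedSectionVars false

/-!
# The Eichler-Shimura isomorphism and the genus formula
-/

open Module CongruenceSubgroup
open scoped MatrixGroups
open Fermat.Agent.Gamma0Comb (X)

noncomputable section

namespace Fermat.Agent.ES

theorem finrank_par_le_genus (N : ℕ) [NeZero N] :
    (finrank ℂ (ModularCurve.Period.parabolicHoms ℂ (Gamma0 N) ℂ) : ℚ) ≤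
      2 * ModularCurve.genusFormula N := by
  have h0 : finrank ℂ (ModularCurve.Period.parabolicHoms ℂ (Gamma0 N) ℂ) +
      finrank ℂ (Einv (X N)) ≤
      finrank ℂ (AS (X N) ⊓ BU (X N) : Submodule ℂ (X N → ℂ)) + 1 :=
    finrank_par_le (Γ := Gamma0 N) negTriv_X
  have h1 := finrank_W_le (P := X N) negTriv_X
  have h2 : Fintype.card (X N) = ModularCurve.dedekindPsi N := by
    rw [← Nat.card_eq_fintype_card]
    exact Fermat.Agent.Gamma0Comb.natCard_coset N
  have h3 : Nat.card {p : X N // Um • p = p} =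
      ModularCurve.nuThree N := Fermat.Agent.Gamma0Comb.natCard_fixed_ST N
  have h4 : Nat.card {p : X N // ModularGroup.S • p = p} = ModularCurve.nuTwo N :=
    Fermat.Agent.Gamma0Comb.natCard_fixed_S N
  have h5 : Nat.card (TOrb (X N)) = ModularCurve.cuspCount N :=
    Fermat.Agent.Gamma0Comb.natCard_cuspOrbits N
  have h6 := le_finrank_Einv (P := X N)
  rw [h2, h3, h4] at h1
  rw [h5] at h6
  have h7 : 6 * finrank ℂ (ModularCurve.Period.parabolicHoms ℂ (Gamma0 N) ℂ) +
      6 * ModularCurve.cuspCount N + 3 * ModularCurve.nuTwo N + 4 * ModularCurve.nuThree N ≤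
      ModularCurve.dedekindPsi N + 12 := by
    omega
  have h8 : (6 * finrank ℂ (ModularCurve.Period.parabolicHoms ℂ (Gamma0 N) ℂ) +
      6 * ModularCurve.cuspCount N + 3 * ModularCurve.nuTwo N + 4 * ModularCurve.nuThree N : ℚ) ≤
      ModularCurve.dedekindPsi N + 12 := by
    exact_mod_cast h7
  rw [ModularCurve.genusFormula]
  linarith

theorem range_le (N : ℕ) [NeZero N] : LinearMap.range (ModularCurve.periodHomPair N) ≤
    ModularCurve.Period.parabolicHoms ℂ (Gamma0 N) ℂ := by
  rintro _ ⟨x, rfl⟩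
  exact periodHomPair_mem N x

theorem finrank_range (N : ℕ) [NeZero N] :
    finrank ℂ (LinearMap.range (ModularCurve.periodHomPair N)) =
      2 * finrank ℂ (CuspForm (Gamma0 N) 2) := by
  rw [LinearMap.finrank_range_of_inj (periodHomPair_injective N), Module.finrank_prod]
  ring

theorem two_mul_finrank_le (N : ℕ) [NeZero N] : 2 * finrank ℂ (CuspForm (Gamma0 N) 2) ≤
    finrank ℂ (ModularCurve.Period.parabolicHoms ℂ (Gamma0 N) ℂ) := by
  rw [← finrank_range]
  exact Submodule.finrank_mono (range_le N)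

/-- **The dimension formula in weight two.** -/
theorem finrank_eq_genus (N : ℕ) [NeZero N] :
    (finrank ℂ (CuspForm (Gamma0 N) 2) : ℚ) = ModularCurve.genusFormula N := by
  refine le_antisymm ?_ (genus_le_finrank N)
  have h1 := two_mul_finrank_le N
  have h2 := finrank_par_le_genus N
  have h3 : (2 * finrank ℂ (CuspForm (Gamma0 N) 2) : ℚ) ≤
    finrank ℂ (ModularCurve.Period.parabolicHoms ℂ (Gamma0 N) ℂ) := by exact_mod_cast h1
  linarith

theorem finrank_par_eq (N : ℕ) [NeZero N] :
    finrank ℂ (ModularCurve.Period.parabolicHoms ℂ (Gamma0 N) ℂ) =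
      2 * finrank ℂ (CuspForm (Gamma0 N) 2) := by
  refine le_antisymm ?_ (two_mul_finrank_le N)
  have h2 := finrank_par_le_genus N
  rw [← finrank_eq_genus] at h2
  exact_mod_cast h2

/-- **The Eichler-Shimura isomorphism.** -/
theorem range_eq (N : ℕ) [NeZero N] : LinearMap.range (ModularCurve.periodHomPair N) =
    ModularCurve.Period.parabolicHoms ℂ (Gamma0 N) ℂ := by
  refine Submodule.eq_of_le_of_finrank_eq (range_le N) ?_
  rw [finrank_range, finrank_par_eq]

end Fermat.Agent.ES
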