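import Fermat.Agent.ES.Primitive

set_option autoImplicit false

/-!
# Periods of cusp forms: the basic functionals
-/

open UpperHalfPlane hiding I
open Filter Topology Function Complex Polynomial Matrix.SpecialLinearGroup
open scoped Manifold MatrixGroups ModularForm

noncomputable section

namespace Fermat.Agent.ES

variable {n : ℕ}

/-- product of linear forms `∏ (u i 0 X + u i 1)` -/
def linProd (u : Fin n → Fin 2 → ℂ) : ℂ[X] := ∏ i, (C (u i 0) * X + C (u i 1))

theorem linProd_eval (u : Fin n → Fin 2 → ℂ) (z : ℂ) :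
    (linProd u).eval z = ∏ i, (u i 0 * z + u i 1) := by
  simp [linProd, Polynomial.eval_prod]

/-- the right action on tuples of row vectors -/
def act (u : Fin n → Fin 2 → ℂ) (M : Matrix (Fin 2) (Fin 2) ℂ) : Fin n → Fin 2 → ℂ :=
  fun i => Matrix.vecMul (u i) M

theorem act_act (u : Fin n → Fin 2 → ℂ) (M M' : Matrix (Fin 2) (Fin 2) ℂ) :
    act (act u M) M' = act u (M * M') := by
  ext i a
  simp [act]

theorem act_apply_zero (u : Fin n → Fin 2 → ℂ) (M : Matrix (Fin 2) (Fin 2) ℂ) (i : Fin n) :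
    act u M i 0 = u i 0 * M 0 0 + u i 1 * M 1 0 := by
  simp [act, Matrix.vecMul, dotProduct, Fin.sum_univ_two]

theorem act_apply_one (u : Fin n → Fin 2 → ℂ) (M : Matrix (Fin 2) (Fin 2) ℂ) (i : Fin n) :
    act u M i 1 = u i 0 * M 0 1 + u i 1 * M 1 1 := by
  simp [act, Matrix.vecMul, dotProduct, Fin.sum_univ_two]

@[simp] theorem act_one (u : Fin n → Fin 2 → ℂ) : act u 1 = u := by
  ext i a; simp [act]

theorem linProd_smul (c : ℂ) (u : Fin n → Fin 2 → ℂ) : linProd (c • u) = C (c ^ n) * linProd u := by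
  have : (C (c ^ n) : ℂ[X]) = ∏ _i : Fin n, C c := by simp
  rw [this, linProd, linProd, ← Finset.prod_mul_distrib]
  refine Finset.prod_congr rfl fun i _ => ?_
  simp [mul_add, mul_assoc]

/-- multilinear expansion -/
theorem linProd_expand (c : Fin n → Fin 2 → ℂ) (w : Fin 2 → Fin 2 → ℂ) :
    linProd (fun i => ∑ a, c i a • w a) =
      ∑ s : Fin n → Fin 2, C (∏ i, c i (s i)) * linProd (fun i => w (s i)) := by
  have h1 : ∀ i : Fin n, (C ((∑ a, c i a • w a) 0) * X + C ((∑ a, c i a • w a) 1) : ℂ[X]) =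
      ∑ a : Fin 2, C (c i a) * (C (w a 0) * X + C (w a 1)) := by
    intro i
    simp [Fin.sum_univ_two]
    ring
  rw [linProd, Finset.prod_congr rfl fun i _ => h1 i, Finset.prod_univ_sum, Fintype.piFinset_univ]
  refine Finset.sum_congr rfl fun s _ => ?_
  rw [linProd, map_prod, ← Finset.prod_mul_distrib]

/-- the complex matrix attached to a real one -/
def toC (g : GL (Fin 2) ℝ) : Matrix (Fin 2) (Fin 2) ℂ := g.val.map (algebraMap ℝ ℂ)

theorem toC_mul (g h : GL (Fin 2) ℝ) : toC (g * h) = toC g * toC h := by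
  change ((g.val * h.val).map (algebraMap ℝ ℂ)) = _
  rw [Matrix.map_mul]; rfl

@[simp] theorem toC_apply (g : GL (Fin 2) ℝ) (i j : Fin 2) : toC g i j = ((g i j : ℝ) : ℂ) := rfl

theorem toC_one : toC 1 = 1 := by
  ext i j
  fin_cases i <;> fin_cases j <;> simp [toC]

theorem linProd_act_eval {g : GL (Fin 2) ℝ} (hg : 0 < g.det.val) (u : Fin n → Fin 2 → ℂ) (τ : ℍ) :
    (linProd (act u (toC g))).eval (τ : ℂ) =
      denom g τ ^ n * (linProd u).eval ((g • τ : ℍ) : ℂ) := by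
  rw [linProd_eval, linProd_eval]
  have : denom g (τ : ℂ) ^ n = ∏ _i : Fin n, denom g (τ : ℂ) := by simp
  rw [this, ← Finset.prod_mul_distrib]
  refine Finset.prod_congr rfl fun i _ => ?_
  rw [act_apply_zero, act_apply_one, coe_smul_of_det_pos hg]
  have hd := denom_ne_zero g τ
  simp only [toC_apply]
  field_simp
  simp only [num, denom]
  ring

/-- `h · P_u` -/
def pm (h : ℍ → ℂ) (u : Fin n → Fin 2 → ℂ) : ℍ → ℂ := fun τ => h τ * (linProd u).eval (τ : ℂ)

theorem pm_add (h h' : ℍ → ℂ) (u : Fin n → Fin 2 → ℂ) : pm (h + h') u = pm h u + pm h' u := by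
  ext τ; simp [pm, add_mul]

theorem pm_smul (c : ℂ) (h : ℍ → ℂ) (u : Fin n → Fin 2 → ℂ) : pm (c • h) u = c • pm h u := by
  ext τ; simp [pm, mul_assoc]

theorem pm_sum {ι : Type*} (s : Finset ι) (h : ι → ℍ → ℂ) (u : Fin n → Fin 2 → ℂ) :
    pm (∑ i ∈ s, h i) u = ∑ i ∈ s, pm (h i) u := by
  ext τ; simp [pm, Finset.sum_mul]

/-- The class of functions we integrate: all products with polynomials have vertical primitives. -/
def PolyInteg (h : ℍ → ℂ) : Prop :=
  ∀ P : ℂ[X], HasInteg (fun τ => h τ * P.eval (τ : ℂ))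

theorem Decays.polyInteg {w : ℝ} (hw : 0 < w) {h : ℍ → ℂ} (hd : Decays w h) : PolyInteg h :=
  fun P => hd.hasInteg_mul_poly hw P

theorem PolyInteg.pm {h : ℍ → ℂ} (H : PolyInteg h) (u : Fin n → Fin 2 → ℂ) :
    HasInteg (pm h u) := H _

theorem PolyInteg.add {h k : ℍ → ℂ} (H : PolyInteg h) (K : PolyInteg k) : PolyInteg (h + k) := by
  intro P
  have := (H P).add (K P)
  convert! this using 1
  ext τ; simp [add_mul]

theorem PolyInteg.smul {h : ℍ → ℂ} (c : ℂ) (H : PolyInteg h) : PolyInteg (c • h) := by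
  intro P
  have := (H P).smul c
  convert! this using 1
  ext τ; simp [mul_assoc]

theorem PolyInteg.sum {ι : Type*} {s : Finset ι} {h : ι → ℍ → ℂ}
    (H : ∀ i ∈ s, PolyInteg (h i)) : PolyInteg (∑ i ∈ s, h i) := by
  classical
  induction s using Finset.induction_on with
  | empty =>
    intro P
    convert HasInteg.zero using 1
    ext τ; simp
  | insert a s ha ih =>
    rw [Finset.sum_insert ha]
    exact (H a (Finset.mem_insert_self _ _)).add
      (ih fun i hi => H i (Finset.mem_insert_of_mem hi))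

/-- change of variables -/
theorem isPrimitive_comp_smul {h : ℍ → ℂ} {u : Fin n → Fin 2 → ℂ} (H : HasInteg (pm h u))
    {g : GL (Fin 2) ℝ} (hg : 0 < g.det.val) :
    IsPrimitive (fun τ => integ (pm h u) (g • τ))
      (((g.det.val : ℂ) ^ n)⁻¹ • pm (h ∣[(n : ℤ) + 2] g) (act u (toC g))) := by
  have h1 := H.isPrimitive.comp_smul (g := g) (by simpa using hg)
  convert! h1 using 1
  ext τ
  have hd := denom_ne_zero g τ
  have hdet : (g.det.val : ℂ) ≠ 0 := by exact_mod_cast hg.ne'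
  have hσ (x) : σ g x = x := by rw [σ, if_pos hg]; rfl
  have hdet' : (g.val.det : ℂ) = (g.det.val : ℂ) := by simp
  simp only [pm, Pi.smul_apply, smul_eq_mul, ModularForm.slash_apply, hσ, abs_of_pos hg,
    linProd_act_eval hg]
  rw [show (n : ℤ) + 2 - 1 = ((n + 1 : ℕ) : ℤ) by push_cast; ring,
    show -((n : ℤ) + 2) = -((n + 2 : ℕ) : ℤ) by push_cast; ring, zpow_natCast, zpow_neg,
    zpow_natCast, hdet']
  field_simp
  ring

/-- Vertical vanishing is stable under upper triangular matrices. -/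
theorem VertZero.comp_smul {F : ℍ → ℂ} (hF : VertZero F) {g : GL (Fin 2) ℝ} (hg : 0 < g.det.val)
    (hg0 : g 1 0 = 0) : VertZero (fun τ => F (g • τ)) := by
  intro x
  have hd : g 0 0 * g 1 1 = g.det.val := by
    simp [Matrix.det_fin_two, hg0]
  have h11 : g 1 1 ≠ 0 := by
    intro h; rw [h, mul_zero] at hd; exact hg.ne hd
  have hpos : 0 < g 0 0 / g 1 1 := by
    have : 0 < g 0 0 * g 1 1 := hd ▸ hg
    rcases mul_pos_iff.mp this with ⟨h, h'⟩ | ⟨h, h'⟩
    · exact div_pos h h'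
    · exact div_pos_of_neg_of_neg h h'
  have h1 := (hF ((g 0 0 * x + g 0 1) / g 1 1)).comp
    (tendsto_id.const_mul_atTop hpos : Tendsto (fun t : ℝ => g 0 0 / g 1 1 * t) atTop atTop)
  refine h1.congr' ?_
  filter_upwards [eventually_gt_atTop (0 : ℝ)] with t ht
  have him : 0 < ((x : ℂ) + t * I).im := by simp [ht]
  have key : ((((g 0 0 * x + g 0 1) / g 1 1 : ℝ) : ℂ) + ((g 0 0 / g 1 1 * t : ℝ) : ℂ) * I)
      = ((g • (⟨(x : ℂ) + t * I, him⟩ : ℍ) : ℍ) : ℂ) := by
    rw [coe_smul_of_det_pos hg]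
    have : (g 1 1 : ℂ) ≠ 0 := by exact_mod_cast h11
    simp only [num, denom, hg0, ofReal_zero, zero_mul, zero_add]
    push_cast
    field_simp
    try ring
  simp only [comp_apply]
  rw [key, ofComplex_apply, ofComplex_apply_of_im_pos him]

theorem integ_slash_upper {h : ℍ → ℂ} {g : GL (Fin 2) ℝ} (hg : 0 < g.det.val)
    (hg0 : g 1 0 = 0) {u : Fin n → Fin 2 → ℂ} {D : Matrix (Fin 2) (Fin 2) ℂ}
    (hD : D * toC g = (g.det.val : ℂ) • (1 : Matrix (Fin 2) (Fin 2) ℂ))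
    (H : HasInteg (pm h (act u D))) :
    IsPrimitive (fun τ => integ (pm h (act u D)) (g • τ)) (pm (h ∣[(n : ℤ) + 2] g) u) ∧
      VertZero (fun τ => integ (pm h (act u D)) (g • τ)) := by
  refine ⟨?_, H.vertZero.comp_smul hg hg0⟩
  have h1 := isPrimitive_comp_smul H hg
  convert! h1 using 1
  ext τ
  have hdet : (g.det.val : ℂ) ≠ 0 := by exact_mod_cast hg.ne'
  have h2 : act (act u D) (toC g) = (g.det.val : ℂ) • u := by
    rw [act_act, hD]
    ext i a
    simp [act, Matrix.vecMul_smul]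
  rw [h2]
  simp only [pm, Pi.smul_apply, smul_eq_mul, linProd_smul, Polynomial.eval_mul,
    Polynomial.eval_C]
  field_simp

theorem polyInteg_slash_upper {h : ℍ → ℂ} (n : ℕ) {g : GL (Fin 2) ℝ} (hg : 0 < g.det.val)
    (hg0 : g 1 0 = 0) (H : PolyInteg h) : PolyInteg (h ∣[(n : ℤ) + 2] g) := by
  intro P
  have h00 : (g 0 0 : ℂ) ≠ 0 := by
    intro h
    have hd : g 0 0 * g 1 1 = g.det.val := by simp [Matrix.det_fin_two, hg0]
    rw [show g 0 0 = 0 by exact_mod_cast h, zero_mul] at hd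
    exact hg.ne hd
  have h11 : (g 1 1 : ℂ) ≠ 0 := by
    intro h
    have hd : g 0 0 * g 1 1 = g.det.val := by simp [Matrix.det_fin_two, hg0]
    rw [show g 1 1 = 0 by exact_mod_cast h, mul_zero] at hd
    exact hg.ne hd
  -- `Q (g τ) = P τ`
  let Q : ℂ[X] := P.comp (C ((g 1 1 : ℂ) / g 0 0) * X - C ((g 0 1 : ℂ) / g 0 0))
  have hQ : ∀ τ : ℍ, Q.eval ((g • τ : ℍ) : ℂ) = P.eval (τ : ℂ) := by
    intro τ
    simp only [Q, Polynomial.eval_comp, Polynomial.eval_sub, Polynomial.eval_mul,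
      Polynomial.eval_C, Polynomial.eval_X]
    congr 1
    rw [coe_smul_of_det_pos hg]
    simp only [num, denom, hg0, ofReal_zero, zero_mul, zero_add]
    push_cast
    field_simp
    try ring
  have h1 := (H Q).isPrimitive.comp_smul (g := g) (by simpa using hg)
  have h2 := (H Q).vertZero.comp_smul hg hg0
  set c : ℂ := (g.det.val : ℂ) ^ ((n : ℤ) + 2 - 1) * (g 1 1 : ℂ) ^ (-((n : ℤ) + 2)) *
    ((g.det.val : ℂ) / (g 1 1 : ℂ) ^ 2)⁻¹ with hc
  refine ⟨_, ?_, h2.const_smul c⟩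
  have h3 := h1.const_smul c
  convert! h3 using 1
  ext τ
  have hdet : (g.det.val : ℂ) ≠ 0 := by exact_mod_cast hg.ne'
  have hσ (x) : σ g x = x := by rw [σ, if_pos hg]; rfl
  have hdet' : (g.val.det : ℂ) = (g.det.val : ℂ) := by simp
  have hden : denom g (τ : ℂ) = g 1 1 := by simp [denom, hg0]
  simp only [Pi.smul_apply, smul_eq_mul, ModularForm.slash_apply, hσ, abs_of_pos hg, hQ, hden,
    hdet', hc]
  field_simp

/-- the period functional: `∫_{i∞}^{g i∞} h P_u` -/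
def period (h : ℍ → ℂ) (g : SL(2, ℤ)) (u : Fin n → Fin 2 → ℂ) : ℂ :=
  integ (pm h u) (mapGL ℝ g • UpperHalfPlane.I) -
    integ (pm (h ∣[(n : ℤ) + 2] mapGL ℝ g) (act u (toC (mapGL ℝ g)))) UpperHalfPlane.I

theorem det_mapGL_pos (g : SL(2, ℤ)) : 0 < ((mapGL ℝ g : GL (Fin 2) ℝ)).det.val := by
  simp

theorem integ_smul_eq {h : ℍ → ℂ} (H : PolyInteg h) {g : SL(2, ℤ)}
    (H' : PolyInteg (h ∣[(n : ℤ) + 2] mapGL ℝ g)) (u : Fin n → Fin 2 → ℂ) (τ : ℍ) :
    integ (pm h u) (mapGL ℝ g • τ) = period h g u +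
      integ (pm (h ∣[(n : ℤ) + 2] mapGL ℝ g) (act u (toC (mapGL ℝ g)))) τ := by
  have h1 := isPrimitive_comp_smul (H.pm u) (det_mapGL_pos g)
  have h2 := (H'.pm (act u (toC (mapGL ℝ g)))).isPrimitive
  have h3 : (((mapGL ℝ g : GL (Fin 2) ℝ).det.val : ℂ) ^ n)⁻¹ •
      pm (h ∣[(n : ℤ) + 2] mapGL ℝ g) (act u (toC (mapGL ℝ g))) =
      pm (h ∣[(n : ℤ) + 2] mapGL ℝ g) (act u (toC (mapGL ℝ g))) := by
    simp
  rw [h3] at h1
  obtain ⟨c, hc⟩ := h1.exists_const h2
  have e1 := hc τ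
  have e2 := hc UpperHalfPlane.I
  simp only [period]
  rw [e2, ← e1]
  ring

end Fermat.Agent.ES
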