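import Mathlib

set_option autoImplicit false

/-!
# Primitives of decaying periodic functions on the upper half plane
-/

open UpperHalfPlane hiding I
open Filter Topology Function Complex
open scoped Manifold MatrixGroups

noncomputable section

namespace Fermat.Agent.ES

local notation "𝕢" => Function.Periodic.qParam

/-- `F` is a primitive of `h` on the upper half plane. -/
def IsPrimitive (F h : ℍ → ℂ) : Prop :=
  ∀ τ : ℍ, HasDerivAt (F ∘ ofComplex) (h τ) (τ : ℂ)

/-- Periodic with period `w`, holomorphic and zero at `i∞`. -/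
structure Decays (w : ℝ) (h : ℍ → ℂ) : Prop where
  per : Function.Periodic (h ∘ ofComplex) w
  holo : MDiff h
  zero : IsZeroAtImInfty h

/-- `F` tends to zero along all vertical half lines. -/
def VertZero (F : ℍ → ℂ) : Prop :=
  ∀ x : ℝ, Tendsto (fun t : ℝ => (F ∘ ofComplex) (x + t * I)) atTop (𝓝 0)

theorem IsPrimitive.mdiff {F h : ℍ → ℂ} (hF : IsPrimitive F h) : MDiff F := by
  rw [mdifferentiable_iff]
  intro z hz
  exact (hF ⟨z, hz⟩).differentiableAt.differentiableWithinAt

theorem IsPrimitive.add {F G h k : ℍ → ℂ} (hF : IsPrimitive F h) (hG : IsPrimitive G k) :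
    IsPrimitive (F + G) (h + k) := fun τ => (hF τ).add (hG τ)

theorem IsPrimitive.sub {F G h k : ℍ → ℂ} (hF : IsPrimitive F h) (hG : IsPrimitive G k) :
    IsPrimitive (F - G) (h - k) := fun τ => (hF τ).sub (hG τ)

theorem IsPrimitive.const_smul {F h : ℍ → ℂ} (c : ℂ) (hF : IsPrimitive F h) :
    IsPrimitive (c • F) (c • h) := fun τ => (hF τ).const_smul c

theorem isPrimitive_const (c : ℂ) : IsPrimitive (fun _ => c) 0 := fun τ => by
  simpa using! hasDerivAt_const (τ : ℂ) c

theorem IsPrimitive.zero : IsPrimitive 0 0 := isPrimitive_const 0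

theorem IsPrimitive.eq_const_of_zero {F : ℍ → ℂ} (hF : IsPrimitive F 0) (z w : ℍ) :
    F z = F w := by
  have hc : Convex ℝ {z : ℂ | 0 < z.im} := convex_halfSpace_im_gt 0
  have h := hc.is_const_of_fderivWithin_eq_zero (𝕜 := ℂ) (f := F ∘ ofComplex) ?_ ?_
    z.im_pos w.im_pos
  · simpa using h
  · intro x hx
    exact (hF ⟨x, hx⟩).differentiableAt.differentiableWithinAt
  · intro x hx
    have h1 : HasFDerivAt (F ∘ ofComplex) (0 : ℂ →L[ℂ] ℂ) x := by
      have := (hF ⟨x, hx⟩).hasFDerivAt
      convert! this using 1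
      ext; simp
    rw [h1.hasFDerivWithinAt.fderivWithin]
    exact (isOpen_upperHalfPlaneSet).uniqueDiffWithinAt hx

/-- two primitives of the same function differ by a constant -/
theorem IsPrimitive.exists_const {F G h : ℍ → ℂ} (hF : IsPrimitive F h) (hG : IsPrimitive G h) :
    ∃ c : ℂ, ∀ z, F z - G z = c := by
  refine ⟨F UpperHalfPlane.I - G UpperHalfPlane.I, fun z => ?_⟩
  have := hF.sub hG
  rw [sub_self] at this
  exact this.eq_const_of_zero z _

theorem VertZero.add {F G : ℍ → ℂ} (hF : VertZero F) (hG : VertZero G) : VertZero (F + G) :=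
  fun x => by simpa using! (hF x).add (hG x)

theorem VertZero.sub {F G : ℍ → ℂ} (hF : VertZero F) (hG : VertZero G) : VertZero (F - G) :=
  fun x => by simpa using! (hF x).sub (hG x)

theorem VertZero.const_smul {F : ℍ → ℂ} (c : ℂ) (hF : VertZero F) : VertZero (c • F) :=
  fun x => by simpa using! (hF x).const_smul c

theorem VertZero.zero : VertZero 0 := fun x => by
  have : ((0 : ℍ → ℂ) ∘ ofComplex) = fun _ => 0 := rfl
  rw [this]
  exact tendsto_const_nhds

theorem VertZero.eq_zero_of_const {F : ℍ → ℂ} (hF : VertZero F) {c : ℂ} (h : ∀ z, F z = c) :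
    c = 0 := by
  have h1 := hF 0
  have : (fun t : ℝ => (F ∘ ofComplex) ((0 : ℝ) + t * I)) = fun _ => c := by
    ext t; simp [h]
  rw [this] at h1
  exact tendsto_nhds_unique tendsto_const_nhds h1

theorem IsPrimitive.unique {F G h : ℍ → ℂ} (hF : IsPrimitive F h) (hG : IsPrimitive G h)
    (hF0 : VertZero F) (hG0 : VertZero G) : F = G := by
  obtain ⟨c, hc⟩ := hF.exists_const hG
  have : c = 0 := (hF0.sub hG0).eq_zero_of_const (fun z => hc z)
  ext z
  rw [← sub_eq_zero, hc z, this]

/-- vertical zero from zero at `i∞` -/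
theorem VertZero.of_isZeroAtImInfty {F : ℍ → ℂ} (hF : IsZeroAtImInfty F) : VertZero F := by
  intro x
  refine (hF.comp tendsto_comap_im_ofComplex).comp ?_
  rw [tendsto_comap_iff]
  have : (Complex.im ∘ fun t : ℝ => ((x : ℂ) + t * I)) = fun t => t := by
    ext t; simp
  rw [this]
  exact tendsto_id

/-- Chain rule for primitives. -/
theorem IsPrimitive.comp_smul {F h : ℍ → ℂ} (hF : IsPrimitive F h) {g : GL (Fin 2) ℝ}
    (hg : 0 < g.val.det) :
    IsPrimitive (fun τ => F (g • τ)) (fun τ => h (g • τ) * (g.val.det / denom g τ ^ 2)) := by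
  intro τ
  have h1 := (hasStrictDerivAt_smul hg τ).hasDerivAt
  have h2 : HasDerivAt (F ∘ ofComplex) (h (g • τ)) ((g • ofComplex (τ : ℂ) : ℍ) : ℂ) := by
    rw [ofComplex_apply]; exact hF (g • τ)
  have h3 := h2.comp (τ : ℂ) h1
  refine h3.congr_of_eventuallyEq ?_
  filter_upwards with z
  simp [Function.comp, ofComplex_apply]

theorem periodic_comp_ofComplex {F : ℍ → ℂ} {w : ℝ} (h : ∀ τ : ℍ, F (w +ᵥ τ) = F τ) :
    Function.Periodic (F ∘ ofComplex) w := by
  intro z
  by_cases! hw : 0 < im z
  · have : 0 < im (z + w) := by simp [hw]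
    simp only [comp_apply, ofComplex_apply_of_im_pos this, ofComplex_apply_of_im_pos hw]
    convert! h ⟨z, hw⟩ using 2
    ext
    simp [add_comm]
  · have : im (z + w) ≤ 0 := by simpa using hw
    simp [ofComplex_apply_of_im_nonpos this, ofComplex_apply_of_im_nonpos hw]

theorem Decays.vadd {w : ℝ} {h : ℍ → ℂ} (hd : Decays w h) (τ : ℍ) : h (w +ᵥ τ) = h τ := by
  have := hd.per (τ : ℂ)
  simp only [comp_apply] at this
  rw [ofComplex_apply] at this
  rw [← this]
  congr 1
  have h2 : ((τ : ℂ) + (w : ℂ)) = ((w +ᵥ τ : ℍ) : ℂ) := by simp [add_comm]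
  rw [h2, ofComplex_apply]

/-- the basic integration operator: a decaying periodic function has a decaying periodic
primitive. -/
theorem Decays.exists_primitive {w : ℝ} (hw : 0 < w) {h : ℍ → ℂ} (hd : Decays w h) :
    ∃ H : ℍ → ℂ, Decays w H ∧ IsPrimitive H h := by
  have hbdd : IsBoundedAtImInfty h := hd.zero.isBoundedAtImInfty
  have hC : DifferentiableOn ℂ (cuspFunction w h) (Metric.ball 0 1) :=
    differentiableOn_cuspFunction_ball hw hd.per hd.holo hbdd
  have hC0 : cuspFunction w h 0 = 0 :=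
    Function.Periodic.cuspFunction_zero_of_zero_at_inf hw
      (hd.zero.comp tendsto_comap_im_ofComplex)
  have hD : DifferentiableOn ℂ (dslope (cuspFunction w h) 0) (Metric.ball 0 1) :=
    (Complex.differentiableOn_dslope (Metric.ball_mem_nhds _ one_pos)).mpr hC
  obtain ⟨K, hK0, hK⟩ := hD.isExactOn_ball.with_val_at 0 0
  have hwne : (w : ℂ) ≠ 0 := by exact_mod_cast hw.ne'
  have key : ∀ τ : ℍ, HasDerivAt ((fun τ : ℍ => (w / (2 * Real.pi * I) : ℂ) * K (𝕢 w τ)) ∘ ofComplex)
      (h τ) (τ : ℂ) := by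
    intro τ
    have hq : ‖𝕢 w (τ : ℂ)‖ < 1 := Function.Periodic.norm_qParam_lt_one hw τ.im_pos
    have h1 := hK (𝕢 w (τ : ℂ)) (by simpa using hq)
    have h2 : HasDerivAt (𝕢 w) (𝕢 w (τ : ℂ) * (2 * Real.pi * I / w)) (τ : ℂ) := by
      have := ((((hasDerivAt_id (τ : ℂ)).const_mul (2 * Real.pi * I : ℂ)).div_const (w : ℂ))).cexp
      simpa [Function.Periodic.qParam] using! this
    have h3 := (h1.comp (τ : ℂ) h2).const_mul (w / (2 * Real.pi * I) : ℂ)
    have hval : (w / (2 * Real.pi * I) : ℂ) * (dslope (cuspFunction w h) 0 (𝕢 w (τ : ℂ)) *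
        (𝕢 w (τ : ℂ) * (2 * Real.pi * I / w))) = h τ := by
      have hqne : 𝕢 w (τ : ℂ) ≠ 0 := Function.Periodic.qParam_ne_zero _
      rw [dslope_of_ne _ hqne, slope_def_field, hC0, eq_cuspFunction τ hw.ne' hd.per]
      have : (2 * Real.pi * I : ℂ) ≠ 0 := Complex.two_pi_I_ne_zero
      field_simp
      ring
    rw [hval] at h3
    refine h3.congr_of_eventuallyEq ?_
    filter_upwards [isOpen_upperHalfPlaneSet.mem_nhds τ.im_pos] with z hz
    simp only [comp_apply]
    rw [UpperHalfPlane.ofComplex_apply_of_im_pos hz]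
  refine ⟨fun τ : ℍ => (w / (2 * Real.pi * I) : ℂ) * K (𝕢 w τ), ⟨?_, ?_, ?_⟩, key⟩
  · refine periodic_comp_ofComplex fun τ => ?_
    have : 𝕢 w ((w +ᵥ τ : ℍ) : ℂ) = 𝕢 w (τ : ℂ) := by
      have h3 : (2 * Real.pi * I * (w + (τ : ℂ)) / w : ℂ)
          = 2 * Real.pi * I * τ / w + 2 * Real.pi * I := by
        field_simp
        ring
      simp only [Function.Periodic.qParam, UpperHalfPlane.coe_vadd]
      rw [h3, Complex.exp_add, Complex.exp_two_pi_mul_I, mul_one]
    simp only [this]
  · exact IsPrimitive.mdiff key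
  · have hKc : ContinuousAt K 0 := (hK 0 (by simp)).continuousAt
    have := (hKc.tendsto.comp (qParam_tendsto_atImInfty hw)).const_mul (w / (2 * Real.pi * I) : ℂ)
    rw [hK0, mul_zero] at this
    exact this

/-- polynomial times decaying tends to zero vertically -/
theorem Decays.vertZero_mul_poly {w : ℝ} (hw : 0 < w) {h : ℍ → ℂ} (hd : Decays w h)
    (P : Polynomial ℂ) : VertZero (fun τ => h τ * P.eval (τ : ℂ)) := by
  intro x
  have hexp : h =O[atImInfty] fun τ ↦ Real.exp (-2 * Real.pi * τ.im / w) :=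
    UpperHalfPlane.IsZeroAtImInfty.exp_decay_atImInfty hd.zero hw hd.per hd.holo
      hd.zero.isBoundedAtImInfty
  have hline : Tendsto (fun t : ℝ => ofComplex ((x : ℂ) + t * I)) atTop atImInfty := by
    refine tendsto_comap_im_ofComplex.comp ?_
    rw [tendsto_comap_iff]
    have : (Complex.im ∘ fun t : ℝ => ((x : ℂ) + t * I)) = fun t => t := by
      ext t; simp
    rw [this]
    exact tendsto_id
  have h1 : (fun t : ℝ => h (ofComplex ((x : ℂ) + t * I))) =O[atTop]
      fun t : ℝ => Real.exp (-(2 * Real.pi / w) * t) := by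
    refine (hexp.comp_tendsto hline).trans ?_
    refine Asymptotics.IsBigO.of_bound 1 ?_
    filter_upwards [eventually_gt_atTop (0 : ℝ)] with t ht
    have him : 0 < ((x : ℂ) + t * I).im := by simp [ht]
    simp only [comp_apply, one_mul]
    rw [ofComplex_apply_of_im_pos him]
    simp only [UpperHalfPlane.im, Real.norm_eq_abs, Real.abs_exp]
    apply le_of_eq
    congr 1
    simp
    ring
  have h2 : ∀ j : ℕ, (fun t : ℝ => ((x : ℂ) + t * I) ^ j) =O[atTop] fun t : ℝ => t ^ j := by
    intro j
    refine Asymptotics.IsBigO.pow ?_ j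
    refine Asymptotics.IsBigO.add ?_ ?_
    · refine (Asymptotics.isLittleO_const_left.mpr (Or.inr ?_)).isBigO
      exact tendsto_norm_atTop_atTop
    · refine Asymptotics.IsBigO.of_bound 1 ?_
      filter_upwards with t
      simp
  have hb : 0 < 2 * Real.pi / w := by positivity
  have h3 : ∀ Q : Polynomial ℂ, (fun t : ℝ => Q.eval ((x : ℂ) + t * I)) =o[atTop]
      fun t : ℝ => Real.exp ((2 * Real.pi / w) * t) := by
    intro Q
    induction Q using Polynomial.induction_on' with
    | add p q hp hq => simpa [Polynomial.eval_add] using hp.add hq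
    | monomial j a =>
      simp only [Polynomial.eval_monomial]
      exact ((h2 j).trans_isLittleO (isLittleO_pow_exp_pos_mul_atTop j hb)).const_mul_left a
  have h4 := h1.mul_isLittleO (h3 P)
  have h5 : (fun t : ℝ => Real.exp (-(2 * Real.pi / w) * t) * Real.exp ((2 * Real.pi / w) * t))
      = fun _ => (1 : ℝ) := by
    ext t
    rw [← Real.exp_add]
    simp
  rw [h5, Asymptotics.isLittleO_one_iff] at h4
  refine h4.congr' ?_
  filter_upwards [eventually_gt_atTop (0 : ℝ)] with t ht
  have him : 0 < ((x : ℂ) + t * I).im := by simp [ht]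
  simp only [comp_apply]
  rw [ofComplex_apply_of_im_pos him]

/-- `h` has a primitive which vanishes vertically at `i∞`. -/
def HasInteg (h : ℍ → ℂ) : Prop := ∃ F, IsPrimitive F h ∧ VertZero F

open scoped Classical in
/-- The primitive of `h` vanishing at `i∞`. -/
def integ (h : ℍ → ℂ) : ℍ → ℂ := if H : HasInteg h then H.choose else 0

theorem HasInteg.isPrimitive {h : ℍ → ℂ} (H : HasInteg h) : IsPrimitive (integ h) h := by
  rw [integ, dif_pos H]
  exact H.choose_spec.1

theorem HasInteg.vertZero {h : ℍ → ℂ} (H : HasInteg h) : VertZero (integ h) := by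
  rw [integ, dif_pos H]
  exact H.choose_spec.2

theorem IsPrimitive.integ_eq {F h : ℍ → ℂ} (hF : IsPrimitive F h) (hF0 : VertZero F) :
    integ h = F :=
  have H : HasInteg h := ⟨F, hF, hF0⟩
  H.isPrimitive.unique hF H.vertZero hF0

theorem HasInteg.add {h k : ℍ → ℂ} (H : HasInteg h) (K : HasInteg k) : HasInteg (h + k) :=
  ⟨_, H.isPrimitive.add K.isPrimitive, H.vertZero.add K.vertZero⟩

theorem HasInteg.smul {h : ℍ → ℂ} (c : ℂ) (H : HasInteg h) : HasInteg (c • h) :=
  ⟨_, H.isPrimitive.const_smul c, H.vertZero.const_smul c⟩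

theorem HasInteg.zero : HasInteg 0 := ⟨0, IsPrimitive.zero, VertZero.zero⟩

theorem HasInteg.sum {ι : Type*} {s : Finset ι} {h : ι → ℍ → ℂ} (H : ∀ i ∈ s, HasInteg (h i)) :
    HasInteg (∑ i ∈ s, h i) := by
  classical
  induction s using Finset.induction_on with
  | empty => simpa using HasInteg.zero
  | insert a s ha ih =>
    rw [Finset.sum_insert ha]
    exact (H a (Finset.mem_insert_self _ _)).add
      (ih fun i hi => H i (Finset.mem_insert_of_mem hi))

theorem integ_add {h k : ℍ → ℂ} (H : HasInteg h) (K : HasInteg k) :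
    integ (h + k) = integ h + integ k :=
  (H.isPrimitive.add K.isPrimitive).integ_eq (H.vertZero.add K.vertZero)

theorem integ_smul {h : ℍ → ℂ} (c : ℂ) (H : HasInteg h) : integ (c • h) = c • integ h :=
  (H.isPrimitive.const_smul c).integ_eq (H.vertZero.const_smul c)

theorem integ_zero : integ 0 = 0 := IsPrimitive.zero.integ_eq VertZero.zero

theorem integ_sum {ι : Type*} {s : Finset ι} {h : ι → ℍ → ℂ} (H : ∀ i ∈ s, HasInteg (h i)) :
    integ (∑ i ∈ s, h i) = ∑ i ∈ s, integ (h i) := by
  classical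
  induction s using Finset.induction_on with
  | empty => simpa using integ_zero
  | insert a s ha ih =>
    rw [Finset.sum_insert ha, Finset.sum_insert ha,
      integ_add (H a (Finset.mem_insert_self _ _))
        (HasInteg.sum fun i hi => H i (Finset.mem_insert_of_mem hi)),
      ih fun i hi => H i (Finset.mem_insert_of_mem hi)]

theorem Decays.hasInteg {w : ℝ} (hw : 0 < w) {h : ℍ → ℂ} (hd : Decays w h) : HasInteg h := by
  obtain ⟨H, hH, hH'⟩ := hd.exists_primitive hw
  exact ⟨H, hH', VertZero.of_isZeroAtImInfty hH.zero⟩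

theorem Decays.integ_decays {w : ℝ} (hw : 0 < w) {h : ℍ → ℂ} (hd : Decays w h) :
    Decays w (integ h) := by
  obtain ⟨H, hH, hH'⟩ := hd.exists_primitive hw
  rw [hH'.integ_eq (VertZero.of_isZeroAtImInfty hH.zero)]
  exact hH

theorem Decays.hasInteg_mul_poly {w : ℝ} (hw : 0 < w) (P : Polynomial ℂ) {h : ℍ → ℂ}
    (hd : Decays w h) : HasInteg (fun τ => h τ * P.eval (τ : ℂ)) := by
  induction hn : P.natDegree using Nat.strong_induction_on generalizing P h with
  | _ n ih =>
    rcases Nat.eq_zero_or_pos n with h0 | hpos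
    · subst h0
      rw [Polynomial.eq_C_of_natDegree_eq_zero hn]
      have := (hd.hasInteg hw).smul (P.coeff 0)
      convert this using 1
      ext τ
      simp [mul_comm]
    · have hI := hd.integ_decays hw
      have hlt : P.derivative.natDegree < n := hn ▸ Polynomial.natDegree_derivative_lt (by omega)
      obtain ⟨G, hG, hG0⟩ := ih _ hlt P.derivative hI rfl
      refine ⟨(fun τ => integ h τ * P.eval (τ : ℂ)) - G, ?_, (hI.vertZero_mul_poly hw P).sub hG0⟩
      have h1 : IsPrimitive (fun τ => integ h τ * P.eval (τ : ℂ))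
          (fun τ => h τ * P.eval (τ : ℂ) + integ h τ * P.derivative.eval (τ : ℂ)) := by
        intro τ
        have e1 := (hd.hasInteg hw).isPrimitive τ
        have e2 := P.hasDerivAt (τ : ℂ)
        have e3 := e1.mul e2
        rw [Function.comp_apply, ofComplex_apply] at e3
        refine e3.congr_of_eventuallyEq ?_
        filter_upwards [isOpen_upperHalfPlaneSet.mem_nhds τ.im_pos] with z hz
        simp only [comp_apply, Pi.mul_apply]
        rw [UpperHalfPlane.ofComplex_apply_of_im_pos hz]
      have h2 := h1.sub hG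
      convert h2 using 1
      ext τ
      simp

end Fermat.Agent.ES
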