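import Fermat.Agent.ES.Lattice
import Fermat.Prelude.Thm_ModularForm_sturm_bound_Gamma0

set_option autoImplicit false

/-!
# Periods separate cusp forms
-/

open UpperHalfPlane hiding I
open Filter Topology Function Complex Polynomial Matrix.SpecialLinearGroup
open scoped Manifold MatrixGroups ModularForm Pointwise

noncomputable section

namespace Fermat.Agent.ES

variable {n : ℕ}

/-- integration by parts -/
theorem integ_mul_poly {w : ℝ} (hw : 0 < w) (P : ℂ[X]) {h : ℍ → ℂ} (hd : Decays w h) :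
    integ (fun τ => h τ * P.eval (τ : ℂ)) =
      (fun τ => integ h τ * P.eval (τ : ℂ)) -
        integ (fun τ => integ h τ * P.derivative.eval (τ : ℂ)) := by
  have hI := hd.integ_decays hw
  have hG := hI.hasInteg_mul_poly hw P.derivative
  refine IsPrimitive.integ_eq ?_ ((hI.vertZero_mul_poly hw P).sub hG.vertZero)
  have h1 : IsPrimitive (fun τ => integ h τ * P.eval (τ : ℂ))
      (fun τ => h τ * P.eval (τ : ℂ) + integ h τ * P.derivative.eval (τ : ℂ)) := by
    intro τ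
    have e1 := (hd.hasInteg hw).isPrimitive τ
    have e2 := P.hasDerivAt (τ : ℂ)
    have e3 := e1.mul e2
    rw [Function.comp_apply, ofComplex_apply] at e3
    refine e3.congr_of_eventuallyEq ?_
    filter_upwards [isOpen_upperHalfPlaneSet.mem_nhds τ.im_pos] with z hz
    simp only [comp_apply, Pi.mul_apply]
    rw [UpperHalfPlane.ofComplex_apply_of_im_pos hz]
  have h2 := h1.sub hG.isPrimitive
  convert h2 using 1
  ext τ
  simp

theorem iterate_integ_decays {w : ℝ} (hw : 0 < w) {h : ℍ → ℂ} (hd : Decays w h) (m : ℕ) :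
    Decays w (integ^[m] h) := by
  induction m with
  | zero => exact hd
  | succ m ih => rw [Function.iterate_succ_apply']; exact ih.integ_decays hw

theorem integ_sub_pow {w : ℝ} (hw : 0 < w) (m : ℕ) {h : ℍ → ℂ} (hd : Decays w h) (τ : ℍ) :
    integ (fun τ' => h τ' * ((X - C (τ : ℂ)) ^ m).eval (τ' : ℂ)) τ =
      (-1) ^ m * (m.factorial : ℂ) * (integ^[m + 1] h) τ := by
  induction m generalizing h with
  | zero => simp
  | succ m ih =>
    rw [integ_mul_poly hw _ hd]
    have hI := hd.integ_decays hw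
    have h1 : (fun τ' : ℍ => integ h τ' *
        (Polynomial.derivative ((X - C (τ : ℂ)) ^ (m + 1))).eval (τ' : ℂ)) =
        ((m + 1 : ℕ) : ℂ) • (fun τ' : ℍ => integ h τ' * ((X - C (τ : ℂ)) ^ m).eval (τ' : ℂ)) := by
      ext τ'
      simp [Polynomial.derivative_pow]
      ring
    rw [h1, integ_smul _ (hI.hasInteg_mul_poly hw _)]
    simp only [Pi.sub_apply, Pi.smul_apply, smul_eq_mul]
    rw [ih hI]
    rw [Function.iterate_succ_apply integ (m + 1) h]
    simp [Nat.factorial_succ]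
    ring

/-- the tuple giving `(X - w)^n` -/
def uvec (n : ℕ) (w : ℂ) : Fin n → Fin 2 → ℂ := fun _ => ![1, -w]

theorem linProd_uvec (w : ℂ) : linProd (uvec n w) = (X - C w) ^ n := by
  simp [linProd, uvec, sub_eq_add_neg]

theorem act_uvec {g : GL (Fin 2) ℝ} (hg : g.det.val = 1) (τ : ℍ) :
    act (uvec n ((g • τ : ℍ) : ℂ)) (toC g) = (denom g τ)⁻¹ • uvec n (τ : ℂ) := by
  have hdet : (g 0 0 : ℂ) * g 1 1 - g 0 1 * g 1 0 = 1 := by
    have : g 0 0 * g 1 1 - g 0 1 * g 1 0 = 1 := by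
      rw [← hg, Matrix.GeneralLinearGroup.val_det_apply, Matrix.det_fin_two]
    exact_mod_cast this
  have hd := denom_ne_zero g τ
  have h1 : ((g • τ : ℍ) : ℂ) = num g τ / denom g τ := coe_smul_of_det_pos (by rw [hg]; norm_num) τ
  have hd' : (g 1 0 : ℂ) * τ + g 1 1 ≠ 0 := hd
  ext i b
  fin_cases b
  · rw [show (⟨0, by norm_num⟩ : Fin 2) = 0 from rfl, act_apply_zero, h1]
    simp only [uvec, Pi.smul_apply, smul_eq_mul, toC_apply, Matrix.cons_val_zero,
      Matrix.cons_val_one]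
    field_simp
    simp only [num, denom]
    linear_combination hdet
  · rw [show (⟨1, by norm_num⟩ : Fin 2) = 1 from rfl, act_apply_one, h1]
    simp only [uvec, Pi.smul_apply, smul_eq_mul, toC_apply, Matrix.cons_val_zero,
      Matrix.cons_val_one]
    field_simp
    simp only [num, denom]
    linear_combination (-(τ : ℂ)) * hdet

theorem integ_pm_smul {h : ℍ → ℂ} (H : PolyInteg h) (c : ℂ) (u : Fin n → Fin 2 → ℂ) :
    integ (pm h (c • u)) = c ^ n • integ (pm h u) := by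
  have : pm h (c • u) = c ^ n • pm h u := by
    ext τ
    simp only [pm, linProd_smul, Polynomial.eval_mul, Polynomial.eval_C, Pi.smul_apply, smul_eq_mul]
    ring
  rw [this, integ_smul _ (H.pm u)]

theorem act_smul (c : ℂ) (u : Fin n → Fin 2 → ℂ) (M : Matrix (Fin 2) (Fin 2) ℂ) :
    act (c • u) M = c • act u M := by
  ext i b
  simp [act, Matrix.smul_vecMul]

theorem period_smul {f : ℍ → ℂ} {g : SL(2, ℤ)} (H : PolyInteg f)
    (H' : PolyInteg (f ∣[(n : ℤ) + 2] (mapGL ℝ g : GL (Fin 2) ℝ)))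
    (c : ℂ) (u : Fin n → Fin 2 → ℂ) : period f g (c • u) = c ^ n * period f g u := by
  rw [period, period, act_smul, integ_pm_smul H, integ_pm_smul H']
  simp only [Pi.smul_apply, smul_eq_mul]
  ring

/-- Main transformation formula of Eichler integrals. -/
theorem eichler_slash {w : ℝ} (hw : 0 < w) {f : ℍ → ℂ} (hf : Decays w f) {g : SL(2, ℤ)}
    (hfg : Decays w (f ∣[(n : ℤ) + 2] (mapGL ℝ g : GL (Fin 2) ℝ))) (τ : ℍ) :
    (-1) ^ n * (n.factorial : ℂ) *
      ((integ^[n + 1] f) ∣[-(n : ℤ)] (mapGL ℝ g : GL (Fin 2) ℝ)) τ =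
    period f g (fun _ : Fin n => ![denom (mapGL ℝ g) τ, -(num (mapGL ℝ g) τ)]) +
      (-1) ^ n * (n.factorial : ℂ) *
        (integ^[n + 1] (f ∣[(n : ℤ) + 2] (mapGL ℝ g : GL (Fin 2) ℝ))) τ := by
  set G : GL (Fin 2) ℝ := mapGL ℝ g with hG
  have hdet : G.det.val = 1 := by simp [hG]
  have hd := denom_ne_zero G τ
  have hsl : ((integ^[n + 1] f) ∣[-(n : ℤ)] G) τ =
      denom G τ ^ n * (integ^[n + 1] f) (G • τ) := by
    have hσ (x) : σ G x = x := by rw [σ, if_pos (by rw [hdet]; norm_num)]; rfl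
    rw [ModularForm.slash_apply, hdet, hσ]
    simp [mul_comm]
  have e1 := integ_sub_pow hw n hf (G • τ)
  have e2 := integ_sub_pow hw n hfg τ
  have e3 := integ_smul_eq (n := n) (hf.polyInteg hw) (hfg.polyInteg hw)
    (uvec n ((G • τ : ℍ) : ℂ)) τ
  rw [act_uvec hdet, integ_pm_smul (hfg.polyInteg hw)] at e3
  simp only [Pi.smul_apply, smul_eq_mul] at e3
  have e4 : period f g (fun _ : Fin n => ![denom G τ, -(num G τ)]) =
      denom G τ ^ n * period f g (uvec n ((G • τ : ℍ) : ℂ)) := by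
    rw [← period_smul (hf.polyInteg hw) (hfg.polyInteg hw)]
    congr 1
    ext i b
    rw [coe_smul_of_det_pos (by rw [hdet]; norm_num)]
    fin_cases b
    · simp [uvec]
    · simp [uvec]
      field_simp
  have e5 : integ (pm f (uvec n ((G • τ : ℍ) : ℂ))) (G • τ) =
      integ (fun τ' : ℍ => f τ' * ((X - C ((G • τ : ℍ) : ℂ)) ^ n).eval (τ' : ℂ)) (G • τ) := by
    simp only [← linProd_uvec]; rfl
  have e6 : integ (pm (f ∣[(n : ℤ) + 2] G) (uvec n (τ : ℂ))) τ =
      integ (fun τ' : ℍ => (f ∣[(n : ℤ) + 2] G) τ' * ((X - C (τ : ℂ)) ^ n).eval (τ' : ℂ)) τ := by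
    simp only [← linProd_uvec]; rfl
  rw [hsl, e4]
  rw [e5, e1, e6, e2] at e3
  have e7 : denom G τ ^ n * ((denom G τ)⁻¹) ^ n = 1 := by
    rw [← mul_pow, mul_inv_cancel₀ hd, one_pow]
  linear_combination denom G τ ^ n * e3 + (-1) ^ n * (n.factorial : ℂ) *
    (integ^[n + 1] (f ∣[(n : ℤ) + 2] G)) τ * e7

/-- the polynomial error term -/
theorem exists_poly_period {f : ℍ → ℂ} {g : SL(2, ℤ)} (H : PolyInteg f)
    (H' : PolyInteg (f ∣[(n : ℤ) + 2] (mapGL ℝ g : GL (Fin 2) ℝ))) :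
    ∃ Q : ℂ[X], ∀ τ : ℍ, period f g
      (fun _ : Fin n => ![denom (mapGL ℝ g) τ, -(num (mapGL ℝ g) τ)]) = Q.eval (τ : ℂ) := by
  let G : GL (Fin 2) ℝ := mapGL ℝ g
  let c : Fin 2 → ℂ[X] := ![C (G 1 0 : ℂ) * X + C (G 1 1 : ℂ), -(C (G 0 0 : ℂ) * X + C (G 0 1 : ℂ))]
  refine ⟨∑ s : Fin n → Fin 2, (∏ i, c (s i)) *
    C (period f g (fun i => (Pi.single (s i) 1 : Fin 2 → ℂ))), fun τ => ?_⟩
  have h1 : (fun _ : Fin n => ![denom (mapGL ℝ g) τ, -(num (mapGL ℝ g) τ)]) =
      fun _ : Fin n => ∑ a : Fin 2, (c a).eval (τ : ℂ) • (Pi.single a 1 : Fin 2 → ℂ) := by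
    ext i b
    fin_cases b <;> simp [c, Fin.sum_univ_two, denom, num, G]
  rw [h1, period_expand H H' (fun _ a => (c a).eval (τ : ℂ)) (fun a => Pi.single a 1)]
  simp [Polynomial.eval_finsetSum, Polynomial.eval_prod]

/-- a polynomial which is periodic on the upper half plane is constant -/
theorem poly_const_of_periodic {Q : ℂ[X]} {M : ℕ} (hM : 0 < M)
    (h : ∀ τ : ℍ, Q.eval (((M : ℝ) +ᵥ τ : ℍ) : ℂ) = Q.eval (τ : ℂ)) :
    ∃ c : ℂ, Q = C c := by
  refine ⟨Q.eval Complex.I, ?_⟩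
  have h2 : ∀ m : ℕ, Q.eval (Complex.I + m * M) = Q.eval Complex.I := by
    intro m
    induction m with
    | zero => simp
    | succ m ih =>
      have him : 0 < (Complex.I + m * M : ℂ).im := by simp
      have := h ⟨Complex.I + m * M, him⟩
      rw [← ih, ← this]
      congr 1
      simp
      ring
  refine Polynomial.eq_of_infinite_eval_eq _ _ ?_
  refine Set.Infinite.mono (s := Set.range fun m : ℕ => (Complex.I + m * M : ℂ)) ?_ ?_
  · rintro _ ⟨m, rfl⟩
    simp [h2]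
  · refine Set.infinite_range_of_injective ?_
    intro a b hab
    have hM' : (M : ℂ) ≠ 0 := by exact_mod_cast hM.ne'
    have : (a : ℂ) * M = b * M := by simpa using hab
    exact_mod_cast mul_right_cancel₀ hM' this

variable {N : ℕ} [NeZero N]

theorem eichler_eq_zero (f : SK n N)
    (hf : ∀ γ ∈ CongruenceSubgroup.Gamma0 N, ∀ u : Fin n → Fin 2 → ℤ, period ⇑f γ (castU u) = 0) :
    (integ^[n + 1] ⇑f) = 0 := by
  obtain ⟨M, hM, hdec⟩ := exists_decays (Γ := (CongruenceSubgroup.Gamma0 N : Subgroup (GL (Fin 2) ℝ)))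
    (k := (n : ℤ) + 2)
  have hM' : (0 : ℝ) < M := by exact_mod_cast hM
  have hdf : Decays M ⇑f := by simpa using hdec f 1
  have hcn : ((-1) ^ n * (n.factorial : ℂ)) ≠ 0 :=
    mul_ne_zero (pow_ne_zero _ (by norm_num)) (by exact_mod_cast n.factorial_ne_zero)
  have hper : ∀ γ ∈ CongruenceSubgroup.Gamma0 N, ∀ u : Fin n → Fin 2 → ℂ, period ⇑f γ u = 0 := by
    intro γ hγ u
    have h1 : u = fun i => ∑ a, u i a • (Pi.single a 1 : Fin 2 → ℂ) := by
      ext i b
      fin_cases b <;> simp [Fin.sum_univ_two]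
    rw [h1, period_expand (polyInteg_coe f) (polyInteg_slash f γ)]
    refine Finset.sum_eq_zero fun s _ => ?_
    have := hf γ hγ (fun i => Pi.single (s i) 1)
    have h2 : (castU fun i => (Pi.single (s i) 1 : Fin 2 → ℤ)) =
        fun i => (Pi.single (s i) 1 : Fin 2 → ℂ) := by
      ext i b
      by_cases hb : b = s i
      · subst hb; simp [castU]
      · simp [castU, Pi.single_eq_of_ne hb]
    rw [h2] at this
    rw [this, mul_zero]
  -- invariance
  have hinv : ∀ γ ∈ CongruenceSubgroup.Gamma0 N,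
      (integ^[n + 1] ⇑f) ∣[-(n : ℤ)] (mapGL ℝ γ : GL (Fin 2) ℝ) = integ^[n + 1] ⇑f := by
    intro γ hγ
    ext τ
    have := eichler_slash hM' hdf (hdec f γ) τ
    rw [hper γ hγ, zero_add, slash_of_mem_Gamma0 f hγ] at this
    exact mul_left_cancel₀ hcn this
  let E0 : SlashInvariantForm (CongruenceSubgroup.Gamma0 N) (-(n : ℤ)) :=
    { toFun := integ^[n + 1] ⇑f
      slash_action_eq' := by
        rintro _ ⟨γ, hγ, rfl⟩
        exact hinv γ hγ }
  have hE0 : ⇑E0 = integ^[n + 1] ⇑f := rfl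
  have hDE := iterate_integ_decays hM' hdf (n + 1)
  -- boundedness
  have hbdd : ∀ g : SL(2, ℤ), IsBoundedAtImInfty
      ((integ^[n + 1] ⇑f) ∣[-(n : ℤ)] (mapGL ℝ g : GL (Fin 2) ℝ)) := by
    intro g
    obtain ⟨M', hM'pos, hper'⟩ := Subgroup.IsArithmetic.exists_nat_mem_strictPeriods_conj
      (CongruenceSubgroup.Gamma0 N : Subgroup (GL (Fin 2) ℝ))
    have hp1 : Function.Periodic (((integ^[n + 1] ⇑f) ∣[-(n : ℤ)] (mapGL ℝ g : GL (Fin 2) ℝ)) ∘
        ofComplex) M' := by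
      have h2 := SlashInvariantFormClass.periodic_comp_ofComplex
        (SlashInvariantForm.translate E0 (mapGL ℝ g : GL (Fin 2) ℝ)) (h := (M' : ℝ))
        (by have h1 := hper' g⁻¹; rw [map_inv] at h1; exact h1)
      exact h2
    obtain ⟨Q, hQ⟩ := exists_poly_period (polyInteg_coe f) (polyInteg_slash f g)
    have hDg := iterate_integ_decays hM' (hdec f g) (n + 1)
    have hform : ∀ τ : ℍ, Q.eval (τ : ℂ) = ((-1) ^ n * (n.factorial : ℂ)) *
        (((integ^[n + 1] ⇑f) ∣[-(n : ℤ)] (mapGL ℝ g : GL (Fin 2) ℝ)) τ -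
        (integ^[n + 1] (⇑f ∣[(n : ℤ) + 2] (mapGL ℝ g : GL (Fin 2) ℝ))) τ) := by
      intro τ
      have := eichler_slash hM' hdf (hdec f g) τ
      rw [hQ] at this
      linear_combination -this
    obtain ⟨c, hc⟩ : ∃ c : ℂ, Q = C c := by
      refine poly_const_of_periodic (M := M' * M) (by positivity) fun τ => ?_
      rw [hform, hform]
      congr 1
      have q1 : ((integ^[n + 1] ⇑f) ∣[-(n : ℤ)] (mapGL ℝ g : GL (Fin 2) ℝ))
          (((M' * M : ℕ) : ℝ) +ᵥ τ) =
          ((integ^[n + 1] ⇑f) ∣[-(n : ℤ)] (mapGL ℝ g : GL (Fin 2) ℝ)) τ := by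
        have := hp1.nat_mul M (τ : ℂ)
        simp only [comp_apply] at this
        rw [ofComplex_apply] at this
        rw [← this]
        congr 1
        have h2 : ((τ : ℂ) + (M : ℂ) * (M' : ℂ)) = ((((M' * M : ℕ) : ℝ) +ᵥ τ : ℍ) : ℂ) := by
          simp; ring
        rw [h2, ofComplex_apply]
      have q2 : (integ^[n + 1] (⇑f ∣[(n : ℤ) + 2] (mapGL ℝ g : GL (Fin 2) ℝ)))
          (((M' * M : ℕ) : ℝ) +ᵥ τ) =
          (integ^[n + 1] (⇑f ∣[(n : ℤ) + 2] (mapGL ℝ g : GL (Fin 2) ℝ))) τ := by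
        have := hDg.per.nat_mul M' (τ : ℂ)
        simp only [comp_apply] at this
        rw [ofComplex_apply] at this
        rw [← this]
        congr 1
        have h2 : ((τ : ℂ) + (M' : ℂ) * (M : ℝ)) = ((((M' * M : ℕ) : ℝ) +ᵥ τ : ℍ) : ℂ) := by
          simp; ring
        rw [h2, ofComplex_apply]
      rw [q1, q2]
    have heq : ((integ^[n + 1] ⇑f) ∣[-(n : ℤ)] (mapGL ℝ g : GL (Fin 2) ℝ)) =
        (fun _ => c / ((-1) ^ n * (n.factorial : ℂ))) +
        (integ^[n + 1] (⇑f ∣[(n : ℤ) + 2] (mapGL ℝ g : GL (Fin 2) ℝ))) := by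
      ext τ
      have := hform τ
      rw [hc, Polynomial.eval_C] at this
      rw [Pi.add_apply, this, mul_div_cancel_left₀ _ hcn, sub_add_cancel]
    rw [heq]
    exact (Filter.const_boundedAtFilter atImInfty _).add hDg.zero.isBoundedAtImInfty
  let E : ModularForm (CongruenceSubgroup.Gamma0 N) (-(n : ℤ)) :=
    { E0 with
      holo' := hDE.holo
      bdd_at_cusps' := fun {c} hc => by
        rw [Subgroup.IsArithmetic.isCusp_iff_isCusp_SL2Z] at hc
        rw [OnePoint.isBoundedAt_iff_forall_SL2Z hc]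
        intro g _
        exact hbdd g }
  have hE : ⇑E = integ^[n + 1] ⇑f := rfl
  have hE0 : E = 0 := by
    refine ModularForm.sturm_bound_Gamma0 N E fun m hm => ?_
    have hm0 : m = 0 := by
      have : (-(n : ℤ) * ((CongruenceSubgroup.Gamma0 N).index : ℤ)).toNat = 0 := by
        rw [Int.toNat_eq_zero]
        have : (0 : ℤ) ≤ (n : ℤ) * ((CongruenceSubgroup.Gamma0 N).index : ℤ) := by positivity
        linarith
      rw [this] at hm
      simpa using hm
    subst hm0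
    rw [hE, qExpansion_coeff]
    have : cuspFunction 1 (integ^[n + 1] ⇑f) 0 = 0 :=
      Function.Periodic.cuspFunction_zero_of_zero_at_inf one_pos
        (hDE.zero.comp tendsto_comap_im_ofComplex)
    rw [iteratedDeriv_zero, this, mul_zero]
  rw [← hE, hE0]
  rfl

theorem eq_zero_of_iterate_integ {w : ℝ} (hw : 0 < w) {h : ℍ → ℂ} (hd : Decays w h) (m : ℕ)
    (h0 : integ^[m] h = 0) : h = 0 := by
  induction m with
  | zero => exact h0
  | succ m ih =>
    apply ih
    have h1 := ((iterate_integ_decays hw hd m).hasInteg hw).isPrimitive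
    rw [← Function.iterate_succ_apply' integ, h0] at h1
    ext τ
    have h2 := h1 τ
    have h3 : HasDerivAt ((0 : ℍ → ℂ) ∘ ofComplex) 0 (τ : ℂ) := by
      simpa using! hasDerivAt_const (τ : ℂ) (0 : ℂ)
    exact h2.unique h3

/-- **The period lattice separates cusp forms.** -/
theorem eq_zero_of_perL (f : SK n N) (hf : ∀ φ ∈ perL n N, φ f = 0) : f = 0 := by
  have h1 := eichler_eq_zero f fun γ hγ u => hf _ (Submodule.subset_span ⟨γ, hγ, u, rfl⟩)
  obtain ⟨M, hM, hdec⟩ := exists_decays (Γ := (CongruenceSubgroup.Gamma0 N : Subgroup (GL (Fin 2) ℝ)))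
    (k := (n : ℤ) + 2)
  have hdf : Decays M ⇑f := by simpa using hdec f 1
  have h2 := eq_zero_of_iterate_integ (by exact_mod_cast hM) hdf (n + 1) h1
  exact DFunLike.coe_injective h2

end Fermat.Agent.ES
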